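import Fermat.Agent.FlatP.GoodLocal
import Fermat.Agent.EC.FlatTors
import Fermat.Agent.ECFrob.DetCyc

/-!
# The local structure of `E[p]` at a place of good reduction above `p`
-/

set_option autoImplicit false

namespace Fermat.Agent.FlatP

open Fermat.Agent.FlatGS Fermat.Agent.MazurMult FermatAgent.ECVal IsLocalRing Matrix
open Fermat.Agent.S53norm (M2)
open WeierstrassCurve WeierstrassCurve.Affine WeierstrassCurve.Affine.Point
open Fermat.Agent.ECRed
open scoped WeierstrassCurve.Affine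

variable {p : ℕ} [hpF : Fact p.Prime] {W : WeierstrassCurve ℤ}

/-- the matrix representation on `E[p]`. -/
noncomputable def matRep (b : Module.Basis (Fin 2) (ZMod p)
      (Submodule.torsionBy ℤ ((W.map (Int.castRingHom ℚ))⁄(AlgebraicClosure ℚ)).Point p)) :
    GQ →* M2 (ZMod p) where
  toFun σ := LinearMap.toMatrix b b (ECFrob.rho W p σ)
  map_one' := by rw [_root_.map_one, LinearMap.toMatrix_one]
  map_mul' σ τ := by rw [_root_.map_mul, LinearMap.toMatrix_mul]

lemma matRep_mulVec (b : Module.Basis (Fin 2) (ZMod p)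
      (Submodule.torsionBy ℤ ((W.map (Int.castRingHom ℚ))⁄(AlgebraicClosure ℚ)).Point p))
    (σ : GQ) (x) : matRep b σ *ᵥ b.equivFun x = b.equivFun (σ • x) := by
  have h1 := LinearMap.toMatrix_mulVec_repr b b (ECFrob.rho W p σ) x
  rw [galoisRepModuleEnd_apply] at h1
  exact h1

/-- **The local structure of `E[p]` at a place of good reduction above the odd prime `p`.**
Either ordinary: there is a line with cyclotomic action of inertia, trivial quotient, and the
extension classes are Kummer classes of units; or supersingular: inertia acts through its tame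
quotient of order `p ^ 2 - 1`. -/
theorem good_local (hp2 : p ≠ 2) (hgood : W.IsGoodPrimeFor p) {A : ValuationSubring Om}
    (hA : A.LiesOverPrime p) {ζ : Om} (hζ : IsPrimitiveRoot ζ p) :
    (∃ L : Submodule (ZMod p)
        (Submodule.torsionBy ℤ ((W.map (Int.castRingHom ℚ))⁄(AlgebraicClosure ℚ)).Point p),
      Module.finrank (ZMod p) L = 1 ∧
      (∀ σ ∈ A.inertiaSubgroupIn ℚ,
        ∀ x : Submodule.torsionBy ℤ ((W.map (Int.castRingHom ℚ))⁄(AlgebraicClosure ℚ)).Point p,
          σ • x - x ∈ L) ∧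
      (∀ σ ∈ A.inertiaSubgroupIn ℚ, ∀ z ∈ L, σ • z = ECFrob.cycMod p σ • z) ∧
      (∀ z ∈ L, z ≠ 0 → ∀ x : Submodule.torsionBy ℤ
          ((W.map (Int.castRingHom ℚ))⁄(AlgebraicClosure ℚ)).Point p,
        ∃ ρ : Om, A.valuation ρ = 1 ∧ ρ ≠ 0 ∧
          (∀ σ ∈ A.inertiaSubgroupIn ℚ, σ (ρ ^ p) = ρ ^ p) ∧
          ∀ σ ∈ A.inertiaSubgroupIn ℚ, ∃ k : ZMod p,
            σ • x = x + k • z ∧ σ ρ = ζ ^ k.val * ρ)) ∨
    (∀ π : Om, π ^ (p ^ 2 - 1) = (p : Om) →
      (∀ σ ∈ A.inertiaSubgroupIn ℚ, (σ π = π ↔ ∀ x : Submodule.torsionBy ℤ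
        ((W.map (Int.castRingHom ℚ))⁄(AlgebraicClosure ℚ)).Point p, σ • x = x)) ∧
      ∀ y : Om, y ≠ 0 → (∀ σ ∈ A.inertiaSubgroupIn ℚ, (∀ x : Submodule.torsionBy ℤ
        ((W.map (Int.castRingHom ℚ))⁄(AlgebraicClosure ℚ)).Point p, σ • x = x) → σ y = y) →
        ∃ m : ℤ, (valOf hpF.out hA).Is (m / ((p ^ 2 - 1 : ℕ) : ℚ)) y) := by
  classical
  have hp := hpF.out
  have hΔ : W.Δ ≠ 0 := Fermat.Agent.ECFlat.Δ_ne_zero_of_good hgood
  have hfin : Finite (Submodule.torsionBy ℤ
      ((W.map (Int.castRingHom ℚ))⁄(AlgebraicClosure ℚ)).Point p) :=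
    ECFrob.finite_rat hΔ hp.ne_zero
  have hfd : FiniteDimensional (ZMod p) (Submodule.torsionBy ℤ
    ((W.map (Int.castRingHom ℚ))⁄(AlgebraicClosure ℚ)).Point p) := Module.Finite.of_finite
  let b := Module.finBasisOfFinrankEq (ZMod p) (Submodule.torsionBy ℤ
    ((W.map (Int.castRingHom ℚ))⁄(AlgebraicClosure ℚ)).Point p) (ECFrob.finrank_rat hΔ)
  have hmv := matRep_mulVec b
  have hflat : IsFlatModule p (fun σ (v : Fin 2 → ZMod p) => matRep b σ *ᵥ v) := by
    have h1 := Fermat.Agent.ECFlat.isFlatModule_torsion hp hgood 1 (a := (p : ℤ)) (by simp)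
    refine h1.of_equiv b.equivFun.symm.toAddEquiv fun σ v => ?_
    have h2 := hmv σ (b.equivFun.symm v)
    rw [LinearEquiv.apply_symm_apply] at h2
    change b.equivFun.symm (matRep b σ *ᵥ v) = _
    rw [h2, LinearEquiv.symm_apply_apply]
    rfl
  have hdetσ : ∀ σ, (matRep b σ).det = ECFrob.cycMod p σ := by
    intro σ
    rw [← ECFrob.det_rho hΔ σ]
    exact LinearMap.det_toMatrix b _
  have hdet : TW.CycDet p (matRep b) := by
    intro σ a ha
    rw [hdetσ]
    exact ECFrob.cycMod_unique hζ (ha ζ hζ.pow_eq_one)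
  rcases dichotomy hp2 hA hflat hdet with ⟨v, hv0, hv⟩ | ⟨-, hss⟩
  · left
    let L : Submodule (ZMod p) (Submodule.torsionBy ℤ
        ((W.map (Int.castRingHom ℚ))⁄(AlgebraicClosure ℚ)).Point p) :=
      (V0 (matRep b) A).comap b.equivFun.toLinearMap
    have hL : ∀ x, x ∈ L ↔ b.equivFun x ∈ V0 (matRep b) A := fun x => Iff.rfl
    have hLspan : L = Submodule.span (ZMod p) {b.equivFun.symm v} := by
      apply le_antisymm
      · intro x hx
        rw [hL, hv] at hx
        obtain ⟨a, ha⟩ := Submodule.mem_span_singleton.mp hx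
        refine Submodule.mem_span_singleton.mpr ⟨a, ?_⟩
        rw [← map_smul, ha, LinearEquiv.symm_apply_apply]
      · rw [Submodule.span_singleton_le_iff_mem, hL, LinearEquiv.apply_symm_apply, hv]
        exact Submodule.mem_span_singleton_self v
    refine ⟨L, ?_, ?_, ?_, ?_⟩
    · rw [hLspan]
      refine finrank_span_singleton ?_
      rw [Ne, LinearEquiv.map_eq_zero_iff]
      exact hv0
    · intro σ hσ x
      rw [hL, map_sub, ← hmv]
      exact sub_mem_V0 hσ _
    · intro σ hσ z hz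
      apply b.equivFun.injective
      rw [← hmv, mulVec_line hv0 hv hσ ((hL z).mp hz), hdetσ, map_smul]
    · intro z hz hz0 x
      obtain ⟨ρ, h1, h2, -, h3, h4⟩ := ord_kummer hA hflat hdet hv0 hv hζ ((hL z).mp hz)
        (fun h => hz0 (b.equivFun.map_eq_zero_iff.mp h)) (b.equivFun x)
      refine ⟨ρ, h1, h2, h3, fun σ hσ => ?_⟩
      obtain ⟨c, hc1, hc2⟩ := h4 σ hσ
      refine ⟨c, ?_, hc2⟩
      apply b.equivFun.injective
      rw [← hmv, hc1, map_add, map_smul]
  · right
    intro π hπ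
    have hiff : ∀ σ ∈ A.inertiaSubgroupIn ℚ, (σ π = π ↔ ∀ x : Submodule.torsionBy ℤ
        ((W.map (Int.castRingHom ℚ))⁄(AlgebraicClosure ℚ)).Point p, σ • x = x) := by
      intro σ hσ
      rw [hss π hπ σ hσ]
      constructor
      · intro h x
        apply b.equivFun.injective
        rw [← hmv, h, one_mulVec]
      · intro h
        apply Matrix.ext_of_mulVec_single
        intro i
        have h2 := hmv σ (b.equivFun.symm (Pi.single i 1))
        rw [h, LinearEquiv.apply_symm_apply] at h2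
        rw [h2, one_mulVec]
    refine ⟨hiff, fun y hy0 hy => ss_val hA hπ hy0 fun σ hσ hσπ => ?_⟩
    exact hy σ hσ ((hiff σ hσ).mp hσπ)

end Fermat.Agent.FlatP
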