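import Fermat.Agent.FlatP.Local
import Fermat.Agent.LocE.K0
import Fermat.Agent.TW.InertiaField

/-!
# The inertia group of a place of `ℚ̄` gives local data
-/

set_option autoImplicit false

namespace Fermat.Agent.FlatP

open FermatAgent.ECVal Fermat.Agent.Frob Fermat.Agent.Minkowski

variable {p : ℕ} (hp : p.Prime) {A : ValuationSubring (AlgebraicClosure ℚ)}
  (hA : A.LiesOverPrime p)

/-- elements of the decomposition group preserve the valuation. -/
theorem valOf_decomp {g : AlgebraicClosure ℚ ≃ₐ[ℚ] AlgebraicClosure ℚ}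
    (hg : g ∈ A.decompositionSubgroup ℚ) (x : AlgebraicClosure ℚ) :
    (valOf hp hA).val (g x) = (valOf hp hA).val x := by
  by_cases hx : x = 0
  · rw [hx, map_zero]
  have hgx : g x ≠ 0 := (map_ne_zero g).mpr hx
  obtain ⟨n, hn, m, h, he⟩ := qval_spec A.valuation hp (lt_one_of_liesOver hA) hx
  have h1 := qval_eq_of_pow_eq A.valuation hp (lt_one_of_liesOver hA) hgx hn (m := m)
    (by rw [TW.val_decomp_eq hg]; exact h)
  change qval A.valuation hp (lt_one_of_liesOver hA) (g x) =
    qval A.valuation hp (lt_one_of_liesOver hA) x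
  rw [h1, he]

lemma finite_orbit (H : Subgroup (AlgebraicClosure ℚ ≃ₐ[ℚ] AlgebraicClosure ℚ))
    (x : AlgebraicClosure ℚ) : (MulAction.orbit H x).Finite := by
  refine ((minpoly ℚ x).rootSet_finite (AlgebraicClosure ℚ)).subset ?_
  rintro _ ⟨⟨g, hg⟩, rfl⟩
  have hint : IsIntegral ℚ x := Algebra.IsIntegral.isIntegral x
  rw [Polynomial.mem_rootSet]
  refine ⟨minpoly.ne_zero hint, ?_⟩
  change Polynomial.aeval (g x) (minpoly ℚ x) = 0
  have h1 := Polynomial.aeval_algHom_apply (g : AlgebraicClosure ℚ →ₐ[ℚ] AlgebraicClosure ℚ) x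
    (minpoly ℚ x)
  rw [minpoly.aeval, map_zero] at h1
  exact h1

lemma finiteIndex_stabilizer (H : Subgroup (AlgebraicClosure ℚ ≃ₐ[ℚ] AlgebraicClosure ℚ))
    (x : AlgebraicClosure ℚ) : (MulAction.stabilizer H x).FiniteIndex := by
  have hfin := finite_orbit H x
  refine ⟨?_⟩
  rw [MulAction.index_stabilizer]
  have : Finite (MulAction.orbit H x) := hfin
  have hne : Nonempty (MulAction.orbit H x) := ⟨⟨x, MulAction.mem_orbit_self x⟩⟩
  change Nat.card (MulAction.orbit H x) ≠ 0
  exact Nat.card_pos.ne'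

/-- **The local data at a place `A` of `ℚ̄` above `p`.** -/
theorem localData : LocalData (AlgebraicClosure ℚ) (A.inertiaSubgroupIn ℚ) (valOf hp hA) p where
  prime := hp
  val_p := valOf_prime hp hA
  val_smul := fun g x => valOf_decomp hp hA (TW.inertia_le_decomp g.2) x
  inertia := fun g x hx => by
    rw [valOf_ge_zero_iff] at hx
    rw [valOf_gt_zero_iff]
    exact (sub_mem_nonunits_of_mem_inertia g.2 hx).2
  int := fun x hx0 hx => by
    obtain ⟨n, hn⟩ := LocE.exists_is_int hp hA (fun σ hσ => hx ⟨σ, hσ⟩) hx0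
    exact ⟨n, hn.2⟩
  lift := fun y hy => by
    rw [valOf_ge_zero_iff] at hy
    obtain ⟨b, hb, hfix, hsub⟩ := LocE.exists_fixed_sub_mem_nonunits hp hA hy
    refine ⟨b, fun g => hfix g g.2, ?_, ?_⟩
    · rw [valOf_ge_zero_iff]; exact hb
    · rw [valOf_gt_zero_iff]; exact hsub
  finiteIndex := fun x => finiteIndex_stabilizer _ x

end Fermat.Agent.FlatP
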