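import Fermat.Agent.FlatP.Char
import Fermat.Agent.FlatP.Concrete

/-!
# Kummer theory of units `1 + p π^i β` over the inertia field
-/

set_option autoImplicit false

namespace Fermat.Agent.FlatP

open Fermat.Agent.FlatGS Fermat.Agent.MazurMult FermatAgent.ECVal

section power

variable {K : Type*} [Field K] {w : QVal K} {p : ℕ}

/-- `(1 + u) ^ p = 1 + u ^ p + p * u * s` with `s` integral. -/
lemma one_add_pow_prime (hp : p.Prime) {u : K} (hu : w.Ge 0 u) :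
    ∃ s, w.Ge 0 s ∧ (1 + u) ^ p = 1 + u ^ p + p * u * s := by
  refine ⟨∑ k ∈ Finset.Ioo 0 p, (1 : K) ^ (k - 1) * u ^ (p - k - 1) * ((p.choose k / p : ℕ) : K),
    ?_, ?_⟩
  · refine ge_sum fun k _ => ?_
    rw [one_pow, one_mul]
    have h1 := (hu.pow (p - k - 1)).mul (QVal.ge_natCast (w := w) (p.choose k / p))
    exact h1.mono (by simp)
  · rw [add_pow_prime_eq hp, one_pow, mul_one]

lemma val_sub_one_of_pow (hp : p.Prime) (hwp : w.Is 1 (p : K)) {y δ : K} (h : y ^ p = 1 + δ)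
    (hδ0 : δ ≠ 0) (hδ : w.Ge 0 δ) (hlt : w.val δ < p / ((p : ℚ) - 1)) :
    y - 1 ≠ 0 ∧ (p : ℚ) * w.val (y - 1) = w.val δ := by
  have hp1 : (0 : ℚ) < (p : ℚ) - 1 := by
    have : (1 : ℚ) < p := by exact_mod_cast hp.one_lt
    linarith
  set u := y - 1 with hu
  have hy : y = 1 + u := by rw [hu]; ring
  have hu0 : u ≠ 0 := by
    intro h0
    rw [hy, h0, add_zero, one_pow] at h
    exact hδ0 (by linear_combination -h)
  have huge : w.Ge 0 u := by
    by_contra hcon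
    rw [QVal.not_ge_iff] at hcon
    have h1 : w.Is (w.val u) y := by
      rw [hy, add_comm]
      exact (QVal.Is.of_ne hu0).add_gt (QVal.is_one.gt hcon.2)
    have h2 := h1.pow p
    rw [h] at h2
    have h3 := h2.le_of_ge (QVal.is_one.ge.add hδ)
    have h4 : (0 : ℚ) < p := by linarith
    nlinarith [hcon.2]
  obtain ⟨s, hs, hs2⟩ := one_add_pow_prime hp huge
  rw [← hy, h] at hs2
  have hδe : δ = u ^ p + p * u * s := by linear_combination hs2
  refine ⟨hu0, ?_⟩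
  have h1 : w.Is (p * w.val u) (u ^ p) := (QVal.Is.of_ne hu0).pow p
  have h2 : w.Ge (1 + w.val u) (p * u * s) :=
    ((hwp.mul (QVal.Is.of_ne hu0)).ge.mul hs).mono (by linarith)
  rcases lt_or_ge (w.val u) (1 / ((p : ℚ) - 1)) with hc | hc
  · have h3 : w.Gt (p * w.val u) (p * u * s) := by
      refine h2.gt ?_
      rw [lt_div_iff₀ hp1] at hc
      linarith
    have h4 := h1.add_gt h3
    rw [← hδe] at h4
    exact h4.2.symm
  · exfalso
    have h3 : w.Ge (p / ((p : ℚ) - 1)) (u ^ p) := by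
      refine h1.ge.mono ?_
      rw [div_eq_mul_one_div]
      have h4 : (0 : ℚ) < p := by linarith
      nlinarith
    have h4 : w.Ge (p / ((p : ℚ) - 1)) (p * u * s) := by
      refine h2.mono ?_
      have h5 : (p : ℚ) / ((p : ℚ) - 1) = 1 + 1 / ((p : ℚ) - 1) := by field_simp; ring
      rw [h5]
      linarith
    have h5 := h3.add h4
    rw [← hδe] at h5
    have h6 := h5.resolve_left hδ0
    linarith

end power

section inertia

variable {p : ℕ} (hp : p.Prime) {A : ValuationSubring Om} (hA : A.LiesOverPrime p)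

include hp hA in
/-- A `p`-th root of `1 + δ`, `v(δ) ≥ p / (p - 1)`, is fixed by the inertia group of `K(ζ)`. -/
theorem smul_eq_of_pow {ζ z δ : Om} (hζ : IsPrimitiveRoot ζ p) (h : z ^ p = 1 + δ)
    (hδ : (valOf hp hA).Ge (p / ((p : ℚ) - 1)) δ) {g : GQ} (hg : g ∈ A.inertiaSubgroupIn ℚ)
    (hgζ : g ζ = ζ) (hgδ : g δ = δ) : g z = z := by
  have hp1 : (0 : ℚ) < (p : ℚ) - 1 := by
    have : (1 : ℚ) < p := by exact_mod_cast hp.one_lt
    linarith
  have hp0 : (0 : ℚ) < p := by linarith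
  set w := valOf hp hA with hw
  have hδgt : w.Gt 0 δ := hδ.gt (by positivity)
  have hzp : w.Is 0 (z ^ p) := by rw [h]; exact QVal.is_one.add_gt hδgt
  have hz0 : z ≠ 0 := by
    rintro rfl
    rw [zero_pow hp.ne_zero] at hzp
    exact hzp.1 rfl
  have hz : w.Is 0 z := by
    refine ⟨hz0, ?_⟩
    have h1 := ((QVal.Is.of_ne (w := w) hz0).pow p).unique hzp
    exact (mul_eq_zero.mp h1).resolve_left hp0.ne'
  obtain ⟨ξ, hξ, hξge⟩ : ∃ ξ ∈ Polynomial.nthRootsFinset p (1 : Om),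
      w.Ge (1 / ((p : ℚ) - 1)) (z - ξ * 1) := by
    by_contra hcon
    push Not at hcon
    have h1 : w.Is (∑ ξ ∈ Polynomial.nthRootsFinset p (1 : Om), w.val (z - ξ * 1))
        (∏ ξ ∈ Polynomial.nthRootsFinset p (1 : Om), (z - ξ * 1)) :=
      is_prod fun ξ hξ => QVal.Is.of_ne (QVal.not_ge_iff.mp (hcon ξ hξ)).1
    rw [← hζ.pow_sub_pow_eq_prod_sub_mul z 1 hp.pos, h, one_pow, add_sub_cancel_left] at h1
    have h2 := h1.le_of_ge hδ
    have h3 : ∑ ξ ∈ Polynomial.nthRootsFinset p (1 : Om), w.val (z - ξ * 1) <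
        ∑ ξ ∈ Polynomial.nthRootsFinset p (1 : Om), (1 / ((p : ℚ) - 1)) := by
      refine Finset.sum_lt_sum_of_nonempty ⟨1, ?_⟩
        fun ξ hξ => (QVal.not_ge_iff.mp (hcon ξ hξ)).2
      rw [Polynomial.mem_nthRootsFinset hp.pos, one_pow]
    rw [Finset.sum_const, hζ.card_nthRootsFinset, nsmul_eq_mul] at h3
    have h4 : (p : ℚ) / ((p : ℚ) - 1) = p * (1 / ((p : ℚ) - 1)) := by ring
    linarith
  rw [mul_one] at hξge
  rw [Polynomial.mem_nthRootsFinset hp.pos] at hξ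
  have hgξ : g ξ = ξ := by
    have : NeZero p := ⟨hp.ne_zero⟩
    obtain ⟨i, -, rfl⟩ := hζ.eq_pow_of_pow_eq_one hξ
    rw [map_pow, hgζ]
  have hζ1 : w.Is (1 / ((p : ℚ) - 1)) (1 - ζ) := val_one_sub_zeta hp hA hζ
  have ht : w.Ge 0 ((z - ξ) / (1 - ζ)) := by
    rw [div_eq_mul_inv]
    exact (hξge.mul hζ1.inv.ge).mono (by linarith)
  have h1 : w.Gt 0 (g ((z - ξ) / (1 - ζ)) - (z - ξ) / (1 - ζ)) :=
    (localData hp hA).inertia ⟨g, hg⟩ _ ht
  have h2 := hζ1.ge.mul_gt h1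
  rw [map_div₀, map_sub, map_sub, map_one, hgζ, hgξ, add_zero] at h2
  have h3 : (1 - ζ) * ((g z - ξ) / (1 - ζ) - (z - ξ) / (1 - ζ)) = g z - z := by
    have := hζ1.1
    field_simp
    ring
  rw [h3] at h2
  by_contra hne
  have hμ1 : g z / z ≠ 1 := by
    rw [Ne, div_eq_one_iff_eq hz0]
    exact hne
  have hμp : (g z / z) ^ p = 1 := by
    rw [div_pow, ← map_pow, h, map_add, map_one, hgδ, ← h, div_self hzp.1]
  have : Fact p.Prime := ⟨hp⟩
  have hμ : IsPrimitiveRoot (g z / z) p := IsPrimitiveRoot.iff_orderOf.mpr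
    (orderOf_eq_prime hμp hμ1)
  have h4 := ((val_one_sub_zeta hp hA hμ).mul hz).neg
  have h5 : -((1 - g z / z) * z) = g z - z := by
    field_simp
    ring
  rw [h5] at h4
  have h6 := h4.lt_of_gt h2
  linarith

end inertia

section Rel

/-- The Kummer relation: `μ` is the Kummer character on `J` of an element
`1 + p π ^ i β`, where `β` is fixed by `M` and has residue `b`. -/
def Rel (p : ℕ) (A : ValuationSubring Om) (M J : Subgroup GQ) (π : Om) (i : ℕ) (μ : GQ → Om)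
    (b : IsLocalRing.ResidueField A) : Prop :=
  ∃ (z β : Om) (hβ : β ∈ A), (∀ g ∈ M, g β = β) ∧ IsLocalRing.residue A ⟨β, hβ⟩ = b ∧
    z ^ p = 1 + p * π ^ i * β ∧ ∀ g ∈ J, g z = μ g * z

variable {p : ℕ} {A : ValuationSubring Om} {M J : Subgroup GQ} {π : Om} {i : ℕ}
  {μ μ' : GQ → Om} {b b' : IsLocalRing.ResidueField A}

lemma residue_eq_iff {x y : Om} (hx : x ∈ A) (hy : y ∈ A) :
    IsLocalRing.residue A ⟨x, hx⟩ = IsLocalRing.residue A ⟨y, hy⟩ ↔ x - y ∈ A.nonunits := by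
  rw [← sub_eq_zero, ← map_sub, IsLocalRing.residue_eq_zero_iff,
    ValuationSubring.mem_nonunits_iff_exists_mem_maximalIdeal]
  constructor
  · intro h'
    exact ⟨sub_mem hx hy, h'⟩
  · rintro ⟨_, h'⟩
    exact h'

lemma residue_eq_zero_iff' {x : Om} (hx : x ∈ A) :
    IsLocalRing.residue A ⟨x, hx⟩ = 0 ↔ x ∈ A.nonunits := by
  rw [IsLocalRing.residue_eq_zero_iff, ValuationSubring.mem_nonunits_iff_exists_mem_maximalIdeal]
  constructor
  · intro h'
    exact ⟨hx, h'⟩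
  · rintro ⟨_, h'⟩
    exact h'

variable (hp : p.Prime) (hA : A.LiesOverPrime p)

lemma Rel.congr (h : Rel p A M J π i μ b) (hμ : ∀ g ∈ J, μ g = μ' g) (hb : b = b') :
    Rel p A M J π i μ' b' := by
  obtain ⟨z, β, hβ, h1, h2, h3, h4⟩ := h
  exact ⟨z, β, hβ, h1, h2.trans hb, h3, fun g hg => by rw [h4 g hg, hμ g hg]⟩

include hp hA in
lemma gt_term (hπ : π ∈ A) {β : Om} (hβ : β ∈ A) :
    (valOf hp hA).Gt 0 ((p : Om) * π ^ i * β) := by
  have h1 : (valOf hp hA).Ge 0 (π ^ i * β) := by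
    rw [valOf_ge_zero_iff]
    exact A.mul_mem _ _ (A.toSubring.pow_mem hπ i) hβ
  have h2 := (valOf_prime hp hA).ge.mul h1
  rw [← mul_assoc] at h2
  exact h2.gt (by norm_num)

include hp hA in
lemma is_one_add_term (hπ : π ∈ A) {β : Om} (hβ : β ∈ A) :
    (valOf hp hA).Is 0 (1 + (p : Om) * π ^ i * β) :=
  QVal.is_one.add_gt (gt_term hp hA hπ hβ)

include hp hA in
lemma Rel.mul (hπ : π ∈ A) (hπM : ∀ g ∈ M, g π = π) (h : Rel p A M J π i μ b)
    (h' : Rel p A M J π i μ' b') : Rel p A M J π i (fun g => μ g * μ' g) (b + b') := by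
  obtain ⟨z, β, hβ, h1, h2, h3, h4⟩ := h
  obtain ⟨z', β', hβ', h1', h2', h3', h4'⟩ := h'
  have hnu : (p : Om) * π ^ i * β * β' ∈ A.nonunits := by
    rw [← valOf_gt_zero_iff hp hA]
    have h5 := (gt_term (i := i) hp hA hπ hβ).mul_ge ((valOf_ge_zero_iff hp hA).mpr hβ')
    rwa [add_zero] at h5
  have hmem : (p : Om) * π ^ i * β * β' ∈ A := by
    rw [← valOf_ge_zero_iff hp hA]
    exact ((valOf_gt_zero_iff hp hA).mpr hnu).ge
  refine ⟨z * z', β + β' + p * π ^ i * β * β', ?_, ?_, ?_, ?_, ?_⟩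
  · exact A.add_mem _ _ (A.add_mem _ _ hβ hβ') hmem
  · intro g hg
    rw [map_add, map_add, map_mul, map_mul, map_mul, map_pow, map_natCast, hπM g hg, h1 g hg,
      h1' g hg]
  · rw [← h2, ← h2', ← map_add]
    refine (residue_eq_iff (x := β + β' + p * π ^ i * β * β') (y := β + β') _
      (A.add_mem _ _ hβ hβ')).mpr ?_
    rw [add_sub_cancel_left]
    exact hnu
  · rw [mul_pow, h3, h3']
    ring
  · intro g hg
    rw [map_mul, h4 g hg, h4' g hg]
    ring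

include hp hA in
lemma Rel.inv (hπ : π ∈ A) (hπM : ∀ g ∈ M, g π = π) (h : Rel p A M J π i μ b) :
    Rel p A M J π i (fun g => (μ g)⁻¹) (-b) := by
  obtain ⟨z, β, hβ, h1, h2, h3, h4⟩ := h
  have hu := is_one_add_term (i := i) hp hA hπ hβ
  set u := 1 + (p : Om) * π ^ i * β with hudef
  have huM : ∀ g ∈ M, g u = u := by
    intro g hg
    rw [hudef, map_add, map_one, map_mul, map_mul, map_pow, map_natCast, hπM g hg, h1 g hg]
  have huinv : u⁻¹ ∈ A := by
    rw [← valOf_ge_zero_iff hp hA]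
    exact hu.inv.ge.mono (by norm_num)
  have hβ' : -(β * u⁻¹) ∈ A := A.neg_mem _ (A.mul_mem _ _ hβ huinv)
  refine ⟨z⁻¹, -(β * u⁻¹), hβ', ?_, ?_, ?_, ?_⟩
  · intro g hg
    rw [map_neg, map_mul, map_inv₀, huM g hg, h1 g hg]
  · rw [← h2, ← map_neg]
    refine (residue_eq_iff (x := -(β * u⁻¹)) (y := -β) hβ' (A.neg_mem _ hβ)).mpr ?_
    rw [← valOf_gt_zero_iff hp hA]
    have h5 : -(β * u⁻¹) - -β = (p * π ^ i * β) * (β * u⁻¹) := by
      have := hu.1
      field_simp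
      rw [hudef]
      ring
    rw [h5]
    have h6 := (gt_term (i := i) hp hA hπ hβ).mul_ge
      ((valOf_ge_zero_iff hp hA).mpr (A.mul_mem _ _ hβ huinv))
    rwa [add_zero] at h6
  · rw [inv_pow, h3]
    have := hu.1
    field_simp
    rw [hudef]
    ring
  · intro g hg
    rw [map_inv₀, h4 g hg, mul_inv]

/-- uniqueness -/
lemma Rel.eq_zero {e : ℕ} (hπ : π ∈ A) {t : ℚ} (hπt : (valOf hp hA).Is t (π ^ i))
    (hlt : 1 + t < p / ((p : ℚ) - 1))
    (hval : ∀ y : Om, y ≠ 0 → (∀ g ∈ J, g y = y) → ∃ m : ℤ, (valOf hp hA).val y = m / e)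
    (hne : ∀ m : ℤ, (p : ℚ) * (m / e) ≠ 1 + t) (hμ : ∀ g ∈ J, μ g = 1)
    (h : Rel p A M J π i μ b) : b = 0 := by
  obtain ⟨z, β, hβ, h1, h2, h3, h4⟩ := h
  by_contra hb
  have hβu : (valOf hp hA).Is 0 β := by
    have h5 : ¬ (valOf hp hA).Gt 0 β := by
      rw [valOf_gt_zero_iff]
      intro h6
      exact hb (h2 ▸ (residue_eq_zero_iff' hβ).mpr h6)
    rw [QVal.not_gt_iff] at h5
    refine ⟨h5.1, le_antisymm h5.2 ?_⟩
    exact ((valOf_ge_zero_iff hp hA).mpr hβ).resolve_left h5.1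
  have hδ : (valOf hp hA).Is (1 + t) ((p : Om) * π ^ i * β) :=
    (((valOf_prime hp hA).mul hπt).mul hβu).congr (by ring)
  obtain ⟨h5, h6⟩ := val_sub_one_of_pow hp (valOf_prime hp hA) h3 hδ.1
    (gt_term hp hA hπ hβ).ge (by rw [hδ.2]; exact hlt)
  obtain ⟨m, hm⟩ := hval (z - 1) h5 (fun g hg => by rw [map_sub, map_one, h4 g hg, hμ g hg, one_mul])
  rw [hm, hδ.2] at h6
  exact hne m h6

/-- going up one step -/
lemma Rel.succ {e : ℕ} (he : 0 < e) (hπM : ∀ g ∈ M, g π = π)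
    (hπe : (valOf hp hA).Is (1 / e) π)
    (hval : ∀ y : Om, y ≠ 0 → (∀ g ∈ M, g y = y) → ∃ m : ℤ, (valOf hp hA).val y = m / e)
    (h : Rel p A M J π i μ 0) : ∃ b, Rel p A M J π (i + 1) μ b := by
  obtain ⟨z, β, hβ, h1, h2, h3, h4⟩ := h
  have he' : (0 : ℚ) < e := by exact_mod_cast he
  rw [residue_eq_zero_iff', ← valOf_gt_zero_iff hp hA] at h2
  have hβ' : β * π⁻¹ ∈ A := by
    rw [← valOf_ge_zero_iff hp hA]
    by_cases hβ0 : β = 0
    · left; rw [hβ0, zero_mul]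
    obtain ⟨m, hm⟩ := hval β hβ0 h1
    have h5 := h2.resolve_left hβ0
    rw [hm] at h5
    have h6 : 0 < m := by
      by_contra hcon
      push Not at hcon
      have h7 : (m : ℚ) ≤ 0 := by exact_mod_cast hcon
      have h8 : (m : ℚ) / e ≤ 0 := div_nonpos_of_nonpos_of_nonneg h7 he'.le
      linarith
    have h7 : (1 : ℚ) ≤ m := by exact_mod_cast h6
    refine (((QVal.Is.of_ne hβ0).congr hm).mul hπe.inv).ge.mono ?_
    rw [← sub_eq_add_neg, ← sub_div]
    exact div_nonneg (by linarith) he'.le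
  refine ⟨_, z, β * π⁻¹, hβ', ?_, rfl, ?_, h4⟩
  · intro g hg
    rw [map_mul, map_inv₀, hπM g hg, h1 g hg]
  · rw [h3]
    have := hπe.1
    field_simp
    ring

/-- at the top level the character is trivial -/
lemma Rel.eq_one {ζ : Om} (hζ : IsPrimitiveRoot ζ p) {t : ℚ}
    (hπt : (valOf hp hA).Ge t (π ^ i)) (ht : p / ((p : ℚ) - 1) ≤ 1 + t)
    (hJ : ∀ g ∈ J, g ∈ A.inertiaSubgroupIn ℚ ∧ g ζ = ζ ∧ g ∈ M) (hπM : ∀ g ∈ M, g π = π)
    (hπ : π ∈ A) (h : Rel p A M J π i μ b) : ∀ g ∈ J, μ g = 1 := by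
  obtain ⟨z, β, hβ, h1, h2, h3, h4⟩ := h
  intro g hg
  obtain ⟨hgI, hgζ, hgM⟩ := hJ g hg
  have h5 : (valOf hp hA).Ge (p / ((p : ℚ) - 1)) ((p : Om) * π ^ i * β) := by
    refine (((valOf_prime hp hA).ge.mul hπt).mul ((valOf_ge_zero_iff hp hA).mpr hβ)).mono ?_
    linarith
  have h6 := smul_eq_of_pow hp hA hζ h3 h5 hgI hgζ (by
    rw [map_mul, map_mul, map_pow, map_natCast, hπM g hgM, h1 g hgM])
  rw [h4 g hg] at h6
  have hz0 : z ≠ 0 := by
    rintro rfl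
    rw [zero_pow hp.ne_zero] at h3
    exact (is_one_add_term (i := i) hp hA hπ hβ).1 h3.symm
  exact mul_right_cancel₀ hz0 (by rw [h6, one_mul])

/-- `h` acts on the residue field as `s`. -/
def ActsAs (A : ValuationSubring Om) (h : GQ)
    (s : IsLocalRing.ResidueField A → IsLocalRing.ResidueField A) : Prop :=
  h ∈ A.decompositionSubgroup ℚ ∧ ∀ (x : Om) (hx : x ∈ A) (hx' : h x ∈ A),
    IsLocalRing.residue A ⟨h x, hx'⟩ = s (IsLocalRing.residue A ⟨x, hx⟩)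

lemma actsAs_inertia {h : GQ} (hh : h ∈ A.inertiaSubgroupIn ℚ) : ActsAs A h id := by
  refine ⟨TW.inertia_le_decomp hh, fun x hx hx' => ?_⟩
  rw [id, residue_eq_iff]
  exact (Fermat.Agent.Minkowski.sub_mem_nonunits_of_mem_inertia hh hx).2

lemma actsAs_frob {φ : GQ} (hφ : A.IsFrobeniusAt φ p) : ActsAs A φ (fun x => x ^ p) := by
  refine ⟨hφ.mem_decompositionSubgroup, fun x hx hx' => ?_⟩
  change _ = (IsLocalRing.residue A ⟨x, hx⟩) ^ p
  rw [← map_pow]
  exact (residue_eq_iff hx' (A.toSubring.pow_mem hx p)).mpr (TW.frob_sub_mem hφ hx)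

lemma ActsAs.comp {h h' : GQ} {s s' : IsLocalRing.ResidueField A → IsLocalRing.ResidueField A}
    (hh : ActsAs A h s) (hh' : ActsAs A h' s') : ActsAs A (h * h') (s ∘ s') := by
  refine ⟨mul_mem hh.1 hh'.1, fun x hx hx' => ?_⟩
  have h1 : h' x ∈ A := TW.map_mem_of_mem_decomp hh'.1 hx
  rw [Function.comp_apply, ← hh'.2 x hx h1]
  exact hh.2 (h' x) h1 hx'

/-- Galois action on the relations -/
lemma Rel.conj {h : GQ} {s : IsLocalRing.ResidueField A → IsLocalRing.ResidueField A}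
    (hh : ActsAs A h s) (hM : ∀ g ∈ M, h⁻¹ * g * h ∈ M) (hJ : ∀ g ∈ J, h⁻¹ * g * h ∈ J) {u : Om}
    (hu : h π = u * π) (huA : u ∈ A) (huM : ∀ g ∈ M, g u = u) (hr : Rel p A M J π i μ b) :
    Rel p A M J π i (fun g => h (μ (h⁻¹ * g * h))) (IsLocalRing.residue A ⟨u, huA⟩ ^ i * s b) := by
  obtain ⟨z, β, hβ, h1, h2, h3, h4⟩ := hr
  have hhβ : h β ∈ A := TW.map_mem_of_mem_decomp hh.1 hβ
  have hkey : ∀ (g : GQ) (x y : Om), (h⁻¹ * g * h) x = y → g (h x) = h y := by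
    rintro g x y rfl
    change g (h x) = h (h⁻¹ (g (h x)))
    exact (AlgEquiv.apply_symm_apply h _).symm
  refine ⟨h z, u ^ i * h β, A.mul_mem _ _ (A.toSubring.pow_mem huA i) hhβ, ?_, ?_, ?_, ?_⟩
  · intro g hg
    rw [map_mul, map_pow, huM g hg, hkey g β β (h1 _ (hM g hg))]
  · rw [← h2, ← hh.2 β hβ hhβ, ← map_pow, ← map_mul]
    rfl
  · rw [← map_pow, h3, map_add, map_one, map_mul, map_mul, map_pow, map_natCast, hu]
    ring
  · intro g hg
    rw [hkey g z _ (h4 _ (hJ g hg)), map_mul]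

end Rel

end Fermat.Agent.FlatP
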