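import Fermat.Agent.FlatP.Deriv

/-!
# Elements of the tame layer with trivial derivative

`J ≤ J'` subgroups of finite index, `π ^ e = p` a uniformiser of `K^{J'}` (`p ∤ e`), `β` a
uniformiser of `K^J`. If `u ∈ K^{J'}` is integral and `D u = 0` for the derivation of `Deriv.lean`,
then `u` is a `p`-th power modulo `p`.
-/

set_option autoImplicit false

namespace Fermat.Agent.FlatP

open FermatAgent.ECVal Polynomial

namespace LocalData

variable {K G : Type*} [Field K] [Group G] [MulSemiringAction G K] {w : QVal K} {p : ℕ}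

lemma is_natCast (h : LocalData K G w p) {e : ℕ} (he : ¬ p ∣ e) : w.Is 0 (e : K) := by
  have h1 : Nat.Coprime p e := (Nat.Prime.coprime_iff_not_dvd h.prime).mpr he
  have h2 : (1 : ℤ) = p * Nat.gcdA p e + e * Nat.gcdB p e := by
    have := Nat.gcd_eq_gcd_ab p e
    rw [h1] at this
    exact_mod_cast this
  have h3 : (1 : K) = p * ((Nat.gcdA p e : ℤ) : K) + e * ((Nat.gcdB p e : ℤ) : K) := by
    exact_mod_cast congrArg (fun z : ℤ => (z : K)) h2
  by_contra hne
  have hgt : w.Gt 0 (e : K) := by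
    by_contra hcon
    rw [QVal.not_gt_iff] at hcon
    apply hne
    refine ⟨hcon.1, le_antisymm hcon.2 ((QVal.ge_natCast (w := w) e).resolve_left hcon.1)⟩
  have h4 : w.Gt 0 (1 : K) := by
    rw [h3]
    refine QVal.Gt.add ?_ ?_
    · exact ((h.val_p.gt (s := 0) (by norm_num)).mul_ge (QVal.ge_intCast _)).mono (by norm_num)
    · exact (hgt.mul_ge (QVal.ge_intCast _)).mono (by norm_num)
  exact absurd (QVal.is_one.lt_of_gt h4) (lt_irrefl _)

/-- a root of unity of order prime to `p` which is congruent to `1` is `1`. -/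
lemma eq_one_of_pow_eq_one (h : LocalData K G w p) {e : ℕ} (he : ¬ p ∣ e) {ξ : K}
    (hξ : ξ ^ e = 1) (h1 : w.Gt 0 (ξ - 1)) : ξ = 1 := by
  by_contra hne
  have hgeom : ∑ i ∈ Finset.range e, ξ ^ i = 0 := by
    have h2 := mul_geom_sum ξ e
    rw [hξ, sub_self] at h2
    exact (mul_eq_zero.mp h2).resolve_left (sub_ne_zero.mpr hne)
  have hξv : w.Ge 0 ξ := by
    have h3 := h1.ge.add QVal.is_one.ge
    rwa [sub_add_cancel] at h3
  have hpow : ∀ i : ℕ, w.Gt 0 (ξ ^ i - 1) := by
    intro i
    rw [← geom_sum_mul]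
    have h2 : w.Ge 0 (∑ j ∈ Finset.range i, ξ ^ j) := by
      apply ge_sum
      intro j _
      exact (hξv.pow j).mono (by norm_num)
    exact (h2.mul_gt h1).mono (by norm_num)
  have h2 : (e : K) = - ∑ i ∈ Finset.range e, (ξ ^ i - 1) := by
    rw [Finset.sum_sub_distrib, hgeom]
    simp
  have h3 : w.Gt 0 (e : K) := by
    rw [h2]
    exact (gt_sum fun i _ => hpow i).neg
  exact absurd ((h.is_natCast he).lt_of_gt h3) (lt_irrefl _)

section main

variable {J J' : Subgroup G} {π β : K}

/-- `β - g β` has the minimal possible value if `g ∉ J'`. -/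
lemma is_beta_sub (h : LocalData K G w p) (hJ : J.FiniteIndex) (hJJ : J ≤ J')
    (hπ : ∀ g ∈ J', g • π = π) (hπv : w.Is (1 / J'.index) π) (hπp : π ^ J'.index = (p : K))
    (he : ¬ p ∣ J'.index) (hv : w.Is (1 / J.index) β) {g : G}
    (hg : g ∉ J') : w.Is (1 / J.index) (β - g • β) := by
  have hJ' : J'.FiniteIndex := Subgroup.finiteIndex_of_le hJJ
  have hn0 : 0 < J.index := Nat.pos_of_ne_zero hJ.index_ne_zero
  have hn' : (0 : ℚ) < J.index := by exact_mod_cast hn0
  have he0 : 0 < J'.index := Nat.pos_of_ne_zero hJ'.index_ne_zero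
  have he' : (0 : ℚ) < J'.index := by exact_mod_cast he0
  obtain ⟨d, hd⟩ := Subgroup.index_dvd_of_le hJJ
  have hdQ : (1 : ℚ) / J'.index = d * (1 / J.index) := by
    rw [hd]
    push_cast
    have : (d : ℚ) ≠ 0 := by
      intro h0
      have : d = 0 := by exact_mod_cast h0
      rw [this, mul_zero] at hd
      omega
    field_simp
  by_contra hne
  have hge : w.Ge (1 / J.index) (β - g • β) := hv.ge.sub (h.is_smul g hv).ge
  have hgt : w.Gt (1 / J.index) (g • β - β) := by
    have h1 : w.Gt (1 / J.index) (β - g • β) := by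
      by_contra hcon
      rw [QVal.not_gt_iff] at hcon
      exact hne ⟨hcon.1, le_antisymm hcon.2 (hge.resolve_left hcon.1)⟩
    have := h1.neg
    rwa [neg_sub] at this
  have hpowgt : ∀ i : ℕ, w.Gt (i * (1 / J.index)) ((g • β) ^ i - β ^ i) := by
    intro i
    induction i with
    | zero => rw [pow_zero, pow_zero, sub_self]; exact QVal.gt_zero _
    | succ i ih =>
      have h1 : (g • β) ^ (i + 1) - β ^ (i + 1) =
          (g • β) ^ i * (g • β - β) + ((g • β) ^ i - β ^ i) * β := by ring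
      rw [h1]
      refine QVal.Gt.add ?_ ?_
      · exact (((h.is_smul g hv).pow i).ge.mul_gt hgt).mono (by push_cast; linarith)
      · exact (ih.mul_ge hv.ge).mono (by push_cast; linarith)
  -- `π = β ^ d * υ`
  let υ := (β ^ d)⁻¹ * π
  have hβd : w.Is (d * (1 / J.index)) (β ^ d) := hv.pow d
  have hυ : w.Is 0 υ := (hβd.inv.mul hπv).congr (by rw [hdQ]; ring)
  have hπυ : π = β ^ d * υ := by
    rw [mul_inv_cancel_left₀ hβd.1]
  have h2 : w.Gt (1 / J'.index) (g • π - π) := by
    have h3 : g • π - π = (g • β) ^ d * (g • υ - υ) + ((g • β) ^ d - β ^ d) * υ := by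
      rw [hπυ, smul_mul', smul_pow']
      ring
    rw [h3, hdQ]
    refine QVal.Gt.add ?_ ?_
    · exact (((h.is_smul g hv).pow d).ge.mul_gt (h.inertia g υ hυ.ge)).mono (by linarith)
    · exact ((hpowgt d).mul_ge hυ.ge).mono (by linarith)
  have h4 : w.Gt 0 (g • π / π - 1) := by
    have h5 : g • π / π - 1 = π⁻¹ * (g • π - π) := by
      have := hπv.1
      field_simp
    rw [h5]
    exact (hπv.inv.ge.mul_gt h2).mono (by linarith)
  have h6 : g • π / π = 1 := by
    apply h.eq_one_of_pow_eq_one he _ h4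
    rw [div_pow, ← smul_pow', hπp, smul_natCast, div_self h.val_p.1]
  rw [div_eq_one_iff_eq hπv.1] at h6
  exact hg (h.mem_of_smul_eq hJ' hπ hπv h6)

/-- the cosets in `J' / J` -/
noncomputable def cosets (J J' : Subgroup G) [Fintype (G ⧸ J)] : Finset (G ⧸ J) :=
  open scoped Classical in
  Finset.univ.filter fun q => q ∈ MulAction.orbit J' ((1 : G) : G ⧸ J)

lemma mem_cosets [Fintype (G ⧸ J)] {q : G ⧸ J} :
    q ∈ cosets J J' ↔ q ∈ MulAction.orbit J' ((1 : G) : G ⧸ J) := by
  classical
  rw [cosets, Finset.mem_filter]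
  exact ⟨fun h => h.2, fun h => ⟨Finset.mem_univ _, h⟩⟩

lemma smul_mem_cosets [Fintype (G ⧸ J)] {g : G} (hg : g ∈ J') {q : G ⧸ J} :
    g • q ∈ cosets J J' ↔ q ∈ cosets J J' := by
  rw [mem_cosets, mem_cosets]
  have h1 : g • q = (⟨g, hg⟩ : J') • q := rfl
  rw [h1]
  constructor
  · intro h
    have h2 := MulAction.mem_orbit_of_mem_orbit (⟨g, hg⟩ : J')⁻¹ h
    rwa [inv_smul_smul] at h2
  · exact fun h => MulAction.mem_orbit_of_mem_orbit _ h

lemma notMem_of_notMem_cosets [Fintype (G ⧸ J)] {g : G} (hg : (g : G ⧸ J) ∉ cosets J J') :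
    g ∉ J' := by
  intro h
  apply hg
  rw [mem_cosets]
  refine ⟨⟨g, h⟩, ?_⟩
  change ((g * 1 : G) : G ⧸ J) = _
  rw [mul_one]

lemma one_mem_cosets [Fintype (G ⧸ J)] : ((1 : G) : G ⧸ J) ∈ cosets J J' := by
  rw [mem_cosets]
  exact MulAction.mem_orbit_self _

lemma card_cosets (hJJ : J ≤ J') [Fintype (G ⧸ J)] :
    (cosets J J').card * J'.index = J.index := by
  classical
  have h1 : (cosets J J').card = J.relIndex J' := by
    have h2 : MulAction.stabilizer J' ((1 : G) : G ⧸ J) = J.subgroupOf J' := by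
      ext ⟨g, hg⟩
      rw [MulAction.mem_stabilizer_iff, Subgroup.mem_subgroupOf]
      change ((g * 1 : G) : G ⧸ J) = ((1 : G) : G ⧸ J) ↔ g ∈ J
      rw [mul_one, eq_comm, QuotientGroup.eq, inv_one, one_mul]
    have h3 := MulAction.index_stabilizer (G := J') (X := G ⧸ J) ((1 : G) : G ⧸ J)
    rw [h2] at h3
    rw [Subgroup.relIndex, h3, Set.ncard_eq_toFinset_card']
    congr 1
    ext q
    rw [mem_cosets, Set.mem_toFinset]
  rw [h1, Subgroup.relIndex_mul_index hJJ]

end main

section deriv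

variable {J J' : Subgroup G} {π β : K}

/-- A derivation on the integers of `K^J` over the integers of `K^G`, normalised by `D β = 1`,
with values in a quotient of the valuation ring. -/
structure IsDer (w : QVal K) (J : Subgroup G) (β : K) {N : Type*} [CommRing N]
    (mk : intRing w →+* N) (D : fixRing w J → N) : Prop where
  add : ∀ a b, D (a + b) = D a + D b
  mul : ∀ a b, D (a * b) = mk (Subring.inclusion (fixRing_le_intRing w J) a) * D b +
    mk (Subring.inclusion (fixRing_le_intRing w J) b) * D a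
  beta : ∀ y : fixRing w J, (y : K) = β → D y = 1
  const : ∀ y : fixRing w J, (∀ g : G, g • (y : K) = y) → D y = 0

namespace IsDer

variable {N : Type*} [CommRing N] {mk : intRing w →+* N} {D : fixRing w J → N}

lemma zero (hD : IsDer w J β mk D) : D 0 = 0 := by
  have := hD.add 0 0
  rw [add_zero] at this
  exact left_eq_add.mp this

lemma sum (hD : IsDer w J β mk D) {ι : Type*} (s : Finset ι) (f : ι → fixRing w J) :
    D (∑ i ∈ s, f i) = ∑ i ∈ s, D (f i) := by
  classical
  induction s using Finset.induction_on with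
  | empty => rw [Finset.sum_empty, Finset.sum_empty, hD.zero]
  | insert a s ha ih => rw [Finset.sum_insert ha, Finset.sum_insert ha, hD.add, ih]

lemma pow (hD : IsDer w J β mk D) (a : fixRing w J) (i : ℕ) :
    D (a ^ i) = (i : N) * mk (Subring.inclusion (fixRing_le_intRing w J) a) ^ (i - 1) * D a := by
  induction i with
  | zero =>
    rw [pow_zero, Nat.cast_zero, zero_mul, zero_mul]
    exact hD.const 1 fun g => smul_one g
  | succ i ih =>
    rw [pow_succ, hD.mul, ih, map_pow]
    rcases Nat.eq_zero_or_pos i with rfl | hi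
    · simp
    · obtain ⟨m, rfl⟩ : ∃ m, i = m + 1 := ⟨i - 1, by omega⟩
      simp only [Nat.add_sub_cancel, map_pow]
      push_cast
      ring

end IsDer

/-- If the derivative of `π` is killed by `y`, then `y` has value at least `(e - 1) / e`. -/
theorem ge_of_mul_deriv_eq_zero (h : LocalData K G w p) (hJ : J.FiniteIndex) (hJJ : J ≤ J')
    [Fintype (G ⧸ J)]
    (hπ : ∀ g ∈ J', g • π = π) (hπv : w.Is (1 / J'.index) π) (hπp : π ^ J'.index = (p : K))
    (he : ¬ p ∣ J'.index) (he2 : 2 ≤ J'.index)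
    (hβ : ∀ g ∈ J, g • β = β) (hv : w.Is (1 / J.index) β)
    {N : Type*} [CommRing N] {mk : intRing w →+* N} {D : fixRing w J → N}
    (hmk : ∀ y, mk y = 0 → w.Ge (w.val (dif J β hβ)) (y : K)) (hD : IsDer w J β mk D)
    (πO : fixRing w J) (hπO : (πO : K) = π)
    (y : intRing w) (hy : mk y * D πO = 0) :
    w.Ge (1 - 1 / J'.index) (y : K) := by
  classical
  have hJ' : J'.FiniteIndex := Subgroup.finiteIndex_of_le hJJ
  have hn0 : 0 < J.index := Nat.pos_of_ne_zero hJ.index_ne_zero
  have hn' : (0 : ℚ) < J.index := by exact_mod_cast hn0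
  have he0 : 0 < J'.index := Nat.pos_of_ne_zero hJ'.index_ne_zero
  have he' : (0 : ℚ) < J'.index := by exact_mod_cast he0
  have hβ0 : w.Ge 0 β := hv.ge.mono (by positivity)
  have hπ0 : w.Ge 0 π := hπv.ge.mono (by positivity)
  let inc : fixRing w J →+* intRing w := Subring.inclusion (fixRing_le_intRing w J)
  have hDadd := hD.add
  have hDmul : ∀ a b, D (a * b) = mk (inc a) * D b + mk (inc b) * D a := hD.mul
  have hDpow : ∀ a (i : ℕ), D (a ^ i) = (i : N) * mk (inc a) ^ (i - 1) * D a := hD.pow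
  have hDsum : ∀ (s : Finset ℕ) (f : ℕ → fixRing w J), D (∑ i ∈ s, f i) = ∑ i ∈ s, D (f i) :=
    fun s f => hD.sum s f
  -- the polynomial `Q`
  let b : G ⧸ J → intRing w := fun q => ⟨conj J β hβ q, h.conj_ge hβ hβ0 q⟩
  let S' := cosets J J'
  let Q𝒪 : (intRing w)[X] := ∏ q ∈ S', (X - C (b q))
  let Q : K[X] := ∏ q ∈ S', (X - C (conj J β hβ q))
  have hQmap : Q𝒪.map (intRing w).subtype = Q := by
    simp only [Q𝒪, Q]
    rw [Polynomial.map_prod]
    refine Finset.prod_congr rfl fun q _ => ?_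
    rw [Polynomial.map_sub, map_X, map_C]
    rfl
  have hQcoeff : ∀ i, w.Ge 0 (Q.coeff i) := by
    intro i
    rw [← hQmap, coeff_map]
    exact (Q𝒪.coeff i).2
  have hQfix : ∀ g ∈ J', ∀ i, g • Q.coeff i = Q.coeff i := by
    intro g hg i
    have h1 : Q.map (MulSemiringAction.toRingHom G K g) = Q := by
      simp only [Q]
      rw [Polynomial.map_prod]
      refine Finset.prod_bij (fun q _ => g • q) ?_ ?_ ?_ ?_
      · intro q hq
        exact (smul_mem_cosets hg).mpr hq
      · intro a _ a' _ haa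
        exact MulAction.injective g haa
      · intro q hq
        refine ⟨g⁻¹ • q, (smul_mem_cosets (J'.inv_mem hg)).mpr hq, smul_inv_smul g q⟩
      · intro q _
        rw [Polynomial.map_sub, map_X, map_C, ← smul_conj]
        rfl
    have h2 := congrArg (fun F => Polynomial.coeff F i) h1
    simp only [coeff_map] at h2
    exact h2
  have hQmem : ∀ i, Q.coeff i ∈ fixRing w J' := fun i => ⟨hQcoeff i, fun g hg => hQfix g hg i⟩
  choose cq hcq hcq2 using fun i => h.exists_coeffs hJ' hπ hπv (hQmem i)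
  -- elements of the fixed ring
  let ι0 : fixRing w (⊤ : Subgroup G) →+* fixRing w J := Subring.inclusion (fixRing_mono le_top)
  let a : ℕ → ℕ → fixRing w J := fun i l => ι0 ⟨cq i l, hcq i l⟩
  have hDa : ∀ i l, D (a i l) = 0 := fun i l => hD.const _ fun g => (hcq i l).2 g (Subgroup.mem_top g)
  let βO : fixRing w J := ⟨β, hβ0, hβ⟩
  have hDβ : D βO = 1 := hD.beta _ rfl
  let QO : ℕ → fixRing w J := fun i => ∑ l ∈ Finset.range J'.index, a i l * πO ^ l
  have hQO : ∀ i, ((QO i : fixRing w J) : K) = Q.coeff i := by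
    intro i
    rw [hcq2 i]
    simp only [QO]
    rw [AddSubmonoidClass.coe_finsetSum]
    refine Finset.sum_congr rfl fun l _ => ?_
    rw [← hπO]
    rfl
  let RO : ℕ → intRing w := fun i =>
    ∑ l ∈ Finset.range J'.index, inc (a i l) * (l : intRing w) * (inc πO) ^ (l - 1)
  have hDQO : ∀ i, D (QO i) = mk (RO i) * D πO := by
    intro i
    simp only [QO, RO]
    rw [hDsum, map_sum, Finset.sum_mul]
    refine Finset.sum_congr rfl fun l _ => ?_
    rw [hDmul, hDa, mul_zero, add_zero, hDpow, map_mul, map_mul, map_natCast, map_pow]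
    ring
  let n₁ := S'.card + 1
  have hQdeg : Q.natDegree < n₁ := by
    have : Q.natDegree ≤ S'.card := by
      refine (natDegree_prod_le _ _).trans ?_
      refine (Finset.sum_le_card_nsmul _ _ 1 fun q _ => natDegree_X_sub_C_le _).trans ?_
      simp
    omega
  have hQβ : ∑ i ∈ Finset.range n₁, QO i * βO ^ i = 0 := by
    apply Subtype.ext
    rw [AddSubmonoidClass.coe_finsetSum]
    have h1 : Q.eval β = 0 := by
      simp only [Q]
      rw [eval_prod]
      apply Finset.prod_eq_zero (one_mem_cosets (J := J) (J' := J'))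
      rw [conj_mk, one_smul]
      simp
    rw [eval_eq_sum_range' hQdeg] at h1
    rw [Subring.coe_zero, ← h1]
    refine Finset.sum_congr rfl fun i _ => ?_
    rw [Subring.coe_mul, hQO]
    rfl
  let T : intRing w := ∑ i ∈ Finset.range n₁, RO i * (inc βO) ^ i
  let dQ : intRing w := ∏ q ∈ S'.erase ((1 : G) : G ⧸ J), (inc βO - b q)
  have hbβ : b ((1 : G) : G ⧸ J) = inc βO := Subtype.ext (one_smul G β)
  have hdQ : ∑ i ∈ Finset.range n₁, inc (QO i) * ((i : intRing w) * (inc βO) ^ (i - 1)) = dQ := by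
    have h1 : (derivative Q𝒪).eval (inc βO) = dQ := by
      simp only [Q𝒪]
      rw [← Finset.mul_prod_erase _ _ (one_mem_cosets (J := J) (J' := J')), hbβ]
      simp only [derivative_mul, derivative_sub, derivative_X, derivative_C, eval_add, eval_mul,
        eval_sub, eval_X, eval_C, sub_self, zero_mul, sub_zero, one_mul, add_zero,
        eval_prod, dQ, S']
    have hdeg𝒪 : Q𝒪.natDegree < n₁ := by
      have : Q𝒪.natDegree ≤ S'.card := by
        refine (natDegree_prod_le _ _).trans ?_
        refine (Finset.sum_le_card_nsmul _ _ 1 fun q _ => natDegree_X_sub_C_le _).trans ?_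
        simp
      omega
    rw [← h1, derivative_eval, sum_over_range' _ (by simp) n₁ hdeg𝒪]
    refine Finset.sum_congr rfl fun i _ => ?_
    have h2 : inc (QO i) = Q𝒪.coeff i := by
      apply Subtype.ext
      have h3 : Q.coeff i = ((Q𝒪.coeff i : intRing w) : K) := by
        rw [← hQmap, coeff_map]
        rfl
      rw [← h3, ← hQO]
      rfl
    rw [h2]
    ring
  have hrel : mk T * D πO + mk dQ = 0 := by
    have h1 : D (∑ i ∈ Finset.range n₁, QO i * βO ^ i) = 0 := by
      rw [hQβ]
      exact hD.zero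
    rw [hDsum] at h1
    rw [← h1, ← hdQ]
    simp only [T]
    rw [map_sum, map_sum, Finset.sum_mul, ← Finset.sum_add_distrib]
    refine Finset.sum_congr rfl fun i _ => ?_
    rw [hDmul, hDQO, hDpow, hDβ]
    simp only [map_mul, map_pow, map_natCast]
    ring
  -- `T` is a unit
  have hcard : (S'.card : ℚ) * J'.index = J.index := by
    have := card_cosets (J := J) (J' := J') hJJ
    exact_mod_cast this
  have hQ0 : w.Is (1 / J'.index) (Q.coeff 0) := by
    have h1 : Q.coeff 0 = ∏ q ∈ S', (- conj J β hβ q) := by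
      rw [coeff_zero_eq_eval_zero]
      simp only [Q]
      rw [eval_prod]
      refine Finset.prod_congr rfl fun q _ => ?_
      simp
    rw [h1]
    refine (is_prod (r := fun _ => 1 / (J.index : ℚ)) fun q _ => (h.conj_is hβ hv q).neg).congr ?_
    rw [Finset.sum_const, nsmul_eq_mul, ← hcard]
    have : (S'.card : ℚ) ≠ 0 := by
      intro h0
      rw [h0, zero_mul] at hcard
      exact hn'.ne hcard
    field_simp
  have hR0 : w.Is 0 ((RO 0 : intRing w) : K) := by
    have hfix0 : ∀ (g : G) (l : ℕ), g • cq 0 l = cq 0 l := fun g l =>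
      (hcq 0 l).2 g (Subgroup.mem_top g)
    have hdist := h.val_mul_pow_dist he0 hπv hfix0
    have hne : ∃ l ∈ Finset.range J'.index, cq 0 l * π ^ l ≠ 0 := by
      by_contra hcon
      push Not at hcon
      have h1 := hcq2 0
      rw [Finset.sum_eq_zero hcon] at h1
      exact hQ0.1 h1
    obtain ⟨l, hl, hl0, hlI, -⟩ := exists_is_sum hdist hne
    rw [← hcq2 0] at hlI
    have h2 : w.val (cq 0 l * π ^ l) = 1 / J'.index := (hlI.unique hQ0)
    have hcl0 : cq 0 l ≠ 0 := left_ne_zero_of_mul hl0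
    obtain ⟨m, hm⟩ := h.int (cq 0 l) hcl0 (fun g => hfix0 g l)
    rw [((QVal.Is.of_ne hcl0).mul (hπv.pow l)).2, hm] at h2
    have h3 : (J'.index : ℚ) * m + l = 1 := by
      field_simp at h2
      linarith
    have h4 : (J'.index : ℤ) * m + l = 1 := by exact_mod_cast h3
    have hl' : (l : ℤ) < J'.index := by exact_mod_cast Finset.mem_range.mp hl
    have hm0 : m = 0 := by
      have h5 : (2 : ℤ) ≤ J'.index := by exact_mod_cast he2
      by_contra hne
      rcases lt_or_gt_of_ne hne with h6 | h6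
      · nlinarith
      · nlinarith
    have hl1 : l = 1 := by
      rw [hm0, mul_zero, zero_add] at h4
      exact_mod_cast h4
    subst hl1
    have hc1 : w.Is 0 (cq 0 1) := ⟨hcl0, by rw [hm, hm0]; simp⟩
    have h7 : ((RO 0 : intRing w) : K) =
        ∑ l ∈ Finset.range J'.index, cq 0 l * (l : K) * π ^ (l - 1) := by
      simp only [RO]
      rw [AddSubmonoidClass.coe_finsetSum]
      refine Finset.sum_congr rfl fun l _ => ?_
      rw [← hπO]
      simp only [Subring.coe_mul, Subring.coe_pow, Subring.coe_natCast]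
      rfl
    rw [h7, ← Finset.add_sum_erase _ _ (Finset.mem_range.mpr (by omega : 1 < J'.index))]
    have h8 : w.Is 0 (cq 0 1 * ((1 : ℕ) : K) * π ^ (1 - 1)) := by
      simpa using hc1
    refine h8.add_gt (gt_sum fun l hl => ?_)
    obtain ⟨hl1, hl2⟩ := Finset.mem_erase.mp hl
    rcases Nat.eq_zero_or_pos l with rfl | hlpos
    · simp only [Nat.cast_zero, mul_zero, zero_mul]
      exact QVal.gt_zero _
    have hl3 : 1 ≤ l - 1 := by omega
    have h9 : w.Gt 0 (π ^ (l - 1)) := by
      refine (hπv.pow (l - 1)).gt ?_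
      have : (1 : ℚ) ≤ ((l - 1 : ℕ) : ℚ) := by exact_mod_cast hl3
      have := mul_pos (lt_of_lt_of_le one_pos this) (one_div_pos.mpr he')
      exact this
    exact (((hcq 0 l).1.mul (QVal.ge_natCast l)).mul_gt h9).mono (by norm_num)
  have hT : w.Is 0 (T : K) := by
    have h1 : (T : K) = ((RO 0 : intRing w) : K) +
        ∑ i ∈ Finset.range S'.card, ((RO (i + 1) : intRing w) : K) * β ^ (i + 1) := by
      simp only [T]
      rw [AddSubmonoidClass.coe_finsetSum, Finset.sum_range_succ', add_comm]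
      congr 1
      · simp
    rw [h1]
    refine hR0.add_gt (gt_sum fun i _ => ?_)
    have h2 : w.Gt 0 (β ^ (i + 1)) := by
      refine (hv.pow (i + 1)).gt ?_
      positivity
    exact ((RO (i + 1)).2.mul_gt h2).mono (by norm_num)
  -- conclusion
  have h1 : mk (y * dQ) = 0 := by
    have h2 : mk dQ = - (mk T * D πO) := eq_neg_of_add_eq_zero_right hrel
    rw [map_mul, h2]
    have h3 : mk y * D πO = 0 := hy
    calc mk y * -(mk T * D πO) = -(mk T * (mk y * D πO)) := by ring
      _ = 0 := by rw [h3, mul_zero, neg_zero]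
  have h2 : w.Ge (w.val (dif J β hβ)) ((y : K) * (dQ : K)) := hmk _ h1
  have hdQK : (dQ : K) = ∏ q ∈ S'.erase ((1 : G) : G ⧸ J), (β - conj J β hβ q) := by
    simp only [dQ]
    exact map_prod (intRing w).subtype _ _
  have hdQne : (dQ : K) ≠ 0 := by
    rw [hdQK, Finset.prod_ne_zero_iff]
    intro q hq
    rw [sub_ne_zero]
    intro h8
    have h9 : conj J β hβ q = conj J β hβ ((1 : G) : G ⧸ J) := by
      rw [← h8]; exact (one_smul G β).symm
    exact (Finset.mem_erase.mp hq).1 (h.conj_injective hJ hβ hv h9)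
  have hdif : dif J β hβ = (dQ : K) * ∏ q ∈ Finset.univ \ S', (β - conj J β hβ q) := by
    rw [hdQK, dif, mul_comm]
    have hsub : S'.erase ((1 : G) : G ⧸ J) ⊆ Finset.univ.erase ((1 : G) : G ⧸ J) :=
      Finset.erase_subset_erase _ (Finset.subset_univ _)
    rw [← Finset.prod_sdiff hsub]
    congr 1
    refine Finset.prod_congr ?_ fun _ _ => rfl
    ext q
    simp only [Finset.mem_sdiff, Finset.mem_erase, Finset.mem_univ, and_true, not_and, true_and]
    constructor
    · rintro ⟨h3, h4⟩
      exact h4 h3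
    · intro h3
      refine ⟨?_, fun _ => h3⟩
      rintro rfl
      exact h3 one_mem_cosets
  have hrest : w.Is ((Finset.univ \ S').card * (1 / (J.index : ℚ)))
      (∏ q ∈ Finset.univ \ S', (β - conj J β hβ q)) := by
    refine (is_prod (r := fun _ => 1 / (J.index : ℚ)) fun q hq => ?_).congr (by
      rw [Finset.sum_const, nsmul_eq_mul])
    rw [Finset.mem_sdiff] at hq
    induction q using QuotientGroup.induction_on with
    | H g => exact h.is_beta_sub hJ hJJ hπ hπv hπp he hv (notMem_of_notMem_cosets hq.2)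
  have hval : w.val (dif J β hβ) =
      w.val (dQ : K) + (Finset.univ \ S').card * (1 / (J.index : ℚ)) := by
    rw [hdif, ((QVal.Is.of_ne hdQne).mul hrest).2]
  have hcard2 : ((Finset.univ \ S').card : ℚ) * (1 / (J.index : ℚ)) = 1 - 1 / J'.index := by
    rw [Finset.card_sdiff_of_subset (Finset.subset_univ _), Finset.card_univ, ← Nat.card_eq_fintype_card,
      ← Subgroup.index_eq_card, Nat.cast_sub]
    · have : (S'.card : ℚ) = J.index / J'.index := by
        rw [eq_div_iff he'.ne']
        exact hcard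
      rw [this]
      field_simp
    · have h3 := card_cosets (J := J) (J' := J') hJJ
      calc S'.card = S'.card * 1 := (mul_one _).symm
        _ ≤ S'.card * J'.index := Nat.mul_le_mul_left _ he0
        _ = J.index := h3
  rw [mul_comm] at h2
  have h3 := h2.of_mul (QVal.Is.of_ne hdQne)
  rw [hval, add_sub_cancel_left, hcard2] at h3
  exact h3

/-- `p`-th powers are additive modulo `p`. -/
lemma ge_sum_pow_sub (h : LocalData K G w p) {ι : Type*} (s : Finset ι) (f : ι → K)
    (hf : ∀ i ∈ s, w.Ge 0 (f i)) : w.Ge 1 ((∑ i ∈ s, f i) ^ p - ∑ i ∈ s, f i ^ p) := by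
  classical
  induction s using Finset.induction_on with
  | empty =>
    rw [Finset.sum_empty, Finset.sum_empty, zero_pow h.prime.ne_zero, sub_zero]
    exact QVal.ge_zero _
  | insert a s ha ih =>
    rw [Finset.sum_insert ha, Finset.sum_insert ha]
    have h1 : w.Ge 0 (f a) := hf a (Finset.mem_insert_self a s)
    have h2 : w.Ge 0 (∑ i ∈ s, f i) := ge_sum fun i hi => hf i (Finset.mem_insert_of_mem hi)
    obtain ⟨r, hr⟩ := exists_add_pow_prime_eq h.prime (⟨f a, h1⟩ : intRing w)
      (⟨∑ i ∈ s, f i, h2⟩ : intRing w)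
    have h3 : (f a + ∑ i ∈ s, f i) ^ p = f a ^ p + (∑ i ∈ s, f i) ^ p +
        (p : K) * (f a * (∑ i ∈ s, f i) * (r : K)) := by
      have := congrArg (fun z : intRing w => (z : K)) hr
      simpa [mul_assoc] using this
    have h4 : (f a + ∑ i ∈ s, f i) ^ p - (f a ^ p + ∑ i ∈ s, f i ^ p) =
        ((∑ i ∈ s, f i) ^ p - ∑ i ∈ s, f i ^ p) + (p : K) * (f a * (∑ i ∈ s, f i) * (r : K)) := by
      rw [h3]; ring
    rw [h4]
    refine (ih fun i hi => hf i (Finset.mem_insert_of_mem hi)).add ?_
    exact (h.val_p.ge.mul ((h1.mul h2).mul r.2)).mono (by norm_num)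

/-- integral fixed elements of positive value have value `≥ 1`. -/
lemma ge_one_of_gt (h : LocalData K G w p) {x : K} (hx : ∀ g : G, g • x = x) (hx0 : w.Gt 0 x) :
    w.Ge 1 x := by
  rcases hx0 with h0 | h0
  · exact Or.inl h0
  by_cases hxz : x = 0
  · exact Or.inl hxz
  right
  obtain ⟨m, hm⟩ := h.int x hxz hx
  rw [hm] at h0 ⊢
  have : (0 : ℤ) < m := by exact_mod_cast h0
  exact_mod_cast this

/-- `p`-th roots modulo `p` of fixed integral elements. -/
lemma exists_root_mod (h : LocalData K G w p) (hroot : ∀ a : K, ∃ y : K, y ^ p = a) {a : K}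
    (ha : w.Ge 0 a) (hfix : ∀ g : G, g • a = a) :
    ∃ b, (∀ g : G, g • b = b) ∧ w.Ge 0 b ∧ w.Ge 1 (a - b ^ p) := by
  obtain ⟨y, hy⟩ := hroot a
  have hy0 : w.Ge 0 y := by
    by_contra hcon
    rw [QVal.not_ge_iff] at hcon
    have h1 := (QVal.Is.of_ne (w := w) hcon.1).pow p
    rw [hy] at h1
    have h2 := h1.le_of_ge ha
    have h3 : (0 : ℚ) < p := by exact_mod_cast h.prime.pos
    nlinarith [hcon.2]
  obtain ⟨b, hb, hb0, hyb⟩ := h.lift y hy0
  refine ⟨b, hb, hb0, h.ge_one_of_gt ?_ ?_⟩
  · intro g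
    rw [smul_sub, smul_pow', hb, hfix]
  · rw [← hy]
    have h1 : y ^ p - b ^ p = (∑ i ∈ Finset.range p, y ^ i * b ^ (p - 1 - i)) * (y - b) :=
      (Commute.geom_sum₂_mul (Commute.all y b) p).symm
    rw [h1]
    have h2 : w.Ge 0 (∑ i ∈ Finset.range p, y ^ i * b ^ (p - 1 - i)) := by
      apply ge_sum
      intro i _
      exact ((hy0.pow i).mul (hb0.pow _)).mono (by norm_num)
    exact (h2.mul_gt hyb).mono (by norm_num)

/-- **Elements of the tame layer with trivial derivative are `p`-th powers modulo `p`.** -/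
theorem exists_pow_of_deriv_eq_zero (h : LocalData K G w p) (hJ : J.FiniteIndex) (hJJ : J ≤ J')
    [Fintype (G ⧸ J)]
    (hπ : ∀ g ∈ J', g • π = π) (hπv : w.Is (1 / J'.index) π) (hπp : π ^ J'.index = (p : K))
    (he : ¬ p ∣ J'.index) (he2 : 2 ≤ J'.index)
    (hβ : ∀ g ∈ J, g • β = β) (hv : w.Is (1 / J.index) β)
    {N : Type*} [CommRing N] {mk : intRing w →+* N} {D : fixRing w J → N}
    (hmk : ∀ y, mk y = 0 → w.Ge (w.val (dif J β hβ)) (y : K)) (hD : IsDer w J β mk D)
    (hroot : ∀ a : K, ∃ y : K, y ^ p = a)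
    (u : fixRing w J) (hu : ∀ g ∈ J', g • (u : K) = u) (hDu : D u = 0) :
    ∃ v ∈ fixRing w J', w.Ge 1 ((u : K) - v ^ p) := by
  classical
  have hJ' : J'.FiniteIndex := Subgroup.finiteIndex_of_le hJJ
  have he0 : 0 < J'.index := Nat.pos_of_ne_zero hJ'.index_ne_zero
  have he' : (0 : ℚ) < J'.index := by exact_mod_cast he0
  have hπ0 : w.Ge 0 π := hπv.ge.mono (by positivity)
  let inc : fixRing w J →+* intRing w := Subring.inclusion (fixRing_le_intRing w J)
  obtain ⟨c, hc, huc⟩ := h.exists_coeffs hJ' hπ hπv (y := (u : K)) ⟨u.2.1, hu⟩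
  -- truncate
  let a : ℕ → K := fun i => if i < J'.index then c i else 0
  have haA : ∀ i, a i ∈ fixRing w (⊤ : Subgroup G) := by
    intro i
    simp only [a]
    split_ifs
    · exact hc i
    · exact Subring.zero_mem _
  have hafix : ∀ (g : G) (i : ℕ), g • a i = a i := fun g i => (haA i).2 g (Subgroup.mem_top g)
  have hua : (u : K) = ∑ i ∈ Finset.range J'.index, a i * π ^ i := by
    rw [huc]
    refine Finset.sum_congr rfl fun i hi => ?_
    simp only [a, if_pos (Finset.mem_range.mp hi)]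
  let ι0 : fixRing w (⊤ : Subgroup G) →+* fixRing w J := Subring.inclusion (fixRing_mono le_top)
  let πO : fixRing w J := ⟨π, hπ0, fun g hg => hπ g (hJJ hg)⟩
  let aO : ℕ → fixRing w J := fun i => ι0 ⟨a i, haA i⟩
  have huO : u = ∑ i ∈ Finset.range J'.index, aO i * πO ^ i := by
    apply Subtype.ext
    rw [hua, AddSubmonoidClass.coe_finsetSum]
    rfl
  let U' : intRing w := ∑ i ∈ Finset.range J'.index,
    inc (aO i) * (i : intRing w) * (inc πO) ^ (i - 1)
  have hDU : mk U' * D πO = 0 := by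
    rw [← hDu, huO, hD.sum]
    simp only [U']
    rw [map_sum, Finset.sum_mul]
    refine Finset.sum_congr rfl fun i _ => ?_
    rw [hD.mul, hD.pow, hD.const (aO i) (fun g => hafix g i), mul_zero, add_zero, map_mul, map_mul,
      map_natCast, map_pow]
    ring
  have hge := h.ge_of_mul_deriv_eq_zero hJ hJJ hπ hπv hπp he he2 hβ hv hmk hD πO rfl U' hDU
  have hU' : (U' : K) = ∑ j ∈ Finset.range J'.index, (a (j + 1) * ((j + 1 : ℕ) : K)) * π ^ j := by
    simp only [U']
    rw [AddSubmonoidClass.coe_finsetSum]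
    obtain ⟨e₁, he₁⟩ : ∃ e₁, J'.index = e₁ + 1 := ⟨J'.index - 1, by omega⟩
    rw [he₁, Finset.sum_range_succ', Finset.sum_range_succ]
    congr 1
    have : a (e₁ + 1) = 0 := by
      simp only [a, he₁]
      rw [if_neg (lt_irrefl _)]
    rw [this, zero_mul, zero_mul]
    simp
  rw [hU'] at hge
  have hcfix : ∀ (g : G) (j : ℕ), g • (a (j + 1) * ((j + 1 : ℕ) : K)) =
      a (j + 1) * ((j + 1 : ℕ) : K) := fun g j => by
    rw [smul_mul', hafix, smul_natCast]
  have hterm := ge_of_ge_sum (h.val_mul_pow_dist he0 hπv hcfix) hge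
  -- the coefficients prime to `p` are divisible by `p`
  have hcoef : ∀ i, i < J'.index → ¬ p ∣ i → w.Ge 1 (a i) := by
    intro i hi hpi
    obtain ⟨j, rfl⟩ : ∃ j, i = j + 1 := by
      refine ⟨i - 1, ?_⟩
      have : i ≠ 0 := by
        rintro rfl
        exact hpi (dvd_zero p)
      omega
    have h1 := hterm j (Finset.mem_range.mpr (by omega))
    rw [mul_comm] at h1
    have h2 := h1.of_mul (hπv.pow j)
    have h3 : (0 : ℚ) < 1 - 1 / J'.index - j * (1 / J'.index) := by
      have : ((j + 1 : ℕ) : ℚ) < J'.index := by exact_mod_cast hi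
      push_cast at this
      have h4 : (1 : ℚ) - 1 / J'.index - j * (1 / J'.index) = (J'.index - (j + 1)) / J'.index := by
        field_simp
        ring
      rw [h4]
      exact div_pos (by linarith) he'
    have h5 := h.ge_one_of_gt (fun g => hcfix g j) (h2.gt h3)
    rw [mul_comm] at h5
    exact (h5.of_mul (h.is_natCast hpi)).mono (by norm_num)
  -- construction of the root
  choose b hb hb0 hb1 using fun i => h.exists_root_mod hroot (haA i).1 (fun g => hafix g i)
  let T1 := (Finset.range J'.index).filter (fun i => p ∣ i)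
  let v : K := ∑ i ∈ T1, b i * π ^ (i / p)
  have hv0 : ∀ i, w.Ge 0 (b i * π ^ (i / p)) := fun i =>
    ((hb0 i).mul (hπ0.pow _)).mono (by norm_num)
  refine ⟨v, ⟨ge_sum fun i _ => hv0 i, fun g hg => ?_⟩, ?_⟩
  · simp only [v]
    rw [Finset.smul_sum]
    refine Finset.sum_congr rfl fun i _ => ?_
    rw [smul_mul', smul_pow', hb, hπ g hg]
  · have h1 := h.ge_sum_pow_sub T1 (fun i => b i * π ^ (i / p)) (fun i _ => hv0 i)
    have h2 : (u : K) - v ^ p = (∑ i ∈ T1, (a i - b i ^ p) * π ^ i +
        ∑ i ∈ (Finset.range J'.index).filter (fun i => ¬ p ∣ i), a i * π ^ i) -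
        (v ^ p - ∑ i ∈ T1, (b i * π ^ (i / p)) ^ p) := by
      have h3 : ∑ i ∈ T1, (b i * π ^ (i / p)) ^ p = ∑ i ∈ T1, b i ^ p * π ^ i := by
        refine Finset.sum_congr rfl fun i hi => ?_
        have hpi : p ∣ i := (Finset.mem_filter.mp hi).2
        rw [mul_pow, ← pow_mul, Nat.div_mul_cancel hpi]
      rw [h3, hua, ← Finset.sum_filter_add_sum_filter_not (Finset.range J'.index)
        (fun i => p ∣ i)]
      simp only [sub_mul, Finset.sum_sub_distrib, T1]
      ring
    rw [h2]
    refine QVal.Ge.sub (QVal.Ge.add ?_ ?_) h1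
    · apply ge_sum
      intro i _
      exact ((hb1 i).mul (hπ0.pow i)).mono (by norm_num)
    · apply ge_sum
      intro i hi
      obtain ⟨hi1, hi2⟩ := Finset.mem_filter.mp hi
      exact ((hcoef i (Finset.mem_range.mp hi1) hi2).mul (hπ0.pow i)).mono (by norm_num)

end deriv

end LocalData

end Fermat.Agent.FlatP
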