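import Fermat.Agent.FlatGS.Hopf
import Mathlib.RingTheory.HopfAlgebra.Convolution

/-!
# Infinitesimal deformations of points of a finite flat group scheme killed by `n`

If two points of a commutative group scheme with values in `S` agree modulo an ideal of square
zero and have the same `n`-th multiple, their difference is killed by `n`.
-/

set_option autoImplicit false

open scoped TensorProduct
open WithConv

namespace Fermat.Agent.FlatP

section Hopf

variable {R B S : Type*} [CommRing R] [CommRing B] [HopfAlgebra R B] [Coalgebra.IsCocomm R B]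
  [CommRing S] [Algebra R S]

/-- the linear map underlying a point -/
noncomputable def toLin : WithConv (B →ₐ[R] S) →* WithConv (B →ₗ[R] S) where
  toFun f := toConv f.ofConv.toLinearMap
  map_one' := AlgHom.toLinearMap_convOne
  map_mul' f g := AlgHom.toLinearMap_convMul f g

omit [Coalgebra.IsCocomm R B] in
lemma toLin_apply (f : WithConv (B →ₐ[R] S)) (b : B) : toLin f b = f b := rfl

theorem natCast_mul_sub_eq_zero (J : Ideal S) (hJ : ∀ x ∈ J, ∀ y ∈ J, x * y = 0) (n : ℕ)
    (φ φ' : WithConv (B →ₐ[R] S)) (hφ : φ ^ n = φ' ^ n) (h : ∀ b, φ b - φ' b ∈ J) (b : B) :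
    (n : S) * (φ b - φ' b) = 0 := by
  let f := toLin φ
  let f' := toLin φ'
  let τ := f - f'
  have hτ : ∀ b, τ b = φ b - φ' b := fun b => rfl
  have hττ : τ * τ = 0 := by
    apply WithConv.ext
    apply LinearMap.ext
    intro b
    let 𝓡 := Coalgebra.Repr.arbitrary R b
    have h1 := 𝓡.convMul_apply τ τ
    have h2 : (τ * τ) b = 0 := by
      rw [h1]
      refine Finset.sum_eq_zero fun i _ => ?_
      exact hJ _ (by rw [hτ]; exact h _) _ (by rw [hτ]; exact h _)
    exact h2
  have hunit : IsUnit f' := by
    have h1 := LinearMap.algHom_comp_convMul_distrib φ'.ofConv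
      (toConv (LinearMap.id : B →ₗ[R] B)) (toConv (HopfAlgebra.antipode R (A := B)))
    rw [LinearMap.id_mul_antipode] at h1
    have h2 : f' * toConv (φ'.ofConv.toLinearMap.comp (HopfAlgebra.antipode R (A := B))) = 1 := by
      apply WithConv.ext
      rw [LinearMap.comp_id] at h1
      refine h1.symm.trans ?_
      apply LinearMap.ext
      intro b
      change φ'.ofConv (algebraMap R B _) = algebraMap R S _
      rw [AlgHom.commutes]
    exact IsUnit.of_mul_eq_one _ h2
  obtain ⟨c, hc⟩ := Polynomial.powAddExpansion f' τ n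
  have h3 : (f' + τ) ^ n = f' ^ n := by
    have : f' + τ = f := add_sub_cancel _ _
    rw [this]
    change toLin φ ^ n = toLin φ' ^ n
    rw [← map_pow, ← map_pow, hφ]
  rw [pow_two, hττ, mul_zero, add_zero, h3] at hc
  have h4 : (n : WithConv (B →ₗ[R] S)) * f' ^ (n - 1) * τ = 0 := by
    exact left_eq_add.mp hc
  have h5 : (n : WithConv (B →ₗ[R] S)) * τ = 0 := by
    have h6 := (hunit.pow (n - 1)).mul_left_cancel
      (a := f' ^ (n - 1)) (b := (n : WithConv (B →ₗ[R] S)) * τ) (c := 0)
    apply h6
    rw [mul_zero, ← h4]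
    ring
  rw [← nsmul_eq_mul] at h5
  have h7 : (n • τ) b = 0 := by rw [h5]; rfl
  have h8 : (n • τ) b = n • τ b := rfl
  rw [h8, hτ, nsmul_eq_mul] at h7
  exact h7

end Hopf

section Model

open Fermat.Agent.FlatGS Fermat.Agent.FlatGS.IsModel

variable {p : ℕ} {M : Type} [AddCommGroup M] {act : GQ → M → M} {B : Subalgebra (Rp p) (M → Om)}

/-- evaluation with values in a subalgebra containing all values -/
noncomputable def evO (B : Subalgebra (Rp p) (M → Om)) (O : Subalgebra (Rp p) Om)
    (hO : ∀ b ∈ B, ∀ x : M, b x ∈ O) (x : M) : B →ₐ[Rp p] O :=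
  (ev B x).codRestrict O fun b => hO b b.2 x

omit [AddCommGroup M] in
@[simp] lemma coe_evO (O : Subalgebra (Rp p) Om) (hO : ∀ b ∈ B, ∀ x : M, b x ∈ O) (x : M) (b : B) :
    (evO B O hO x b : Om) = (b : M → Om) x := rfl

/-- **Key infinitesimal fact.** Let `M` be finite flat with model `B`, `n • x = 0`,
`g, g'` two homomorphisms from a ring `O` containing the values of `B`, which agree modulo an ideal
of square zero and on `ℤ_(p)`. Then `n * (g (b x) - g' (b x)) = 0`. -/
theorem mul_sub_eq_zero_of_nsmul [Finite M] (h : IsModel p act B) (O : Subalgebra (Rp p) Om)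
    (hO : ∀ b ∈ B, ∀ x : M, b x ∈ O) {S : Type*} [CommRing S] (g g' : O →+* S) (J : Ideal S)
    (hJ : ∀ x ∈ J, ∀ y ∈ J, x * y = 0) (hgg : ∀ y, g y - g' y ∈ J)
    (hR : ∀ r : Rp p, g (algebraMap (Rp p) O r) = g' (algebraMap (Rp p) O r))
    {n : ℕ} {x : M} (hx : n • x = 0) {b : M → Om} (hb : b ∈ B) :
    (n : S) * (g ⟨b x, hO b hb x⟩ - g' ⟨b x, hO b hb x⟩) = 0 := by
  let _ := h.hopf
  let _ : Algebra (Rp p) S := (g.comp (algebraMap (Rp p) O)).toAlgebra
  have hcocomm : Coalgebra.IsCocomm (Rp p) B := ⟨by
    apply LinearMap.ext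
    intro b
    apply h.ev2_ext
    intro x y
    change ev2 B x y (TensorProduct.comm (Rp p) B B (h.comulHom b)) = ev2 B x y (h.comulHom b)
    rw [ev2_comm, h.ev2_comulHom, h.ev2_comulHom, add_comm]⟩
  let gA : O →ₐ[Rp p] S := { g with commutes' := fun r => rfl }
  let gA' : O →ₐ[Rp p] S := { g' with commutes' := fun r => (hR r).symm }
  -- the group homomorphism `M → points with values in O`
  have hadd : ∀ x y : M, toConv (evO B O hO (x + y)) =
      toConv (evO B O hO x) * toConv (evO B O hO y) := by
    intro x y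
    apply WithConv.ext
    apply AlgHom.ext
    intro c
    apply Subtype.ext
    change (c : M → Om) (x + y) = ((toConv (evO B O hO x) * toConv (evO B O hO y)) c : O)
    rw [AlgHom.convMul_apply, ← h.ev2_comulHom x y c]
    have key : ev2 B x y = O.val.comp (Algebra.TensorProduct.lift (evO B O hO x)
        (evO B O hO y) fun _ _ => .all ..) := by
      apply Algebra.TensorProduct.ext
      · apply AlgHom.ext
        intro c
        simp [ev2]
      · apply AlgHom.ext
        intro c
        simp [ev2]
    exact DFunLike.congr_fun key (h.comulHom c)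
  have hzero : toConv (evO B O hO 0) = 1 := by
    apply WithConv.ext
    apply AlgHom.ext
    intro c
    apply Subtype.ext
    exact (h.algebraMap_counitHom c).symm
  have hnsmul : ∀ (k : ℕ), toConv (evO B O hO (k • x)) = toConv (evO B O hO x) ^ k := by
    intro k
    induction k with
    | zero => rw [zero_smul, hzero, pow_zero]
    | succ k ih => rw [succ_nsmul, hadd, ih, pow_succ]
  -- composition with an algebra homomorphism is a homomorphism on points
  have hcomp : ∀ (γ : O →ₐ[Rp p] S) (k : ℕ) (f : WithConv (B →ₐ[Rp p] O)),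
      (toConv (γ.comp f.ofConv) : WithConv (B →ₐ[Rp p] S)) ^ k =
        toConv (γ.comp (f ^ k).ofConv) := by
    intro γ k f
    induction k with
    | zero =>
      rw [pow_zero, pow_zero]
      apply WithConv.ext
      apply AlgHom.ext
      intro c
      change algebraMap (Rp p) S _ = γ (algebraMap (Rp p) O _)
      rw [γ.commutes]
    | succ k ih =>
      rw [pow_succ, pow_succ, ih, AlgHom.comp_convMul_distrib]
  have hpow : ∀ γ : O →ₐ[Rp p] S,
      (toConv (γ.comp (evO B O hO x)) : WithConv (B →ₐ[Rp p] S)) ^ n = 1 := by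
    intro γ
    have h1 := hcomp γ n (toConv (evO B O hO x))
    rw [← hnsmul, hx, hzero] at h1
    change (toConv (γ.comp (evO B O hO x)) : WithConv (B →ₐ[Rp p] S)) ^ n = _ at h1
    rw [h1]
    apply WithConv.ext
    apply AlgHom.ext
    intro c
    exact γ.commutes _
  exact natCast_mul_sub_eq_zero J hJ n (toConv (gA.comp (evO B O hO x)))
    (toConv (gA'.comp (evO B O hO x))) (by rw [hpow, hpow]) (fun c => hgg _) ⟨b, hb⟩

end Model

end Fermat.Agent.FlatP
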