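import Fermat.Agent.FlatP.Resolvent
import Fermat.Agent.FlatP.Killed
import Fermat.Agent.FlatP.Deriv2

/-!
# Kummer classes attached to finite flat group schemes killed by `p`

* `kummer_ord` : over the fixed field of inertia, the classes are classes of units `1 + p α`.
* `kummer_tame` : over the tame layer `K^{J'}`, `π ^ e = p`, the classes are of the form `1 + p α`
  with `α` integral in the tame layer.
-/

set_option autoImplicit false

namespace Fermat.Agent.FlatP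

open Fermat.Agent.FlatGS Fermat.Agent.MazurMult FermatAgent.ECVal

variable {p : ℕ} {M : Type} [AddCommGroup M] [Finite M] {act : GQ → M → M}
  {B : Subalgebra (Rp p) (M → Om)} {A : ValuationSubring Om}
  (hp : p.Prime) (hA : A.LiesOverPrime p)

/-- The universal derivation, with its target made opaque. -/
theorem LocalData.exists_der.{u} {K : Type u} {G : Type*} [Field K] [Group G] [MulSemiringAction G K]
    {w : QVal K} {p : ℕ} (h : LocalData K G w p) {J : Subgroup G} (hJ : J.FiniteIndex)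
    [Fintype (G ⧸ J)] {β : K} (hβ : ∀ g ∈ J, g • β = β) (hv : w.Is (1 / J.index) β) :
    ∃ (N : Type u) (_ : CommRing N) (mk : intRing w →+* N)
      (Θ : fixRing w J →+* DualNumber N),
      (∀ y, mk y = 0 → w.Ge (w.val (LocalData.dif J β hβ)) (y : K)) ∧
      (∀ y : fixRing w J, TrivSqZeroExt.fst (Θ y) =
        mk (Subring.inclusion (fixRing_le_intRing w J) y)) ∧
      LocalData.IsDer w J β mk (fun y => TrivSqZeroExt.snd (Θ y)) := by
  obtain ⟨Θ, hΘ1, hΘ2, hΘ3⟩ := h.exists_theta hJ hβ hv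
  refine ⟨_, inferInstance, Ideal.Quotient.mk _, Θ, ?_, hΘ1, ⟨?_, ?_, hΘ2, hΘ3⟩⟩
  · intro y hy
    exact Ideal.Quotient.eq_zero_iff_mem.mp hy
  · intro a b
    exact (congrArg TrivSqZeroExt.snd (Θ.map_add a b)).trans (TrivSqZeroExt.snd_add _ _)
  · intro a b
    refine (congrArg TrivSqZeroExt.snd (Θ.map_mul a b)).trans ?_
    rw [TrivSqZeroExt.snd_mul]
    have h1 := hΘ1 a
    have h2 := hΘ1 b
    rw [h1, h2, smul_eq_mul, op_smul_eq_mul, mul_comm (TrivSqZeroExt.snd (Θ a))]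
    rfl

theorem natCast_mul_snd_eq_zero (h : IsModel p act B) (O : Subalgebra (Rp p) Om)
    (hO : ∀ b ∈ B, ∀ x : M, b x ∈ O) {N : Type*} [CommRing N] (Θ : O →+* DualNumber N)
    (hR : ∀ r : Rp p, TrivSqZeroExt.snd (Θ (algebraMap (Rp p) O r)) = 0)
    {n : ℕ} {x : M} (hx : n • x = 0) {b : M → Om} (hb : b ∈ B) :
    (n : N) * TrivSqZeroExt.snd (Θ ⟨b x, hO b hb x⟩) = 0 := by
  let g₂ : O →+* DualNumber N :=
    (TrivSqZeroExt.inlHom N N).comp ((TrivSqZeroExt.fstHom N N N).toRingHom.comp Θ)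
  let Jε : Ideal (DualNumber N) := RingHom.ker (TrivSqZeroExt.fstHom N N N).toRingHom
  have h1 := mul_sub_eq_zero_of_nsmul h O hO Θ g₂ Jε (by
    intro u hu v hv
    have hu' : TrivSqZeroExt.fst u = 0 := (RingHom.mem_ker).mp hu
    have hv' : TrivSqZeroExt.fst v = 0 := (RingHom.mem_ker).mp hv
    apply TrivSqZeroExt.ext
    · rw [TrivSqZeroExt.fst_mul, hu', zero_mul, TrivSqZeroExt.fst_zero]
    · rw [TrivSqZeroExt.snd_mul, hu', hv']
      simp) (by
    intro u
    refine (RingHom.mem_ker).mpr ?_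
    change TrivSqZeroExt.fst (Θ u - g₂ u) = 0
    rw [TrivSqZeroExt.fst_sub, sub_eq_zero]
    rfl) (by
    intro r
    apply TrivSqZeroExt.ext
    · rfl
    · rw [hR r]; rfl) (n := n) (x := x) hx hb
  have h2 := congrArg TrivSqZeroExt.snd h1
  rw [TrivSqZeroExt.snd_mul, TrivSqZeroExt.snd_zero] at h2
  have h3 : TrivSqZeroExt.snd ((n : ℕ) : DualNumber N) = 0 := TrivSqZeroExt.snd_natCast n
  have h4 : TrivSqZeroExt.fst ((n : ℕ) : DualNumber N) = (n : N) := TrivSqZeroExt.fst_natCast n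
  rw [h3, h4, smul_zero, add_zero, smul_eq_mul, TrivSqZeroExt.snd_sub] at h2
  have h5 : TrivSqZeroExt.snd (g₂ ⟨b x, hO b hb x⟩) = 0 := rfl
  rw [h5, sub_zero] at h2
  exact h2

omit [Finite M] in
lemma lam_pow (hpM : ∀ x : M, p • x = 0) {V : AddSubgroup M} (lam : AddChar V Om) (y : V) :
    lam y ^ p = 1 := by
  rw [← AddChar.map_nsmul_eq_pow]
  have : p • y = 0 := Subtype.ext (by simpa using hpM y)
  rw [this, AddChar.map_zero_eq_one]

/-- The transformation rule of a resolvent. -/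
lemma map_zres_eq (h : IsModel p act B) {V : AddSubgroup M} {lam : AddChar V Om} {σ : GQ}
    (hV : ∀ y ∈ V, act σ y ∈ V)
    (hlam : ∀ (y : M) (hy : y ∈ V), lam ⟨act σ y, hV y hy⟩ = σ (lam ⟨y, hy⟩)) {b : M → Om}
    (hb : b ∈ B) {x : M} (hx : act σ x - x ∈ V) :
    σ (zres V lam b x) = lam ⟨act σ x - x, hx⟩ * zres V lam b x := by
  rw [map_zres h hV hlam hb, ← zres_add]
  congr 1
  change act σ x = x + (act σ x - x)
  abel

/-- **Ordinary case**: Kummer classes are classes of units of the fixed field of inertia. -/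
theorem kummer_ord (h : IsModel p act B) (hpM : ∀ x : M, p • x = 0) {V : AddSubgroup M}
    {lam : AddChar V Om}
    (hV : ∀ σ ∈ A.inertiaSubgroupIn ℚ, ∀ y ∈ V, act σ y ∈ V)
    (hlam : ∀ σ (hσ : σ ∈ A.inertiaSubgroupIn ℚ) (y : M) (hy : y ∈ V),
      lam ⟨act σ y, hV σ hσ y hy⟩ = σ (lam ⟨y, hy⟩))
    {x : M} (hx : ∀ σ ∈ A.inertiaSubgroupIn ℚ, act σ x - x ∈ V) :
    ∃ z α : Om, (∀ σ ∈ A.inertiaSubgroupIn ℚ, σ α = α) ∧ (valOf hp hA).Ge 0 α ∧
      z ^ p = 1 + p * α ∧
      ∀ σ (hσ : σ ∈ A.inertiaSubgroupIn ℚ), σ z = lam ⟨act σ x - x, hx σ hσ⟩ * z := by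
  have hL := localData hp hA
  obtain ⟨a, ha, a₀, ha₀, hval, hne, -⟩ := exists_unit_zres (V := V) (lam := lam) hp hA h x
  set z₁ := zres V lam a x with hz₁
  set z₀ := zres V lam a₀ 0 with hz₀
  have hz₀fix : ∀ σ ∈ A.inertiaSubgroupIn ℚ, σ z₀ = z₀ := by
    intro σ hσ
    rw [hz₀, map_zres h (hV σ hσ) (hlam σ hσ) ha₀, h.act_zero]
  have hz₁σ : ∀ σ (hσ : σ ∈ A.inertiaSubgroupIn ℚ), σ z₁ = lam ⟨act σ x - x, hx σ hσ⟩ * z₁ :=
    fun σ hσ => map_zres_eq h (hV σ hσ) (hlam σ hσ) ha (hx σ hσ)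
  have hunit : (valOf hp hA).Is 0 (z₁ * z₀⁻¹) :=
    (hval.mul (QVal.Is.of_ne (w := valOf hp hA) hne).inv).congr (by ring)
  obtain ⟨c, hc, hc0, hcz⟩ := hL.lift _ hunit.ge
  have hcfix : ∀ σ ∈ A.inertiaSubgroupIn ℚ, σ c = c := fun σ hσ => hc ⟨σ, hσ⟩
  have hcIs : (valOf hp hA).Is 0 c := by
    have h1 : c = z₁ * z₀⁻¹ - (z₁ * z₀⁻¹ - c) := by ring
    rw [h1]
    exact hunit.sub_gt hcz
  let z := z₁ * z₀⁻¹ * c⁻¹
  have hzIs : (valOf hp hA).Is 0 z := (hunit.mul hcIs.inv).congr (by ring)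
  have hzσ : ∀ σ (hσ : σ ∈ A.inertiaSubgroupIn ℚ), σ z = lam ⟨act σ x - x, hx σ hσ⟩ * z := by
    intro σ hσ
    simp only [z]
    rw [map_mul, map_mul, map_inv₀, map_inv₀, hz₀fix σ hσ, hcfix σ hσ, hz₁σ σ hσ]
    ring
  have hz1 : (valOf hp hA).Gt 0 (z - 1) := by
    have h1 : z - 1 = c⁻¹ * (z₁ * z₀⁻¹ - c) := by
      simp only [z]
      rw [mul_sub, inv_mul_cancel₀ hcIs.1]
      ring
    rw [h1]
    exact (hcIs.inv.ge.mul_gt hcz).mono (by norm_num)
  have hzpfix : ∀ σ ∈ A.inertiaSubgroupIn ℚ, σ (z ^ p) = z ^ p := by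
    intro σ hσ
    rw [map_pow, hzσ σ hσ, mul_pow, lam_pow hpM, one_mul]
  have hzp : (valOf hp hA).Gt 0 (z ^ p - 1) := by
    have h1 : z ^ p - 1 = (∑ i ∈ Finset.range p, z ^ i) * (z - 1) := (geom_sum_mul z p).symm
    rw [h1]
    have h2 : (valOf hp hA).Ge 0 (∑ i ∈ Finset.range p, z ^ i) :=
      ge_sum fun i _ => (hzIs.ge.pow i).mono (by norm_num)
    exact (h2.mul_gt hz1).mono (by norm_num)
  have hge1 : (valOf hp hA).Ge 1 (z ^ p - 1) := by
    apply hL.ge_one_of_gt _ hzp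
    rintro ⟨σ, hσ⟩
    change σ (z ^ p - 1) = z ^ p - 1
    rw [map_sub, map_one, hzpfix σ hσ]
  have hpv := valOf_prime hp hA
  refine ⟨z, (p : Om)⁻¹ * (z ^ p - 1), ?_, ?_, ?_, hzσ⟩
  · intro σ hσ
    rw [map_mul, map_inv₀, map_natCast, map_sub, map_one, hzpfix σ hσ]
  · exact (hpv.inv.ge.mul hge1).mono (by norm_num)
  · rw [mul_inv_cancel_left₀ hpv.1]
    ring

section tame

/-- elements of the inertia group acting trivially on `M` and fixing `π` -/
def trivSub (A : ValuationSubring Om) (act : GQ → M → M) (B : Subalgebra (Rp p) (M → Om))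
    (h : IsModel p act B) (π : Om) : Subgroup (A.inertiaSubgroupIn ℚ) where
  carrier := {g | (g : GQ) π = π ∧ ∀ x, act g x = x}
  mul_mem' := by
    rintro ⟨a, ha⟩ ⟨b, hb⟩ ⟨h1, h2⟩ ⟨h3, h4⟩
    refine ⟨?_, fun x => ?_⟩
    · change a (b π) = π
      rw [show b π = π from h3, show a π = π from h1]
    · apply h.sep
      intro c hc
      rw [h.equivariant c hc]
      change a (b (c x)) = c x
      rw [← h.equivariant c hc, show act b x = x from h4 x, ← h.equivariant c hc,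
        show act a x = x from h2 x]
  one_mem' := by
    refine ⟨rfl, fun x => ?_⟩
    apply h.sep
    intro c hc
    rw [h.equivariant c hc]
    rfl
  inv_mem' := by
    rintro ⟨a, ha⟩ ⟨h1, h2⟩
    refine ⟨?_, fun x => ?_⟩
    · change a⁻¹ π = π
      conv_lhs => rw [← show a π = π from h1]
      exact a.symm_apply_apply π
    · change act a⁻¹ x = x
      conv_lhs => rw [← show act a x = x from h2 x]
      exact h.act_inv_act a x

omit [Finite M] in
lemma mem_trivSub {h : IsModel p act B} {π : Om} {g : A.inertiaSubgroupIn ℚ} :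
    g ∈ trivSub A act B h π ↔ (g : GQ) π = π ∧ ∀ x, act g x = x := Iff.rfl

lemma finiteIndex_trivSub (h : IsModel p act B) (π : Om) :
    (trivSub A act B h π).FiniteIndex := by
  classical
  have := h.fin
  let e := Module.Free.chooseBasis (Rp p) B
  let f : Option (Module.Free.ChooseBasisIndex (Rp p) B × M) → Om := fun o =>
    o.elim π fun i => (e i.1 : M → Om) i.2
  have hfin : (⨅ o, MulAction.stabilizer (A.inertiaSubgroupIn ℚ) (f o)).FiniteIndex :=
    Subgroup.finiteIndex_iInf fun o => finiteIndex_stabilizer _ _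
  refine Subgroup.finiteIndex_of_le (H := ⨅ o, MulAction.stabilizer (A.inertiaSubgroupIn ℚ) (f o))
    ?_
  intro g hg
  rw [Subgroup.mem_iInf] at hg
  rw [mem_trivSub]
  refine ⟨hg none, fun x => ?_⟩
  apply h.sep
  intro b hb
  rw [h.equivariant b hb]
  have h1 : b x = ∑ i, algebraMap (Rp p) Om (e.repr ⟨b, hb⟩ i) * (e i : M → Om) x := by
    have h2 := congrArg (ev B x) (e.sum_repr ⟨b, hb⟩)
    rw [map_sum] at h2
    change _ = b x at h2
    rw [← h2]
    refine Finset.sum_congr rfl fun i _ => ?_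
    rw [map_smul, Algebra.smul_def]
    rfl
  rw [h1, map_sum]
  refine Finset.sum_congr rfl fun i _ => ?_
  have h3 : (g : GQ) ((e i : M → Om) x) = (e i : M → Om) x := hg (some (i, x))
  rw [map_mul, h3, Rp_algebraMap_Om]
  congr 1
  exact (g : GQ).commutes _

/-- **Tame case.** Let `π ^ e = p`, `p ∤ e`, `e ≥ 2`, and `J'` the subgroup of inertia fixing `π`.
If `J'` acts trivially on `V` and on `M / V`, the Kummer classes over the tame layer attached to
characters of `V` are of the form `1 + p α`, `α` integral in the tame layer. -/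
theorem kummer_tame (h : IsModel p act B) (hpM : ∀ x : M, p • x = 0) {e : ℕ} (he : ¬ p ∣ e)
    (he2 : 2 ≤ e) {π : Om} (hπ : π ^ e = (p : Om)) {V : AddSubgroup M} {lam : AddChar V Om}
    (hV : ∀ σ ∈ A.inertiaSubgroupIn ℚ, σ π = π → ∀ y ∈ V, act σ y = y)
    (hlam : ∀ σ ∈ A.inertiaSubgroupIn ℚ, σ π = π → ∀ y, σ (lam y) = lam y)
    {x : M} (hx : ∀ σ ∈ A.inertiaSubgroupIn ℚ, σ π = π → act σ x - x ∈ V) :
    ∃ z α : Om, (∀ σ ∈ A.inertiaSubgroupIn ℚ, σ π = π → σ α = α) ∧ (valOf hp hA).Ge 0 α ∧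
      z ^ p = 1 + p * α ∧
      ∀ σ (hσ : σ ∈ A.inertiaSubgroupIn ℚ) (hσπ : σ π = π),
        σ z = lam ⟨act σ x - x, hx σ hσ hσπ⟩ * z := by
  classical
  have hL := localData hp hA
  set w := valOf hp hA with hw
  have hpv : w.Is 1 (p : Om) := valOf_prime hp hA
  have he0 : 0 < e := by omega
  have heQ : (0 : ℚ) < e := by exact_mod_cast he0
  have hπ0 : π ≠ 0 := by
    rintro rfl
    rw [zero_pow he0.ne'] at hπ
    exact hpv.1 hπ.symm
  have hπv : w.Is (1 / e) π := by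
    refine ⟨hπ0, ?_⟩
    have h1 := ((QVal.Is.of_ne (w := w) hπ0).pow e)
    rw [hπ] at h1
    have h2 := h1.unique hpv
    rw [eq_div_iff heQ.ne', mul_comm]
    exact h2
  -- the subgroups
  let G := A.inertiaSubgroupIn ℚ
  let J' : Subgroup G := MulAction.stabilizer G π
  let J : Subgroup G := trivSub A act B h π
  have hJ : J.FiniteIndex := finiteIndex_trivSub h π
  have hJJ : J ≤ J' := fun g hg => hg.1
  have hJ'fin : J'.FiniteIndex := Subgroup.finiteIndex_of_le hJJ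
  have hJ'e : J'.index = e := by
    have h1 : J'.index ≤ e := by
      have h2 : J'.index = (MulAction.orbit G π).ncard := MulAction.index_stabilizer G π
      rw [h2]
      have h3 : (MulAction.orbit G π) ⊆ ((Polynomial.nthRoots e (p : Om)).toFinset : Set Om) := by
        rintro _ ⟨g, rfl⟩
        simp only [Finset.mem_coe, Multiset.mem_toFinset]
        rw [Polynomial.mem_nthRoots he0]
        change ((g : GQ) π) ^ e = p
        rw [← map_pow, hπ, map_natCast]
      calc (MulAction.orbit G π).ncard ≤ ((Polynomial.nthRoots e (p : Om)).toFinset : Set Om).ncard :=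
            Set.ncard_le_ncard h3 (Finset.finite_toSet _)
        _ = (Polynomial.nthRoots e (p : Om)).toFinset.card := Set.ncard_coe_finset _
        _ ≤ Multiset.card (Polynomial.nthRoots e (p : Om)) := Multiset.toFinset_card_le _
        _ ≤ e := Polynomial.card_nthRoots e _
    obtain ⟨m, hm⟩ := hL.exists_val_eq hJ'fin (y := π) (fun g hg => hg) hπ0
    rw [hπv.2] at hm
    have hi0 : (0 : ℚ) < J'.index := by
      exact_mod_cast Nat.pos_of_ne_zero hJ'fin.index_ne_zero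
    rw [div_eq_div_iff heQ.ne' hi0.ne', one_mul] at hm
    have hm' : (J'.index : ℤ) = m * e := by exact_mod_cast hm
    have hmpos : 0 < m := by
      by_contra hcon
      push Not at hcon
      have h4 : (0 : ℤ) < J'.index := by exact_mod_cast hi0
      have h5 : (0 : ℤ) < e := by exact_mod_cast he0
      nlinarith
    have h6 : (e : ℤ) ≤ J'.index := by
      have h5 : (0 : ℤ) < e := by exact_mod_cast he0
      nlinarith
    have h7 : e ≤ J'.index := by exact_mod_cast h6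
    omega
  have hπfix : ∀ g ∈ J', g • π = π := fun g hg => hg
  have hπv' : w.Is (1 / J'.index) π := by rw [hJ'e]; exact hπv
  have hπp' : π ^ J'.index = (p : Om) := by rw [hJ'e]; exact hπ
  have he' : ¬ p ∣ J'.index := by rw [hJ'e]; exact he
  have he2' : 2 ≤ J'.index := by rw [hJ'e]; exact he2
  obtain ⟨β, hβ, hv⟩ := hL.exists_uniformizer hJ (by
    intro g hg
    refine ⟨hg π fun j hj => hj.1, fun x => ?_⟩
    apply h.sep
    intro b hb
    rw [h.equivariant b hb]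
    apply hg (b x)
    intro j hj
    change (j : GQ) (b x) = b x
    rw [← h.equivariant b hb, hj.2 x])
  have : Fintype (G ⧸ J) := Subgroup.fintypeQuotientOfFiniteIndex
  obtain ⟨N, _, mk, Θ, hmk, hfst, hD'⟩ := hL.exists_der hJ hβ hv
  obtain ⟨D, hDdef⟩ : ∃ D : fixRing w J → N, D = fun y => TrivSqZeroExt.snd (Θ y) := ⟨_, rfl⟩
  have hD : LocalData.IsDer w J β mk D := by rw [hDdef]; exact hD'
  let inc : fixRing w J →+* intRing w := Subring.inclusion (fixRing_le_intRing w J)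
  -- (i) `p D π = 0`
  let πO : fixRing w J := ⟨π, hπv.ge.mono (by positivity), fun g hg => hg.1⟩
  have hepow : πO ^ e = (p : fixRing w J) := by
    apply Subtype.ext
    rw [Subring.coe_pow, Subring.coe_natCast]
    exact hπ
  have hDp : D (p : fixRing w J) = 0 := hD.const _ fun g => by
    rw [Subring.coe_natCast]
    exact LocalData.smul_natCast g p
  have heunit : IsUnit ((e : ℕ) : intRing w) := by
    have h1 := hL.is_natCast he
    refine IsUnit.of_mul_eq_one ⟨((e : ℕ) : Om)⁻¹, h1.inv.ge.mono (by norm_num)⟩ ?_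
    apply Subtype.ext
    rw [Subring.coe_mul, Subring.coe_natCast]
    exact mul_inv_cancel₀ h1.1
  have hpDπ : (p : N) * D πO = 0 := by
    have h1 := hD.pow πO e
    rw [hepow, hDp] at h1
    have h2 : mk (inc πO) ^ e = (p : N) := by
      rw [← map_pow, ← map_pow, hepow, map_natCast, map_natCast]
    have h3 : ((e : ℕ) : N) * ((p : N) * D πO) = 0 := by
      have h4 : mk (inc πO) * mk (inc πO) ^ (e - 1) = (p : N) := by
        rw [← pow_succ', Nat.sub_add_cancel he0, h2]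
      calc ((e : ℕ) : N) * ((p : N) * D πO)
          = mk (inc πO) * ((e : N) * mk (inc πO) ^ (e - 1) * D πO) := by
            rw [← h4]; ring
        _ = 0 := by
            have h5 : (e : N) * mk (inc πO) ^ (e - 1) * D πO = 0 := h1.symm
            rw [h5, mul_zero]
    have h6 : IsUnit ((e : ℕ) : N) := by
      have := heunit.map mk
      rwa [map_natCast] at this
    exact (h6.mul_right_eq_zero).mp h3
  -- (ii) `p D t = 0` for `t` in the tame layer
  have hpDt : ∀ t : fixRing w J, (∀ g ∈ J', g • (t : Om) = t) → (p : N) * D t = 0 := by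
    intro t ht
    obtain ⟨c, hc, htc⟩ := hL.exists_coeffs hJ'fin hπfix hπv' (y := (t : Om)) ⟨t.2.1, ht⟩
    let ι0 : fixRing w (⊤ : Subgroup G) →+* fixRing w J := Subring.inclusion (fixRing_mono le_top)
    have htO : t = ∑ i ∈ Finset.range J'.index, ι0 ⟨c i, hc i⟩ * πO ^ i := by
      apply Subtype.ext
      rw [htc, AddSubmonoidClass.coe_finsetSum]
      rfl
    rw [htO, hD.sum, Finset.mul_sum]
    refine Finset.sum_eq_zero fun i _ => ?_
    rw [hD.mul, hD.pow, hD.const (ι0 ⟨c i, hc i⟩) (fun g => (hc i).2 g (Subgroup.mem_top g)),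
      mul_zero, add_zero]
    calc (p : N) * (mk (inc (ι0 ⟨c i, hc i⟩)) *
          ((i : N) * mk (inc πO) ^ (i - 1) * D πO))
        = (mk (inc (ι0 ⟨c i, hc i⟩)) * ((i : N) * mk (inc πO) ^ (i - 1))) *
          ((p : N) * D πO) := by ring
      _ = 0 := by rw [hpDπ, mul_zero]
  -- (iii) `p D (b x) = 0`
  have hBfix : ∀ b ∈ B, ∀ y : M, b y ∈ fixRing w J := by
    intro b hb y
    refine ⟨ge_zero_of_mem hp hA (apply_mem h hA hb y), fun g hg => ?_⟩
    change (g : GQ) (b y) = b y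
    rw [← h.equivariant b hb, hg.2 y]
  have hpDb : ∀ b (hb : b ∈ B) (y : M), (p : N) * D ⟨b y, hBfix b hb y⟩ = 0 := by
    intro b hb y
    let O : Subalgebra (Rp p) Om :=
      { (fixRing w J).toSubsemiring with
        algebraMap_mem' := fun r => by
          refine ⟨ge_zero_of_mem hp hA (Rp_mem hA r), fun g _ => ?_⟩
          change (g : GQ) (algebraMap (Rp p) Om r) = algebraMap (Rp p) Om r
          rw [Rp_algebraMap_Om]
          exact (g : GQ).commutes _ }
    let id' : O →+* fixRing w J := (O.val : O →+* Om).codRestrict (fixRing w J) fun x => x.2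
    have h1 := natCast_mul_snd_eq_zero h O (fun b hb y => hBfix b hb y) (Θ.comp id') (by
      intro r
      have h2 : D (id' (algebraMap (Rp p) O r)) = 0 := hD.const _ fun g => by
        change (g : GQ) (algebraMap (Rp p) Om r) = algebraMap (Rp p) Om r
        rw [Rp_algebraMap_Om]
        exact (g : GQ).commutes _
      rw [hDdef] at h2
      exact h2) (n := p) (x := y) (hpM y) hb
    rw [hDdef]
    exact h1
  -- the Kummer generator
  have hV' : ∀ σ ∈ A.inertiaSubgroupIn ℚ, σ π = π → ∀ y ∈ V, act σ y ∈ V :=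
    fun σ hσ hσπ y hy => by rw [hV σ hσ hσπ y hy]; exact hy
  have hlam' : ∀ σ (hσ : σ ∈ A.inertiaSubgroupIn ℚ) (hσπ : σ π = π) (y : M) (hy : y ∈ V),
      lam ⟨act σ y, hV' σ hσ hσπ y hy⟩ = σ (lam ⟨y, hy⟩) := by
    intro σ hσ hσπ y hy
    rw [hlam σ hσ hσπ]
    congr 1
    exact Subtype.ext (hV σ hσ hσπ y hy)
  obtain ⟨a, ha, a₀, ha₀, hval, hne, hmin⟩ := exists_unit_zres (V := V) (lam := lam) hp hA h x
  set z₁ := zres V lam a x with hz₁
  set z₀ := zres V lam a₀ 0 with hz₀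
  have hzfix : ∀ b ∈ B, ∀ σ ∈ A.inertiaSubgroupIn ℚ, σ π = π →
      σ (zres V lam b 0) = zres V lam b 0 := by
    intro b hb σ hσ hσπ
    rw [map_zres h (hV' σ hσ hσπ) (hlam' σ hσ hσπ) hb, h.act_zero]
  have hz₁σ : ∀ σ (hσ : σ ∈ A.inertiaSubgroupIn ℚ) (hσπ : σ π = π),
      σ z₁ = lam ⟨act σ x - x, hx σ hσ hσπ⟩ * z₁ :=
    fun σ hσ hσπ => map_zres_eq h (hV' σ hσ hσπ) (hlam' σ hσ hσπ) ha (hx σ hσ hσπ)
  have hunit : w.Is 0 (z₁ * z₀⁻¹) :=
    (hval.mul (QVal.Is.of_ne (w := w) hne).inv).congr (by ring)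
  have hz'fix : ∀ g ∈ J, g • (z₁ * z₀⁻¹) = z₁ * z₀⁻¹ := by
    intro g hg
    change (g : GQ) (z₁ * z₀⁻¹) = _
    rw [map_mul, map_inv₀, hzfix a₀ ha₀ g g.2 hg.1, hz₁σ g g.2 hg.1]
    have h1 : (⟨act g x - x, hx g g.2 hg.1⟩ : V) = 0 := by
      apply Subtype.ext
      change act g x - x = 0
      rw [hg.2 x, sub_self]
    rw [h1, AddChar.map_zero_eq_one, one_mul]
  let zO : fixRing w J := ⟨z₁ * z₀⁻¹, hunit.ge, hz'fix⟩
  have hpDz : (p : N) * D zO = 0 := by
    obtain ⟨n, u, c, hu, hc, hsum⟩ := exists_zres (V := V) (lam := lam) h ha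
    have h1 := hsum x 0
    rw [add_zero] at h1
    have htmem : ∀ i, zres V lam (c i) 0 * z₀⁻¹ ∈ fixRing w J := by
      intro i
      refine ⟨((hmin _ (hc i)).mul (QVal.Is.of_ne (w := w) hne).inv.ge).mono (by linarith),
        fun g hg => ?_⟩
      change (g : GQ) (zres V lam (c i) 0 * z₀⁻¹) = _
      rw [map_mul, map_inv₀, hzfix a₀ ha₀ g g.2 hg.1, hzfix (c i) (hc i) g g.2 hg.1]
    let t : Fin n → fixRing w J := fun i => ⟨zres V lam (c i) 0 * z₀⁻¹, htmem i⟩
    have hzO : zO = ∑ i, (⟨u i x, hBfix _ (hu i) x⟩ : fixRing w J) * t i := by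
      apply Subtype.ext
      rw [AddSubmonoidClass.coe_finsetSum]
      change z₁ * z₀⁻¹ = ∑ i, u i x * (zres V lam (c i) 0 * z₀⁻¹)
      rw [hz₁, h1, Finset.sum_mul]
      exact Finset.sum_congr rfl fun i _ => by ring
    rw [hzO, hD.sum, Finset.mul_sum]
    refine Finset.sum_eq_zero fun i _ => ?_
    rw [hD.mul]
    have h2 := hpDb (u i) (hu i) x
    have h3 := hpDt (t i) (by
      intro g hg
      change (g : GQ) (zres V lam (c i) 0 * z₀⁻¹) = zres V lam (c i) 0 * z₀⁻¹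
      rw [map_mul, map_inv₀, hzfix a₀ ha₀ g g.2 hg, hzfix (c i) (hc i) g g.2 hg])
    calc (p : N) * (mk (inc ⟨u i x, hBfix _ (hu i) x⟩) * D (t i) +
          mk (inc (t i)) * D ⟨u i x, hBfix _ (hu i) x⟩)
        = mk (inc ⟨u i x, hBfix _ (hu i) x⟩) * ((p : N) * D (t i)) +
          mk (inc (t i)) * ((p : N) * D ⟨u i x, hBfix _ (hu i) x⟩) := by ring
      _ = 0 := by rw [h2, h3, mul_zero, mul_zero, add_zero]
  have hDzp : D (zO ^ p) = 0 := by
    rw [hD.pow]
    calc (p : N) * mk (inc zO) ^ (p - 1) * D zO =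
          mk (inc zO) ^ (p - 1) * ((p : N) * D zO) := by ring
      _ = 0 := by rw [hpDz, mul_zero]
  have hzpfix : ∀ g ∈ J', g • ((zO ^ p : fixRing w J) : Om) = (zO ^ p : fixRing w J) := by
    intro g hg
    rw [Subring.coe_pow]
    change (g : GQ) ((z₁ * z₀⁻¹) ^ p) = (z₁ * z₀⁻¹) ^ p
    rw [map_pow, map_mul, map_inv₀, hzfix a₀ ha₀ g g.2 hg, hz₁σ g g.2 hg, mul_assoc, mul_pow,
      lam_pow hpM, one_mul]
  obtain ⟨v, hv1, hv2⟩ := hL.exists_pow_of_deriv_eq_zero hJ hJJ hπfix hπv' hπp' he' he2' hβ hv hmk hD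
    (fun a => IsAlgClosed.exists_pow_nat_eq a hp.pos) (zO ^ p) hzpfix hDzp
  rw [Subring.coe_pow] at hv2
  have hzO0 : w.Is 0 ((zO : Om) ^ p) := (hunit.pow p).congr (by ring)
  have hvp : w.Is 0 (v ^ p) := by
    have h1 : v ^ p = (zO : Om) ^ p - ((zO : Om) ^ p - v ^ p) := by ring
    rw [h1]
    exact hzO0.sub_gt (hv2.gt (by norm_num))
  have hv0 : v ≠ 0 := by
    rintro rfl
    rw [zero_pow hp.ne_zero] at hvp
    exact hvp.1 rfl
  have hvfix : ∀ σ (hσ : σ ∈ A.inertiaSubgroupIn ℚ), σ π = π → σ v = v :=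
    fun σ hσ hσπ => hv1.2 ⟨σ, hσ⟩ hσπ
  refine ⟨(zO : Om) * v⁻¹, (p : Om)⁻¹ * (((zO : Om) ^ p - v ^ p) * (v ^ p)⁻¹), ?_, ?_, ?_, ?_⟩
  · intro σ hσ hσπ
    have h1 := hzpfix ⟨σ, hσ⟩ hσπ
    rw [Subring.coe_pow] at h1
    have h2 : σ ((zO : Om) ^ p) = (zO : Om) ^ p := h1
    rw [map_mul, map_inv₀, map_natCast, map_mul, map_sub, h2, map_inv₀, map_pow, hvfix σ hσ hσπ]
  · exact (hpv.inv.ge.mul (hv2.mul hvp.inv.ge)).mono (by norm_num)
  · rw [mul_inv_cancel_left₀ hpv.1, mul_pow, inv_pow, sub_mul, mul_inv_cancel₀ hvp.1]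
    ring
  · intro σ hσ hσπ
    change σ (z₁ * z₀⁻¹ * v⁻¹) = _ * (z₁ * z₀⁻¹ * v⁻¹)
    rw [map_mul, map_mul, map_inv₀, map_inv₀, hvfix σ hσ hσπ, hzfix a₀ ha₀ σ hσ hσπ,
      hz₁σ σ hσ hσπ]
    ring

end tame

end Fermat.Agent.FlatP
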