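import Fermat.Agent.FlatP.CountTame
import Fermat.Agent.TW.Defs

/-!
# Counting flat classes: the supersingular case
-/

set_option autoImplicit false

namespace Fermat.Agent.FlatP

open Fermat.Agent.FlatGS Fermat.Agent.MazurMult FermatAgent.ECVal

section levels

variable {p : ℕ} (hp : p.Prime) {A : ValuationSubring Om} (hA : A.LiesOverPrime p) {π : Om}

/-- the stabiliser of `π` in inertia -/
noncomputable def stab (A : ValuationSubring Om) (π : Om) : Subgroup GQ :=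
  A.inertiaSubgroupIn ℚ ⊓ MulAction.stabilizer GQ π

lemma mem_stab {g : GQ} : g ∈ stab A π ↔ g ∈ A.inertiaSubgroupIn ℚ ∧ g π = π := Iff.rfl

include hp hA in
/-- uniqueness at the levels `0, 2, …, p`. -/
lemma uniq_ss (hπ : π ^ (p ^ 2 - 1) = (p : Om)) {i : ℕ} (hi1 : i ≠ 1) (hip : i ≤ p) :
    Uniq p A (stab A π) (stab A π) π i := by
  intro μ b hμ hr
  have h3 := two_le_sq_sub_one hp
  have hp1 : (1 : ℚ) < p := by exact_mod_cast hp.one_lt
  have hcast := cast_sq_sub_one hp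
  have he : (0 : ℚ) < ((p ^ 2 - 1 : ℕ) : ℚ) := by exact_mod_cast (by omega : 0 < p ^ 2 - 1)
  refine Rel.eq_zero hp hA (e := p ^ 2 - 1) (t := i * (1 / (p ^ 2 - 1 : ℕ)))
    (pi_mem hp hA hπ) ((val_pi hp hA hπ).pow i) ?_
    (fun y hy0 hy => exists_val_of_fixed hp hA hπ hy0 hy) ?_ hμ hr
  · have h4 : (p : ℚ) / ((p : ℚ) - 1) = 1 + (p + 1) * (1 / ((p ^ 2 - 1 : ℕ) : ℚ)) := by
      rw [hcast]
      have : (p : ℚ) - 1 ≠ 0 := by linarith
      have h5 : (p : ℚ) ^ 2 - 1 ≠ 0 := by rw [← hcast]; exact he.ne'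
      field_simp
      ring
    rw [h4]
    have h5 : (i : ℚ) < p + 1 := by exact_mod_cast (by omega : i < p + 1)
    have h6 : (0 : ℚ) < 1 / ((p ^ 2 - 1 : ℕ) : ℚ) := by positivity
    have := mul_lt_mul_of_pos_right h5 h6
    linarith
  · intro m hm
    have h4 : (p : ℚ) * m = ((p ^ 2 - 1 : ℕ) : ℚ) + i := by
      field_simp at hm
      linarith
    have h5 : (p : ℤ) * m = ((p ^ 2 - 1 : ℕ) : ℤ) + i := by exact_mod_cast h4
    have h6 : ((p ^ 2 - 1 : ℕ) : ℤ) = (p : ℤ) * p - 1 := by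
      have h1 : 1 ≤ p ^ 2 := Nat.one_le_pow _ _ hp.pos
      push_cast [Nat.cast_sub h1]
      ring
    have h7 : (p : ℤ) ∣ (i : ℤ) - 1 := ⟨m - p, by rw [mul_sub, h5, h6]; ring⟩
    rcases Nat.eq_zero_or_pos i with hi0 | hi0
    · rw [hi0] at h7
      have h8 := Int.le_of_dvd (by norm_num) (dvd_neg.mpr h7)
      have := hp.one_lt
      push_cast at h8
      omega
    · have h8 := Int.le_of_dvd (by omega) h7
      omega

include hp hA in
lemma succ_ss (hπ : π ^ (p ^ 2 - 1) = (p : Om)) {i : ℕ} {μ : GQ → Om}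
    (h : Rel p A (stab A π) (stab A π) π i μ 0) :
    ∃ b, Rel p A (stab A π) (stab A π) π (i + 1) μ b := by
  have h3 := two_le_sq_sub_one hp
  exact Rel.succ hp hA (e := p ^ 2 - 1) (by omega) (fun g hg => (mem_stab.mp hg).2)
    (val_pi hp hA hπ) (fun y hy0 hy => exists_val_of_fixed hp hA hπ hy0 hy) h

include hp hA in
lemma one_two_ss (hπ : π ^ (p ^ 2 - 1) = (p : Om)) {μ : GQ → Om}
    {b : IsLocalRing.ResidueField A} (h : Rel p A (stab A π) (stab A π) π 1 μ b) :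
    ∃ b, Rel p A (stab A π) (stab A π) π 2 μ b := by
  have h1 := rel_one_of_residue hp hA hπ (M := stab A π) (J := stab A π)
    (fun g hg => mem_stab.mp hg) le_rfl (-b)
  have h2 := h.mul hp hA (pi_mem hp hA hπ) (fun g hg => (mem_stab.mp hg).2) h1
  refine succ_ss hp hA hπ (i := 1) (h2.congr (fun g _ => mul_one _) (add_neg_cancel b))

include hp hA in
lemma top_ss (hπ : π ^ (p ^ 2 - 1) = (p : Om)) {ζ : Om} (hζ : IsPrimitiveRoot ζ p)
    (hζJ : ∀ g ∈ stab A π, g ζ = ζ) {μ : GQ → Om} {b : IsLocalRing.ResidueField A}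
    (h : Rel p A (stab A π) (stab A π) π (p + 1) μ b) : ∀ g ∈ stab A π, μ g = 1 := by
  have h3 := two_le_sq_sub_one hp
  have hp1 : (1 : ℚ) < p := by exact_mod_cast hp.one_lt
  have hcast := cast_sq_sub_one hp
  have he : (0 : ℚ) < ((p ^ 2 - 1 : ℕ) : ℚ) := by exact_mod_cast (by omega : 0 < p ^ 2 - 1)
  refine h.eq_one hp hA hζ ((val_pi hp hA hπ).pow (p + 1)).ge ?_
    (fun g hg => ⟨(mem_stab.mp hg).1, hζJ g hg, hg⟩) (fun g hg => (mem_stab.mp hg).2)
    (pi_mem hp hA hπ)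
  have h4 : (p : ℚ) / ((p : ℚ) - 1) = 1 + (p + 1) * (1 / ((p ^ 2 - 1 : ℕ) : ℚ)) := by
    rw [hcast]
    have : (p : ℚ) - 1 ≠ 0 := by linarith
    have h5 : (p : ℚ) ^ 2 - 1 ≠ 0 := by rw [← hcast]; exact he.ne'
    field_simp
    ring
  rw [h4]
  push_cast
  exact le_rfl

include hp hA in
/-- `(1 - ζ) / π ^ (p + 1)` is a unit. -/
lemma is_zeta_div (hπ : π ^ (p ^ 2 - 1) = (p : Om)) {ζ : Om} (hζ : IsPrimitiveRoot ζ p) :
    (valOf hp hA).Is 0 ((1 - ζ) / π ^ (p + 1)) := by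
  have h3 := two_le_sq_sub_one hp
  have hp1 : (1 : ℚ) < p := by exact_mod_cast hp.one_lt
  have hcast := cast_sq_sub_one hp
  have he : (0 : ℚ) < ((p ^ 2 - 1 : ℕ) : ℚ) := by exact_mod_cast (by omega : 0 < p ^ 2 - 1)
  rw [div_eq_mul_inv]
  refine ((val_one_sub_zeta hp hA hζ).mul ((val_pi hp hA hπ).pow (p + 1)).inv).congr ?_
  rw [hcast, Nat.cast_add, Nat.cast_one]
  have : (p : ℚ) - 1 ≠ 0 := by linarith
  have h5 : (p : ℚ) ^ 2 - 1 ≠ 0 := by
    have h6 : (p : ℚ) ^ 2 - 1 = (p - 1) * (p + 1) := by ring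
    rw [h6]
    exact mul_ne_zero this (by linarith)
  field_simp
  ring

include hp hA in
/-- the cyclotomic character in terms of the fundamental character of level two. -/
lemma cyc_eq (hπ : π ^ (p ^ 2 - 1) = (p : Om)) {ζ : Om} (hζ : IsPrimitiveRoot ζ p) {h : GQ}
    (hh : h ∈ A.inertiaSubgroupIn ℚ) {n : ℕ} (hn : h ζ = ζ ^ n) (hu : h π / π ∈ A) :
    (n : IsLocalRing.ResidueField A) = IsLocalRing.residue A ⟨h π / π, hu⟩ ^ (p + 1) := by
  have hε := is_zeta_div hp hA hπ hζ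
  set ε := (1 - ζ) / π ^ (p + 1) with hεdef
  have hεA : ε ∈ A := (valOf_ge_zero_iff hp hA).mp hε.ge
  have hhD := TW.inertia_le_decomp hh
  have hhεA : h ε ∈ A := TW.map_mem_of_mem_decomp hhD hεA
  have hres := (actsAs_inertia hh).2 ε hεA hhεA
  rw [id] at hres
  have hπ0 := (val_pi hp hA hπ).1
  have hζA : ζ ∈ A := pow_mem_of_pow_eq_one hp.pos hζ.pow_eq_one
  have hsumA : ∑ i ∈ Finset.range n, ζ ^ i ∈ A :=
    A.toSubring.sum_mem fun i _ => A.toSubring.pow_mem hζA i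
  have hkey : h ε * (h π / π) ^ (p + 1) = ε * ∑ i ∈ Finset.range n, ζ ^ i := by
    have h1 : (1 - ζ) * ∑ i ∈ Finset.range n, ζ ^ i = 1 - ζ ^ n := mul_neg_geom_sum ζ n
    have hhπ0 : h π ≠ 0 := (map_ne_zero h).mpr hπ0
    rw [hεdef, map_div₀, map_sub, map_one, map_pow, hn, ← h1, div_pow]
    field_simp
  have hkey' : (⟨h ε, hhεA⟩ : A) * ⟨h π / π, hu⟩ ^ (p + 1) =
      ⟨ε, hεA⟩ * ⟨∑ i ∈ Finset.range n, ζ ^ i, hsumA⟩ := Subtype.ext (by
    push_cast
    exact hkey)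
  have h2 := congrArg (IsLocalRing.residue A) hkey'
  rw [map_mul, map_mul, map_pow, hres] at h2
  have hε0 : IsLocalRing.residue A ⟨ε, hεA⟩ ≠ 0 := by
    rw [Ne, residue_eq_zero_iff', ← valOf_gt_zero_iff hp hA]
    exact hε.not_gt le_rfl
  have h3 := mul_left_cancel₀ hε0 h2
  rw [h3]
  have hζ1 : IsLocalRing.residue A ⟨ζ, hζA⟩ = 1 := by
    rw [← map_one (IsLocalRing.residue A)]
    refine (residue_eq_iff hζA A.one_mem).mpr ?_
    rw [← valOf_gt_zero_iff hp hA]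
    have h4 := (val_one_sub_zeta hp hA hζ).neg
    rw [neg_sub] at h4
    refine h4.gt ?_
    have hp1 : (1 : ℚ) < p := by exact_mod_cast hp.one_lt
    have : (0 : ℚ) < (p : ℚ) - 1 := by linarith
    positivity
  have h5 : (⟨∑ i ∈ Finset.range n, ζ ^ i, hsumA⟩ : A) = ∑ i ∈ Finset.range n, (⟨ζ, hζA⟩ : A) ^ i := by
    apply Subtype.ext
    push_cast
    rfl
  rw [h5, map_sum]
  simp only [map_pow, hζ1, one_pow, Finset.sum_const, Finset.card_range, nsmul_eq_mul, mul_one]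

include hp hA in
lemma zeta_fixed (hπ : π ^ (p ^ 2 - 1) = (p : Om)) {ζ : Om} (hζ : IsPrimitiveRoot ζ p) :
    ∀ g ∈ stab A π, g ζ = ζ := by
  intro g hg
  obtain ⟨hgI, hgπ⟩ := mem_stab.mp hg
  have hNZ : NeZero p := ⟨hp.ne_zero⟩
  have hch := charP_residueField_count hp hA
  have h1 : (g ζ) ^ p = 1 := by rw [← map_pow, hζ.pow_eq_one, map_one]
  obtain ⟨n, hn, hn2⟩ := hζ.eq_pow_of_pow_eq_one h1
  have hπ0 := (val_pi hp hA hπ).1
  have hu : g π / π ∈ A := by rw [hgπ, div_self hπ0]; exact A.one_mem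
  have h2 := cyc_eq hp hA hπ hζ hgI hn2.symm hu
  have h3 : (⟨g π / π, hu⟩ : A) = 1 := Subtype.ext (by
    change g π / π = 1
    rw [hgπ, div_self hπ0])
  rw [h3, map_one, one_pow] at h2
  have h4 : ((n : ℕ) : IsLocalRing.ResidueField A) = ((1 : ℕ) : IsLocalRing.ResidueField A) := by
    rw [h2, Nat.cast_one]
  rw [CharP.natCast_eq_natCast (IsLocalRing.ResidueField A) p, Nat.ModEq,
    Nat.mod_eq_of_lt hn, Nat.mod_eq_of_lt hp.one_lt] at h4
  rw [← hn2, h4, pow_one]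

/-- going from level `i₀ ≥ 2` up to the top. -/
lemma climb {k : Type} [Field k] {χ₀ : AddChar k Om} {f : GQ → k} {i₀ : ℕ}
    (hS : ∀ i, ∀ μ : GQ → Om, Rel p A (stab A π) (stab A π) π i μ 0 →
      ∃ b, Rel p A (stab A π) (stab A π) π (i + 1) μ b)
    (hvan : ∀ i, i₀ ≤ i → i ≤ p → ∀ L, FRel χ₀ p A (stab A π) (stab A π) π i f L → L = 0)
    (h : ∃ L, FRel χ₀ p A (stab A π) (stab A π) π i₀ f L) (m : ℕ) (hm : i₀ + m ≤ p + 1) :
    ∃ L, FRel χ₀ p A (stab A π) (stab A π) π (i₀ + m) f L := by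
  induction m with
  | zero => exact h
  | succ m ih =>
    obtain ⟨L, hL⟩ := ih (by omega)
    have h1 := hvan (i₀ + m) (by omega) (by omega) L hL
    subst h1
    exact FRel.step_zero (hS _) hL

end levels

section std

open Fermat.Agent.S53norm (M2)

variable {k : Type} [Field k] {p : ℕ} [hp : Fact p.Prime] [CharP k p]

include hp in
omit [CharP k p] in
/-- there is an element of inertia on which the fundamental character has order `p ^ 2 - 1`. -/
lemma exists_order {A : ValuationSubring Om} (hA : A.LiesOverPrime p) {π : Om}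
    (hπ : π ^ (p ^ 2 - 1) = (p : Om)) (ι : k →+* IsLocalRing.ResidueField A) (ψ : GQ → k)
    (hψ : ∀ g ∈ A.inertiaSubgroupIn ℚ, ∀ h : g π / π ∈ A,
      IsLocalRing.residue A ⟨g π / π, h⟩ = ι (ψ g)) :
    ∃ h ∈ A.inertiaSubgroupIn ℚ, orderOf (ψ h) = p ^ 2 - 1 := by
  have hpp : p.Prime := hp.out
  have h3 := two_le_sq_sub_one hpp
  have hNZ : NeZero (p ^ 2 - 1) := ⟨by omega⟩
  obtain ⟨ξ, hξ⟩ := HasEnoughRootsOfUnity.exists_primitiveRoot Om (p ^ 2 - 1)
  obtain ⟨g, hg, hgπ⟩ := exists_inertia_smul hpp hA hπ hξ.pow_eq_one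
  have hπ0 := (val_pi hpp hA hπ).1
  have hdiv : g π / π = ξ := by rw [hgπ, mul_div_cancel_right₀ _ hπ0]
  have hξA : ξ ∈ A := pow_mem_of_pow_eq_one (by omega) hξ.pow_eq_one
  have h1 : ι (ψ g) = IsLocalRing.residue A ⟨ξ, hξA⟩ := by
    rw [← hψ g hg (by rw [hdiv]; exact hξA)]
    congr 1
    exact Subtype.ext hdiv
  refine ⟨g, hg, ?_⟩
  rw [orderOf_eq_iff (by omega)]
  refine ⟨?_, fun m hm hm0 h => ?_⟩
  · apply ι.injective
    rw [map_pow, h1, ← map_pow, map_one, ← map_one (IsLocalRing.residue A)]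
    congr 1
    exact Subtype.ext hξ.pow_eq_one
  · have h2 := congrArg ι h
    rw [map_pow, h1, map_one, ← map_pow] at h2
    have h4 := eq_one_of_sub_one_mem hpp hA (n := p ^ 2 - 1) (not_dvd_sq_sub_one hpp)
      (z := ξ ^ m) (by rw [← pow_mul, mul_comm, pow_mul, hξ.pow_eq_one, one_pow])
      (A.toSubring.pow_mem hξA m) h2
    exact hξ.pow_ne_one_of_pos_of_lt hm0.ne' hm h4

/-- `f` has weight `w`. -/
def Wt (A : ValuationSubring Om) (π : Om) (p : ℕ) (ψ : GQ → k) (w : ℕ) (f : GQ → k) : Prop :=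
  ∀ h ∈ A.inertiaSubgroupIn ℚ, ∃ ρ : k, ψ h ^ (p + 1) * ρ = ψ h ^ w ∧
    ∀ g ∈ stab A π, f (h⁻¹ * g * h) = ρ * f g

lemma Wt.semi {A : ValuationSubring Om} (hA : A.LiesOverPrime p) {π : Om}
    (hπ : π ^ (p ^ 2 - 1) = (p : Om)) (ι : k →+* IsLocalRing.ResidueField A) {ψ : GQ → k}
    (hψ : ∀ g ∈ A.inertiaSubgroupIn ℚ, ∀ h : g π / π ∈ A,
      IsLocalRing.residue A ⟨g π / π, h⟩ = ι (ψ g)) {ζ : Om} (hζ : IsPrimitiveRoot ζ p)
    {χ₀ : AddChar k Om} {w : ℕ} {f : GQ → k} (hf : Wt A π p ψ w f) {i : ℕ} (hi1 : i ≠ 1)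
    (hip : i ≤ p) {L : k → IsLocalRing.ResidueField A}
    (hL : FRel χ₀ p A (stab A π) (stab A π) π i f L) {h : GQ} (hh : h ∈ A.inertiaSubgroupIn ℚ)
    (a : k) : L (ψ h ^ w * a) = ι (ψ h) ^ i * L a := by
  have hpp : p.Prime := hp.out
  have h3 := two_le_sq_sub_one hpp
  have hch := charP_residueField_count hpp hA
  obtain ⟨ρ, hρ, hρ2⟩ := hf h hh
  obtain ⟨n, hnζ, hn0, hn⟩ := exists_smul_char (k := k) hpp χ₀ hζ h
  obtain ⟨hu1, hu2⟩ := div_pi hpp hA hπ h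
  have huA := div_pi_mem hpp hπ hA h
  have hhD := TW.inertia_le_decomp hh
  have hnk : (n : k) = ψ h ^ (p + 1) := by
    apply ι.injective
    rw [map_natCast, map_pow, cyc_eq hpp hA hπ hζ hh hnζ huA, hψ h hh huA]
  have h1 := FRel.conj hpp hA (h := h) (u := h π / π) (n := (n : k)) (ρ := ρ)
    (pi_mem hpp hA hπ) (fun g hg => (mem_stab.mp hg).2) (uniq_ss hpp hA hπ hi1 hip)
    (actsAs_inertia hh) (fun g hg => conj_mem_stab hpp hA hπ hhD hg)
    (fun g hg => conj_mem_stab hpp hA hπ hhD hg) hu1 huA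
    (fun g hg => LocE.isFixed_of_pow_eq_one hpp hA (by omega) (not_dvd_sq_sub_one hpp) hu2 g
      (mem_stab.mp hg).1) hn hρ2 hL a
  rw [hnk, hρ, hψ h hh huA] at h1
  exact h1

lemma Wt.eq_zero_or {A : ValuationSubring Om} (hA : A.LiesOverPrime p) {π : Om}
    (hπ : π ^ (p ^ 2 - 1) = (p : Om)) (ι : k →+* IsLocalRing.ResidueField A) {ψ : GQ → k}
    (hψ : ∀ g ∈ A.inertiaSubgroupIn ℚ, ∀ h : g π / π ∈ A,
      IsLocalRing.residue A ⟨g π / π, h⟩ = ι (ψ g)) {ζ : Om} (hζ : IsPrimitiveRoot ζ p)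
    {χ₀ : AddChar k Om} {w : ℕ} {f : GQ → k} (hf : Wt A π p ψ w f) {i : ℕ} (hi1 : i ≠ 1)
    (hip : i ≤ p) {L : k → IsLocalRing.ResidueField A}
    (hL : FRel χ₀ p A (stab A π) (stab A π) π i f L) {h : GQ} (hh : h ∈ A.inertiaSubgroupIn ℚ)
    (hord : orderOf (ψ h) = p ^ 2 - 1) :
    L = 0 ∨ ψ h ^ i = ψ h ^ w ∨ ψ h ^ i = ψ h ^ (w * p) := by
  have hpp : p.Prime := hp.out
  have h3 := two_le_sq_sub_one hpp
  by_cases hL0 : L = 0
  · exact Or.inl hL0
  right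
  obtain ⟨a, ha⟩ : ∃ a, L a ≠ 0 := by
    by_contra hcon
    push Not at hcon
    exact hL0 (funext hcon)
  have hx : ψ h ^ (p ^ 2 - 1) = 1 := by rw [← hord]; exact pow_orderOf_eq_one _
  have hx2 : ψ h ^ p ^ 2 = ψ h := by
    rw [show p ^ 2 = (p ^ 2 - 1) + 1 from by omega, pow_succ, hx, one_mul]
  have h1 := weight ι (L := L) (FRel.map_add hpp hA (pi_mem hpp hA hπ)
    (fun g hg => (mem_stab.mp hg).2) (uniq_ss hpp hA hπ hi1 hip) hL) (u := ψ h ^ w)
    (by rw [← pow_mul, mul_comm, pow_mul, hx2])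
    (fun a => Wt.semi hA hπ ι hψ hζ hf hi1 hip hL hh a) ha
  rcases h1 with h1 | h1
  · left
    apply ι.injective
    rw [map_pow, h1]
  · right
    apply ι.injective
    rw [map_pow, h1, map_pow, map_pow, pow_mul]

omit [CharP k p] in
/-- weights `≠` the levels: the functional vanishes on `stab`. -/
lemma Wt.eq_zero {A : ValuationSubring Om} (hA : A.LiesOverPrime p) {π : Om}
    (hπ : π ^ (p ^ 2 - 1) = (p : Om)) {ζ : Om} (hζ : IsPrimitiveRoot ζ p)
    {χ₀ : AddChar k Om} (hχ₀ : χ₀ ≠ 1) {f : GQ → k} {i₀ : ℕ} (hi₀ : i₀ ≤ p + 1)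
    (hvan : ∀ i, i₀ ≤ i → i ≤ p → ∀ L, FRel χ₀ p A (stab A π) (stab A π) π i f L → L = 0)
    (h : ∃ L, FRel χ₀ p A (stab A π) (stab A π) π i₀ f L) : ∀ g ∈ stab A π, f g = 0 := by
  have hpp : p.Prime := hp.out
  obtain ⟨L, hL⟩ := climb (fun i μ hr => succ_ss hpp hA hπ hr) hvan h (p + 1 - i₀) (by omega)
  rw [show i₀ + (p + 1 - i₀) = p + 1 from by omega] at hL
  exact FRel.eq_zero (J := stab A π) hχ₀
    (fun a => top_ss hpp hA hπ hζ (zeta_fixed hpp hA hπ hζ) (hL a))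

/-- **The supersingular count, standard basis.** -/
theorem card_ss_std [Finite k] (hp2 : p ≠ 2) {A : ValuationSubring Om} (hA : A.LiesOverPrime p)
    {π : Om} (hπ : π ^ (p ^ 2 - 1) = (p : Om)) {r : GQ →* M2 k}
    (ι : k →+* IsLocalRing.ResidueField A) (ψ : GQ → k)
    (hψ : ∀ g ∈ A.inertiaSubgroupIn ℚ, ∀ h : g π / π ∈ A,
      IsLocalRing.residue A ⟨g π / π, h⟩ = ι (ψ g))
    (hr : ∀ g ∈ A.inertiaSubgroupIn ℚ, r g = !![ψ g, 0; 0, ψ g ^ p])
    {χ₀ : AddChar k Om} (hχ₀ : χ₀ ≠ 1) (X : AddSubgroup (GQ → M2 k))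
    (h0 : ∀ c ∈ X, ∀ g, ¬ (g ∈ A.inertiaSubgroupIn ℚ ∧ g π = π) → c g = 0)
    (htr : ∀ c ∈ X, ∀ g, (c g).trace = 0)
    (heq : ∀ c ∈ X, ∀ φ ∈ A.decompositionSubgroup ℚ, ∀ g ∈ A.inertiaSubgroupIn ℚ, g π = π →
      c (φ * g * φ⁻¹) = r φ * c g * r φ⁻¹)
    (hcl : ∀ c ∈ X, ∀ (i j : Fin 2) (a : k), ∃ z α : Om,
      (∀ g ∈ A.inertiaSubgroupIn ℚ, g π = π → g α = α) ∧ (valOf hp.out hA).Ge 0 α ∧
      z ^ p = 1 + p * α ∧
      ∀ g ∈ A.inertiaSubgroupIn ℚ, g π = π → g z = χ₀ (a * c g i j) * z) :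
    Finite X ∧ Nat.card X ≤ Nat.card k := by
  have hpp : p.Prime := hp.out
  have h3 := two_le_sq_sub_one hpp
  have hp3 : 3 ≤ p := by
    have := hpp.two_le
    omega
  have hpsq : 3 * p ≤ p ^ 2 := by nlinarith
  have hch := charP_residueField_count hpp hA
  have hNZ : NeZero p := ⟨hpp.ne_zero⟩
  obtain ⟨ζ, hζ⟩ := HasEnoughRootsOfUnity.exists_primitiveRoot Om p
  obtain ⟨h₀, hh₀, hord⟩ := exists_order hA hπ ι ψ hψ
  set x₀ := ψ h₀ with hx₀
  have hπ0 := (val_pi hpp hA hπ).1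
  have hπA := pi_mem hpp hA hπ
  have hπM : ∀ g ∈ stab A π, g π = π := fun g hg => (mem_stab.mp hg).2
  have hx₀e : x₀ ^ (p ^ 2 - 1) = 1 := by rw [← hord]; exact pow_orderOf_eq_one _
  have hinj : ∀ i j : ℕ, i < p ^ 2 - 1 → j < p ^ 2 - 1 → x₀ ^ i = x₀ ^ j → i = j := by
    intro i j hi hj h
    exact pow_injOn_Iio_orderOf (by rw [Set.mem_Iio, hord]; exact hi)
      (by rw [Set.mem_Iio, hord]; exact hj) h
  -- the inverse
  have hψinv : ∀ h ∈ A.inertiaSubgroupIn ℚ, ψ h⁻¹ * ψ h = 1 := by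
    intro h hh
    have h1 : r h⁻¹ * r h = 1 := by rw [← map_mul, inv_mul_cancel, map_one]
    rw [hr h hh, hr h⁻¹ (inv_mem hh)] at h1
    have h2 := congrFun (congrFun h1 0) 0
    simpa [Matrix.mul_apply, Fin.sum_univ_two] using h2
  -- conjugation by inertia
  have hconj : ∀ c ∈ X, ∀ φ ∈ A.decompositionSubgroup ℚ, ∀ g ∈ stab A π,
      c (φ⁻¹ * g * φ) = r φ⁻¹ * c g * r φ := by
    intro c hc φ hφ g hg
    have h1 := heq c hc φ⁻¹ (inv_mem hφ) g (mem_stab.mp hg).1 (mem_stab.mp hg).2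
    rwa [inv_inv] at h1
  have hconjI : ∀ c ∈ X, ∀ h ∈ A.inertiaSubgroupIn ℚ, ∀ g ∈ stab A π,
      c (h⁻¹ * g * h) = !![ψ h⁻¹, 0; 0, ψ h⁻¹ ^ p] * c g * !![ψ h, 0; 0, ψ h ^ p] := by
    intro c hc h hh g hg
    rw [hconj c hc h (TW.inertia_le_decomp hh) g hg, hr h hh, hr h⁻¹ (inv_mem hh)]
  have hwt10 : ∀ c ∈ X, Wt A π p ψ 2 (fun g => c g 1 0) := by
    intro c hc h hh
    have h1 := hψinv h hh
    refine ⟨ψ h⁻¹ ^ p * ψ h, ?_, fun g hg => ?_⟩
    · calc ψ h ^ (p + 1) * (ψ h⁻¹ ^ p * ψ h) = (ψ h⁻¹ * ψ h) ^ p * ψ h ^ 2 := by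
            rw [mul_pow]; ring
        _ = ψ h ^ 2 := by rw [h1, one_pow, one_mul]
    · change c (h⁻¹ * g * h) 1 0 = _ * c g 1 0
      rw [hconjI c hc h hh g hg]
      simp only [Matrix.mul_apply, Fin.sum_univ_two, Matrix.of_apply, Matrix.cons_val',
        Matrix.cons_val_zero, Matrix.cons_val_one, Matrix.cons_val_fin_one, zero_mul, mul_zero,
        add_zero, zero_add]
      ring
  have hwt00 : ∀ c ∈ X, Wt A π p ψ (p + 1) (fun g => c g 0 0) := by
    intro c hc h hh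
    have h1 := hψinv h hh
    refine ⟨1, mul_one _, fun g hg => ?_⟩
    change c (h⁻¹ * g * h) 0 0 = _ * c g 0 0
    rw [hconjI c hc h hh g hg]
    simp only [Matrix.mul_apply, Fin.sum_univ_two, Matrix.of_apply, Matrix.cons_val', Matrix.cons_val_zero,
      Matrix.cons_val_one, Matrix.cons_val_fin_one, zero_mul, mul_zero, add_zero, one_mul]
    rw [mul_comm, ← mul_assoc, mul_comm (ψ h), h1, one_mul]
  -- level zero
  have hlev0 : ∀ c ∈ X, ∀ i j : Fin 2,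
      ∃ L, FRel χ₀ p A (stab A π) (stab A π) π 0 (fun g => c g i j) L := by
    intro c hc i j
    have h1 : ∀ a : k, ∃ b, Rel p A (stab A π) (stab A π) π 0 (fun g => χ₀ (a * c g i j)) b := by
      intro a
      obtain ⟨z, α, hα, hα0, hz, hzg⟩ := hcl c hc i j a
      refine ⟨_, z, α, (valOf_ge_zero_iff hpp hA).mp hα0,
        fun g hg => hα g (mem_stab.mp hg).1 (mem_stab.mp hg).2, rfl, ?_, ?_⟩
      · rw [hz, pow_zero, mul_one]
      · intro g hg
        exact hzg g (mem_stab.mp hg).1 (mem_stab.mp hg).2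
    choose L hL using h1
    exact ⟨L, hL⟩
  -- from level zero to level two
  have h02 : ∀ f : GQ → k,
      (∀ L, FRel χ₀ p A (stab A π) (stab A π) π 0 f L → L = 0) →
      (∃ L, FRel χ₀ p A (stab A π) (stab A π) π 0 f L) →
      ∃ L, FRel χ₀ p A (stab A π) (stab A π) π 2 f L := by
    rintro f hv ⟨L, hL⟩
    have h1 := hv L hL
    subst h1
    obtain ⟨L', hL'⟩ := FRel.step_zero (fun μ hr => succ_ss hpp hA hπ hr) hL
    exact FRel.step (fun μ b hr => one_two_ss hpp hA hπ hr) hL'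
  -- the (0,0) entry vanishes
  have h00 : ∀ c ∈ X, ∀ g ∈ stab A π, c g 0 0 = 0 := by
    intro c hc
    have hv : ∀ i, i ≠ 1 → i ≤ p → ∀ L,
        FRel χ₀ p A (stab A π) (stab A π) π i (fun g => c g 0 0) L → L = 0 := by
      intro i hi1 hip L hL
      rcases Wt.eq_zero_or hA hπ ι hψ hζ (hwt00 c hc) hi1 hip hL hh₀ hord with h | h | h
      · exact h
      · have := hinj i (p + 1) (by omega) (by omega) h
        omega
      · have h4 : x₀ ^ ((p + 1) * p) = x₀ ^ (p + 1) := by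
          have h5 : (p + 1) * p = (p ^ 2 - 1) + (p + 1) := by
            have : 1 ≤ p ^ 2 := Nat.one_le_pow _ _ hpp.pos
            have h6 : (p + 1) * p = p ^ 2 + p := by ring
            omega
          rw [h5, pow_add, hx₀e, one_mul]
        rw [← hx₀, h4] at h
        have := hinj i (p + 1) (by omega) (by omega) h
        omega
    exact Wt.eq_zero hA hπ hζ hχ₀ (f := fun g => c g 0 0) (i₀ := 2) (by omega)
      (fun i hi hip L hL => hv i (by omega) hip L hL)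
      (h02 _ (fun L hL => hv 0 (by omega) (by omega) L hL) (hlev0 c hc 0 0))
  -- the (1,0) entry
  have hv10 : ∀ c ∈ X, ∀ i, i ≠ 1 → i ≠ 2 → i ≤ p → ∀ L,
      FRel χ₀ p A (stab A π) (stab A π) π i (fun g => c g 1 0) L → L = 0 := by
    intro c hc i hi1 hi2 hip L hL
    rcases Wt.eq_zero_or hA hπ ι hψ hζ (hwt10 c hc) hi1 hip hL hh₀ hord with h | h | h
    · exact h
    · have := hinj i 2 (by omega) (by omega) h
      omega
    · have := hinj i (2 * p) (by omega) (by omega) h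
      omega
  -- Frobenius
  obtain ⟨φ, hφ⟩ := Fermat.Agent.Frob.exists_isFrobeniusAt hpp hA
  have hφD : φ ∈ A.decompositionSubgroup ℚ := hφ.mem_decompositionSubgroup
  have hx₀p : x₀ ≠ x₀ ^ p := by
    intro h
    have h4 : x₀ ^ 1 = x₀ ^ p := by rw [pow_one]; exact h
    have := hinj 1 p (by omega) (by omega) h4
    omega
  -- `r φ` is antidiagonal
  have hψφ : ∃ h₁ ∈ A.inertiaSubgroupIn ℚ, φ * h₀ * φ⁻¹ = h₁ ∧ ψ h₁ = x₀ ^ p := by
    have hI : φ * h₀ * φ⁻¹ ∈ A.inertiaSubgroupIn ℚ := by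
      have := TW.conj_mem_inertia_of_decomp (inv_mem hφD) hh₀
      rwa [inv_inv] at this
    refine ⟨φ * h₀ * φ⁻¹, hI, rfl, ?_⟩
    apply ι.injective
    obtain ⟨hu1, hu2⟩ := div_pi hpp hA hπ φ⁻¹
    have hfix : h₀ (φ⁻¹ π / π) = φ⁻¹ π / π :=
      LocE.isFixed_of_pow_eq_one hpp hA (by omega) (not_dvd_sq_sub_one hpp) hu2 h₀ hh₀
    have hdiv : (φ * h₀ * φ⁻¹) π / π = φ (h₀ π / π) := by
      have h4 : (φ * h₀ * φ⁻¹) π = φ (h₀ (φ⁻¹ π)) := rfl
      have h5 : φ (φ⁻¹ π) = π := AlgEquiv.apply_symm_apply φ π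
      have h6 : h₀ (φ⁻¹ π) = φ⁻¹ π * (h₀ π / π) := by
        conv_lhs => rw [hu1, map_mul, hfix]
        field_simp
      rw [h4, h6, map_mul, h5, mul_div_cancel_left₀ _ hπ0]
    have huA := div_pi_mem hpp hπ hA (φ * h₀ * φ⁻¹)
    have huA0 := div_pi_mem hpp hπ hA h₀
    rw [← hψ _ hI huA, map_pow, ← hψ h₀ hh₀ huA0]
    have h7 := (actsAs_frob hφ).2 _ huA0 (by rw [← hdiv]; exact huA)
    refine Eq.trans ?_ h7
    congr 1
    exact Subtype.ext hdiv
  obtain ⟨h₁, hh₁, hh₁e, hψ₁⟩ := hψφ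
  have hx₀pp : (x₀ ^ p) ^ p = x₀ := by
    rw [← pow_mul, ← sq, show p ^ 2 = (p ^ 2 - 1) + 1 from by omega, pow_succ, hx₀e, one_mul]
  have hcomm : r φ * !![x₀, 0; 0, x₀ ^ p] = !![x₀ ^ p, 0; 0, x₀] * r φ := by
    have h4 : φ * h₀ = h₁ * φ := by rw [← hh₁e]; group
    have h5 := congrArg r h4
    rw [map_mul, map_mul, hr h₀ hh₀, hr h₁ hh₁, hψ₁, hx₀pp] at h5
    exact h5
  have hR00 : r φ 0 0 = 0 := by
    have h4 := congrFun (congrFun hcomm 0) 0
    simp only [Matrix.mul_apply, Fin.sum_univ_two, Matrix.of_apply, Matrix.cons_val', Matrix.cons_val_zero,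
      Matrix.cons_val_one, Matrix.cons_val_fin_one, zero_mul, mul_zero, add_zero, zero_add] at h4
    by_contra hne
    apply hx₀p
    rw [mul_comm] at h4
    exact mul_right_cancel₀ hne h4
  have hR11 : r φ 1 1 = 0 := by
    have h4 := congrFun (congrFun hcomm 1) 1
    simp only [Matrix.mul_apply, Fin.sum_univ_two, Matrix.of_apply, Matrix.cons_val', Matrix.cons_val_zero,
      Matrix.cons_val_one, Matrix.cons_val_fin_one, zero_mul, mul_zero, add_zero, zero_add] at h4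
    by_contra hne
    apply hx₀p
    rw [mul_comm] at h4
    exact (mul_right_cancel₀ hne h4).symm
  have hRinv : r φ * r φ⁻¹ = 1 := by rw [← map_mul, mul_inv_cancel, map_one]
  have hRinv' : r φ⁻¹ * r φ = 1 := by rw [← map_mul, inv_mul_cancel, map_one]
  have hR01 : r φ 0 1 * r φ⁻¹ 1 0 = 1 ∧ r φ 0 1 * r φ⁻¹ 1 1 = 0 := by
    have h4 := congrFun (congrFun hRinv 0) 0
    have h5 := congrFun (congrFun hRinv 0) 1
    simp only [Matrix.mul_apply, Fin.sum_univ_two, hR00, zero_mul, zero_add, Matrix.one_apply_eq] at h4 h5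
    exact ⟨h4, by rw [h5]; exact Matrix.one_apply_ne (by decide)⟩
  have hR'11 : r φ⁻¹ 1 1 = 0 := by
    refine (mul_eq_zero.mp hR01.2).resolve_left ?_
    intro h4
    have := hR01.1
    rw [h4, zero_mul] at this
    exact zero_ne_one this
  -- the (0,1) entry in terms of the (1,0) entry
  have h01 : ∀ c ∈ X, (∀ g ∈ stab A π, c g 1 0 = 0) → ∀ g ∈ stab A π, c g 0 1 = 0 := by
    intro c hc hz g hg
    have h4 : φ⁻¹ * g * φ ∈ stab A π := conj_mem_stab hpp hA hπ hφD hg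
    have h5 := heq c hc φ hφD _ (mem_stab.mp h4).1 (mem_stab.mp h4).2
    have h6 : φ * (φ⁻¹ * g * φ) * φ⁻¹ = g := by group
    rw [h6] at h5
    rw [h5]
    simp only [Matrix.mul_apply, Fin.sum_univ_two, hR00, hR'11, hz _ h4, zero_mul, mul_zero,
      add_zero]
  -- `r (φ * φ)` is scalar
  have hsc : r (φ * φ) = (r φ 0 1 * r φ 1 0) • (1 : M2 k) := by
    rw [map_mul]
    ext i j
    fin_cases i <;> fin_cases j <;>
      simp [Matrix.mul_apply, Fin.sum_univ_two, hR00, hR11, mul_comm]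
  have hφ2D : φ * φ ∈ A.decompositionSubgroup ℚ := mul_mem hφD hφD
  have hconj2 : ∀ c ∈ X, ∀ g ∈ stab A π, c ((φ * φ)⁻¹ * g * (φ * φ)) = c g := by
    intro c hc g hg
    rw [hconj c hc _ hφ2D g hg]
    have h4 : r (φ * φ)⁻¹ * r (φ * φ) = 1 := by rw [← map_mul, inv_mul_cancel, map_one]
    rw [hsc] at h4 ⊢
    rw [mul_smul_comm, mul_one] at h4 ⊢
    rw [← smul_mul_assoc, h4, one_mul]
  have hact2 : ActsAs A (φ * φ) (fun x => x ^ p ^ 2) := by
    have h4 := (actsAs_frob hφ).comp (actsAs_frob hφ)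
    refine ⟨h4.1, fun x hx hx' => ?_⟩
    rw [h4.2 x hx hx']
    change ((IsLocalRing.residue A ⟨x, hx⟩) ^ p) ^ p = (IsLocalRing.residue A ⟨x, hx⟩) ^ p ^ 2
    rw [sq, pow_mul]
  obtain ⟨n, hnζ, hn0, hn⟩ := exists_smul_char (k := k) hpp χ₀ hζ (φ * φ)
  obtain ⟨hu1, hu2⟩ := div_pi hpp hA hπ (φ * φ)
  have huA := div_pi_mem hpp hπ hA (φ * φ)
  have hu0 : IsLocalRing.residue A ⟨(φ * φ) π / π, huA⟩ ≠ 0 := by
    intro h4
    have h5 : IsLocalRing.residue A ⟨(φ * φ) π / π, huA⟩ ^ (p ^ 2 - 1) = 0 := by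
      rw [h4, zero_pow (by omega)]
    rw [← map_pow] at h5
    have h6 : (⟨(φ * φ) π / π, huA⟩ : A) ^ (p ^ 2 - 1) = 1 := Subtype.ext hu2
    rw [h6, map_one] at h5
    exact one_ne_zero h5
  refine card_le_of_rel (κ := IsLocalRing.ResidueField A) (p := p) (s := 2) (η := x₀ ^ 2)
    (θ := (n : k)) (b := ι x₀ ^ 2)
    (c₀ := IsLocalRing.residue A ⟨(φ * φ) π / π, huA⟩ ^ 2) hn0 (pow_ne_zero 2 hu0)
    (Or.inr ⟨rfl, ?_, ?_⟩) X
    (fun c L => FRel χ₀ p A (stab A π) (stab A π) π 2 (fun g => c g 1 0) L) ?_ ?_ ?_ ?_ ?_ ?_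
  · intro h4
    rw [← pow_mul] at h4
    have := hinj (2 * p) 2 (by omega) (by omega) h4
    omega
  · rw [← pow_mul, mul_comm, pow_mul, sq p, pow_mul, hx₀pp]
  · intro c hc
    exact h02 _ (fun L hL => hv10 c hc 0 (by omega) (by omega) (by omega) L hL) (hlev0 c hc 1 0)
  · intro c _ L L' h h'
    exact FRel.unique hpp hA hπA hπM (uniq_ss hpp hA hπ (by omega) (by omega)) h h'
  · intro c _ L h a a'
    exact FRel.map_add hpp hA hπA hπM (uniq_ss hpp hA hπ (by omega) (by omega)) h a a'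
  · intro c _ c' _ L L' h h'
    exact FRel.add hpp hA hπA hπM h h'
  · intro c hc h
    have h10 : ∀ g ∈ stab A π, c g 1 0 = 0 :=
      Wt.eq_zero hA hπ hζ hχ₀ (f := fun g => c g 1 0) (i₀ := 3) (by omega)
        (fun i hi hip L hL => hv10 c hc i (by omega) (by omega) hip L hL)
        (FRel.step_zero (fun μ hr => succ_ss hpp hA hπ hr) h)
    funext g
    by_cases hg : g ∈ A.inertiaSubgroupIn ℚ ∧ g π = π
    · have h4 := htr c hc g
      rw [Matrix.trace_fin_two, h00 c hc g hg, zero_add] at h4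
      ext i j
      fin_cases i <;> fin_cases j
      · exact h00 c hc g hg
      · exact h01 c hc h10 g hg
      · exact h10 g hg
      · exact h4
    · exact h0 c hc g hg
  · intro c hc L h
    refine ⟨fun a => ?_, fun a => ?_⟩
    · exact Wt.semi hA hπ ι hψ hζ (hwt10 c hc) (by omega) (by omega) h hh₀ a
    · have h4 := FRel.conj hpp hA (h := φ * φ) (u := (φ * φ) π / π) (n := (n : k)) (ρ := 1)
        hπA hπM (uniq_ss hpp hA hπ (by omega) (by omega)) hact2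
        (fun g hg => conj_mem_stab hpp hA hπ hφ2D hg)
        (fun g hg => conj_mem_stab hpp hA hπ hφ2D hg) hu1 huA
        (fun g hg => LocE.isFixed_of_pow_eq_one hpp hA (by omega) (not_dvd_sq_sub_one hpp) hu2 g
          (mem_stab.mp hg).1) hn (fun g hg => by rw [hconj2 c hc g hg, one_mul]) h a
      rwa [mul_one] at h4

/-- **The supersingular count.** -/
theorem card_ss_le [Finite k] (hp2 : p ≠ 2) {A : ValuationSubring Om} (hA : A.LiesOverPrime p)
    {π : Om} (hπ : π ^ (p ^ 2 - 1) = (p : Om)) {r : GQ →* M2 k}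
    (ι : k →+* IsLocalRing.ResidueField A) (ψ : GQ → k) {v₁ v₂ : Fin 2 → k}
    (hv : LinearIndependent k ![v₁, v₂])
    (hψ : ∀ g ∈ A.inertiaSubgroupIn ℚ, ∀ h : g π / π ∈ A,
      IsLocalRing.residue A ⟨g π / π, h⟩ = ι (ψ g))
    (h₁ : ∀ g ∈ A.inertiaSubgroupIn ℚ, (r g).mulVec v₁ = ψ g • v₁)
    (h₂ : ∀ g ∈ A.inertiaSubgroupIn ℚ, (r g).mulVec v₂ = ψ g ^ p • v₂)
    (X : AddSubgroup (GQ → M2 k))
    (h0 : ∀ c ∈ X, ∀ g, ¬ (g ∈ A.inertiaSubgroupIn ℚ ∧ g π = π) → c g = 0)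
    (htr : ∀ c ∈ X, ∀ g, (c g).trace = 0)
    (heq : ∀ c ∈ X, ∀ φ ∈ A.decompositionSubgroup ℚ, ∀ g ∈ A.inertiaSubgroupIn ℚ, g π = π →
      c (φ * g * φ⁻¹) = r φ * c g * r φ⁻¹)
    (hcl : ∀ c ∈ X, ∀ (x : Fin 2 → k) (lam : AddChar (Fin 2 → k) Om), ∃ z α : Om,
      (∀ g ∈ A.inertiaSubgroupIn ℚ, g π = π → g α = α) ∧ (valOf hp.out hA).Ge 0 α ∧
      z ^ p = 1 + p * α ∧
      ∀ g ∈ A.inertiaSubgroupIn ℚ, g π = π → g z = lam ((c g).mulVec x) * z) :
    Finite X ∧ Nat.card X ≤ Nat.card k := by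
  obtain ⟨χ₀, hχ₀⟩ := exists_addChar_ne_one_count k
  have hu0 : IsUnit (Matrix.of ![v₁, v₂] : M2 k) :=
    Matrix.linearIndependent_rows_iff_isUnit.mp hv
  have hu : IsUnit ((Matrix.of ![v₁, v₂] : M2 k).transpose) := by
    rw [Matrix.isUnit_transpose]
    exact hu0
  obtain ⟨U, hU⟩ := hu
  let V : M2 k := ((U⁻¹ : (M2 k)ˣ) : M2 k)
  have hVU : V * (U : M2 k) = 1 := U.inv_mul
  have hUV : (U : M2 k) * V = 1 := U.mul_inv
  have hU0 : ∀ i, (U : M2 k) i 0 = v₁ i := fun i => by rw [hU]; rfl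
  have hU1 : ∀ i, (U : M2 k) i 1 = v₂ i := fun i => by rw [hU]; rfl
  let r' : GQ →* M2 k :=
    { toFun := fun g => V * r g * U
      map_one' := by rw [map_one, mul_one, hVU]
      map_mul' := fun g h => by
        rw [map_mul]
        calc V * (r g * r h) * U = V * r g * ((U : M2 k) * V) * r h * U := by
              rw [hUV]; noncomm_ring
          _ = _ := by noncomm_ring }
  let F : (GQ → M2 k) →+ (GQ → M2 k) :=
    { toFun := fun c g => V * c g * U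
      map_zero' := by funext g; simp
      map_add' := fun c c' => by funext g; simp [mul_add, add_mul] }
  have hF : Function.Injective F := by
    intro c c' h
    funext g
    have h1 : V * c g * U = V * c' g * U := congrFun h g
    have h2 : (U : M2 k) * (V * c g * U) * V = (U : M2 k) * (V * c' g * U) * V := by rw [h1]
    have h3 : ∀ M : M2 k, (U : M2 k) * (V * M * U) * V = M := by
      intro M
      calc (U : M2 k) * (V * M * U) * V = ((U : M2 k) * V) * M * ((U : M2 k) * V) := by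
            noncomm_ring
        _ = M := by rw [hUV, one_mul, mul_one]
    rwa [h3, h3] at h2
  have hr' : ∀ g ∈ A.inertiaSubgroupIn ℚ, r' g = !![ψ g, 0; 0, ψ g ^ p] := by
    intro g hg
    have h3 : r g * U = U * !![ψ g, 0; 0, ψ g ^ p] := by
      ext i j
      have h4 := congrFun (h₁ g hg) i
      have h5 := congrFun (h₂ g hg) i
      simp only [Matrix.mulVec, dotProduct, Fin.sum_univ_two, Pi.smul_apply, smul_eq_mul] at h4 h5
      fin_cases j
      · simp only [Fin.zero_eta, Matrix.mul_apply, Fin.sum_univ_two, hU0, Matrix.of_apply,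
          Matrix.cons_val', Matrix.cons_val_zero, Matrix.cons_val_one,
          Matrix.cons_val_fin_one, mul_zero, add_zero]
        rw [h4, mul_comm]
      · simp only [Fin.mk_one, Matrix.mul_apply, Fin.sum_univ_two, hU1, Matrix.of_apply,
          Matrix.cons_val', Matrix.cons_val_zero, Matrix.cons_val_one,
          Matrix.cons_val_fin_one, mul_zero, zero_add]
        rw [h5, mul_comm]
    change V * r g * U = _
    rw [mul_assoc, h3, ← mul_assoc, hVU, one_mul]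
  have hrr : ∀ g, r' g = V * r g * U := fun g => rfl
  obtain ⟨hfin, hcard⟩ := card_ss_std hp2 hA hπ (r := r') ι ψ hψ hr' hχ₀ (X.map F)
    (by
      rintro _ ⟨c, hc, rfl⟩ g hg
      change V * c g * U = 0
      rw [h0 c hc g hg, mul_zero, zero_mul])
    (by
      rintro _ ⟨c, hc, rfl⟩ g
      change (V * c g * U).trace = 0
      rw [Matrix.trace_mul_cycle, hUV, one_mul]
      exact htr c hc g)
    (by
      rintro _ ⟨c, hc, rfl⟩ φ hφ g hg hgπ
      change V * c (φ * g * φ⁻¹) * U = r' φ * (V * c g * U) * r' φ⁻¹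
      rw [heq c hc φ hφ g hg hgπ, hrr, hrr]
      calc V * (r φ * c g * r φ⁻¹) * U
          = V * r φ * ((U : M2 k) * V) * c g * ((U : M2 k) * V) * r φ⁻¹ * U := by
            rw [hUV]; noncomm_ring
        _ = _ := by noncomm_ring)
    (by
      rintro _ ⟨c, hc, rfl⟩ i j a
      let ℓ : (Fin 2 → k) →+ k :=
        { toFun := fun x => a * (V.mulVec x) i
          map_zero' := by rw [Matrix.mulVec_zero]; simp
          map_add' := fun x y => by rw [Matrix.mulVec_add, Pi.add_apply, mul_add] }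
      obtain ⟨z, α, hα, hα0, hz, hzg⟩ := hcl c hc (fun l => (U : M2 k) l j)
        (χ₀.compAddMonoidHom ℓ)
      refine ⟨z, α, hα, hα0, hz, fun g hg hgπ => ?_⟩
      rw [hzg g hg hgπ]
      congr 1
      change χ₀ (a * (V.mulVec ((c g).mulVec fun l => (U : M2 k) l j)) i) =
        χ₀ (a * (V * c g * U) i j)
      congr 2
      rw [mul_assoc, Matrix.mul_apply']
      rfl)
  let e : X ≃ X.map F := (X.equivMapOfInjective F hF).toEquiv
  have : Finite X := Finite.of_equiv _ e.symm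
  exact ⟨this, (Nat.card_congr e).le.trans hcard⟩

end std

end Fermat.Agent.FlatP
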