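import Fermat.Agent.FlatP.Shape
import Fermat.Agent.FlatGS.Converse

/-!
# The shape of flat representations at `p`: matrix form
-/

set_option autoImplicit false

namespace Fermat.Agent.FlatP

open Fermat.Agent.FlatGS Fermat.Agent.MazurMult FermatAgent.ECVal IsLocalRing Matrix
open Fermat.Agent.S53norm (M2)

variable {p : ℕ} {k : Type} [Field k] {r : GQ →* M2 k} {A : ValuationSubring Om}

/-- change of basis. -/
lemma exists_unit_basis {v w : Fin 2 → k} (hli : LinearIndependent k ![v, w]) :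
    ∃ U : (M2 k)ˣ, ∀ (X : M2 k) (a b c d : k), X *ᵥ v = a • v + c • w →
      X *ᵥ w = b • v + d • w → (U : M2 k) * X * (U⁻¹ : (M2 k)ˣ) = !![a, b; c, d] := by
  let Q : M2 k := (Matrix.of ![v, w])ᵀ
  have hQ : IsUnit Q := by
    rw [Matrix.isUnit_transpose, ← Matrix.linearIndependent_rows_iff_isUnit]
    exact hli
  obtain ⟨V, hV⟩ := hQ
  refine ⟨V⁻¹, fun X a b c d hv hw => ?_⟩
  have h1 : X * Q = Q * !![a, b; c, d] := by
    have hv' : ∀ i, (X *ᵥ v) i = a * v i + c * w i := fun i => by rw [hv]; rfl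
    have hw' : ∀ i, (X *ᵥ w) i = b * v i + d * w i := fun i => by rw [hw]; rfl
    ext i j
    fin_cases j
    · have h2 := hv' i
      rw [mulVec, dotProduct, Fin.sum_univ_two] at h2
      rw [Matrix.mul_apply, Matrix.mul_apply, Fin.sum_univ_two, Fin.sum_univ_two]
      simp only [Q, Matrix.transpose_apply, Matrix.of_apply]
      simp
      rw [h2]
      ring
    · have h2 := hw' i
      rw [mulVec, dotProduct, Fin.sum_univ_two] at h2
      rw [Matrix.mul_apply, Matrix.mul_apply, Fin.sum_univ_two, Fin.sum_univ_two]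
      simp only [Q, Matrix.transpose_apply, Matrix.of_apply]
      simp
      rw [h2]
      ring
  rw [inv_inv, mul_assoc, hV, h1, ← hV, Units.inv_mul_cancel_left]

/-- **The shape of flat representations at `p`**, in the form of the tangent space computation. -/
theorem shape_matrix [Finite k] [CharP k p] (hp : p.Prime) (hp2 : p ≠ 2)
    (hA : A.LiesOverPrime p) (hlev : TW.IsFiniteLevel r)
    (hflat : IsFlatModule p (fun σ (v : Fin 2 → k) => r σ *ᵥ v)) (hdet : TW.CycDet p r)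
    (hsplit : ∀ σ, ∃ α β : k, (r σ).charpoly =
      (Polynomial.X - Polynomial.C α) * (Polynomial.X - Polynomial.C β)) :
    (∃ U : (M2 k)ˣ, ∀ σ ∈ A.decompositionSubgroup ℚ,
      ((U : M2 k) * r σ * (U⁻¹ : (M2 k)ˣ)) 1 0 = 0 ∧
        (σ ∈ A.inertiaSubgroupIn ℚ → ((U : M2 k) * r σ * (U⁻¹ : (M2 k)ˣ)) 1 1 = 1)) ∨
    (∀ π : Om, π ^ (p ^ 2 - 1) = (p : Om) →
      ∃ (ι : k →+* ResidueField A) (ψ : GQ → k) (v₁ v₂ : Fin 2 → k),
        LinearIndependent k ![v₁, v₂] ∧ ∀ g ∈ A.inertiaSubgroupIn ℚ,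
          (∀ h : g π / π ∈ A, residue A ⟨g π / π, h⟩ = ι (ψ g)) ∧
          r g *ᵥ v₁ = ψ g • v₁ ∧ r g *ᵥ v₂ = ψ g ^ p • v₂ ∧
          (g π = π → r g = 1)) := by
  obtain ⟨-, B, hB⟩ := hflat.exists_model
  rcases shape hp hp2 hA hlev hdet hsplit hB with ⟨v, hv0, hv⟩ | ⟨-, hss⟩
  · left
    obtain ⟨w, hli⟩ := exists_li hv0
    obtain ⟨U, hU⟩ := exists_unit_basis hli
    refine ⟨U, fun σ hσ => ?_⟩
    have hvV : v ∈ V0 r A := by
      rw [hv]
      exact Submodule.mem_span_singleton_self v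
    have h1 := mulVec_mem_V0 hσ hvV
    rw [hv] at h1
    obtain ⟨a, ha⟩ := Submodule.mem_span_singleton.mp h1
    obtain ⟨b, d, hbd⟩ := exists_coord hli (r σ *ᵥ w)
    have h2 := hU (r σ) a b 0 d (by rw [zero_smul, add_zero, ha]) hbd
    rw [h2]
    refine ⟨by simp, fun hσI => ?_⟩
    have h3 := sub_mem_V0 (r := r) hσI w
    rw [hv, hbd] at h3
    obtain ⟨e, he⟩ := Submodule.mem_span_singleton.mp h3
    have h4 : (b - e) • v + (d - 1) • w = 0 := by
      have h5 : (b - e) • v + (d - 1) • w = (b • v + d • w - w) - e • v := by module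
      rw [h5, ← he, sub_self]
    have h6 := (eq_zero_of_coord hli h4).2
    simp only [Matrix.of_apply, Matrix.cons_val', Matrix.cons_val_one, Matrix.cons_val_fin_one]
    exact sub_eq_zero.mp h6
  · right
    intro π hπ
    obtain ⟨ι, ψ, v₁, v₂, hli, hg⟩ := hss π hπ
    refine ⟨ι, ψ, v₁, v₂, hli, fun g hgI => ?_⟩
    obtain ⟨h1, h2, h3, h4⟩ := hg g hgI
    refine ⟨fun h => ?_, h2, h3, h4⟩
    rw [← h1, ts, rs_of_mem h]

end Fermat.Agent.FlatP
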