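import Fermat.Agent.FlatP.BoundConj
import Fermat.Agent.FlatP.CountSS
import Fermat.Agent.FlatP.ShapeMat
import Fermat.Agent.TW.Final

/-!
# The bound for the flat local condition at `p`
-/

set_option autoImplicit false

namespace Fermat.Agent.FlatP

open Matrix Fermat.Agent.FlatGS Fermat.Agent.MazurMult Fermat.Agent.TW FermatAgent.ECVal
open Fermat.Agent.S53norm (M2 HasMat)
open Fermat.Agent.Minkowski

variable {k : Type} [Field k] [Finite k] {p : ℕ} [hp : Fact p.Prime] [CharP k p]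
  {A : ValuationSubring Om} {r : GQ →* M2 k}

theorem card_flatLoc (hp2 : p ≠ 2) (hA : A.LiesOverPrime p) (hlev : IsFiniteLevel r)
    (hcyc : CycDet p r)
    (hsplit : ∀ σ, ∃ α β : k, (r σ).charpoly =
      (Polynomial.X - Polynomial.C α) * (Polynomial.X - Polynomial.C β))
    (h0 : IsFlatModule p (pact r 0)) :
    Finite (flatLoc p r h0 (A.decompositionSubgroup ℚ)) ∧
      Nat.card (flatLoc p r h0 (A.decompositionSubgroup ℚ)) ≤ Nat.card k ^ 4 := by
  have hpp : p.Prime := hp.out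
  rcases shape_matrix hpp hp2 hA hlev (isFlatModule_of_pact h0) hcyc hsplit with ⟨U, hU⟩ | hss
  · exact card_flatLoc_ord hp2 hA hcyc hlev U (fun σ hσ => (hU σ hσ).1)
      (fun σ hσ => (hU σ (inertia_le_decomp hσ)).2 hσ) h0
  · have he0 : 0 < p ^ 2 - 1 := by
      have := bss_two_le hpp
      omega
    obtain ⟨π, hπ⟩ := IsAlgClosed.exists_pow_nat_eq (p : Om) he0
    obtain ⟨ι, ψ, v₁, v₂, hv, h⟩ := hss π hπ
    have htriv : ∀ g ∈ A.inertiaSubgroupIn ℚ, g π = π → r g = 1 := fun g hg => (h g hg).2.2.2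
    refine card_flatLoc_ss hA hπ hlev h0 ?_
    refine card_ss_le hp2 hA hπ ι ψ hv (fun g hg => (h g hg).1) (fun g hg => (h g hg).2.1)
      (fun g hg => (h g hg).2.2.1) _ ?_ ?_ ?_ ?_
    · rintro _ ⟨c, hc, rfl⟩ g hg
      exact wildRes_of_not hg
    · rintro _ ⟨_, ⟨c, hc, rfl⟩, rfl⟩ g
      by_cases hg : g ∈ A.inertiaSubgroupIn ℚ ∧ g π = π
      · rw [wildRes_of hg.1 hg.2]
        exact hc.1.1 _
      · rw [wildRes_of_not hg, trace_zero]
    · rintro _ ⟨_, ⟨c, hc, rfl⟩, rfl⟩ φ hφ g hg hgπ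
      obtain ⟨h1, h2⟩ := conj_fix_root hpp hA (bss_not_dvd hpp) hπ hφ hg hgπ
      rw [wildRes_of h1 h2, wildRes_of hg hgπ]
      exact cocyc_conj hc.1 φ (htriv g hg hgπ)
    · rintro _ ⟨_, ⟨c, hc, rfl⟩, rfl⟩ x lam
      obtain ⟨z, α, h1, h2, h3, h4⟩ := hcl_ss hA hcyc hπ htriv hc.2 x lam
      refine ⟨z, α, h1, h2, h3, fun g hg hgπ => ?_⟩
      rw [wildRes_of hg hgπ]
      exact h4 g hg hgπ

/-- **The bound for the flat local condition.** -/
theorem flatBound (p : ℕ) [hp : Fact p.Prime] (hp2 : p ≠ 2) : FlatBound p := by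
  intro k _ _ _ r hlev hcyc hsplit h0 A hA
  have h0' : IsFlatModule p (pact r 0) := (isFlatAt_defAdic_iff hlev 0 p).mp h0
  exact localBound_of_card hlev h0' _ (card_flatLoc hp2 hA hlev hcyc hsplit h0')

end Fermat.Agent.FlatP
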