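import Fermat.Agent.FlatP.BoundOrd

/-!
# The flat local condition in the ordinary case, for an arbitrary basis
-/

set_option autoImplicit false

namespace Fermat.Agent.FlatP

open Matrix Fermat.Agent.FlatGS Fermat.Agent.MazurMult Fermat.Agent.TW FermatAgent.ECVal
open Fermat.Agent.S53norm (M2 HasMat)
open Fermat.Agent.Minkowski

section conj

variable {k : Type} [Field k] {p : ℕ} {A : ValuationSubring Om} {r : GQ →* M2 k}

/-- The conjugate representation. -/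
noncomputable def cjRep (U : (M2 k)ˣ) (r : GQ →* M2 k) : GQ →* M2 k where
  toFun σ := cj U (r σ)
  map_one' := by rw [map_one, cj_one]
  map_mul' σ τ := by rw [map_mul, cj_mul]

lemma cjRep_apply (U : (M2 k)ˣ) (r : GQ →* M2 k) (σ : GQ) : cjRep U r σ = cj U (r σ) := rfl

lemma isFiniteLevel_cjRep (U : (M2 k)ˣ) (h : IsFiniteLevel r) : IsFiniteLevel (cjRep U r) := by
  obtain ⟨L, hL, h⟩ := h
  exact ⟨L, hL, fun σ hσ => by rw [cjRep_apply, h σ hσ, cj_one]⟩

lemma cycDet_cjRep (U : (M2 k)ˣ) (h : CycDet p r) : CycDet p (cjRep U r) := by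
  intro σ a ha
  rw [cjRep_apply, cj_det]
  exact h σ a ha

lemma cj_mem_Z1 (U : (M2 k)ˣ) {c : GQ → M2 k} (hc : c ∈ Z1 r (MonoidHom.id GQ) 0) :
    (fun σ => cj U (c σ)) ∈ Z1 (cjRep U r) (MonoidHom.id GQ) 0 := by
  obtain ⟨h1, h2, L, hL, h3⟩ := hc
  refine ⟨fun g => ?_, fun g h => ?_, L, hL, fun g hg => ?_⟩
  · rw [cj_trace]
    exact h1 g
  · simp only
    rw [h2 g h, cj_add, act_zero_apply, act_zero_apply, cj_mul, cj_mul]
    rfl
  · simp only
    rw [h3 g hg, cj, mul_zero, zero_mul]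

lemma isFlatModule_pact_cj (U : (M2 k)ˣ) {c : GQ → M2 k} (h : IsFlatModule p (pact r c)) :
    IsFlatModule p (pact (cjRep U r) (fun σ => cj U (c σ))) := by
  have hU : U.val * U⁻¹.val = 1 := Units.mul_inv _
  have hU' : U⁻¹.val * U.val = 1 := Units.inv_mul _
  let i : (Fin 2 → k) × (Fin 2 → k) ≃+ (Fin 2 → k) × (Fin 2 → k) :=
    { toFun := fun v => (U⁻¹.val *ᵥ v.1, U⁻¹.val *ᵥ v.2)
      invFun := fun v => (U.val *ᵥ v.1, U.val *ᵥ v.2)
      left_inv := fun v => by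
        apply Prod.ext
        · change U.val *ᵥ (U⁻¹.val *ᵥ v.1) = v.1
          rw [mulVec_mulVec, hU, one_mulVec]
        · change U.val *ᵥ (U⁻¹.val *ᵥ v.2) = v.2
          rw [mulVec_mulVec, hU, one_mulVec]
      right_inv := fun v => by
        apply Prod.ext
        · change U⁻¹.val *ᵥ (U.val *ᵥ v.1) = v.1
          rw [mulVec_mulVec, hU', one_mulVec]
        · change U⁻¹.val *ᵥ (U.val *ᵥ v.2) = v.2
          rw [mulVec_mulVec, hU', one_mulVec]
      map_add' := fun v w => by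
        apply Prod.ext
        · change U⁻¹.val *ᵥ (v.1 + w.1) = U⁻¹.val *ᵥ v.1 + U⁻¹.val *ᵥ w.1
          rw [mulVec_add]
        · change U⁻¹.val *ᵥ (v.2 + w.2) = U⁻¹.val *ᵥ v.2 + U⁻¹.val *ᵥ w.2
          rw [mulVec_add] }
  have key : ∀ (X : M2 k) (v : Fin 2 → k), U⁻¹.val *ᵥ (cj U X *ᵥ v) = X *ᵥ (U⁻¹.val *ᵥ v) := by
    intro X v
    rw [mulVec_mulVec, mulVec_mulVec, cj]
    congr 1
    rw [← mul_assoc, ← mul_assoc, hU', one_mul]
  refine h.of_equiv i ?_
  rintro σ ⟨x, y⟩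
  apply Prod.ext
  · exact key (r σ) x
  · change U⁻¹.val *ᵥ (cj U (r σ) *ᵥ y + cj U (c σ) *ᵥ (cj U (r σ) *ᵥ x)) =
      r σ *ᵥ (U⁻¹.val *ᵥ y) + c σ *ᵥ (r σ *ᵥ (U⁻¹.val *ᵥ x))
    rw [mulVec_add, key, key, key]

lemma pact_zero_cj (U : (M2 k)ˣ) (h : IsFlatModule p (pact r 0)) :
    IsFlatModule p (pact (cjRep U r) 0) := by
  have h1 := isFlatModule_pact_cj U h
  have h2 : (fun σ : GQ => cj U ((0 : GQ → M2 k) σ)) = 0 := by
    funext σ
    rw [Pi.zero_apply, cj, mul_zero, zero_mul]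
  rwa [h2] at h1

theorem card_flatLoc_ord [Finite k] [hp : Fact p.Prime] [CharP k p] (hp2 : p ≠ 2)
    (hA : A.LiesOverPrime p) (hcyc : CycDet p r) (hlev : IsFiniteLevel r) (U : (M2 k)ˣ)
    (hup : ∀ σ ∈ A.decompositionSubgroup ℚ, cj U (r σ) 1 0 = 0)
    (hI : ∀ σ ∈ A.inertiaSubgroupIn ℚ, cj U (r σ) 1 1 = 1) (h0 : IsFlatModule p (pact r 0)) :
    Finite (flatLoc p r h0 (A.decompositionSubgroup ℚ)) ∧
      Nat.card (flatLoc p r h0 (A.decompositionSubgroup ℚ)) ≤ Nat.card k ^ 4 := by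
  obtain ⟨hfin, hle⟩ := card_flatLoc_ord' hp2 hA (cycDet_cjRep U hcyc)
    (isFiniteLevel_cjRep U hlev) hup hI (pact_zero_cj U h0)
  let F : flatLoc p r h0 (A.decompositionSubgroup ℚ) →
      flatLoc p (cjRep U r) (pact_zero_cj U h0) (A.decompositionSubgroup ℚ) :=
    fun c => ⟨fun g => cj U (c.1 g), by
      obtain ⟨c', hc', h⟩ := c.2
      refine ⟨fun σ => cj U (c' σ), ⟨cj_mem_Z1 U hc'.1, isFlatModule_pact_cj U hc'.2⟩, ?_⟩
      rw [← h]
      rfl⟩
  have hF : Function.Injective F := by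
    intro c c' h
    apply Subtype.ext
    funext g
    have h1 : cj U (c.1 g) = cj U (c'.1 g) :=
      congrFun (congrArg (fun z => (z.1 : A.decompositionSubgroup ℚ → M2 k)) h) g
    have h2 := congrArg (cj U⁻¹) h1
    rwa [cj_inv_cj, cj_inv_cj] at h2
  exact ⟨Finite.of_injective F hF, (Nat.card_le_card_of_injective F hF).trans hle⟩

end conj

section final

variable {k : Type} [Field k]

/-- the module attached to `r` is a subquotient of the one attached to the trivial cocycle. -/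
lemma isFlatModule_of_pact {p : ℕ} {r c : GQ → M2 k} (h : IsFlatModule p (pact r c)) :
    IsFlatModule p (fun σ (v : Fin 2 → k) => r σ *ᵥ v) := by
  refine h.of_injective (AddMonoidHom.inr _ _) (fun a b hab => congrArg Prod.snd hab) ?_
  intro σ m
  apply Prod.ext
  · change 0 = r σ *ᵥ 0
    rw [mulVec_zero]
  · change r σ *ᵥ m = r σ *ᵥ m + c σ *ᵥ (r σ *ᵥ 0)
    rw [mulVec_zero, mulVec_zero, add_zero]

end final

end Fermat.Agent.FlatP
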