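import Fermat.Agent.FlatP.CocMod
import Fermat.Agent.FlatP.KummerGen

/-!
# The flat local condition, supersingular case: bookkeeping
-/

set_option autoImplicit false

namespace Fermat.Agent.FlatP

open Matrix Fermat.Agent.FlatGS Fermat.Agent.MazurMult Fermat.Agent.TW FermatAgent.ECVal
open Fermat.Agent.S53norm (M2 HasMat)
open Fermat.Agent.Minkowski

section index

variable {A : ValuationSubring Om} {p : ℕ} (hp : p.Prime) (hA : A.LiesOverPrime p)

include hp hA in
/-- The index of the stabilizer of `π` in the inertia group. -/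
lemma index_stabilizer_root {e : ℕ} (he0 : 0 < e) {π : Om} (hπ : π ^ e = (p : Om)) :
    (MulAction.stabilizer (A.inertiaSubgroupIn ℚ) π).index = e := by
  have hL := localData hp hA
  have heQ : (0 : ℚ) < e := by exact_mod_cast he0
  have hpv : (valOf hp hA).Is 1 (p : Om) := valOf_prime hp hA
  have hπ0 : π ≠ 0 := by
    rintro rfl
    rw [zero_pow he0.ne'] at hπ
    exact hpv.1 hπ.symm
  have hπv : (valOf hp hA).Is (1 / e) π := by
    refine ⟨hπ0, ?_⟩
    have h1 := ((QVal.Is.of_ne (w := valOf hp hA) hπ0).pow e)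
    rw [hπ] at h1
    have h2 := h1.unique hpv
    rw [eq_div_iff heQ.ne', mul_comm]
    exact h2
  have hJ'fin : (MulAction.stabilizer (A.inertiaSubgroupIn ℚ) π).FiniteIndex :=
    finiteIndex_stabilizer _ _
  have h1 : (MulAction.stabilizer (A.inertiaSubgroupIn ℚ) π).index ≤ e := by
    rw [MulAction.index_stabilizer]
    have h3 : (MulAction.orbit (A.inertiaSubgroupIn ℚ) π) ⊆
        ((Polynomial.nthRoots e (p : Om)).toFinset : Set Om) := by
      rintro _ ⟨g, rfl⟩
      simp only [Finset.mem_coe, Multiset.mem_toFinset]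
      rw [Polynomial.mem_nthRoots he0]
      change ((g : GQ) π) ^ e = p
      rw [← map_pow, hπ, map_natCast]
    calc (MulAction.orbit (A.inertiaSubgroupIn ℚ) π).ncard
        ≤ ((Polynomial.nthRoots e (p : Om)).toFinset : Set Om).ncard :=
          Set.ncard_le_ncard h3 (Finset.finite_toSet _)
      _ = (Polynomial.nthRoots e (p : Om)).toFinset.card := Set.ncard_coe_finset _
      _ ≤ Multiset.card (Polynomial.nthRoots e (p : Om)) := Multiset.toFinset_card_le _
      _ ≤ e := Polynomial.card_nthRoots e _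
  obtain ⟨m, hm⟩ := hL.exists_val_eq hJ'fin (y := π) (fun g hg => hg) hπ0
  rw [hπv.2] at hm
  have hi0 : (0 : ℚ) < (MulAction.stabilizer (A.inertiaSubgroupIn ℚ) π).index := by
    exact_mod_cast Nat.pos_of_ne_zero hJ'fin.index_ne_zero
  rw [div_eq_div_iff heQ.ne' hi0.ne', one_mul] at hm
  have hm' : ((MulAction.stabilizer (A.inertiaSubgroupIn ℚ) π).index : ℤ) = m * e := by
    exact_mod_cast hm
  have h5 : (0 : ℤ) < e := by exact_mod_cast he0
  have hmpos : 0 < m := by
    by_contra hcon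
    push Not at hcon
    have h4 : (0 : ℤ) < (MulAction.stabilizer (A.inertiaSubgroupIn ℚ) π).index := by
      exact_mod_cast hi0
    nlinarith
  have h6 : (e : ℤ) ≤ (MulAction.stabilizer (A.inertiaSubgroupIn ℚ) π).index := by nlinarith
  have h7 : e ≤ (MulAction.stabilizer (A.inertiaSubgroupIn ℚ) π).index := by exact_mod_cast h6
  omega

include hp hA in
/-- The inertia group acts trivially on roots of unity of order prime to `p`. -/
lemma inertia_fix_root {e : ℕ} (he : ¬ p ∣ e) {η : Om} (hη : η ^ e = 1)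
    {g : GQ} (hg : g ∈ A.inertiaSubgroupIn ℚ) : g η = η := by
  have hL := localData hp hA
  have he0 : e ≠ 0 := by
    rintro rfl
    exact he (dvd_zero _)
  have hη0 : η ≠ 0 := by
    rintro rfl
    rw [zero_pow he0] at hη
    exact zero_ne_one hη
  have hηv : (valOf hp hA).Is 0 η := by
    refine ⟨hη0, ?_⟩
    have h1 := ((QVal.Is.of_ne (w := valOf hp hA) hη0).pow e)
    rw [hη] at h1
    have h2 := h1.unique QVal.is_one
    exact (mul_eq_zero.mp h2).resolve_left (by exact_mod_cast he0)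
  have h1 : (valOf hp hA).Gt 0 (g η - η) := hL.inertia ⟨g, hg⟩ η hηv.ge
  have h2 : g η / η = 1 := by
    apply hL.eq_one_of_pow_eq_one he
    · rw [div_pow, ← map_pow, hη, map_one, div_one]
    · have h3 : g η / η - 1 = η⁻¹ * (g η - η) := by
        field_simp
      rw [h3]
      exact (hηv.inv.ge.mul_gt h1).mono (by norm_num)
  rw [div_eq_one_iff_eq hη0] at h2
  exact h2

include hp hA in
/-- The tame layer is stable under the decomposition group. -/
lemma conj_fix_root {e : ℕ} (he : ¬ p ∣ e) {π : Om} (hπ : π ^ e = (p : Om))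
    {φ g : GQ} (hφ : φ ∈ A.decompositionSubgroup ℚ) (hg : g ∈ A.inertiaSubgroupIn ℚ)
    (hgπ : g π = π) : φ * g * φ⁻¹ ∈ A.inertiaSubgroupIn ℚ ∧ (φ * g * φ⁻¹) π = π := by
  refine ⟨?_, ?_⟩
  · have := conj_mem_inertia_of_decomp (A := A) (inv_mem hφ) hg
    rwa [inv_inv] at this
  · have he0 : e ≠ 0 := by
      rintro rfl
      exact he (dvd_zero _)
    have hp0 : (p : Om) ≠ 0 := Nat.cast_ne_zero.mpr hp.ne_zero
    have hπ0 : π ≠ 0 := by
      rintro rfl
      rw [zero_pow he0] at hπ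
      exact hp0 hπ.symm
    have h1 : (φ⁻¹ π / π) ^ e = 1 := by
      rw [div_pow, ← map_pow, hπ, map_natCast, div_self hp0]
    have h2 := inertia_fix_root hp hA he h1 hg
    have h3 : g (φ⁻¹ π) = φ⁻¹ π := by
      have h4 : φ⁻¹ π = φ⁻¹ π / π * π := by rw [div_mul_cancel₀ _ hπ0]
      conv_lhs => rw [h4]
      rw [map_mul, h2, hgπ, div_mul_cancel₀ _ hπ0]
    rw [AlgEquiv.mul_apply, AlgEquiv.mul_apply, h3]
    exact φ.apply_symm_apply π

end index

section fixroot

variable {k : Type} [Field k] {p : ℕ} [hp : Fact p.Prime] [CharP k p]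

/-- an automorphism of determinant one fixes the `p`-th roots of unity. -/
lemma fix_of_det_eq_one {r : GQ →* M2 k} (hcyc : CycDet p r) {σ : GQ} (hσ : (r σ).det = 1)
    {μ : Om} (hμ : μ ^ p = 1) : σ μ = μ := by
  obtain ⟨a, ha⟩ := exists_root_exponent p σ
  have h1 : ((a : ℕ) : k) = ((1 : ℕ) : k) := by
    rw [← hcyc σ a ha, hσ, Nat.cast_one]
  rw [CharP.natCast_eq_natCast k p] at h1
  rw [ha μ hμ]
  conv_rhs => rw [← pow_one μ]
  exact pow_eq_pow_of_modEq h1 hμ

end fixroot

section ss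

variable {k : Type} [Field k] [Finite k] {p : ℕ} [hp : Fact p.Prime] [CharP k p]
  {A : ValuationSubring Om} {r : GQ →* M2 k} {π : Om}

open scoped Classical in
/-- Restriction to the wild subgroup, extended by zero. -/
noncomputable def wildRes (A : ValuationSubring Om) (π : Om) (T : Type) [AddCommGroup T] :
    (A.decompositionSubgroup ℚ → T) →+ (GQ → T) where
  toFun c := fun g => if h : g ∈ A.inertiaSubgroupIn ℚ ∧ g π = π then
    c ⟨g, inertia_le_decomp h.1⟩ else 0
  map_zero' := by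
    funext g
    split_ifs <;> rfl
  map_add' c c' := by
    funext g
    by_cases h : g ∈ A.inertiaSubgroupIn ℚ ∧ g π = π
    · simp only [dif_pos h, Pi.add_apply]
    · simp only [dif_neg h, Pi.add_apply, add_zero]

lemma wildRes_of {T : Type} [AddCommGroup T] {c : A.decompositionSubgroup ℚ → T} {g : GQ}
    (h1 : g ∈ A.inertiaSubgroupIn ℚ) (h2 : g π = π) :
    wildRes A π T c g = c ⟨g, inertia_le_decomp h1⟩ := dif_pos ⟨h1, h2⟩

lemma wildRes_of_not {T : Type} [AddCommGroup T] {c : A.decompositionSubgroup ℚ → T} {g : GQ}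
    (h : ¬ (g ∈ A.inertiaSubgroupIn ℚ ∧ g π = π)) : wildRes A π T c g = 0 := dif_neg h

omit [Finite k] in
/-- conjugation formula for cocycles, on elements acting trivially -/
lemma cocyc_conj {c : GQ → M2 k} (hc : c ∈ Z1 r (MonoidHom.id GQ) 0) (φ : GQ) {g : GQ}
    (hg : r g = 1) : c (φ * g * φ⁻¹) = r φ * c g * r φ⁻¹ := by
  have h1 := hc.2.1 (φ * g) φ⁻¹
  have h2 := hc.2.1 φ g
  have h3 := hc.2.1 φ φ⁻¹
  rw [mul_inv_cancel, Z1_one hc] at h3
  simp only [MonoidHom.id_apply] at h1 h2 h3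
  have hginv : r g⁻¹ = 1 := by
    have h5 : g⁻¹ ∈ r.ker := Subgroup.inv_mem _ hg
    exact h5
  have h4 : TW.act r 0 (φ * g) (c φ⁻¹) = TW.act r 0 φ (c φ⁻¹) := by
    rw [act_zero_apply, act_zero_apply, map_mul, hg, mul_one, _root_.mul_inv_rev, map_mul, hginv,
      one_mul]
  rw [h1, h2, h4, act_zero_apply r φ (c g)]
  have h6 : c φ + TW.act r 0 φ (c φ⁻¹) = 0 := h3.symm
  calc c φ + r φ * c g * r φ⁻¹ + TW.act r 0 φ (c φ⁻¹)
      = r φ * c g * r φ⁻¹ + (c φ + TW.act r 0 φ (c φ⁻¹)) := by abel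
    _ = _ := by rw [h6, add_zero]

omit hp in
lemma bss_not_dvd (hp : p.Prime) : ¬ p ∣ p ^ 2 - 1 := by
  intro h
  have h1 : 1 ≤ p ^ 2 := Nat.one_le_pow _ _ hp.pos
  have h2 : p ∣ p ^ 2 - (p ^ 2 - 1) := Nat.dvd_sub (dvd_pow_self p two_ne_zero) h
  have h3 : p ^ 2 - (p ^ 2 - 1) = 1 := by omega
  rw [h3] at h2
  exact hp.one_lt.ne' (Nat.dvd_one.mp h2)

omit hp in
lemma bss_two_le (hp : p.Prime) : 2 ≤ p ^ 2 - 1 := by
  have h1 : 2 ^ 2 ≤ p ^ 2 := Nat.pow_le_pow_left hp.two_le 2
  omega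

variable (k) in
/-- the subgroup `ε V` -/
def epsSub : AddSubgroup ((Fin 2 → k) × (Fin 2 → k)) where
  carrier := {v | v.1 = 0}
  zero_mem' := rfl
  add_mem' := fun {a b} ha hb => by
    change a.1 + b.1 = 0
    rw [show a.1 = 0 from ha, show b.1 = 0 from hb, add_zero]
  neg_mem' := fun {a} ha => by
    change -a.1 = 0
    rw [show a.1 = 0 from ha, neg_zero]

/-- The Kummer generators attached to a flat cocycle in the supersingular case. -/
theorem hcl_ss (hA : A.LiesOverPrime p) (hcyc : CycDet p r)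
    (hπ : π ^ (p ^ 2 - 1) = (p : Om))
    (htriv : ∀ g ∈ A.inertiaSubgroupIn ℚ, g π = π → r g = 1) {c : GQ → M2 k}
    (hflat : IsFlatModule p (pact r c)) (x : Fin 2 → k) (lam : AddChar (Fin 2 → k) Om) :
    ∃ z α : Om, (∀ g ∈ A.inertiaSubgroupIn ℚ, g π = π → g α = α) ∧
      (valOf hp.out hA).Ge 0 α ∧ z ^ p = 1 + p * α ∧
      ∀ g ∈ A.inertiaSubgroupIn ℚ, g π = π → g z = lam (c g *ᵥ x) * z := by
  have hpp : p.Prime := hp.out
  obtain ⟨hfin, B, hB⟩ := hflat.exists_model
  let sndV : epsSub k →+ (Fin 2 → k) :=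
    { toFun := fun v => v.1.2
      map_zero' := rfl
      map_add' := fun _ _ => rfl }
  let lam' : AddChar (epsSub k) Om := lam.compAddMonoidHom sndV
  have hlam' : ∀ v : epsSub k, lam' v = lam v.1.2 := fun v => rfl
  have hroot : ∀ v : Fin 2 → k, lam v ^ p = 1 := by
    intro v
    rw [← AddChar.map_nsmul_eq_pow]
    have h1 : p • v = 0 := by
      funext i
      rw [Pi.smul_apply, nsmul_eq_mul, CharP.cast_eq_zero, zero_mul, Pi.zero_apply]
    rw [h1, AddChar.map_zero_eq_one]
  have hact : ∀ σ ∈ A.inertiaSubgroupIn ℚ, σ π = π → ∀ v : (Fin 2 → k) × (Fin 2 → k),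
      pact r c σ v = (v.1, v.2 + c σ *ᵥ v.1) := by
    intro σ hσ hσπ v
    rw [pact, htriv σ hσ hσπ, one_mulVec, one_mulVec]
  obtain ⟨z, α, h1, h2, h3, h4⟩ := kummer_tame hpp hA hB
    (fun v => by
      apply Prod.ext
      · funext i
        change p • v.1 i = 0
        rw [nsmul_eq_mul, CharP.cast_eq_zero, zero_mul]
      · funext i
        change p • v.2 i = 0
        rw [nsmul_eq_mul, CharP.cast_eq_zero, zero_mul])
    (bss_not_dvd hpp) (bss_two_le hpp) hπ (V := epsSub k) (lam := lam')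
    (by
      intro σ hσ hσπ y hy
      have hy' : y.1 = 0 := hy
      rw [hact σ hσ hσπ, hy', mulVec_zero, add_zero]
      exact Prod.ext hy'.symm rfl)
    (by
      intro σ hσ hσπ y
      rw [hlam']
      refine fix_of_det_eq_one hcyc ?_ (hroot _)
      rw [htriv σ hσ hσπ, det_one])
    (x := (x, 0))
    (by
      intro σ hσ hσπ
      rw [hact σ hσ hσπ]
      change x - x = 0
      rw [sub_self])
  refine ⟨z, α, h1, h2, h3, fun g hg hgπ => ?_⟩
  rw [h4 g hg hgπ, hlam']
  congr 2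
  change (pact r c g (x, 0)).2 - (0 : Fin 2 → k) = _
  rw [hact g hg hgπ, sub_zero, zero_add]

variable (hlev : IsFiniteLevel r) (h0 : IsFlatModule p (pact r 0))

/-- A cocycle vanishing on the stabilizer of `π` in inertia is a coboundary on inertia. -/
lemma exists_cob_of_wild_zero (hA : A.LiesOverPrime p) (hπ : π ^ (p ^ 2 - 1) = (p : Om))
    {c : GQ → M2 k} (hc : c ∈ Z1 r (MonoidHom.id GQ) 0)
    (h : ∀ g ∈ A.inertiaSubgroupIn ℚ, g π = π → c g = 0) :
    ∃ X : M2 k, X.trace = 0 ∧ ∀ g ∈ A.inertiaSubgroupIn ℚ,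
      c g = cob r (MonoidHom.id GQ) 0 X g := by
  classical
  have hpp : p.Prime := hp.out
  have he0 : 0 < p ^ 2 - 1 := by
    have := bss_two_le hpp
    omega
  have hindex := index_stabilizer_root hpp hA he0 hπ
  let G := A.inertiaSubgroupIn ℚ
  let J : Subgroup G := MulAction.stabilizer G π
  have hJ : J.FiniteIndex := finiteIndex_stabilizer _ _
  have : Fintype (G ⧸ J) := Subgroup.fintypeQuotientOfFiniteIndex
  have hcard : Fintype.card (G ⧸ J) = p ^ 2 - 1 := by
    rw [← hindex, ← Nat.card_eq_fintype_card]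
    rfl
  have hmul : ∀ g h : GQ, c (g * h) = c g + r g * c h * r g⁻¹ := fun g h => by
    have := hc.2.1 g h
    rwa [MonoidHom.id_apply, act_zero_apply] at this
  have hmulJ : ∀ (a : G) (j : G), j ∈ J → c ((a : GQ) * j) = c a := by
    intro a j hj
    rw [hmul, h j j.2 hj, mul_zero, zero_mul, add_zero]
  let q : G ⧸ J → M2 k := Quotient.lift (fun a : G => c a) (by
    intro a b hab
    have hab' : a⁻¹ * b ∈ J := QuotientGroup.leftRel_apply.mp hab
    have h1 := hmulJ a _ hab'
    have h2 : (a : GQ) * ((a⁻¹ * b : G) : GQ) = b := by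
      change (a : GQ) * ((a : GQ)⁻¹ * b) = b
      group
    rw [h2] at h1
    exact h1.symm)
  have hq : ∀ a : G, q (a : G ⧸ J) = c a := fun a => rfl
  let S : M2 k := ∑ x, q x
  have hn : ((p ^ 2 - 1 : ℕ) : k) ≠ 0 := by
    rw [Ne, CharP.cast_eq_zero_iff k p]
    exact bss_not_dvd hpp
  have hS : ∀ g : G, S = ((p ^ 2 - 1 : ℕ) : k) • c g + r g * S * r (g : GQ)⁻¹ := by
    intro g
    have h1 : S = ∑ x : G ⧸ J, q (g • x) :=
      (Fintype.sum_equiv (MulAction.toPerm g) (fun x => q (g • x)) q fun x => rfl).symm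
    have h2 : ∀ x : G ⧸ J, q (g • x) = c g + r g * q x * r (g : GQ)⁻¹ := by
      intro x
      induction x using QuotientGroup.induction_on with
      | H a => exact hmul g a
    conv_lhs => rw [h1]
    rw [Finset.sum_congr rfl fun x _ => h2 x, Finset.sum_add_distrib, Finset.sum_const,
      Finset.card_univ, hcard, ← Finset.sum_mul, ← Finset.mul_sum, ← Nat.cast_smul_eq_nsmul k]
  refine ⟨-(((p ^ 2 - 1 : ℕ) : k)⁻¹ • S), ?_, fun g hg => ?_⟩
  · rw [trace_neg, trace_smul]
    have h3 : S.trace = 0 := by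
      rw [trace_sum]
      refine Finset.sum_eq_zero fun x _ => ?_
      induction x using QuotientGroup.induction_on with
      | H a => exact hc.1 _
    rw [h3, smul_zero, neg_zero]
  · have h4 := hS ⟨g, hg⟩
    change c g = TW.act r 0 g _ - _
    have h5 : c g = ((p ^ 2 - 1 : ℕ) : k)⁻¹ • (S - r g * S * r g⁻¹) := by
      have h6 : S - r g * S * r g⁻¹ = ((p ^ 2 - 1 : ℕ) : k) • c g := by
        rw [sub_eq_iff_eq_add]
        exact h4
      rw [h6, smul_smul, inv_mul_cancel₀ hn, one_smul]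
    rw [h5, act_zero_apply, mul_neg, neg_mul, Matrix.mul_smul, Matrix.smul_mul, smul_sub]
    abel

/-- The count in the supersingular case, from the count of the wild parts. -/
theorem card_flatLoc_ss (hA : A.LiesOverPrime p) (hπ : π ^ (p ^ 2 - 1) = (p : Om))
    (hlev : IsFiniteLevel r) (h0 : IsFlatModule p (pact r 0))
    (hcount : Finite ((flatLoc p r h0 (A.decompositionSubgroup ℚ)).map (wildRes A π (M2 k))) ∧
      Nat.card ((flatLoc p r h0 (A.decompositionSubgroup ℚ)).map (wildRes A π (M2 k))) ≤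
        Nat.card k) :
    Finite (flatLoc p r h0 (A.decompositionSubgroup ℚ)) ∧
      Nat.card (flatLoc p r h0 (A.decompositionSubgroup ℚ)) ≤ Nat.card k ^ 4 := by
  have h1 : flatLoc p r h0 (A.decompositionSubgroup ℚ) ⊓ (wildRes A π (M2 k)).ker ≤
      unrCob r A := by
    rintro _ ⟨⟨c, hc, rfl⟩, hker⟩
    have hker' : wildRes A π (M2 k) (resHom (A.decompositionSubgroup ℚ) (M2 k) c) = 0 :=
      (AddMonoidHom.mem_ker).mp hker
    have hzero : ∀ g ∈ A.inertiaSubgroupIn ℚ, g π = π → c g = 0 := by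
      intro g hg hgπ
      have := congrFun hker' g
      rwa [wildRes_of hg hgπ] at this
    obtain ⟨X, hX, hcob⟩ := exists_cob_of_wild_zero hA hπ hc.1 hzero
    exact ⟨res_mem_Z1 hc.1 _, X, hX, fun g hg => hcob g hg⟩
  obtain ⟨hfin, hle⟩ := card_unrCob_le (r := r) (A := A) hlev hp.out hA
  have h2 : Finite ↥(flatLoc p r h0 (A.decompositionSubgroup ℚ) ⊓ (wildRes A π (M2 k)).ker) ∧
      Nat.card ↥(flatLoc p r h0 (A.decompositionSubgroup ℚ) ⊓ (wildRes A π (M2 k)).ker) ≤
        Nat.card k ^ 3 :=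
    ⟨Finite.of_injective _ (AddSubgroup.inclusion_injective h1),
      (Nat.card_le_card_of_injective _ (AddSubgroup.inclusion_injective h1)).trans hle⟩
  have h3 := card_le_mul _ (wildRes A π (M2 k)) hcount h2
  refine ⟨h3.1, h3.2.trans (le_of_eq ?_)⟩
  ring

end ss

end Fermat.Agent.FlatP
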