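import Fermat.Agent.FlatP.CountFam

/-!
# Counting flat classes: the ordinary case
-/

set_option autoImplicit false

namespace Fermat.Agent.FlatP

open Fermat.Agent.FlatGS Fermat.Agent.MazurMult FermatAgent.ECVal

lemma mem_nthRoots_smul_finite {M : Subgroup GQ} {ζ : Om} {p : ℕ} (hp : p.Prime)
    (hζ : IsPrimitiveRoot ζ p) :
    (MulAction.stabilizer M ζ).index < p ∧ 0 < (MulAction.stabilizer M ζ).index := by
  have hfi := finiteIndex_stabilizer M ζ
  refine ⟨?_, Nat.pos_of_ne_zero hfi.index_ne_zero⟩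
  rw [MulAction.index_stabilizer]
  have h1 : (MulAction.orbit M ζ) ⊆ (primitiveRoots p Om : Set Om) := by
    rintro _ ⟨g, rfl⟩
    rw [Finset.mem_coe, mem_primitiveRoots hp.pos]
    exact hζ.map_of_injective (g : GQ).injective
  have h2 := Set.ncard_le_ncard h1 (Finset.finite_toSet _)
  rw [Set.ncard_coe_finset, hζ.card_primitiveRoots, Nat.totient_prime hp] at h2
  have := hp.pos
  omega

theorem card_ord_le {k : Type} [Field k] [Finite k] {p : ℕ} [hp : Fact p.Prime] [CharP k p]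
    (hp2 : p ≠ 2) {A : ValuationSubring Om} (hA : A.LiesOverPrime p) {ζ : Om}
    (hζ : IsPrimitiveRoot ζ p) {χ : GQ → k} (hχ : ∀ φ ∈ A.decompositionSubgroup ℚ, χ φ ≠ 0)
    (X : AddSubgroup (GQ → k))
    (h0 : ∀ c ∈ X, ∀ g, ¬ (g ∈ A.inertiaSubgroupIn ℚ ∧ g ζ = ζ) → c g = 0)
    (heq : ∀ c ∈ X, ∀ φ ∈ A.decompositionSubgroup ℚ, ∀ g ∈ A.inertiaSubgroupIn ℚ, g ζ = ζ →
      c (φ * g * φ⁻¹) = χ φ * c g)
    (hcl : ∀ c ∈ X, ∀ lam : AddChar k Om, ∃ z α : Om, (∀ g ∈ A.inertiaSubgroupIn ℚ, g α = α) ∧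
      (valOf hp.out hA).Ge 0 α ∧ z ^ p = 1 + p * α ∧
      ∀ g ∈ A.inertiaSubgroupIn ℚ, g ζ = ζ → g z = lam (c g) * z) :
    Finite X ∧ Nat.card X ≤ Nat.card k := by
  have hpp : p.Prime := hp.out
  have hCharκ : CharP (IsLocalRing.ResidueField A) p := charP_residueField_count hpp hA
  obtain ⟨χ₀, hχ₀⟩ := exists_addChar_ne_one_count k
  have hNZ : NeZero p := ⟨hpp.ne_zero⟩
  set w := valOf hpp hA with hw
  have hLD := localData hpp hA
  let M : Subgroup GQ := A.inertiaSubgroupIn ℚ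
  let J : Subgroup GQ := M ⊓ MulAction.stabilizer GQ ζ
  have hJmem : ∀ g, g ∈ J ↔ g ∈ A.inertiaSubgroupIn ℚ ∧ g ζ = ζ := fun g => Iff.rfl
  let π : Om := (p : Om)
  have hπA : π ∈ A := natCast_mem A p
  have hπM : ∀ g ∈ M, g π = π := fun g _ => map_natCast g p
  have hp1 : (2 : ℚ) ≤ p := by exact_mod_cast hpp.two_le
  -- uniqueness
  have hU : Uniq p A M J π 0 := by
    intro μ b hμ hr
    obtain ⟨hd1, hd0⟩ := mem_nthRoots_smul_finite (M := A.inertiaSubgroupIn ℚ) hpp hζ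
    refine Rel.eq_zero hpp hA (e := (MulAction.stabilizer (A.inertiaSubgroupIn ℚ) ζ).index)
      (t := 0) hπA (by rw [pow_zero]; exact QVal.is_one) ?_ ?_ ?_ hμ hr
    · rw [add_zero, lt_div_iff₀ (by linarith)]
      linarith
    · intro y hy0 hy
      exact hLD.exists_val_eq (J := MulAction.stabilizer (A.inertiaSubgroupIn ℚ) ζ)
        (finiteIndex_stabilizer _ ζ) (fun g hg => hy g.1 ⟨g.2, hg⟩) hy0
    · intro m hm
      have hd0' : (0 : ℚ) < (MulAction.stabilizer (A.inertiaSubgroupIn ℚ) ζ).index := by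
        exact_mod_cast hd0
      rw [add_zero, ← mul_div_assoc, div_eq_one_iff_eq hd0'.ne'] at hm
      have hm' : (p : ℤ) * m = (MulAction.stabilizer (A.inertiaSubgroupIn ℚ) ζ).index := by
        exact_mod_cast hm
      have hdvd : (p : ℤ) ∣ (MulAction.stabilizer (A.inertiaSubgroupIn ℚ) ζ).index :=
        ⟨m, hm'.symm⟩
      have hdvd' := Int.natCast_dvd_natCast.mp hdvd
      exact absurd (Nat.le_of_dvd hd0 hdvd') (not_le.mpr hd1)
  -- Frobenius
  obtain ⟨φ, hφ⟩ := Fermat.Agent.Frob.exists_isFrobeniusAt hpp hA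
  have hφD : φ ∈ A.decompositionSubgroup ℚ := hφ.mem_decompositionSubgroup
  obtain ⟨n, hnζ, hn0, hn⟩ := exists_smul_char (k := k) hpp χ₀ hζ φ
  have hconjM : ∀ g ∈ M, φ⁻¹ * g * φ ∈ M := fun g hg => TW.conj_mem_inertia_of_decomp hφD hg
  have hconjJ : ∀ g ∈ J, φ⁻¹ * g * φ ∈ J := by
    intro g hg
    rw [hJmem] at hg ⊢
    refine ⟨hconjM g hg.1, ?_⟩
    change φ⁻¹ (g (φ ζ)) = ζ
    rw [hnζ, map_pow, hg.2, ← hnζ]
    exact AlgEquiv.symm_apply_apply φ ζ
  have hsmulζ : ∀ g ∈ J, g ζ = ζ := fun g hg => ((hJmem g).mp hg).2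
  refine card_le_of_rel (κ := IsLocalRing.ResidueField A) (p := p) (s := 1) (η := (1 : k))
    (θ := (n : k) * (χ φ)⁻¹) (b := 1) (c₀ := 1)
    (mul_ne_zero hn0 (inv_ne_zero (hχ φ hφD))) one_ne_zero (Or.inl rfl) X
    (fun c L => FRel χ₀ p A M J π 0 c L) ?_ ?_ ?_ ?_ ?_ ?_
  · intro c hc
    have h1 : ∀ a : k, ∃ b, Rel p A M J π 0 (fun g => χ₀ (a * c g)) b := by
      intro a
      obtain ⟨z, α, hα, hα0, hz, hzg⟩ := hcl c hc (χ₀.mulShift a)
      refine ⟨_, z, α, (valOf_ge_zero_iff hpp hA).mp hα0, hα, rfl, ?_, ?_⟩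
      · rw [hz, pow_zero, mul_one]
      · intro g hg
        rw [hzg g hg.1 hg.2]
        rfl
    choose L hL using h1
    exact ⟨L, hL⟩
  · intro c _ L L' h h'
    exact FRel.unique hpp hA hπA hπM hU h h'
  · intro c _ L h a a'
    exact FRel.map_add hpp hA hπA hπM hU h a a'
  · intro c _ c' _ L L' h h'
    exact FRel.add hpp hA hπA hπM h h'
  · intro c hc h
    have h1 : ∀ a : k, ∀ g ∈ J, χ₀ (a * c g) = 1 := by
      intro a
      obtain ⟨b, hb⟩ := Rel.succ hpp hA (e := 1) one_pos hπM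
        ((valOf_prime hpp hA).congr (by norm_num)) (fun y hy0 hy => by
          obtain ⟨m, hm⟩ := hLD.int y hy0 (fun g => hy g.1 g.2)
          exact ⟨m, by rw [hm]; simp⟩) (h a)
      refine hb.eq_one hpp hA hζ (t := 1) ?_ ?_ ?_ hπM hπA
      · rw [zero_add, pow_one]
        exact (valOf_prime hpp hA).ge
      · rw [div_le_iff₀ (by linarith)]
        linarith
      · intro g hg
        exact ⟨hg.1, hg.2, hg.1⟩
    have h2 := FRel.eq_zero (J := J) hχ₀ h1
    funext g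
    by_cases hg : g ∈ A.inertiaSubgroupIn ℚ ∧ g ζ = ζ
    · exact h2 g hg
    · exact h0 c hc g hg
  · intro c hc L h
    refine ⟨fun a => by rw [one_mul, one_mul], fun a => ?_⟩
    have h1 := FRel.conj hpp hA (h := φ) (u := 1) (n := (n : k)) (ρ := (χ φ)⁻¹) hπA hπM hU
      (actsAs_frob hφ) hconjM hconjJ (by rw [one_mul]; exact map_natCast φ p) A.one_mem
      (fun g _ => map_one g) hn (fun g hg => ?_) h a
    · rw [h1, pow_zero, pow_one]
    · have h2 := heq c hc φ hφD (φ⁻¹ * g * φ) (hconjM g hg.1) (hconjJ g hg).2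
      have h3 : φ * (φ⁻¹ * g * φ) * φ⁻¹ = g := by group
      rw [h3] at h2
      rw [h2, inv_mul_cancel_left₀ (hχ φ hφD)]

end Fermat.Agent.FlatP
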