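import Fermat.Agent.FlatP.LineOrd
import Fermat.Agent.FlatP.KummerGen
import Fermat.Agent.FlatP.BoundSS
import Fermat.Agent.FlatP.CountOrd

/-!
# The flat local condition, ordinary case: bookkeeping
-/

set_option autoImplicit false

namespace Fermat.Agent.FlatP

open Matrix Fermat.Agent.FlatGS Fermat.Agent.MazurMult Fermat.Agent.TW FermatAgent.ECVal
open Fermat.Agent.S53norm (M2 HasMat)
open Fermat.Agent.Minkowski

section ord

variable {k : Type} [Field k] [Finite k] {p : ℕ} [hp : Fact p.Prime] [CharP k p]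
  {A : ValuationSubring Om} {r : GQ →* M2 k}

variable (k) in
/-- the line `k[ε] e₁` -/
def lineSub : AddSubgroup ((Fin 2 → k) × (Fin 2 → k)) where
  carrier := {v | v.1 1 = 0 ∧ v.2 1 = 0}
  zero_mem' := ⟨rfl, rfl⟩
  add_mem' := fun {a b} ha hb => by
    change a.1 1 + b.1 1 = 0 ∧ a.2 1 + b.2 1 = 0
    rw [ha.1, ha.2, hb.1, hb.2, add_zero]
    exact ⟨rfl, rfl⟩
  neg_mem' := fun {a} ha => by
    change -a.1 1 = 0 ∧ -a.2 1 = 0
    rw [ha.1, ha.2, neg_zero]
    exact ⟨rfl, rfl⟩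

/-- The Kummer generators attached to an upper triangular flat cocycle. -/
theorem hcl_ord (hA : A.LiesOverPrime p) (hcyc : CycDet p r)
    (hup : ∀ σ ∈ A.decompositionSubgroup ℚ, r σ 1 0 = 0)
    (hI : ∀ σ ∈ A.inertiaSubgroupIn ℚ, r σ 1 1 = 1) {c : GQ → M2 k}
    (h10 : ∀ σ ∈ A.inertiaSubgroupIn ℚ, c σ 1 0 = 0)
    (h11 : ∀ σ ∈ A.inertiaSubgroupIn ℚ, c σ 1 1 = 0)
    (h00 : ∀ σ ∈ A.inertiaSubgroupIn ℚ, c σ 0 0 = 0)
    (hflat : IsFlatModule p (pact r c)) (lam : AddChar k Om) :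
    ∃ z α : Om, (∀ g ∈ A.inertiaSubgroupIn ℚ, g α = α) ∧
      (valOf hp.out hA).Ge 0 α ∧ z ^ p = 1 + p * α ∧
      ∀ g ∈ A.inertiaSubgroupIn ℚ, g z = lam (c g 0 1) * z := by
  have hpp : p.Prime := hp.out
  obtain ⟨hfin, B, hB⟩ := hflat.exists_model
  let sndV : lineSub k →+ k :=
    { toFun := fun v => v.1.2 0
      map_zero' := rfl
      map_add' := fun _ _ => rfl }
  let lam' : AddChar (lineSub k) Om := lam.compAddMonoidHom sndV
  have hlam' : ∀ v : lineSub k, lam' v = lam (v.1.2 0) := fun v => rfl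
  have hroot : ∀ v : k, lam v ^ p = 1 := by
    intro v
    rw [← AddChar.map_nsmul_eq_pow, nsmul_eq_mul, CharP.cast_eq_zero, zero_mul,
      AddChar.map_zero_eq_one]
  have hV : ∀ σ ∈ A.inertiaSubgroupIn ℚ, ∀ y ∈ lineSub k, pact r c σ y ∈ lineSub k := by
    intro σ hσ y hy
    have h1 : (r σ *ᵥ y.1) 1 = 0 := by
      rw [mulVec_one_apply', hup σ (inertia_le_decomp hσ), hy.1, mul_zero, zero_mul, add_zero]
    refine ⟨h1, ?_⟩
    change (r σ *ᵥ y.2 + c σ *ᵥ (r σ *ᵥ y.1)) 1 = 0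
    rw [Pi.add_apply, mulVec_one_apply', mulVec_one_apply' (c σ), h10 σ hσ, h1,
      hup σ (inertia_le_decomp hσ), hy.2]
    ring
  have hx : ∀ σ ∈ A.inertiaSubgroupIn ℚ,
      pact r c σ (![0, 1], 0) - (![0, 1], 0) ∈ lineSub k := by
    intro σ hσ
    constructor
    · change (r σ *ᵥ ![0, 1] - ![0, 1] : Fin 2 → k) 1 = 0
      rw [Pi.sub_apply, mulVec_one_apply', hI σ hσ]
      simp
    · change (r σ *ᵥ 0 + c σ *ᵥ (r σ *ᵥ ![0, 1]) - 0) 1 = 0
      rw [sub_zero, mulVec_zero, zero_add, mulVec_one_apply', h10 σ hσ, h11 σ hσ]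
      ring
  obtain ⟨z, α, h1, h2, h3, h4⟩ := kummer_ord hpp hA hB p_smul_pair (V := lineSub k)
    (lam := lam') hV
    (by
      intro σ hσ y hy
      rw [hlam', hlam']
      change lam ((r σ *ᵥ y.2 + c σ *ᵥ (r σ *ᵥ y.1)) 0) = σ (lam (y.2 0))
      obtain ⟨a, ha⟩ := exists_root_exponent p σ
      have h5 := hcyc σ a ha
      rw [Matrix.det_fin_two, hup σ (inertia_le_decomp hσ), hI σ hσ, mul_zero, sub_zero,
        mul_one] at h5
      have h6 : (r σ *ᵥ y.1) 1 = 0 := by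
        rw [mulVec_one_apply', hup σ (inertia_le_decomp hσ), hy.1, mul_zero, zero_mul, add_zero]
      rw [ha _ (hroot _), ← AddChar.map_nsmul_eq_pow, Pi.add_apply, mulVec_zero_apply',
        mulVec_zero_apply' (c σ), h00 σ hσ, h6, h5, hy.2, nsmul_eq_mul]
      congr 1
      ring)
    (x := (![0, 1], 0)) hx
  refine ⟨z, α, h1, h2, h3, fun g hg => ?_⟩
  rw [h4 g hg, hlam']
  congr 2
  change (r g *ᵥ 0 + c g *ᵥ (r g *ᵥ ![0, 1]) - 0) 0 = _
  rw [sub_zero, mulVec_zero, zero_add, mulVec_zero_apply', h00 g hg, mulVec_one_apply', hI g hg]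
  simp

variable (hlev : IsFiniteLevel r) (h0 : IsFlatModule p (pact r 0))

/-- upper triangular flat local cocycles, unramified on the quotient -/
def upGrp (p : ℕ) (r : GQ →* M2 k) (h0 : IsFlatModule p (pact r 0)) (A : ValuationSubring Om) :
    AddSubgroup (A.decompositionSubgroup ℚ → M2 k) where
  carrier := {c | c ∈ flatLoc p r h0 (A.decompositionSubgroup ℚ) ∧ (∀ g, c g 1 0 = 0) ∧
    ∀ g : A.decompositionSubgroup ℚ, (g : GQ) ∈ A.inertiaSubgroupIn ℚ → c g 1 1 = 0}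
  zero_mem' := ⟨zero_mem _, fun _ => rfl, fun _ _ => rfl⟩
  add_mem' := fun {a b} ha hb => ⟨add_mem ha.1 hb.1, fun g => by
    rw [Pi.add_apply, Matrix.add_apply, ha.2.1, hb.2.1, add_zero], fun g hg => by
    rw [Pi.add_apply, Matrix.add_apply, ha.2.2 g hg, hb.2.2 g hg, add_zero]⟩
  neg_mem' := fun {a} ha => ⟨neg_mem ha.1, fun g => by
    rw [Pi.neg_apply, Matrix.neg_apply, ha.2.1, neg_zero], fun g hg => by
    rw [Pi.neg_apply, Matrix.neg_apply, ha.2.2 g hg, neg_zero]⟩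

lemma mem_flatLoc {D : Subgroup GQ} {h0 : IsFlatModule p (pact r 0)} {c : D → M2 k} :
    c ∈ flatLoc p r h0 D ↔ ∃ c' ∈ flatGrp p r h0, ∀ g : D, c g = c' g := by
  constructor
  · rintro ⟨c', hc', rfl⟩
    exact ⟨c', hc', fun _ => rfl⟩
  · rintro ⟨c', hc', h⟩
    exact ⟨c', hc', funext fun g => (h g).symm⟩

theorem card_flatLoc_le_upGrp (hp2 : p ≠ 2) (hA : A.LiesOverPrime p) (hcyc : CycDet p r)
    (hlev : IsFiniteLevel r)
    (hup : ∀ σ ∈ A.decompositionSubgroup ℚ, r σ 1 0 = 0)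
    (hI : ∀ σ ∈ A.inertiaSubgroupIn ℚ, r σ 1 1 = 1) (h0 : IsFlatModule p (pact r 0)) {n : ℕ}
    (h : Finite (upGrp p r h0 A) ∧ Nat.card (upGrp p r h0 A) ≤ n) :
    Finite (flatLoc p r h0 (A.decompositionSubgroup ℚ)) ∧
      Nat.card (flatLoc p r h0 (A.decompositionSubgroup ℚ)) ≤ n * Nat.card k := by
  obtain ⟨hfin, hle⟩ := h
  let cb : k → (A.decompositionSubgroup ℚ → M2 k) := fun x =>
    resHom (A.decompositionSubgroup ℚ) (M2 k) (cob r (MonoidHom.id GQ) 0 !![0, 0; x, 0])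
  have hex : ∀ c : flatLoc p r h0 (A.decompositionSubgroup ℚ), ∃ x : k,
      (c : A.decompositionSubgroup ℚ → M2 k) + cb x ∈ upGrp p r h0 A := by
    rintro ⟨_, c, hc, rfl⟩
    obtain ⟨x, hx⟩ := exists_line hp2 hA hcyc hup hI hc.1 hc.2
    refine ⟨x, add_mem ⟨c, hc, rfl⟩ ⟨_, cob_mem_flatGrp hlev h0 ?_, rfl⟩, fun g => ?_,
      fun g hg => ?_⟩
    · rw [Matrix.trace_fin_two]
      simp
    · exact (hx g g.2).1
    · exact (hx g g.2).2 hg
  choose x hx using hex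
  let F : flatLoc p r h0 (A.decompositionSubgroup ℚ) → upGrp p r h0 A × k :=
    fun c => (⟨_, hx c⟩, x c)
  have hF : Function.Injective F := by
    intro c c' hcc
    have h1 : x c = x c' := congrArg Prod.snd hcc
    have h2 : (c : A.decompositionSubgroup ℚ → M2 k) + cb (x c) = c' + cb (x c') :=
      congrArg (fun z => (z.1 : A.decompositionSubgroup ℚ → M2 k)) hcc
    rw [h1] at h2
    exact Subtype.ext (add_right_cancel h2)
  refine ⟨Finite.of_injective F hF, (Nat.card_le_card_of_injective F hF).trans ?_⟩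
  rw [Nat.card_prod]
  exact Nat.mul_le_mul hle le_rfl

/-- evaluation of the lower right entry -/
def ev11 (D : Subgroup GQ) (φ : D) (k : Type) [Field k] : (D → M2 k) →+ k where
  toFun c := c φ 1 1
  map_zero' := rfl
  map_add' _ _ := rfl

lemma inv_entries {σ : GQ} (hσ : r σ 1 0 = 0) : r σ⁻¹ 1 0 = 0 ∧ r σ 1 1 * r σ⁻¹ 1 1 = 1 ∧
    r σ 0 0 * r σ⁻¹ 0 0 = 1 := by
  have hdet := det_ne_zero r σ
  rw [Matrix.det_fin_two, hσ, mul_zero, sub_zero] at hdet
  have h00 : r σ 0 0 ≠ 0 := left_ne_zero_of_mul hdet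
  have h11 : r σ 1 1 ≠ 0 := right_ne_zero_of_mul hdet
  have h1 := r_mul_inv r σ
  have e10 := congrFun (congrFun h1 1) 0
  have e11 := congrFun (congrFun h1 1) 1
  have e00 := congrFun (congrFun h1 0) 0
  rw [TW.mul_apply_fin_two, hσ, zero_mul, zero_add, Matrix.one_apply_ne (by decide)] at e10
  rw [TW.mul_apply_fin_two, hσ, zero_mul, zero_add, Matrix.one_apply_eq] at e11
  have h10 : r σ⁻¹ 1 0 = 0 := (mul_eq_zero.mp e10).resolve_left h11
  rw [TW.mul_apply_fin_two, h10, mul_zero, add_zero, Matrix.one_apply_eq] at e00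
  exact ⟨h10, e11, e00⟩

/-- the character `χ₁ / χ₂` -/
noncomputable def chi (r : GQ →* M2 k) (σ : GQ) : k := r σ 0 0 * r σ⁻¹ 1 1

lemma act_up {σ : GQ} (hσ : r σ 1 0 = 0) {X : M2 k} (hX : X 1 0 = 0) :
    (TW.act r 0 σ X) 1 0 = 0 ∧ (TW.act r 0 σ X) 1 1 = X 1 1 := by
  obtain ⟨h1, h2, h3⟩ := inv_entries hσ
  rw [act_zero_apply]
  constructor
  · rw [TW.mul_apply_fin_two, TW.mul_apply_fin_two, TW.mul_apply_fin_two, hσ, hX, h1]
    ring
  · rw [TW.mul_apply_fin_two, TW.mul_apply_fin_two, TW.mul_apply_fin_two, hσ, hX]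
    linear_combination X 1 1 * h2

lemma act_nil {σ : GQ} (hσ : r σ 1 0 = 0) {X : M2 k} (h10 : X 1 0 = 0) (h00 : X 0 0 = 0)
    (h11 : X 1 1 = 0) : (TW.act r 0 σ X) 0 1 = chi r σ * X 0 1 := by
  obtain ⟨h1, h2, h3⟩ := inv_entries hσ
  rw [act_zero_apply, chi]
  rw [TW.mul_apply_fin_two, TW.mul_apply_fin_two, TW.mul_apply_fin_two, h10, h00, h11]
  ring

lemma ev11_ker (hA : A.LiesOverPrime p)
    (hup : ∀ σ ∈ A.decompositionSubgroup ℚ, r σ 1 0 = 0) {φ : GQ}
    (hφ : A.IsFrobeniusAt φ p) {h0 : IsFlatModule p (pact r 0)}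
    {c : A.decompositionSubgroup ℚ → M2 k} (hc : c ∈ upGrp p r h0 A)
    (hφ0 : c ⟨φ, hφ.mem_decompositionSubgroup⟩ 1 1 = 0) :
    ∀ g, c g 1 0 = 0 ∧ c g 1 1 = 0 ∧ c g 0 0 = 0 := by
  have hpp : p.Prime := hp.out
  obtain ⟨hc1, hc2, hc3⟩ := hc
  have hcZ : c ∈ Z1 r (A.decompositionSubgroup ℚ).subtype 0 := by
    obtain ⟨c', hc', rfl⟩ := hc1
    exact res_mem_Z1 hc'.1 _
  let d : A.decompositionSubgroup ℚ → M2 k := fun g => !![-(c g 1 1), 0; 0, c g 1 1]
  have hd : d ∈ Z1 (1 : GQ →* M2 k) (A.decompositionSubgroup ℚ).subtype 0 := by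
    obtain ⟨L, hL, h⟩ := hcZ.2.2
    refine ⟨fun g => ?_, fun g h => ?_, L, hL, fun g hg => ?_⟩
    · rw [Matrix.trace_fin_two]
      simp [d]
    · have h1 : c (g * h) 1 1 = c g 1 1 + c h 1 1 := by
        have h2 := hcZ.2.1 g h
        rw [h2, Matrix.add_apply]
        congr 1
        exact (act_up (hup _ g.2) (hc2 h)).2
      simp only [d]
      rw [act_zero_apply, MonoidHom.one_apply, MonoidHom.one_apply, one_mul, mul_one, h1]
      ext i j
      fin_cases i <;> fin_cases j <;> simp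
      ring
    · simp only [d]
      rw [h g hg]
      ext i j
      fin_cases i <;> fin_cases j <;> simp
  have hd0 := Z1_eq_zero_of_frob hpp hA hφ hd (fun g hg => by
    simp only [d]
    rw [hc3 g hg]
    ext i j
    fin_cases i <;> fin_cases j <;> simp) (by
    simp only [d]
    rw [hφ0]
    ext i j
    fin_cases i <;> fin_cases j <;> simp)
  intro g
  have h11 : c g 1 1 = 0 := congrFun (congrFun (congrFun hd0 g) 1) 1
  refine ⟨hc2 g, h11, ?_⟩
  have htr := hcZ.1 g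
  rw [Matrix.trace_fin_two, h11, add_zero] at htr
  exact htr

/-- The upper right entry. -/
def ent01 (D : Type) (k : Type) [Field k] : (D → M2 k) →+ (D → k) where
  toFun c := fun g => c g 0 1
  map_zero' := rfl
  map_add' _ _ := rfl

theorem card_flatLoc_ord' (hp2 : p ≠ 2) (hA : A.LiesOverPrime p) (hcyc : CycDet p r)
    (hlev : IsFiniteLevel r)
    (hup : ∀ σ ∈ A.decompositionSubgroup ℚ, r σ 1 0 = 0)
    (hI : ∀ σ ∈ A.inertiaSubgroupIn ℚ, r σ 1 1 = 1) (h0 : IsFlatModule p (pact r 0)) :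
    Finite (flatLoc p r h0 (A.decompositionSubgroup ℚ)) ∧
      Nat.card (flatLoc p r h0 (A.decompositionSubgroup ℚ)) ≤ Nat.card k ^ 4 := by
  have hpp : p.Prime := hp.out
  have hNZ : NeZero p := ⟨hpp.ne_zero⟩
  obtain ⟨ζ, hζ⟩ := HasEnoughRootsOfUnity.exists_primitiveRoot Om p
  obtain ⟨φ, hφ⟩ := Fermat.Agent.Frob.exists_isFrobeniusAt hpp hA
  let φ' : A.decompositionSubgroup ℚ := ⟨φ, hφ.mem_decompositionSubgroup⟩
  -- the nilpotent part
  let Λ := upGrp p r h0 A ⊓ (ev11 _ φ' k).ker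
  have hΛ : ∀ c ∈ Λ, ∀ g, c g 1 0 = 0 ∧ c g 1 1 = 0 ∧ c g 0 0 = 0 := by
    rintro c ⟨hc1, hc2⟩
    exact ev11_ker hA hup hφ hc1 ((AddMonoidHom.mem_ker).mp hc2)
  have hΛZ : ∀ c ∈ Λ, c ∈ Z1 r (A.decompositionSubgroup ℚ).subtype 0 := by
    rintro c ⟨⟨⟨c', hc', rfl⟩, -⟩, -⟩
    exact res_mem_Z1 hc'.1 _
  have hmul : ∀ c ∈ Λ, ∀ g h, c (g * h) 0 1 = c g 0 1 + chi r g * c h 0 1 := by
    intro c hc g h
    have h1 := (hΛZ c hc).2.1 g h
    obtain ⟨e1, e2, e3⟩ := hΛ c hc h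
    rw [h1, Matrix.add_apply]
    congr 1
    exact act_nil (hup _ g.2) e1 e3 e2
  have hone : ∀ c ∈ Λ, c 1 0 1 = 0 := fun c hc => by rw [Z1_one (hΛZ c hc)]; rfl
  have hchi0 : ∀ σ ∈ A.decompositionSubgroup ℚ, chi r σ ≠ 0 := by
    intro σ hσ h
    obtain ⟨e1, e2, e3⟩ := inv_entries (hup σ hσ)
    rcases mul_eq_zero.mp h with h | h
    · rw [h, zero_mul] at e3
      exact zero_ne_one e3
    · rw [h, mul_zero] at e2
      exact zero_ne_one e2
  have hchiI : ∀ σ ∈ A.inertiaSubgroupIn ℚ, chi r σ = (r σ).det := by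
    intro σ hσ
    obtain ⟨e1, e2, e3⟩ := inv_entries (hup σ (inertia_le_decomp hσ))
    rw [hI σ hσ, one_mul] at e2
    rw [chi, e2, Matrix.det_fin_two, hup σ (inertia_le_decomp hσ), hI σ hσ]
    ring
  have hdet1 : ∀ σ : GQ, σ ζ = ζ → (r σ).det = 1 := by
    intro σ hσ
    have h1 := hcyc σ 1 (fun μ hμ => by
      obtain ⟨i, -, rfl⟩ := hζ.eq_pow_of_pow_eq_one hμ
      rw [map_pow, hσ, pow_one])
    rw [h1, Nat.cast_one]
  -- wild part
  let f3 : (A.decompositionSubgroup ℚ → M2 k) →+ (GQ → k) :=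
    (wildRes A ζ k).comp (ent01 (A.decompositionSubgroup ℚ) k)
  have hf3 : ∀ (c : A.decompositionSubgroup ℚ → M2 k) (g : GQ)
      (h1 : g ∈ A.inertiaSubgroupIn ℚ) (_ : g ζ = ζ),
      f3 c g = c ⟨g, inertia_le_decomp h1⟩ 0 1 := fun c g h1 h2 => wildRes_of h1 h2
  have himg : Finite (Λ.map f3) ∧ Nat.card (Λ.map f3) ≤ Nat.card k := by
    refine card_ord_le hp2 hA hζ (χ := chi r) hchi0 (Λ.map f3) ?_ ?_ ?_
    · rintro _ ⟨c, hc, rfl⟩ g hg
      exact wildRes_of_not hg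
    · rintro _ ⟨c, hc, rfl⟩ φ₁ hφ₁ g hg hgζ
      have hconj : φ₁ * g * φ₁⁻¹ ∈ A.inertiaSubgroupIn ℚ := by
        have := conj_mem_inertia_of_decomp (A := A) (inv_mem hφ₁) hg
        rwa [inv_inv] at this
      have hconjζ : (φ₁ * g * φ₁⁻¹) ζ = ζ := by
        have h1 : (φ₁⁻¹ ζ) ^ p = 1 := by rw [← map_pow, hζ.pow_eq_one, map_one]
        obtain ⟨i, -, hi⟩ := hζ.eq_pow_of_pow_eq_one h1
        rw [AlgEquiv.mul_apply, AlgEquiv.mul_apply, ← hi, map_pow, hgζ, hi]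
        exact φ₁.apply_symm_apply ζ
      rw [hf3 c _ hconj hconjζ, hf3 c g hg hgζ]
      let a : A.decompositionSubgroup ℚ := ⟨φ₁, hφ₁⟩
      let b : A.decompositionSubgroup ℚ := ⟨g, inertia_le_decomp hg⟩
      change c (a * b * a⁻¹) 0 1 = chi r φ₁ * c b 0 1
      have h1 := hmul c hc (a * b) a⁻¹
      have h2 := hmul c hc a b
      have h3 := hmul c hc a a⁻¹
      rw [mul_inv_cancel, hone c hc] at h3
      have h4 : chi r ((a * b : A.decompositionSubgroup ℚ) : GQ) = chi r a := by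
        have h5 : chi r g = 1 := by rw [hchiI g hg, hdet1 g hgζ]
        have h6 : r g 1 1 = 1 := hI g hg
        have h7 := inv_entries (hup g (inertia_le_decomp hg))
        have h8 : r g 0 0 = 1 := by
          have := h5
          rw [chi] at this
          have h9 := h7.2.1
          rw [h6, one_mul] at h9
          rwa [h9, mul_one] at this
        have h9 : r g⁻¹ 1 1 = 1 := by
          have := h7.2.1
          rwa [h6, one_mul] at this
        have h10 := inv_entries (hup φ₁ hφ₁)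
        change r (φ₁ * g) 0 0 * r (φ₁ * g)⁻¹ 1 1 = r φ₁ 0 0 * r φ₁⁻¹ 1 1
        rw [_root_.mul_inv_rev, map_mul, map_mul, TW.mul_apply_fin_two, TW.mul_apply_fin_two,
          hup g (inertia_le_decomp hg), h8, h9, h7.1]
        ring
      rw [h1, h4, h2]
      change c a 0 1 + chi r φ₁ * c b 0 1 + chi r φ₁ * c a⁻¹ 0 1 = _
      have h5 : (0 : k) = c a 0 1 + chi r φ₁ * c a⁻¹ 0 1 := h3
      linear_combination -h5
    · rintro _ ⟨c, hc, rfl⟩ lam
      obtain ⟨c', hc', hcc⟩ := mem_flatLoc.mp hc.1.1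
      have hall : ∀ σ (hσ : σ ∈ A.inertiaSubgroupIn ℚ),
          c' σ 1 0 = 0 ∧ c' σ 1 1 = 0 ∧ c' σ 0 0 = 0 := by
        intro σ hσ
        have := hΛ c hc ⟨σ, inertia_le_decomp hσ⟩
        rwa [hcc] at this
      obtain ⟨z, α, h1, h2, h3, h4⟩ := hcl_ord hA hcyc hup hI (c := c')
        (fun σ hσ => (hall σ hσ).1) (fun σ hσ => (hall σ hσ).2.1)
        (fun σ hσ => (hall σ hσ).2.2) hc'.2 lam
      refine ⟨z, α, h1, h2, h3, fun g hg hgζ => ?_⟩
      rw [h4 g hg, hf3 c g hg hgζ, hcc]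
  have hker : Finite ↥(Λ ⊓ f3.ker) ∧ Nat.card ↥(Λ ⊓ f3.ker) ≤ Nat.card k := by
    obtain ⟨σ₀, hσ₀, hσ₀ζ⟩ := exists_inertia_ne hpp hp2 hA hζ.pow_eq_one (hζ.ne_one hpp.one_lt)
    let s : A.decompositionSubgroup ℚ := ⟨σ₀, inertia_le_decomp hσ₀⟩
    have hchis : chi r s ≠ 1 := by
      intro h
      rw [hchiI σ₀ hσ₀] at h
      exact hσ₀ζ (fix_of_det_eq_one hcyc h hζ.pow_eq_one)
    let F : ↥(Λ ⊓ f3.ker) → k := fun c => c.1 s 0 1
    have hF : Function.Injective F := by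
      intro c c' hcc
      have hsub : (c.1 - c'.1) ∈ Λ ⊓ f3.ker := (Λ ⊓ f3.ker).sub_mem c.2 c'.2
      have hs0 : (c.1 - c'.1) s 0 1 = 0 := by
        rw [Pi.sub_apply, Matrix.sub_apply, sub_eq_zero]
        exact hcc
      obtain ⟨hd1, hd2⟩ := hsub
      set d := c.1 - c'.1 with hd
      have hd2' : f3 d = 0 := (AddMonoidHom.mem_ker).mp hd2
      have hzero : ∀ g, d g 0 1 = 0 := by
        intro g
        let u : A.decompositionSubgroup ℚ := g * s * g⁻¹ * s⁻¹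
        have huI : (u : GQ) ∈ A.inertiaSubgroupIn ℚ := by
          have h1 := conj_mem_inertia_of_decomp (A := A) (inv_mem g.2) hσ₀
          rw [inv_inv] at h1
          exact mul_mem h1 (inv_mem hσ₀)
        have huζ : (u : GQ) ζ = ζ := by
          have hcomm : ∀ a b : GQ, a (b ζ) = b (a ζ) := by
            intro a b
            have h1 : (a ζ) ^ p = 1 := by rw [← map_pow, hζ.pow_eq_one, map_one]
            have h2 : (b ζ) ^ p = 1 := by rw [← map_pow, hζ.pow_eq_one, map_one]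
            obtain ⟨i, -, hi⟩ := hζ.eq_pow_of_pow_eq_one h1
            obtain ⟨j, -, hj⟩ := hζ.eq_pow_of_pow_eq_one h2
            rw [← hi, ← hj, map_pow, map_pow, ← hi, ← hj, ← pow_mul, ← pow_mul, mul_comm]
          change ((g : GQ) * σ₀ * (g : GQ)⁻¹ * σ₀⁻¹) ζ = ζ
          rw [AlgEquiv.mul_apply, AlgEquiv.mul_apply, AlgEquiv.mul_apply,
            hcomm (g : GQ)⁻¹ σ₀⁻¹]
          have h3 : σ₀ (σ₀⁻¹ ((g : GQ)⁻¹ ζ)) = (g : GQ)⁻¹ ζ := σ₀.apply_symm_apply _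
          rw [h3]
          exact (g : GQ).apply_symm_apply ζ
        have hu0 : d u 0 1 = 0 := by
          have := congrFun hd2' (u : GQ)
          rw [hf3 d _ huI huζ] at this
          exact this
        have hchiu : chi r (u : GQ) = 1 := by rw [hchiI _ huI, hdet1 _ huζ]
        have h1 : g * s = u * (s * g) := by
          simp only [u]
          group
        have h2 := hmul d hd1 g s
        have h3 := hmul d hd1 u (s * g)
        have h4 := hmul d hd1 s g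
        rw [h1, h3, h4, hs0, hu0, hchiu, mul_zero, add_zero, zero_add, zero_add, one_mul] at h2
        have h5 : (chi r s - 1) * d g 0 1 = 0 := by
          rw [sub_mul, one_mul, h2, sub_self]
        exact (mul_eq_zero.mp h5).resolve_left (sub_ne_zero.mpr hchis)
      have hdz : d = 0 := by
        funext g
        obtain ⟨e1, e2, e3⟩ := hΛ d hd1 g
        ext i j
        fin_cases i <;> fin_cases j
        · exact e3
        · exact hzero g
        · exact e1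
        · exact e2
      exact Subtype.ext (sub_eq_zero.mp hdz)
    exact ⟨Finite.of_injective F hF, Nat.card_le_card_of_injective F hF⟩
  have h1 : Finite Λ ∧ Nat.card Λ ≤ Nat.card k * Nat.card k := card_le_mul Λ f3 himg hker
  have h2 : Finite ((upGrp p r h0 A).map (ev11 _ φ' k)) ∧
      Nat.card ((upGrp p r h0 A).map (ev11 _ φ' k)) ≤ Nat.card k :=
    ⟨inferInstance, Nat.card_le_card_of_injective _ Subtype.val_injective⟩
  have h3 := card_le_mul (upGrp p r h0 A) (ev11 _ φ' k) h2 h1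
  have h4 := card_flatLoc_le_upGrp hp2 hA hcyc hlev hup hI h0 h3
  refine ⟨h4.1, h4.2.trans (le_of_eq ?_)⟩
  ring

end ord

end Fermat.Agent.FlatP
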