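import Fermat.Agent.Mazur.Mult
import Fermat.Agent.LocE.K0

/-!
# Integrality of characters and the separation theorem

`M` is a finite abelian group with an action of `G_ℚ` and a model `B` over `ℤ_(p)`
(`FlatGS.IsModel`), `A` is a valuation subring of `ℚ̄` over `p`.

* `char_integral` : a functional on the functions on `M` which is `A`-integral on `B` is
  `A`-integral on all characters of `M`.
* `separation` : if `p M = 0` and all the functions of `B` are congruent at `x` and `y` modulo `c`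
  with `v(c) > 1/(p-1)` then `x = y`.
-/

set_option autoImplicit false

namespace Fermat.Agent.FlatP

open Fermat.Agent.FlatGS Fermat.Agent.MazurMult FermatAgent.ECVal

variable {p : ℕ} {M : Type} [AddCommGroup M] {act : GQ → M → M}
  {B : Subalgebra (Rp p) (M → Om)} {A : ValuationSubring Om}

section Char

variable [Fintype M]

/-- The functional attached to `u` is integral on `B`. -/
def Integral (B : Subalgebra (Rp p) (M → Om)) (A : ValuationSubring Om) (u : M → Om) : Prop :=
  ∀ b ∈ B, ∑ x, u x * b x ∈ A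

/-- convolution -/
noncomputable def conv (u w : M → Om) (z : M) : Om := ∑ x, u x * w (z - x)

lemma sum_conv (u w f : M → Om) :
    ∑ z, conv u w z * f z = ∑ x, ∑ y, u x * w y * f (x + y) := by
  simp only [conv, Finset.sum_mul]
  rw [Finset.sum_comm]
  refine Finset.sum_congr rfl fun x _ => ?_
  rw [← Equiv.sum_comp (Equiv.addLeft x) (fun z => u x * w (z - x) * f z)]
  refine Finset.sum_congr rfl fun y _ => ?_
  simp

lemma integral_conv (h : IsModel p act B) {u w : M → Om} (hu : Integral B A u)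
    (hw : Integral B A w) : Integral B A (conv u w) := by
  intro b hb
  have := h.fin
  obtain ⟨c, hc, hc'⟩ := exists_coaction h (Module.Free.chooseBasis (Rp p) B) hb
  rw [sum_conv]
  let e := Module.Free.chooseBasis (Rp p) B
  have h1 : ∑ x, ∑ y, u x * w y * b (x + y) = ∑ i,
      (∑ x, u x * (e i : M → Om) x) * (∑ y, w y * c i y) := by
    simp only [Finset.sum_mul_sum]
    symm
    refine Finset.sum_comm.trans ?_
    refine Finset.sum_congr rfl fun x _ => ?_
    refine Finset.sum_comm.trans ?_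
    refine Finset.sum_congr rfl fun y _ => ?_
    rw [hc', Finset.mul_sum]
    refine Finset.sum_congr rfl fun i _ => ?_
    ring
  rw [h1]
  exact A.toSubring.sum_mem fun i _ => A.mul_mem _ _ (hu _ (Subtype.property _)) (hw _ (hc i))

lemma sum_conv_char {χ : M → Om} (hχ : ∀ x y, χ (x + y) = χ x * χ y) (u w : M → Om) :
    ∑ z, conv u w z * χ z = (∑ x, u x * χ x) * (∑ y, w y * χ y) := by
  rw [sum_conv, Finset.sum_mul_sum]
  refine Finset.sum_congr rfl fun x _ => Finset.sum_congr rfl fun y _ => ?_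
  rw [hχ]
  ring

/-- convolution powers -/
noncomputable def convPow (u : M → Om) : ℕ → M → Om
  | 0 => u
  | n + 1 => conv (convPow u n) u

lemma integral_convPow (h : IsModel p act B) {u : M → Om} (hu : Integral B A u) (n : ℕ) :
    Integral B A (convPow u n) := by
  induction n with
  | zero => exact hu
  | succ n ih => exact integral_conv h ih hu

lemma sum_convPow_char {χ : M → Om} (hχ : ∀ x y, χ (x + y) = χ x * χ y) (u : M → Om) (n : ℕ) :
    ∑ z, convPow u n z * χ z = (∑ x, u x * χ x) ^ (n + 1) := by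
  induction n with
  | zero => rw [zero_add, pow_one]; rfl
  | succ n ih =>
    rw [pow_succ, ← ih]
    exact sum_conv_char hχ _ _

lemma exists_bound (h : IsModel p act B) (hp : p.Prime) (hA : A.LiesOverPrime p) (f : M → Om) :
    ∃ C : ℚ, ∀ u : M → Om, Integral B A u → (valOf hp hA).Ge C (∑ x, u x * f x) := by
  have hf : f ∈ Submodule.span Om (B : Set (M → Om)) := by
    rw [h.isSepAlg.span_eq_top]
    exact Submodule.mem_top
  induction hf using Submodule.span_induction with
  | mem b hb => exact ⟨0, fun u hu => (valOf_ge_zero_iff hp hA).mpr (hu b hb)⟩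
  | zero =>
    refine ⟨0, fun u _ => ?_⟩
    simp only [Pi.zero_apply, mul_zero, Finset.sum_const_zero]
    exact QVal.ge_zero 0
  | add f g _ _ hf hg =>
    obtain ⟨C, hC⟩ := hf
    obtain ⟨D, hD⟩ := hg
    refine ⟨min C D, fun u hu => ?_⟩
    have h1 : ∑ x, u x * (f + g) x = ∑ x, u x * f x + ∑ x, u x * g x := by
      rw [← Finset.sum_add_distrib]
      exact Finset.sum_congr rfl fun x _ => by rw [Pi.add_apply, mul_add]
    rw [h1]
    exact ((hC u hu).mono (min_le_left _ _)).add ((hD u hu).mono (min_le_right _ _))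
  | smul a f _ hf =>
    obtain ⟨C, hC⟩ := hf
    refine ⟨(valOf hp hA).val a + C, fun u hu => ?_⟩
    have h1 : ∑ x, u x * (a • f) x = a * ∑ x, u x * f x := by
      rw [Finset.mul_sum]
      exact Finset.sum_congr rfl fun x _ => by rw [Pi.smul_apply, smul_eq_mul]; ring
    rw [h1]
    by_cases ha : a = 0
    · left; rw [ha, zero_mul]
    · exact (QVal.Is.of_ne ha).ge.mul (hC u hu)

/-- **Integrality of characters.** -/
theorem char_integral (h : IsModel p act B) (hp : p.Prime) (hA : A.LiesOverPrime p)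
    {u : M → Om} (hu : Integral B A u) {χ : M → Om} (hχ : ∀ x y, χ (x + y) = χ x * χ y) :
    ∑ x, u x * χ x ∈ A := by
  rw [← valOf_ge_zero_iff hp hA]
  by_contra hcon
  rw [QVal.not_ge_iff] at hcon
  obtain ⟨hL0, hL⟩ := hcon
  obtain ⟨C, hC⟩ := exists_bound (B := B) (A := A) h hp hA χ
  set L := ∑ x, u x * χ x with hLdef
  have h1 : ∀ n : ℕ, C ≤ ((n + 1 : ℕ) : ℚ) * (valOf hp hA).val L := by
    intro n
    have h2 := hC _ (integral_convPow h hu n)
    rw [sum_convPow_char hχ] at h2
    have h3 := ((QVal.Is.of_ne (w := valOf hp hA) hL0).pow (n + 1))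
    exact h3.le_of_ge h2
  obtain ⟨n, hn⟩ := exists_nat_gt (C / (valOf hp hA).val L)
  have h2 := h1 n
  rw [div_lt_iff_of_neg hL] at hn
  push_cast at h2
  nlinarith

end Char

section Zeta

variable (hp : p.Prime) (hA : A.LiesOverPrime p)

lemma pow_mem_of_pow_eq_one {ζ : Om} {n : ℕ} (hn : 0 < n) (hζ : ζ ^ n = 1) : ζ ∈ A := by
  have h1 : IsIntegral A ζ := ⟨Polynomial.X ^ n - 1, Polynomial.monic_X_pow_sub_C 1 hn.ne', by
    simp [hζ]⟩
  obtain ⟨a, ha⟩ := IsIntegrallyClosed.algebraMap_eq_of_integral h1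
  rw [← ha]
  exact a.2

include hp hA in
lemma ge_one_sub_pow {ζ : Om} {n : ℕ} (hn : 0 < n) (hζ : ζ ^ n = 1) (h1 : 1 - ζ ≠ 0) (k : ℕ) :
    (valOf hp hA).Ge ((valOf hp hA).val (1 - ζ)) (1 - ζ ^ k) := by
  have h2 : (1 - ζ) * ∑ i ∈ Finset.range k, ζ ^ i = 1 - ζ ^ k := by
    rw [mul_comm]
    exact geom_sum_mul_neg ζ k
  rw [← h2]
  have h3 : (valOf hp hA).Ge 0 (∑ i ∈ Finset.range k, ζ ^ i) := by
    rw [valOf_ge_zero_iff]
    exact A.toSubring.sum_mem fun i _ => A.toSubring.pow_mem (pow_mem_of_pow_eq_one hn hζ) i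
  have h4 := (QVal.Is.of_ne (w := valOf hp hA) h1).ge.mul h3
  exact h4.mono (by linarith)

include hp hA in
lemma val_one_sub_zeta {ζ : Om} (hζ : IsPrimitiveRoot ζ p) :
    (valOf hp hA).Is (1 / ((p : ℚ) - 1)) (1 - ζ) := by
  have hne : ∀ k : ℕ, Nat.Coprime k p → 1 - ζ ^ k ≠ 0 := by
    intro k hk h0
    have h1 : ζ ^ k = 1 := (sub_eq_zero.mp h0).symm
    have h2 := hζ.dvd_of_pow_eq_one k h1
    have h3 := Nat.Coprime.eq_one_of_dvd hk.symm h2
    exact hp.one_lt.ne' h3
  have h10 : 1 - ζ ≠ 0 := by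
    have := hne 1 (Nat.coprime_one_left p)
    rwa [pow_one] at this
  have hval : ∀ k : ℕ, Nat.Coprime k p →
      (valOf hp hA).Is ((valOf hp hA).val (1 - ζ)) (1 - ζ ^ k) := by
    intro k hk
    refine ⟨hne k hk, le_antisymm ?_ ?_⟩
    · have h1 := hζ.pow_of_coprime k hk
      obtain ⟨m, hm⟩ := Nat.exists_mul_mod_eq_one_of_coprime hk hp.one_lt
      have h2 := ge_one_sub_pow hp hA hp.pos h1.pow_eq_one (hne k hk) m
      have h3 : (ζ ^ k) ^ m = ζ := by
        rw [← pow_mul, ← Nat.div_add_mod (k * m) p, hm.2, pow_add, pow_mul, hζ.pow_eq_one,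
          one_pow, one_mul, pow_one]
      rw [h3] at h2
      exact h2.resolve_left h10
    · exact (ge_one_sub_pow hp hA hp.pos hζ.pow_eq_one h10 k).resolve_left (hne k hk)
  obtain ⟨n, rfl⟩ : ∃ n, p = n + 1 := ⟨p - 1, (Nat.succ_pred_prime hp).symm⟩
  have hprod := hζ.prod_one_sub_pow_eq_order
  have h1 : ∀ m : ℕ, m ≤ n → (valOf hp hA).Is (m * (valOf hp hA).val (1 - ζ))
      (∏ k ∈ Finset.range m, (1 - ζ ^ (k + 1))) := by
    intro m
    induction m with
    | zero => intro _; simpa using QVal.is_one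
    | succ m ih =>
      intro hm
      rw [Finset.prod_range_succ]
      refine ((ih (by omega)).mul (hval (m + 1) ?_)).congr (by push_cast; ring)
      exact (Nat.coprime_of_lt_prime (by omega) (by omega) hp).symm
  have h2 := h1 n le_rfl
  rw [hprod] at h2
  have h3 := valOf_prime hp hA
  have h4 := h2.unique (by exact_mod_cast h3)
  refine ⟨h10, ?_⟩
  have hn0 : (n : ℚ) ≠ 0 := by
    have := hp.one_lt
    exact_mod_cast (by omega : n ≠ 0)
  push_cast
  rw [add_sub_cancel_right, eq_div_iff hn0, mul_comm]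
  exact h4

end Zeta

/-- every rational number is a value. -/
lemma exists_is (hp : p.Prime) (hA : A.LiesOverPrime p) (r : ℚ) :
    ∃ z : Om, (valOf hp hA).Is r z := by
  obtain ⟨z, hz⟩ := IsAlgClosed.exists_pow_nat_eq ((p : Om) ^ r.num) r.den_pos
  have hp0 : (p : Om) ≠ 0 := Nat.cast_ne_zero.mpr hp.ne_zero
  have h1 : (valOf hp hA).Is r.num ((p : Om) ^ r.num) := by
    have hpos : ∀ n : ℕ, (valOf hp hA).Is n ((p : Om) ^ n) := fun n =>
      ((valOf_prime hp hA).pow n).congr (mul_one _)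
    obtain ⟨n, hn | hn⟩ := r.num.eq_nat_or_neg
    · rw [hn, zpow_natCast]
      exact_mod_cast hpos n
    · rw [hn, zpow_neg, zpow_natCast]
      exact_mod_cast (hpos n).inv
  have hz0 : z ≠ 0 := by
    rintro rfl
    rw [zero_pow r.den_nz] at hz
    exact h1.1 hz.symm
  refine ⟨z, hz0, ?_⟩
  have h2 := (QVal.Is.of_ne (w := valOf hp hA) hz0).pow r.den
  rw [hz] at h2
  have h3 := h2.unique h1
  have h4 : (r.den : ℚ) ≠ 0 := by exact_mod_cast r.den_nz
  rw [← Rat.num_div_den r]
  field_simp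
  rw [mul_comm]
  exact h3

/-- **Separation.** -/
theorem separation [Finite M] (h : IsModel p act B) (hp : p.Prime) (hA : A.LiesOverPrime p)
    (hpM : ∀ x : M, p • x = 0) {x y : M} (hxy : x ≠ y) {c : ℚ}
    (hc : ∀ b ∈ B, (valOf hp hA).Ge c (b x - b y)) : c ≤ 1 / ((p : ℚ) - 1) := by
  classical
  cases nonempty_fintype M
  obtain ⟨z, hz⟩ := exists_is hp hA c
  let u : M → Om := fun t => (if t = x then z⁻¹ else 0) - (if t = y then z⁻¹ else 0)
  have hu : ∀ f : M → Om, ∑ t, u t * f t = z⁻¹ * (f x - f y) := by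
    intro f
    simp only [u, sub_mul, Finset.sum_sub_distrib, ite_mul, zero_mul, Finset.sum_ite_eq',
      Finset.mem_univ, if_true]
    ring
  have hint : Integral B A u := by
    intro b hb
    rw [hu, ← valOf_ge_zero_iff hp hA]
    exact (hz.inv.ge.mul (hc b hb)).mono (by linarith)
  obtain ⟨ψ, hψ⟩ := exists_addChar_ne hxy
  have h1 := char_integral h hp hA hint (χ := ψ) (AddChar.map_add_eq_mul ψ)
  rw [hu, ← valOf_ge_zero_iff hp hA] at h1
  have h2 : (ψ (x - y)) ^ p = 1 := by
    rw [← AddChar.map_nsmul_eq_pow, hpM, AddChar.map_zero_eq_one]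
  have hψy : ψ y * ψ (-y) = 1 := by
    rw [← AddChar.map_add_eq_mul, add_neg_cancel, AddChar.map_zero_eq_one]
  have h3 : ψ (x - y) ≠ 1 := by
    intro h4
    apply hψ
    have h5 : x = (x - y) + y := by abel
    rw [h5, AddChar.map_add_eq_mul, h4, one_mul]
  have hpF : Fact p.Prime := ⟨hp⟩
  have hprim : IsPrimitiveRoot (ψ (x - y)) p :=
    IsPrimitiveRoot.iff_orderOf.mpr (orderOf_eq_prime h2 h3)
  have h4 := val_one_sub_zeta hp hA hprim
  have h5 : ψ x - ψ y = -(ψ y * (1 - ψ (x - y))) := by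
    have h6 : ψ x = ψ (x - y) * ψ y := by rw [← AddChar.map_add_eq_mul, sub_add_cancel]
    rw [h6]
    ring
  have h6 : (valOf hp hA).Is 0 (ψ y) := by
    have h7 : (ψ y) ^ p = 1 := by
      rw [← AddChar.map_nsmul_eq_pow, hpM, AddChar.map_zero_eq_one]
    have h8 : ψ y ≠ 0 := by
      rintro h9
      rw [h9, zero_mul] at hψy
      exact zero_ne_one hψy
    refine ⟨h8, ?_⟩
    have h9 := (QVal.Is.of_ne (w := valOf hp hA) h8).pow p
    rw [h7] at h9
    have h10 := h9.unique QVal.is_one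
    have h11 : (p : ℚ) ≠ 0 := by exact_mod_cast hp.ne_zero
    exact (mul_eq_zero.mp h10).resolve_left h11
  rw [h5] at h1
  have h7 := (h6.mul h4).neg
  have h8 := (hz.inv.mul h7).le_of_ge h1
  linarith

end Fermat.Agent.FlatP
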