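import Fermat.Agent.FlatGS.BaseChange
import Fermat.Agent.TW.LocalOrd

/-!
# The flat cocycles

`pact r c` is the Galois action on `V ⊕ εV` attached to a cocycle `c` with values in `ad⁰`.
The cocycles `c` such that this module is finite flat form a group `flatGrp` which contains the
coboundaries.
-/

set_option autoImplicit false

namespace Fermat.Agent.FlatP

open Matrix Fermat.Agent.FlatGS Fermat.Agent.TW
open Fermat.Agent.S53norm (M2 HasMat)

variable {k : Type} [Field k]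

/-- The action attached to `(1 + ε c) r` on `V ⊕ ε V`. -/
def pact (r c : GQ → M2 k) (σ : GQ) (v : (Fin 2 → k) × (Fin 2 → k)) :
    (Fin 2 → k) × (Fin 2 → k) :=
  (r σ *ᵥ v.1, r σ *ᵥ v.2 + c σ *ᵥ (r σ *ᵥ v.1))

/-- `k[ε]² = V ⊕ εV`. -/
def splitEquiv (k : Type) [Field k] :
    (Fin 2 → DualNumber k) ≃+ (Fin 2 → k) × (Fin 2 → k) where
  toFun v := (fun i => TrivSqZeroExt.fst (v i), fun i => TrivSqZeroExt.snd (v i))
  invFun w := fun i => TrivSqZeroExt.inl (w.1 i) + TrivSqZeroExt.inr (w.2 i)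
  left_inv v := by
    funext i
    exact TrivSqZeroExt.inl_fst_add_inr_snd_eq (v i)
  right_inv w := by
    apply Prod.ext
    · funext i
      simp
    · funext i
      simp
  map_add' v w := rfl

lemma splitEquiv_dualMat (r c : GQ → M2 k) (σ : GQ) (v : Fin 2 → DualNumber k) :
    splitEquiv k (dualMat r c σ *ᵥ v) = pact r c σ (splitEquiv k v) := by
  apply Prod.ext
  · funext i
    change TrivSqZeroExt.fst ((dualMat r c σ *ᵥ v) i) = (r σ *ᵥ _) i
    rw [mulVec_eq_sum, mulVec_eq_sum]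
    simp [Fin.sum_univ_two, dualMat, dm, splitEquiv]
  · funext i
    change TrivSqZeroExt.snd ((dualMat r c σ *ᵥ v) i) = (r σ *ᵥ _ + c σ *ᵥ (r σ *ᵥ _)) i
    rw [mulVec_mulVec, Pi.add_apply]
    simp only [mulVec, dotProduct, Fin.sum_univ_two]
    simp [dualMat, dm, splitEquiv]
    ring

instance [Finite k] : Finite (DualNumber k) := inferInstanceAs (Finite (k × k))

theorem isFlatAt_defAdic_iff [Finite k] {r : GQ →* M2 k} (hlev : IsFiniteLevel r)
    (c : Z1 r (MonoidHom.id GQ) 0) (p : ℕ) :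
    (defAdic hlev c).IsFlatAt p ↔ IsFlatModule p (pact r c.1) := by
  obtain ⟨e, he⟩ := defAdic_hasMat hlev c
  let i : (defAdic hlev c).V ≃+ (Fin 2 → k) × (Fin 2 → k) := e.toAddEquiv.trans (splitEquiv k)
  have hi : ∀ σ v, i ((defAdic hlev c).ρ σ v) = pact r c.1 σ (i v) := by
    intro σ v
    change splitEquiv k (e ((defAdic hlev c).ρ σ v)) = _
    rw [he, splitEquiv_dualMat]
    rfl
  constructor
  · intro h
    refine (isFlatModule_of_isFlatAt _ h).of_equiv i.symm ?_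
    intro σ m
    apply i.injective
    rw [hi, AddEquiv.apply_symm_apply, AddEquiv.apply_symm_apply]
  · intro h
    exact isFlatAt_of_finite _ (h.of_equiv i hi)

section closure

variable {p : ℕ}

/-- Baer sum. -/
theorem isFlatModule_pact_add {r c c' : GQ → M2 k} (h : IsFlatModule p (pact r c))
    (h' : IsFlatModule p (pact r c')) : IsFlatModule p (pact r (c + c')) := by
  let f : (Fin 2 → k) × (Fin 2 → k) × (Fin 2 → k) →+
      ((Fin 2 → k) × (Fin 2 → k)) × ((Fin 2 → k) × (Fin 2 → k)) :=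
    { toFun := fun x => ((x.1, x.2.1), (x.1, x.2.2))
      map_zero' := rfl
      map_add' := fun _ _ => rfl }
  let q : (Fin 2 → k) × (Fin 2 → k) × (Fin 2 → k) →+ (Fin 2 → k) × (Fin 2 → k) :=
    { toFun := fun x => (x.1, x.2.1 + x.2.2)
      map_zero' := by simp
      map_add' := fun x y => by
        refine Prod.ext rfl ?_
        change x.2.1 + y.2.1 + (x.2.2 + y.2.2) = x.2.1 + x.2.2 + (y.2.1 + y.2.2)
        abel }
  refine IsFlatModule.of_ker_le (X := (Fin 2 → k) × (Fin 2 → k) × (Fin 2 → k))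
    (fun σ x => (r σ *ᵥ x.1, r σ *ᵥ x.2.1 + c σ *ᵥ (r σ *ᵥ x.1),
      r σ *ᵥ x.2.2 + c' σ *ᵥ (r σ *ᵥ x.1))) (h.prod h') f q ?_ ?_ ?_ ?_
  · rintro ⟨x, y⟩
    exact ⟨(x, y, 0), Prod.ext rfl (add_zero y)⟩
  · intro σ x
    rfl
  · intro σ x
    refine Prod.ext rfl ?_
    change r σ *ᵥ x.2.1 + c σ *ᵥ (r σ *ᵥ x.1) + (r σ *ᵥ x.2.2 + c' σ *ᵥ (r σ *ᵥ x.1)) =
      r σ *ᵥ (x.2.1 + x.2.2) + (c σ + c' σ) *ᵥ (r σ *ᵥ x.1)
    rw [mulVec_add, add_mulVec]
    abel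
  · rintro ⟨x, y, z⟩ hx
    have hx' : (((x, y), (x, z)) : ((Fin 2 → k) × (Fin 2 → k)) × ((Fin 2 → k) × (Fin 2 → k))) = 0 :=
      hx
    have h1 : x = 0 := congrArg (fun w => w.1.1) hx'
    have h2 : y = 0 := congrArg (fun w => w.1.2) hx'
    have h3 : z = 0 := congrArg (fun w => w.2.2) hx'
    subst h1 h2 h3
    exact map_zero q

theorem isFlatModule_pact_neg {r c : GQ → M2 k} (h : IsFlatModule p (pact r c)) :
    IsFlatModule p (pact r (-c)) := by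
  let i : (Fin 2 → k) × (Fin 2 → k) ≃+ (Fin 2 → k) × (Fin 2 → k) :=
    AddEquiv.prodCongr (AddEquiv.refl _) (AddEquiv.neg _)
  refine h.of_equiv i ?_
  rintro σ ⟨x, y⟩
  refine Prod.ext rfl ?_
  change -(r σ *ᵥ y + (-c σ) *ᵥ (r σ *ᵥ x)) = r σ *ᵥ (-y) + c σ *ᵥ (r σ *ᵥ x)
  rw [neg_mulVec, mulVec_neg, neg_add, neg_neg]

theorem isFlatModule_pact_cob {r : GQ →* M2 k} (X : M2 k) {c : GQ → M2 k}
    (h : IsFlatModule p (pact r c)) :
    IsFlatModule p (pact r (c + cob r (MonoidHom.id GQ) 0 X)) := by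
  let i : (Fin 2 → k) × (Fin 2 → k) ≃+ (Fin 2 → k) × (Fin 2 → k) :=
    { toFun := fun v => (v.1, v.2 + X *ᵥ v.1)
      invFun := fun v => (v.1, v.2 - X *ᵥ v.1)
      left_inv := fun v => Prod.ext rfl (add_sub_cancel_right _ _)
      right_inv := fun v => Prod.ext rfl (sub_add_cancel _ _)
      map_add' := fun v w => by
        refine Prod.ext rfl ?_
        change v.2 + w.2 + X *ᵥ (v.1 + w.1) = v.2 + X *ᵥ v.1 + (w.2 + X *ᵥ w.1)
        rw [mulVec_add]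
        abel }
  refine h.of_equiv i ?_
  rintro σ ⟨x, y⟩
  refine Prod.ext rfl ?_
  change r σ *ᵥ y + (c σ + (TW.act r 0 σ X - X)) *ᵥ (r σ *ᵥ x) + X *ᵥ (r σ *ᵥ x) =
    r σ *ᵥ (y + X *ᵥ x) + c σ *ᵥ (r σ *ᵥ x)
  have h1 : (TW.act r 0 σ X) *ᵥ (r σ *ᵥ x) = r σ *ᵥ (X *ᵥ x) := by
    rw [act_zero_apply, mulVec_mulVec, mulVec_mulVec, mul_assoc, mul_assoc, r_inv_mul, mul_one]
  rw [add_mulVec, sub_mulVec, h1, mulVec_add]
  abel

/-- The group of flat cocycles. -/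
def flatGrp (p : ℕ) (r : GQ →* M2 k) (h0 : IsFlatModule p (pact r 0)) :
    AddSubgroup (GQ → M2 k) where
  carrier := {c | c ∈ Z1 r (MonoidHom.id GQ) 0 ∧ IsFlatModule p (pact r c)}
  zero_mem' := ⟨zero_mem _, h0⟩
  add_mem' := fun ha hb => ⟨add_mem ha.1 hb.1, isFlatModule_pact_add ha.2 hb.2⟩
  neg_mem' := fun ha => ⟨neg_mem ha.1, isFlatModule_pact_neg ha.2⟩

lemma mem_flatGrp {r : GQ →* M2 k} {h0 : IsFlatModule p (pact r 0)} {c : GQ → M2 k} :
    c ∈ flatGrp p r h0 ↔ c ∈ Z1 r (MonoidHom.id GQ) 0 ∧ IsFlatModule p (pact r c) := Iff.rfl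

lemma cob_mem_flatGrp {r : GQ →* M2 k} (hlev : IsFiniteLevel r) (h0 : IsFlatModule p (pact r 0))
    {X : M2 k} (hX : X.trace = 0) : cob r (MonoidHom.id GQ) 0 X ∈ flatGrp p r h0 := by
  refine ⟨cob_mem_Z1 _ hlev 0 hX, ?_⟩
  have := isFlatModule_pact_cob X h0
  rwa [zero_add] at this

/-- Restriction to a subgroup. -/
def resHom (D : Subgroup GQ) (T : Type) [AddCommGroup T] : (GQ → T) →+ (D → T) where
  toFun c := fun g => c g
  map_zero' := rfl
  map_add' _ _ := rfl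

@[simp] lemma resHom_apply (D : Subgroup GQ) (T : Type) [AddCommGroup T] (c : GQ → T) (g : D) :
    resHom D T c g = c g := rfl

/-- The flat local condition. -/
def flatLoc (p : ℕ) (r : GQ →* M2 k) (h0 : IsFlatModule p (pact r 0)) (D : Subgroup GQ) :
    AddSubgroup (D → M2 k) :=
  (flatGrp p r h0).map (resHom D (M2 k))

lemma res_mem_Z1 {r : GQ →* M2 k} {c : GQ → M2 k} (hc : c ∈ Z1 r (MonoidHom.id GQ) 0)
    (D : Subgroup GQ) : resHom D (M2 k) c ∈ Z1 r D.subtype 0 := by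
  obtain ⟨L, hL, h⟩ := hc.2.2
  exact ⟨fun g => hc.1 _, fun g h => hc.2.1 _ _, L, hL, fun g hg => h g hg⟩

theorem localBound_of_card [Finite k] {r : GQ →* M2 k} (hlev : IsFiniteLevel r)
    (h0 : IsFlatModule p (pact r 0)) (D : Subgroup GQ) {m : ℕ}
    (hcard : Finite (flatLoc p r h0 D) ∧ Nat.card (flatLoc p r h0 D) ≤ Nat.card k ^ m) :
    LocalBound r D (fun c => (defAdic hlev c).IsFlatAt p) m := by
  refine ⟨flatLoc p r h0 D, hcard.1, hcard.2, ?_, ?_, ?_⟩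
  · rintro _ ⟨c, hc, rfl⟩
    exact res_mem_Z1 hc.1 D
  · intro X hX
    exact ⟨_, cob_mem_flatGrp hlev h0 hX, rfl⟩
  · intro c hc
    exact ⟨c.1, ⟨c.2, (isFlatAt_defAdic_iff hlev c p).mp hc⟩, rfl⟩

end closure

section card

/-- Counting a group through a homomorphism. -/
lemma card_le_mul {G T : Type*} [AddCommGroup G] [AddCommGroup T] (Λ : AddSubgroup G)
    (f : G →+ T) {a b : ℕ} (h1 : Finite (Λ.map f) ∧ Nat.card (Λ.map f) ≤ a)
    (h2 : Finite ↥(Λ ⊓ f.ker) ∧ Nat.card ↥(Λ ⊓ f.ker) ≤ b) :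
    Finite Λ ∧ Nat.card Λ ≤ a * b := by
  obtain ⟨hfin1, h1⟩ := h1
  obtain ⟨hfin2, h2⟩ := h2
  have hex : ∀ t : Λ.map f, ∃ c : Λ, f c = t := fun t => by
    obtain ⟨c, hc, h⟩ := t.2
    exact ⟨⟨c, hc⟩, h⟩
  choose s hs using hex
  let F : Λ → (Λ.map f) × ↥(Λ ⊓ f.ker) := fun c =>
    (⟨f c, c, c.2, rfl⟩, ⟨(c : G) - s ⟨f c, c, c.2, rfl⟩,
      AddSubgroup.mem_inf.mpr ⟨Λ.sub_mem c.2 (s _).2, (AddMonoidHom.mem_ker).mpr (by
        rw [map_sub, hs, sub_self])⟩⟩)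
  have hF : Function.Injective F := by
    intro c c' h
    have h3 : (⟨f c, c, c.2, rfl⟩ : Λ.map f) = ⟨f c', c', c'.2, rfl⟩ := congrArg Prod.fst h
    have h4 : (c : G) - s ⟨f c, c, c.2, rfl⟩ = (c' : G) - s ⟨f c', c', c'.2, rfl⟩ :=
      congrArg (fun z => (z.2 : G)) h
    rw [h3] at h4
    exact Subtype.ext (sub_left_inj.mp h4)
  refine ⟨Finite.of_injective F hF, (Nat.card_le_card_of_injective F hF).trans ?_⟩
  rw [Nat.card_prod]
  exact Nat.mul_le_mul h1 h2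

end card

end Fermat.Agent.FlatP
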