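import Fermat.Agent.FlatP.Char
import Fermat.Agent.FlatP.Concrete
import Mathlib.RingTheory.Flat.TorsionFree
import Mathlib.RingTheory.LocalRing.Module

/-!
# The connected part is canonical

`M` is killed by an odd prime `p`. The connected part at `A` of a model of `M` is the subgroup
generated by the elements `σ x - x` for `σ` in the inertia group at `A`.
-/

set_option autoImplicit false

namespace Fermat.Agent.FlatP

open Fermat.Agent.FlatGS Fermat.Agent.MazurMult FermatAgent.ECVal

variable {p : ℕ} {M : Type} [AddCommGroup M] {act : GQ → M → M}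
  {B : Subalgebra (Rp p) (M → Om)} {A : ValuationSubring Om}

lemma ge_one_of_fixed (hp : p.Prime) (hA : A.LiesOverPrime p) {z : Om}
    (hz : ∀ σ ∈ A.inertiaSubgroupIn ℚ, σ z = z) (hgt : (valOf hp hA).Gt 0 z) :
    (valOf hp hA).Ge 1 z := by
  by_cases h0 : z = 0
  · exact Or.inl h0
  obtain ⟨n, hn⟩ := (localData hp hA).int z h0 (fun g => hz g g.2)
  have h1 := hgt.resolve_left h0
  right
  rw [hn] at h1 ⊢
  have h2 : 0 < n := by exact_mod_cast h1
  exact_mod_cast h2

lemma one_div_lt_one (hp : p.Prime) (hp2 : p ≠ 2) : (1 : ℚ) / ((p : ℚ) - 1) < 1 := by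
  have h1 : 2 < p := lt_of_le_of_ne hp.two_le (Ne.symm hp2)
  have h2 : (2 : ℚ) < p := by exact_mod_cast h1
  rw [div_lt_one (by linarith)]
  linarith

/-- a point of the connected part which is fixed by inertia is zero. -/
theorem eq_zero_of_mem_conn [Finite M] (h : IsModel p act B) (hp : p.Prime) (hp2 : p ≠ 2)
    (hA : A.LiesOverPrime p) (hpM : ∀ x : M, p • x = 0) {x : M} (hx : x ∈ conn h hA)
    (hfix : ∀ σ ∈ A.inertiaSubgroupIn ℚ, act σ x = x) : x = 0 := by
  by_contra hne
  refine absurd (separation h hp hA hpM (x := x) (y := 0) hne (c := 1) ?_)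
    (not_le.mpr (one_div_lt_one hp hp2))
  intro b hb
  refine ge_one_of_fixed hp hA ?_ ?_
  · intro σ hσ
    rw [map_sub, ← h.equivariant b hb, ← h.equivariant b hb, hfix σ hσ, h.act_zero]
  · rw [valOf_gt_zero_iff]
    exact (mem_conn h hA).mp hx b hb

section Quot

/-- The valuation ring of the fixed field of inertia, as a subring of `ℚ̄`. -/
noncomputable def R0 (A : ValuationSubring Om) : Subring Om :=
  A.toSubring ⊓ (LocE.K0 A).toSubfield.toSubring

lemma mem_R0 {x : Om} : x ∈ R0 A ↔ x ∈ A ∧ ∀ σ ∈ A.inertiaSubgroupIn ℚ, σ x = x := by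
  rw [R0, Subring.mem_inf]
  exact and_congr Iff.rfl LocE.mem_K0_iff

instance instValuationRingR0 : ValuationRing (R0 A) := by
  refine { cond' := ?_ }
  rintro ⟨a, ha⟩ ⟨b, hb⟩
  have ha' := mem_R0.mp ha
  have hb' := mem_R0.mp hb
  by_cases ha0 : a = 0
  · refine ⟨0, Or.inr (Subtype.ext ?_)⟩
    simp [ha0]
  by_cases hb0 : b = 0
  · refine ⟨0, Or.inl (Subtype.ext ?_)⟩
    simp [hb0]
  rcases A.mem_or_inv_mem (a / b) with hm | hm
  · refine ⟨⟨a / b, mem_R0.mpr ⟨hm, fun σ hσ => ?_⟩⟩, Or.inr (Subtype.ext ?_)⟩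
    · rw [map_div₀, ha'.2 σ hσ, hb'.2 σ hσ]
    · change b * (a / b) = a
      field_simp
  · rw [inv_div] at hm
    refine ⟨⟨b / a, mem_R0.mpr ⟨hm, fun σ hσ => ?_⟩⟩, Or.inl (Subtype.ext ?_)⟩
    · rw [map_div₀, ha'.2 σ hσ, hb'.2 σ hσ]
    · change a * (b / a) = b
      field_simp

/-- Torsion free finite modules over a valuation ring are projective, hence saturated submodules
of finite modules are retracts. -/
lemma exists_retract {R V : Type*} [CommRing R] [IsDomain R] [ValuationRing R] [AddCommGroup V]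
    [Module R V] [Module.Finite R V] (C : Submodule R V)
    (hC : ∀ (r : R) (v : V), r ≠ 0 → r • v ∈ C → v ∈ C) :
    ∃ P : V →ₗ[R] V, (∀ v, P v ∈ C) ∧ ∀ v ∈ C, P v = v := by
  have htors : Submodule.torsion R (V ⧸ C) = ⊥ := by
    rw [eq_bot_iff]
    intro x hx
    obtain ⟨v, rfl⟩ := Submodule.mkQ_surjective C x
    rw [Submodule.mem_torsion_iff] at hx
    obtain ⟨r, hr⟩ := hx
    have hr0 : (r : R) ≠ 0 := nonZeroDivisors.ne_zero r.2
    have h1 : C.mkQ ((r : R) • v) = 0 := hr
    rw [Submodule.mkQ_apply, Submodule.Quotient.mk_eq_zero] at h1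
    rw [Submodule.mem_bot, Submodule.mkQ_apply, Submodule.Quotient.mk_eq_zero]
    exact hC _ v hr0 h1
  have hflat : Module.Flat R (V ⧸ C) := Module.Flat.flat_iff_torsion_eq_bot_of_isBezout.mpr htors
  have hfree : Module.Free R (V ⧸ C) := Module.free_of_flat_of_isLocalRing
  obtain ⟨s, hs⟩ := Module.projective_lifting_property C.mkQ LinearMap.id C.mkQ_surjective
  refine ⟨LinearMap.id - s.comp C.mkQ, ?_, ?_⟩
  · intro v
    rw [← Submodule.Quotient.mk_eq_zero, ← Submodule.mkQ_apply]
    have := LinearMap.congr_fun hs (C.mkQ v)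
    simp only [LinearMap.comp_apply, LinearMap.id_apply] at this
    rw [LinearMap.sub_apply, map_sub, LinearMap.comp_apply, this, LinearMap.id_apply, sub_self]
  · intro v hv
    have h1 : C.mkQ v = 0 := by
      rw [Submodule.mkQ_apply, Submodule.Quotient.mk_eq_zero]; exact hv
    rw [LinearMap.sub_apply, LinearMap.comp_apply, h1, map_zero, sub_zero, LinearMap.id_apply]

variable (A) in
/-- `R0`-span of the model -/
noncomputable def B0 (B : Subalgebra (Rp p) (M → Om)) : Submodule (R0 A) (M → Om) :=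
  Submodule.span (R0 A) (B : Set (M → Om))

omit [AddCommGroup M] in
lemma smul_fun_apply (r : R0 A) (f : M → Om) (x : M) : (r • f) x = (r : Om) * f x := rfl

lemma algebraMap_Rp_mem_R0 (hA : A.LiesOverPrime p) (r : Rp p) :
    algebraMap (Rp p) Om r ∈ R0 A := by
  rw [mem_R0]
  refine ⟨Rp_mem hA r, fun σ _ => ?_⟩
  rw [Rp_algebraMap_Om]
  exact σ.commutes _

section Basis

variable (h : IsModel p act B) (hA : A.LiesOverPrime p)
  {ι : Type} (e : Module.Basis ι (Rp p) B)

omit [AddCommGroup M] in
include hA in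
lemma B0_eq : B0 A B = Submodule.span (R0 A) (Set.range fun i => (e i : M → Om)) := by
  apply le_antisymm
  · rw [B0, Submodule.span_le]
    intro b hb
    have h1 := congrArg (fun z : B => (z : M → Om)) (e.linearCombination_repr ⟨b, hb⟩)
    rw [SetLike.mem_coe]
    have h2 : b = (Finsupp.linearCombination (Rp p) e (e.repr ⟨b, hb⟩) : B) := h1.symm
    rw [h2, Finsupp.linearCombination_apply, Finsupp.sum]
    have h3 : ∀ s : Finset ι, ((∑ i ∈ s, (e.repr ⟨b, hb⟩) i • e i : B) : M → Om) ∈
        Submodule.span (R0 A) (Set.range fun i => (e i : M → Om)) := by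
      intro s
      rw [AddSubmonoidClass.coe_finsetSum]
      refine Submodule.sum_mem _ fun i _ => ?_
      have h4 : (((e.repr ⟨b, hb⟩) i • e i : B) : M → Om) =
          (⟨_, algebraMap_Rp_mem_R0 hA ((e.repr ⟨b, hb⟩) i)⟩ : R0 A) • (e i : M → Om) := by
        funext x
        exact Algebra.smul_def (A := Om) ((e.repr ⟨b, hb⟩) i) ((e i : M → Om) x)
      rw [h4]
      exact Submodule.smul_mem _ _ (Submodule.subset_span ⟨i, rfl⟩)
    exact h3 _
  · rw [Submodule.span_le]
    rintro _ ⟨i, rfl⟩
    exact Submodule.subset_span (e i).2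

include h in
lemma li_e : LinearIndependent Om (fun i => (e i : M → Om)) :=
  li_basis h.act_surjective B h.equivariant e e.linearIndependent

include h in
lemma span_e [Finite M] : ⊤ ≤ Submodule.span Om (Set.range fun i => (e i : M → Om)) := by
  rw [← h.isSepAlg.span_eq_top, Submodule.span_le]
  intro b hb
  have h1 := congrArg (fun z : B => (z : M → Om)) (e.linearCombination_repr ⟨b, hb⟩)
  have h2 : b = (Finsupp.linearCombination (Rp p) e (e.repr ⟨b, hb⟩) : B) := h1.symm
  rw [SetLike.mem_coe, h2, Finsupp.linearCombination_apply, Finsupp.sum]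
  rw [AddSubmonoidClass.coe_finsetSum]
  refine Submodule.sum_mem _ fun i _ => ?_
  have h4 : (((e.repr ⟨b, hb⟩) i • e i : B) : M → Om) =
      (algebraMap (Rp p) Om ((e.repr ⟨b, hb⟩) i)) • (e i : M → Om) := by
    funext x
    exact Algebra.smul_def (A := Om) ((e.repr ⟨b, hb⟩) i) ((e i : M → Om) x)
  rw [h4]
  exact Submodule.smul_mem _ _ (Submodule.subset_span ⟨i, rfl⟩)

/-- a basis of the model as a basis of the space of all functions. -/
noncomputable def bas [Finite M] : Module.Basis ι Om (M → Om) :=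
  Module.Basis.mk (li_e h e) (span_e h e)

@[simp] lemma bas_apply [Finite M] (i : ι) : bas h e i = (e i : M → Om) := by
  rw [bas, Module.Basis.mk_apply]

include h hA in
/-- functions which are equivariant for the inertia group have a multiple in `B0`. -/
lemma exists_pow_smul_mem [Finite M] (hp : p.Prime) {f : M → Om}
    (hf : ∀ σ ∈ A.inertiaSubgroupIn ℚ, ∀ x, f (act σ x) = σ (f x)) :
    ∃ n : ℕ, ((p : Om) ^ n) • f ∈ B0 A B := by
  classical
  have := h.fin
  let e := Module.Free.chooseBasis (Rp p) B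
  let c := (bas h e).repr f
  have hsum : f = ∑ i, c i • (e i : M → Om) := by
    conv_lhs => rw [← (bas h e).sum_repr f]
    refine Finset.sum_congr rfl fun i _ => ?_
    rw [bas_apply]
  have hfix : ∀ i, ∀ σ ∈ A.inertiaSubgroupIn ℚ, σ (c i) = c i := by
    intro i σ hσ
    have hli := li_e h e
    rw [Fintype.linearIndependent_iff] at hli
    have := hli (fun i => σ (c i) - c i) (by
      funext y
      obtain ⟨x, rfl⟩ := h.act_surjective σ y
      have h1 := hf σ hσ x
      rw [hsum] at h1
      simp only [Finset.sum_apply, Pi.smul_apply, smul_eq_mul, map_sum, map_mul] at h1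
      simp only [Finset.sum_apply, Pi.smul_apply, smul_eq_mul, Pi.zero_apply, sub_mul,
        Finset.sum_sub_distrib]
      have h2 : ∀ i, (e i : M → Om) (act σ x) = σ ((e i : M → Om) x) := fun i =>
        h.equivariant _ (e i).2 σ x
      rw [h1, sub_eq_zero]
      exact Finset.sum_congr rfl fun i _ => by rw [h2 i]) i
    exact sub_eq_zero.mp this
  have hint : ∀ i, ∃ n : ℕ, (p : Om) ^ n * c i ∈ A := by
    intro i
    obtain ⟨n, hn⟩ := exists_nat_gt (-((valOf hp hA).val (c i)))
    refine ⟨n, ?_⟩
    rw [← valOf_ge_zero_iff hp hA]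
    by_cases h0 : c i = 0
    · rw [h0, mul_zero]; exact QVal.ge_zero 0
    · have h1 := ((valOf_prime hp hA).pow n).mul (QVal.Is.of_ne (w := valOf hp hA) h0)
      exact h1.ge.mono (by linarith)
  choose n hn using hint
  refine ⟨∑ i, n i, ?_⟩
  rw [hsum, Finset.smul_sum]
  refine Submodule.sum_mem _ fun i _ => ?_
  have hmem : (p : Om) ^ (∑ i, n i) * c i ∈ R0 A := by
    rw [mem_R0]
    constructor
    · rw [← Finset.add_sum_erase _ _ (Finset.mem_univ i), pow_add]
      have h1 : (p : Om) ^ n i * (p : Om) ^ (∑ j ∈ Finset.univ.erase i, n j) * c i =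
          (p : Om) ^ (∑ j ∈ Finset.univ.erase i, n j) * ((p : Om) ^ n i * c i) := by ring
      rw [h1]
      exact A.mul_mem _ _ (A.toSubring.pow_mem (natCast_mem A p) _) (hn i)
    · intro σ hσ
      rw [map_mul, map_pow, map_natCast, hfix i σ hσ]
  have h2 : (p : Om) ^ (∑ i, n i) • c i • (e i : M → Om) =
      (⟨_, hmem⟩ : R0 A) • (e i : M → Om) := by
    funext x
    change (p : Om) ^ (∑ i, n i) * (c i * (e i : M → Om) x) = _ * _
    ring
  rw [h2]
  exact Submodule.smul_mem _ _ (Submodule.subset_span (e i).2)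

end Basis

/-- the connected part is contained in every subgroup `N` such that inertia acts trivially on
`M / N`. -/
theorem conn_le [Finite M] (h : IsModel p act B) (hp : p.Prime) (hp2 : p ≠ 2)
    (hA : A.LiesOverPrime p) (hpM : ∀ x : M, p • x = 0) (N : AddSubgroup M)
    (hN : ∀ σ ∈ A.inertiaSubgroupIn ℚ, ∀ x, act σ x - x ∈ N) : conn h hA ≤ N := by
  classical
  intro x hx
  by_contra hxN
  cases nonempty_fintype M
  have := h.fin
  let e := Module.Free.chooseBasis (Rp p) B
  have hp0 : (p : Om) ≠ 0 := Nat.cast_ne_zero.mpr hp.ne_zero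
  have hfg : Module.Finite (R0 A) (B0 A B) := by
    rw [B0_eq hA e]
    exact Module.Finite.iff_fg.mpr (Submodule.fg_span (Set.finite_range _))
  let C : Submodule (R0 A) (B0 A B) :=
    { carrier := {f | ∀ y, ∀ n ∈ N, (f : M → Om) (y + n) = (f : M → Om) y}
      zero_mem' := fun y n _ => rfl
      add_mem' := by
        intro f g hf hg y n hn
        change (f : M → Om) (y + n) + (g : M → Om) (y + n) = (f : M → Om) y + (g : M → Om) y
        rw [hf y n hn, hg y n hn]
      smul_mem' := by
        intro r f hf y n hn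
        change (r : Om) * (f : M → Om) (y + n) = (r : Om) * (f : M → Om) y
        rw [hf y n hn] }
  have hC : ∀ (r : R0 A) (v : B0 A B), r ≠ 0 → r • v ∈ C → v ∈ C := by
    intro r v hr hrv y n hn
    have h1 : (r : Om) * (v : M → Om) (y + n) = (r : Om) * (v : M → Om) y := hrv y n hn
    exact mul_left_cancel₀ (fun h0 => hr (Subtype.ext h0)) h1
  obtain ⟨P, hP1, hP2⟩ := exists_retract C hC
  -- all functions in `B0` are equivariant for inertia
  have hequiv : ∀ f ∈ B0 A B, ∀ σ ∈ A.inertiaSubgroupIn ℚ, ∀ y, f (act σ y) = σ (f y) := by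
    intro f hf σ hσ
    rw [B0] at hf
    induction hf using Submodule.span_induction with
    | mem b hb => exact h.equivariant b hb σ
    | zero => intro y; exact (map_zero σ).symm
    | add f g _ _ hf hg => intro y; rw [Pi.add_apply, Pi.add_apply, map_add, hf, hg]
    | smul r f _ hf =>
      intro y
      rw [smul_fun_apply, smul_fun_apply, map_mul, hf, (mem_R0.mp r.2).2 σ hσ]
  have hgt : ∀ f ∈ B0 A B, (valOf hp hA).Gt 0 (f x - f 0) := by
    intro f hf
    rw [B0] at hf
    induction hf using Submodule.span_induction with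
    | mem b hb =>
      rw [valOf_gt_zero_iff]
      exact (mem_conn h hA).mp hx b hb
    | zero => simpa using QVal.gt_zero 0
    | add f g _ _ hf hg =>
      have h1 : (f + g) x - (f + g) 0 = (f x - f 0) + (g x - g 0) := by
        simp only [Pi.add_apply]; ring
      rw [h1]
      exact hf.add hg
    | smul r f _ hf =>
      have h1 : (r • f) x - (r • f) 0 = (r : Om) * (f x - f 0) := by
        rw [smul_fun_apply, smul_fun_apply]; ring
      rw [h1]
      have h2 : (valOf hp hA).Ge 0 (r : Om) := (valOf_ge_zero_iff hp hA).mpr (mem_R0.mp r.2).1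
      exact (h2.mul_gt hf).mono (by norm_num)
  have hfix : ∀ f ∈ C, ∀ σ ∈ A.inertiaSubgroupIn ℚ, ∀ y, σ ((f : M → Om) y) = (f : M → Om) y := by
    intro f hf σ hσ y
    rw [← hequiv f f.2 σ hσ]
    have h1 := hf y _ (hN σ hσ y)
    rwa [add_sub_cancel] at h1
  have hval : ∀ f ∈ C, ((f : M → Om) x - (f : M → Om) 0) / p ∈ A := by
    intro f hf
    have h1 : (valOf hp hA).Ge 1 ((f : M → Om) x - (f : M → Om) 0) := by
      refine ge_one_of_fixed hp hA ?_ (hgt f f.2)
      intro σ hσ
      rw [map_sub, hfix f hf σ hσ, hfix f hf σ hσ]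
    rw [← valOf_ge_zero_iff hp hA, div_eq_mul_inv]
    exact (h1.mul (valOf_prime hp hA).inv.ge).mono (by norm_num)
  -- the functional
  let T : B0 A B → Om := fun f => ((P f : M → Om) x - (P f : M → Om) 0) / p
  have hTadd : ∀ f g, T (f + g) = T f + T g := by
    intro f g
    simp only [T, map_add, Submodule.coe_add, Pi.add_apply]
    ring
  have hTsmul : ∀ (r : R0 A) f, T (r • f) = (r : Om) * T f := by
    intro r f
    simp only [T, map_smul, Submodule.coe_smul]
    rw [smul_fun_apply, smul_fun_apply]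
    ring
  have hTA : ∀ f, T f ∈ A := fun f => hval _ (hP1 f)
  have hemem : ∀ i, (e i : M → Om) ∈ B0 A B := fun i => Submodule.subset_span (e i).2
  let U : (M → Om) →ₗ[Om] Om := (bas h e).constr Om (fun i => T ⟨_, hemem i⟩)
  have hUT : ∀ f (hf : f ∈ B0 A B), U f = T ⟨f, hf⟩ := by
    intro f hf
    have hf' := hf
    rw [B0_eq hA e] at hf'
    induction hf' using Submodule.span_induction with
    | mem b hb =>
      obtain ⟨i, rfl⟩ := hb
      have h1 := (bas h e).constr_basis Om (fun i => T ⟨_, hemem i⟩) i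
      rw [bas_apply] at h1
      exact h1
    | zero =>
      rw [map_zero]
      have h1 := hTsmul 0 ⟨0, hf⟩
      rw [zero_smul] at h1
      simp only [ZeroMemClass.coe_zero, zero_mul] at h1
      exact h1.symm
    | add f g hf' hg' ihf ihg =>
      rw [← B0_eq hA e] at hf' hg'
      rw [map_add, ihf hf', ihg hg', ← hTadd]
      rfl
    | smul r f hf' ihf =>
      rw [← B0_eq hA e] at hf'
      refine (U.map_smul (r : Om) f).trans ?_
      rw [ihf hf', smul_eq_mul, ← hTsmul]
      rfl
  let u : M → Om := fun y => U (Pi.single y 1)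
  have hu : ∀ f : M → Om, ∑ y, u y * f y = U f := by
    intro f
    have h1 : f = ∑ y, f y • (Pi.single y 1 : M → Om) := by
      funext z
      simp [Finset.sum_apply, Pi.single_apply]
    conv_rhs => rw [h1]
    rw [map_sum]
    refine Finset.sum_congr rfl fun y _ => ?_
    rw [map_smul, smul_eq_mul, mul_comm]
  have hint : Integral B A u := by
    intro b hb
    rw [hu, hUT b (Submodule.subset_span hb)]
    exact hTA _
  -- on `N`-invariant functions
  have hUinv : ∀ g : M → Om, (∀ y, ∀ n ∈ N, g (y + n) = g y) → U g = (g x - g 0) / p := by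
    -- first for functions with rational (fixed) values
    have key : ∀ g : M → Om, (∀ y, ∀ n ∈ N, g (y + n) = g y) →
        (∀ σ ∈ A.inertiaSubgroupIn ℚ, ∀ y, σ (g y) = g y) → U g = (g x - g 0) / p := by
      intro g hg hgfix
      have h1 : ∀ σ ∈ A.inertiaSubgroupIn ℚ, ∀ y, g (act σ y) = σ (g y) := by
        intro σ hσ y
        rw [hgfix σ hσ]
        have h1 := hg y _ (hN σ hσ y)
        rwa [add_sub_cancel] at h1
      obtain ⟨n, hn⟩ := exists_pow_smul_mem h hA hp h1
      have h2 := hUT _ hn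
      have h3 : (⟨_, hn⟩ : B0 A B) ∈ C := by
        intro y m hm
        change (p : Om) ^ n * g (y + m) = (p : Om) ^ n * g y
        rw [hg y m hm]
      rw [map_smul] at h2
      simp only [T] at h2
      rw [hP2 _ h3] at h2
      have h4 : (p : Om) ^ n ≠ 0 := pow_ne_zero _ hp0
      apply mul_left_cancel₀ h4
      rw [smul_eq_mul] at h2
      rw [h2]
      change ((p : Om) ^ n * g x - (p : Om) ^ n * g 0) / p = _
      ring
    intro g hg
    -- decompose `g` in indicator functions of cosets
    let ind : M ⧸ N → M → Om := fun q y => if (QuotientAddGroup.mk y : M ⧸ N) = q then 1 else 0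
    have : Fintype (M ⧸ N) := Fintype.ofFinite _
    have hdec : g = ∑ q : M ⧸ N, g q.out • ind q := by
      funext y
      simp only [Finset.sum_apply, Pi.smul_apply, smul_eq_mul, ind, mul_ite, mul_one, mul_zero,
        Finset.sum_ite_eq, Finset.mem_univ, if_true]
      obtain ⟨n, hn⟩ := QuotientAddGroup.mk_out_eq_add N y
      rw [hn]
      exact (hg y n n.2).symm
    have hind : ∀ q, U (ind q) = (ind q x - ind q 0) / p := by
      intro q
      apply key
      · intro y n hn
        have h1 : (QuotientAddGroup.mk (y + n) : M ⧸ N) = QuotientAddGroup.mk y := by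
          rw [QuotientAddGroup.eq]
          have : -(y + n) + y = -n := by abel
          rw [this]
          exact N.neg_mem hn
        simp only [ind, h1]
      · intro σ _ y
        simp only [ind]
        split_ifs
        · exact map_one σ
        · exact map_zero σ
    conv_lhs => rw [hdec]
    rw [map_sum]
    simp only [map_smul, hind, smul_eq_mul]
    conv_rhs => rw [hdec]
    simp only [Finset.sum_apply, Pi.smul_apply, smul_eq_mul]
    rw [← Finset.sum_sub_distrib, Finset.sum_div]
    refine Finset.sum_congr rfl fun q _ => ?_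
    ring
  -- a character which is trivial on `N`, nontrivial at `x`
  have hne : (QuotientAddGroup.mk x : M ⧸ N) ≠ 0 := by
    rw [Ne, QuotientAddGroup.eq_zero_iff]
    exact hxN
  obtain ⟨ψ, hψ⟩ := exists_addChar_ne hne
  let χ : M → Om := fun y => ψ (QuotientAddGroup.mk y)
  have hχ : ∀ y z, χ (y + z) = χ y * χ z := by
    intro y z
    simp only [χ, QuotientAddGroup.mk_add, AddChar.map_add_eq_mul]
  have hχN : ∀ y, ∀ n ∈ N, χ (y + n) = χ y := by
    intro y n hn
    have h1 : (QuotientAddGroup.mk n : M ⧸ N) = 0 := (QuotientAddGroup.eq_zero_iff n).mpr hn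
    rw [hχ]
    simp only [χ, h1, AddChar.map_zero_eq_one, mul_one]
  have h1 := char_integral h hp hA hint hχ
  rw [hu, hUinv χ hχN] at h1
  have hχ0 : χ 0 = 1 := by simp only [χ, QuotientAddGroup.mk_zero, AddChar.map_zero_eq_one]
  have hχp : (χ x) ^ p = 1 := by
    simp only [χ]
    rw [← AddChar.map_nsmul_eq_pow, ← QuotientAddGroup.mk_nsmul, hpM, QuotientAddGroup.mk_zero,
      AddChar.map_zero_eq_one]
  have hχ1 : χ x ≠ 1 := by
    intro h2
    apply hψ
    rw [AddChar.map_zero_eq_one]
    exact h2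
  have hpF : Fact p.Prime := ⟨hp⟩
  have hprim : IsPrimitiveRoot (χ x) p :=
    IsPrimitiveRoot.iff_orderOf.mpr (orderOf_eq_prime hχp hχ1)
  have h2 := (val_one_sub_zeta hp hA hprim).neg.mul (valOf_prime hp hA).inv
  rw [hχ0, ← valOf_ge_zero_iff hp hA, div_eq_mul_inv] at h1
  have h3 : -(1 - χ x) = χ x - 1 := by ring
  rw [h3] at h2
  have h4 := h2.le_of_ge h1
  have h5 := one_div_lt_one hp hp2
  linarith

/-- **The connected part is the subgroup generated by the `σ x - x`, `σ` in the inertia group.** -/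
theorem conn_eq_closure [Finite M] (h : IsModel p act B) (hp : p.Prime) (hp2 : p ≠ 2)
    (hA : A.LiesOverPrime p) (hpM : ∀ x : M, p • x = 0) :
    conn h hA = AddSubgroup.closure {y | ∃ σ ∈ A.inertiaSubgroupIn ℚ, ∃ x, act σ x - x = y} := by
  apply le_antisymm
  · exact conn_le h hp hp2 hA hpM _ fun σ hσ x => AddSubgroup.subset_closure ⟨σ, hσ, x, rfl⟩
  · rw [AddSubgroup.closure_le]
    rintro _ ⟨σ, hσ, x, rfl⟩
    exact act_sub_mem_conn h hA hσ x

end Quot

end Fermat.Agent.FlatP
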