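import Mathlib

set_option autoImplicit false

/-!
# Counting additive maps which are semilinear for Frobenius
-/

namespace Fermat.Agent.FlatP

section pre

variable {k κ : Type} [Field k] [Field κ]

/-- Functions `k → κ` which are additive and satisfy `f (η a) = b f a`. -/
def semiSpace (η : k) (b : κ) : Submodule κ (k → κ) where
  carrier := {f | (∀ a a', f (a + a') = f a + f a') ∧ ∀ a, f (η * a) = b * f a}
  add_mem' := by
    rintro f g ⟨hf, hf'⟩ ⟨hg, hg'⟩
    refine ⟨fun a a' => ?_, fun a => ?_⟩
    · rw [Pi.add_apply, Pi.add_apply, Pi.add_apply, hf, hg]; ring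
    · rw [Pi.add_apply, Pi.add_apply, hf', hg']; ring
  zero_mem' := ⟨fun a a' => by simp, fun a => by simp⟩
  smul_mem' := by
    rintro c f ⟨hf, hf'⟩
    refine ⟨fun a a' => ?_, fun a => ?_⟩
    · rw [Pi.smul_apply, Pi.smul_apply, Pi.smul_apply, hf, smul_add]
    · rw [Pi.smul_apply, Pi.smul_apply, hf', smul_eq_mul, smul_eq_mul]; ring

lemma mem_semiSpace {η : k} {b : κ} {f : k → κ} :
    f ∈ semiSpace η b ↔ (∀ a a', f (a + a') = f a + f a') ∧ ∀ a, f (η * a) = b * f a := Iff.rfl

/-- an element of `semiSpace` which vanishes on a basis over a subfield contained in the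
algebra generated by `η` is zero. -/
lemma semiSpace_eq_zero {p : ℕ} [Fact p.Prime] [Algebra (ZMod p) k] {η : k} {b : κ} {f : k → κ}
    (hf : f ∈ semiSpace η b) {L : Type} [Field L] [Algebra L k]
    (hL : ∀ x : L, algebraMap L k x ∈ Algebra.adjoin (ZMod p) {η}) {ι : Type}
    (v : Module.Basis ι L k) (h0 : ∀ i, f (v i) = 0) : f = 0 := by
  have hf0 : f 0 = 0 := by
    have := hf.1 0 0
    rw [add_zero] at this
    exact left_eq_add.mp this
  have hneg : ∀ a, f a = 0 → f (-a) = 0 := by
    intro a ha
    have := hf.1 a (-a)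
    rw [add_neg_cancel, hf0, ha, zero_add] at this
    exact this.symm
  let N : AddSubgroup k :=
    { carrier := {a | f a = 0}
      zero_mem' := hf0
      add_mem' := fun {a a'} ha ha' => by
        show f (a + a') = 0
        rw [hf.1, show f a = 0 from ha, show f a' = 0 from ha', add_zero]
      neg_mem' := fun {a} ha => hneg a ha }
  have hN : ∀ x ∈ Algebra.adjoin (ZMod p) {η}, ∀ a ∈ N, x * a ∈ N := by
    intro x hx
    refine Algebra.adjoin_induction ?_ ?_ ?_ ?_ hx
    · rintro x hx a ha
      rw [Set.mem_singleton_iff] at hx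
      subst hx
      show f (x * a) = 0
      rw [hf.2, show f a = 0 from ha, mul_zero]
    · intro c a ha
      obtain ⟨n, rfl⟩ := ZMod.intCast_surjective c
      rw [map_intCast, ← zsmul_eq_mul]
      exact N.zsmul_mem ha n
    · intro x y _ _ hx hy a ha
      rw [add_mul]
      exact N.add_mem (hx a ha) (hy a ha)
    · intro x y _ _ hx hy a ha
      rw [mul_assoc]
      exact hx _ (hy a ha)
  have hall : ∀ a, a ∈ N := by
    intro a
    rw [← v.linearCombination_repr a, Finsupp.linearCombination_apply, Finsupp.sum]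
    refine N.sum_mem fun i _ => ?_
    rw [Algebra.smul_def]
    exact hN _ (hL _) _ (h0 i)
  funext a
  exact hall a

end pre

/-- The number of solutions of `x ^ q = x` in a field is at most `q`. -/
lemma card_pow_eq_self_le {κ : Type} [Field κ] {q : ℕ} (hq : 1 < q) :
    Finite {x : κ // x ^ q = x} ∧ Nat.card {x : κ // x ^ q = x} ≤ q := by
  classical
  have hne : (Polynomial.X ^ q - Polynomial.X : Polynomial κ) ≠ 0 :=
    FiniteField.X_pow_card_sub_X_ne_zero κ hq
  let g : {x : κ // x ^ q = x} →
      ((Polynomial.X ^ q - Polynomial.X : Polynomial κ).roots.toFinset : Set κ) := fun x =>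
    ⟨x.1, by
      rw [Finset.mem_coe, Multiset.mem_toFinset, Polynomial.mem_roots hne, Polynomial.IsRoot.def,
        Polynomial.eval_sub, Polynomial.eval_pow, Polynomial.eval_X, x.2, sub_self]⟩
  have hg : Function.Injective g := fun x y h => Subtype.ext (congrArg (fun z => z.1) h)
  refine ⟨Finite.of_injective g hg, (Nat.card_le_card_of_injective g hg).trans ?_⟩
  rw [Nat.card_coe_set_eq, Set.ncard_coe_finset]
  refine (Multiset.toFinset_card_le _).trans ((Polynomial.card_roots' _).trans ?_)
  rw [FiniteField.X_pow_card_sub_X_natDegree_eq κ hq]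

lemma card_semilinear_le {k κ : Type} [Field k] [Finite k] [Field κ] {p : ℕ} [Fact p.Prime]
    [CharP k p] [CharP κ p] {s : ℕ} {η θ : k} {b c : κ} (hθ : θ ≠ 0) (hc : c ≠ 0)
    (hη : s = 1 ∨ (s = 2 ∧ η ^ p ≠ η ∧ η ^ p ^ 2 = η)) (X : AddSubgroup (k →+ κ))
    (hX : ∀ α ∈ X, (∀ a, α (η * a) = b * α a) ∧ ∀ a, α (θ * a) = c * α a ^ p ^ s) :
    Finite X ∧ Nat.card X ≤ Nat.card k := by
  classical
  let _ : Algebra (ZMod p) k := ZMod.algebra k p
  have hp : p.Prime := Fact.out
  have hs : s ≠ 0 := by rcases hη with h | ⟨h, -⟩ <;> omega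
  have hq : 1 < p ^ s := Nat.one_lt_pow hs hp.one_lt
  -- the subfield generated by `η`
  let L := IntermediateField.adjoin (ZMod p) {η}
  have hLfin : Finite L := inferInstance
  have hint : IsIntegral (ZMod p) η := Algebra.IsIntegral.isIntegral η
  have hL : ∀ x : L, algebraMap L k x ∈ Algebra.adjoin (ZMod p) {η} := by
    intro x
    have h1 : (x : k) ∈ L.toSubalgebra := x.2
    have h2 : L.toSubalgebra = Algebra.adjoin (ZMod p) {η} :=
      IntermediateField.adjoin_simple_toSubalgebra_of_isAlgebraic hint.isAlgebraic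
    rw [h2] at h1
    exact h1
  have hcardL : p ^ s ≤ Nat.card L := by
    have h1 : Nat.card L = p ^ Module.finrank (ZMod p) L := by
      rw [Module.natCard_eq_pow_finrank (K := ZMod p) (V := L), Nat.card_zmod]
    rw [h1]
    refine Nat.pow_le_pow_right hp.pos ?_
    have h2 : 0 < Module.finrank (ZMod p) L := Module.finrank_pos
    rcases hη with h | ⟨h, h', -⟩
    · omega
    · by_contra h3
      have h4 : Module.finrank (ZMod p) L = 1 := by omega
      rw [IntermediateField.finrank_eq_one_iff] at h4
      have h5 : η ∈ L := IntermediateField.mem_adjoin_simple_self _ _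
      rw [h4, IntermediateField.mem_bot] at h5
      obtain ⟨y, rfl⟩ := h5
      exact h' (by rw [← map_pow, ZMod.pow_card])
  -- a basis of `k` over `L`
  let v : Module.Basis (Fin (Module.finrank L k)) L k := Module.finBasis L k
  have hcardk : Nat.card k = Nat.card L ^ Module.finrank L k := Module.natCard_eq_pow_finrank
  let ev : semiSpace η b →ₗ[κ] (Fin (Module.finrank L k) → κ) :=
    { toFun := fun f i => f.1 (v i)
      map_add' := fun f g => rfl
      map_smul' := fun c f => rfl }
  have hev : Function.Injective ev := by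
    rw [injective_iff_map_eq_zero]
    intro f hf
    exact Subtype.ext (semiSpace_eq_zero f.2 hL v (fun i => congrFun hf i))
  -- the functions of `X`
  let Y : Set (k → κ) := (fun α : k →+ κ => (α : k → κ)) '' (X : Set (k →+ κ))
  have hYW : Y ⊆ (semiSpace η b : Set (k → κ)) := by
    rintro _ ⟨α, hα, rfl⟩
    exact ⟨fun a a' => map_add α a a', (hX α hα).1⟩
  obtain ⟨B, hBY, hspan, hli⟩ := exists_linearIndependent κ Y
  -- the vectors of `B` in `semiSpace`
  let u : B → semiSpace η b := fun x => ⟨x.1, hYW (hBY x.2)⟩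
  have hu : LinearIndependent κ u := by
    refine LinearIndependent.of_comp (semiSpace η b).subtype ?_
    exact hli
  have hu2 : LinearIndependent κ (fun x : B => ev (u x)) :=
    hu.map' ev (LinearMap.ker_eq_bot.mpr hev)
  have hBfin : Finite B := by
    have := hu2.cardinalMk_le_finrank
    exact Cardinal.lt_aleph0_iff_finite.mp (this.trans_lt (Cardinal.natCast_lt_aleph0))
  have : Fintype B := Fintype.ofFinite B
  have hBcard : Fintype.card B ≤ Module.finrank L k := by
    have := hu2.fintype_card_le_finrank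
    rwa [Module.finrank_fin_fun] at this
  -- the coordinates of the elements of `X`
  have hcoord : ∀ α ∈ X, ∃ l : B → {x : κ // x ^ p ^ s = x}, (α : k → κ) = ∑ β : B, (l β).1 • β.1 := by
    intro α hα
    have h1 : (α : k → κ) ∈ Submodule.span κ B := by
      rw [hspan]
      exact Submodule.subset_span ⟨α, hα, rfl⟩
    have h1' : (α : k → κ) ∈ Submodule.span κ (Set.range (Subtype.val : B → k → κ)) := by
      rwa [Subtype.range_coe]
    rw [Submodule.mem_span_range_iff_exists_fun] at h1'
    obtain ⟨l, hl⟩ := h1'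
    have hsl : ∀ β : B, ∀ a, β.1 (θ * a) = c * β.1 a ^ p ^ s := by
      intro β a
      obtain ⟨γ, hγ, h⟩ := hBY β.2
      rw [← h]
      exact (hX γ hγ).2 a
    have hval : ∀ a, α a = ∑ β : B, l β * β.1 a := by
      intro a
      rw [← congrFun hl a, Finset.sum_apply]
      rfl
    have h2 : ∑ β : B, (l β - l β ^ p ^ s) • β.1 = 0 := by
      funext x
      obtain ⟨a, rfl⟩ : ∃ a, θ * a = x := ⟨θ⁻¹ * x, by field_simp⟩
      rw [Finset.sum_apply]
      have h3 : α (θ * a) = c * α a ^ p ^ s := (hX α hα).2 a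
      rw [hval (θ * a), hval a, sum_pow_char_pow, Finset.mul_sum] at h3
      have h4 : ∀ β : B, ((l β - l β ^ p ^ s) • β.1) (θ * a) =
          l β * β.1 (θ * a) - c * (l β * β.1 a) ^ p ^ s := by
        intro β
        rw [Pi.smul_apply, smul_eq_mul, sub_mul, hsl β a, mul_pow]
        ring
      rw [Finset.sum_congr rfl (fun β _ => h4 β), Finset.sum_sub_distrib, h3, sub_self]
      rfl
    have h5 : ∀ β : B, l β - l β ^ p ^ s = 0 := by
      intro β
      exact (linearIndependent_iff'.mp hli) Finset.univ (fun β => l β - l β ^ p ^ s) h2 β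
        (Finset.mem_univ β)
    exact ⟨fun β => ⟨l β, (sub_eq_zero.mp (h5 β)).symm⟩, hl.symm⟩
  have : Nonempty (B → {x : κ // x ^ p ^ s = x}) :=
    ⟨fun _ => ⟨0, zero_pow (by omega)⟩⟩
  choose! l hl using hcoord
  let F : X → (B → {x : κ // x ^ p ^ s = x}) := fun α => l α.1
  have hF : Function.Injective F := by
    rintro ⟨α, hα⟩ ⟨β, hβ⟩ h
    apply Subtype.ext
    apply DFunLike.coe_injective
    show (α : k → κ) = β
    rw [hl α hα, hl β hβ, show l α = l β from h]
  obtain ⟨hfin, hcard⟩ := card_pow_eq_self_le (κ := κ) hq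
  refine ⟨Finite.of_injective F hF, (Nat.card_le_card_of_injective F hF).trans ?_⟩
  rw [Nat.card_fun, Nat.card_eq_fintype_card (α := B), hcardk]
  calc Nat.card {x : κ // x ^ p ^ s = x} ^ Fintype.card B
      ≤ (p ^ s) ^ Fintype.card B := Nat.pow_le_pow_left hcard _
    _ ≤ (p ^ s) ^ Module.finrank L k := Nat.pow_le_pow_right (by omega) hBcard
    _ ≤ Nat.card L ^ Module.finrank L k := Nat.pow_le_pow_left hcardL _

end Fermat.Agent.FlatP
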