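import Fermat.Agent.FlatP.CountKummer
import Fermat.Agent.FlatP.CountSL

/-!
# Families of Kummer relations indexed by a finite field
-/

set_option autoImplicit false

namespace Fermat.Agent.FlatP

open Fermat.Agent.FlatGS Fermat.Agent.MazurMult FermatAgent.ECVal

/-- counting via a relation with semilinear maps -/
theorem card_le_of_rel {V k κ : Type} [AddCommGroup V] [Field k] [Finite k] [Field κ] {p : ℕ}
    [Fact p.Prime] [CharP k p] [CharP κ p] {s : ℕ} {η θ : k} {b c₀ : κ} (hθ : θ ≠ 0) (hc : c₀ ≠ 0)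
    (hη : s = 1 ∨ (s = 2 ∧ η ^ p ≠ η ∧ η ^ p ^ 2 = η)) (X : AddSubgroup V)
    (P : V → (k → κ) → Prop) (hex : ∀ c ∈ X, ∃ L, P c L)
    (huniq : ∀ c ∈ X, ∀ L L', P c L → P c L' → L = L')
    (hadd : ∀ c ∈ X, ∀ L, P c L → ∀ a a', L (a + a') = L a + L a')
    (hadd' : ∀ c ∈ X, ∀ c' ∈ X, ∀ L L', P c L → P c' L' → P (c + c') (L + L'))
    (hzero : ∀ c ∈ X, P c 0 → c = 0)
    (hsl : ∀ c ∈ X, ∀ L, P c L → (∀ a, L (η * a) = b * L a) ∧
      ∀ a, L (θ * a) = c₀ * L a ^ p ^ s) : Finite X ∧ Nat.card X ≤ Nat.card k := by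
  classical
  choose! L hL using hex
  let F : X →+ (k →+ κ) := AddMonoidHom.mk'
    (fun c => AddMonoidHom.mk' (L c.1) (hadd c.1 c.2 _ (hL c.1 c.2)))
    (by
      rintro ⟨c, hc⟩ ⟨c', hc'⟩
      have h1 : L (c + c') = L c + L c' :=
        huniq _ (X.add_mem hc hc') _ _ (hL _ (X.add_mem hc hc'))
          (hadd' c hc c' hc' _ _ (hL c hc) (hL c' hc'))
      ext a
      exact congrFun h1 a)
  have hF : Function.Injective F := by
    rw [injective_iff_map_eq_zero]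
    rintro ⟨c, hc⟩ h
    have h1 : L c = 0 := by
      funext a
      exact DFunLike.congr_fun h a
    have h2 := hL c hc
    rw [h1] at h2
    exact Subtype.ext (hzero c hc h2)
  obtain ⟨hfin, hcard⟩ := card_semilinear_le (s := s) (η := η) (θ := θ) (b := b) (c := c₀) hθ hc hη
    F.range (by
      rintro _ ⟨⟨c, hc⟩, rfl⟩
      exact hsl c hc _ (hL c hc))
  let e : X ≃ F.range := (AddMonoidHom.ofInjective hF).toEquiv
  have : Finite X := Finite.of_equiv _ e.symm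
  exact ⟨this, (Nat.card_congr e).le.trans hcard⟩

variable {k : Type} [Field k] {p : ℕ} {A : ValuationSubring Om} {M J : Subgroup GQ} {π : Om}
  {i : ℕ}

/-- `f` is described at level `i` by `L : k → κ`. -/
def FRel (χ₀ : AddChar k Om) (p : ℕ) (A : ValuationSubring Om) (M J : Subgroup GQ) (π : Om)
    (i : ℕ) (f : GQ → k) (L : k → IsLocalRing.ResidueField A) : Prop :=
  ∀ a : k, Rel p A M J π i (fun g => χ₀ (a * f g)) (L a)

/-- uniqueness at level `i` -/
def Uniq (p : ℕ) (A : ValuationSubring Om) (M J : Subgroup GQ) (π : Om) (i : ℕ) : Prop :=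
  ∀ (μ : GQ → Om) (b : IsLocalRing.ResidueField A), (∀ g ∈ J, μ g = 1) →
    Rel p A M J π i μ b → b = 0

variable {χ₀ : AddChar k Om} {f f' : GQ → k} {L L' : k → IsLocalRing.ResidueField A}

lemma FRel.congr (h : FRel χ₀ p A M J π i f L) (hf : ∀ g ∈ J, f g = f' g) :
    FRel χ₀ p A M J π i f' L := fun a =>
  (h a).congr (fun g hg => by rw [hf g hg]) rfl

variable (hp : p.Prime) (hA : A.LiesOverPrime p)

include hp hA in
lemma Rel.unique {μ : GQ → Om} {b b' : IsLocalRing.ResidueField A} (hπ : π ∈ A)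
    (hπM : ∀ g ∈ M, g π = π) (hU : Uniq p A M J π i) (h : Rel p A M J π i μ b)
    (h' : Rel p A M J π i μ b') : b = b' := by
  have hμ : ∀ g ∈ J, μ g ≠ 0 := by
    obtain ⟨z, β, hβ, h1, h2, h3, h4⟩ := h
    intro g hg h0
    have hz0 : z ≠ 0 := by
      rintro rfl
      rw [zero_pow hp.ne_zero] at h3
      exact (is_one_add_term (i := i) hp hA hπ hβ).1 h3.symm
    have h5 := h4 g hg
    rw [h0, zero_mul, map_eq_zero] at h5
    exact hz0 h5
  have h1 := h.mul hp hA hπ hπM (h'.inv hp hA hπ hπM)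
  have h2 := hU _ _ (fun g hg => mul_inv_cancel₀ (hμ g hg)) h1
  rw [← sub_eq_add_neg, sub_eq_zero] at h2
  exact h2

include hp hA in
lemma FRel.unique (hπ : π ∈ A) (hπM : ∀ g ∈ M, g π = π) (hU : Uniq p A M J π i)
    (h : FRel χ₀ p A M J π i f L) (h' : FRel χ₀ p A M J π i f L') : L = L' := by
  funext a
  exact Rel.unique hp hA hπ hπM hU (h a) (h' a)

include hp hA in
lemma FRel.map_add (hπ : π ∈ A) (hπM : ∀ g ∈ M, g π = π) (hU : Uniq p A M J π i)
    (h : FRel χ₀ p A M J π i f L) (a a' : k) : L (a + a') = L a + L a' := by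
  refine Rel.unique hp hA hπ hπM hU (h (a + a')) ?_
  refine ((h a).mul hp hA hπ hπM (h a')).congr (fun g _ => ?_) rfl
  rw [← AddChar.map_add_eq_mul, add_mul]

include hp hA in
lemma FRel.add (hπ : π ∈ A) (hπM : ∀ g ∈ M, g π = π)
    (h : FRel χ₀ p A M J π i f L) (h' : FRel χ₀ p A M J π i f' L') :
    FRel χ₀ p A M J π i (f + f') (L + L') := by
  intro a
  refine ((h a).mul hp hA hπ hπM (h' a)).congr (fun g _ => ?_) rfl
  rw [← AddChar.map_add_eq_mul, ← mul_add, Pi.add_apply]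

lemma FRel.step (hS : ∀ (μ : GQ → Om) (b : IsLocalRing.ResidueField A),
      Rel p A M J π i μ b → ∃ b, Rel p A M J π (i + 1) μ b)
    (h : FRel χ₀ p A M J π i f L) : ∃ L', FRel χ₀ p A M J π (i + 1) f L' := by
  choose L' hL' using fun a => hS _ _ (h a)
  exact ⟨L', hL'⟩

lemma FRel.step_zero (hS : ∀ (μ : GQ → Om), Rel p A M J π i μ 0 → ∃ b, Rel p A M J π (i + 1) μ b)
    (h : FRel χ₀ p A M J π i f 0) : ∃ L', FRel χ₀ p A M J π (i + 1) f L' := by
  choose L' hL' using fun a => hS _ (h a)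
  exact ⟨L', hL'⟩

include hp hA in
/-- Galois action. -/
lemma FRel.conj {h : GQ} {s : IsLocalRing.ResidueField A → IsLocalRing.ResidueField A}
    (hπ : π ∈ A) (hπM : ∀ g ∈ M, g π = π) (hU : Uniq p A M J π i)
    (hh : ActsAs A h s) (hM : ∀ g ∈ M, h⁻¹ * g * h ∈ M) (hJ : ∀ g ∈ J, h⁻¹ * g * h ∈ J) {u : Om}
    (hu : h π = u * π) (huA : u ∈ A) (huM : ∀ g ∈ M, g u = u) {n ρ : k}
    (hn : ∀ x : k, h (χ₀ x) = χ₀ (n * x)) (hρ : ∀ g ∈ J, f (h⁻¹ * g * h) = ρ * f g)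
    (hr : FRel χ₀ p A M J π i f L) (a : k) :
    L (n * ρ * a) = IsLocalRing.residue A ⟨u, huA⟩ ^ i * s (L a) := by
  refine Rel.unique hp hA hπ hπM hU (hr _) ?_
  refine ((hr a).conj hh hM hJ hu huA huM).congr (fun g hg => ?_) rfl
  rw [hn, hρ g hg]
  congr 1
  ring

/-- triviality: if all characters are trivial, `f` is zero. -/
lemma FRel.eq_zero (hχ : χ₀ ≠ 1) (h : ∀ a : k, ∀ g ∈ J, χ₀ (a * f g) = 1) : ∀ g ∈ J, f g = 0 := by
  intro g hg
  by_contra hne
  apply hχ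
  ext x
  rw [AddChar.one_apply]
  have h1 := h (x / f g) g hg
  rwa [div_mul_cancel₀ _ hne] at h1

/-- the action of Galois on the values of a character -/
lemma exists_smul_char [CharP k p] (hp : p.Prime) (χ₀ : AddChar k Om) {ζ : Om}
    (hζ : IsPrimitiveRoot ζ p) (h : GQ) :
    ∃ n : ℕ, h ζ = ζ ^ n ∧ (n : k) ≠ 0 ∧ ∀ x : k, h (χ₀ x) = χ₀ ((n : k) * x) := by
  have : NeZero p := ⟨hp.ne_zero⟩
  have h1 : (h ζ) ^ p = 1 := by rw [← map_pow, hζ.pow_eq_one, map_one]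
  obtain ⟨n, hn, hn2⟩ := hζ.eq_pow_of_pow_eq_one h1
  have h2 : ∀ y : Om, y ^ p = 1 → h y = y ^ n := by
    intro y hy
    obtain ⟨j, -, rfl⟩ := hζ.eq_pow_of_pow_eq_one hy
    rw [map_pow, ← hn2, ← pow_mul, ← pow_mul, mul_comm]
  refine ⟨n, hn2.symm, ?_, ?_⟩
  · intro h0
    rw [CharP.cast_eq_zero_iff k p] at h0
    obtain ⟨m, rfl⟩ := h0
    rw [pow_mul, hζ.pow_eq_one, one_pow] at hn2
    have h3 : ζ = 1 := by
      apply h.injective
      rw [map_one, ← hn2]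
    exact hζ.ne_one hp.one_lt h3
  · intro x
    have h4 : (χ₀ x) ^ p = 1 := by
      rw [← AddChar.map_nsmul_eq_pow, nsmul_eq_mul, CharP.cast_eq_zero, zero_mul,
        AddChar.map_zero_eq_one]
    rw [h2 _ h4, ← AddChar.map_nsmul_eq_pow, nsmul_eq_mul]

lemma exists_addChar_ne_one_count (k : Type) [Field k] [Finite k] : ∃ χ₀ : AddChar k Om, χ₀ ≠ 1 := by
  obtain ⟨ψ, hψ⟩ := exists_addChar_ne (G := k) (x := 1) (y := 0) one_ne_zero
  refine ⟨ψ, ?_⟩
  rintro rfl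
  exact hψ rfl

lemma charP_residueField_count (hp : p.Prime) (hA : A.LiesOverPrime p) :
    CharP (IsLocalRing.ResidueField A) p := by
  have : Fact p.Prime := ⟨hp⟩
  have h1 : ((p : ℕ) : Om) ∈ A.nonunits := hA
  have h2 : ((p : ℕ) : IsLocalRing.ResidueField A) = 0 := by
    have hmem : ((p : ℕ) : Om) ∈ A := natCast_mem A p
    have h3 := (residue_eq_zero_iff' hmem).mpr h1
    rw [← h3, ← map_natCast (IsLocalRing.residue A)]
    rfl
  exact (CharP.charP_iff_prime_eq_zero hp).mpr h2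

end Fermat.Agent.FlatP
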