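import Fermat.Agent.FlatP.CountFam

/-!
# The tame extension generated by `π = p^{1/(p²-1)}`
-/

set_option autoImplicit false

namespace Fermat.Agent.FlatP

open Fermat.Agent.FlatGS Fermat.Agent.MazurMult FermatAgent.ECVal

/-- the weight lemma -/
lemma weight {k κ : Type} [Field k] [Field κ] {p : ℕ} [Fact p.Prime] [CharP k p]
    (ι : k →+* κ) {L : k → κ} (hadd : ∀ a a', L (a + a') = L a + L a') {u : k}
    (hu : u ^ p ^ 2 = u) {y : κ} (hL : ∀ a, L (u * a) = y * L a) {a : k} (ha : L a ≠ 0) :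
    y = ι u ∨ y = ι u ^ p := by
  have hL0 : L 0 = 0 := by
    have := hadd 0 0
    rw [add_zero] at this
    exact left_eq_add.mp this
  have hneg : ∀ a, L (-a) = -L a := by
    intro a
    have := hadd a (-a)
    rw [add_neg_cancel, hL0] at this
    exact (neg_eq_of_add_eq_zero_right this.symm).symm
  let N : Subfield k :=
    { carrier := {t | ∀ a, L (t * a) = ι t * L a}
      mul_mem' := fun {s t} hs ht a => by
        rw [mul_assoc, hs, ht, map_mul, mul_assoc]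
      one_mem' := fun a => by rw [one_mul, map_one, one_mul]
      add_mem' := fun {s t} hs ht a => by
        rw [add_mul, hadd, hs, ht, map_add, add_mul]
      zero_mem' := fun a => by rw [zero_mul, hL0, map_zero, zero_mul]
      neg_mem' := fun {t} ht a => by
        rw [neg_mul, hneg, ht, map_neg, neg_mul]
      inv_mem' := fun t ht a => by
        by_cases h0 : t = 0
        · rw [h0, inv_zero, zero_mul, hL0, map_zero, zero_mul]
        · have h1 := ht (t⁻¹ * a)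
          rw [mul_inv_cancel_left₀ h0] at h1
          rw [h1, map_inv₀, inv_mul_cancel_left₀ ((map_ne_zero ι).mpr h0)] }
  have hN : ∀ t : k, t ^ p = t → ∀ a, L (t * a) = ι t * L a := by
    intro t ht
    have h1 : t ∈ (⊥ : Subfield k) := (Subfield.mem_bot_iff_pow_eq_self k p).mpr ht
    exact (bot_le : (⊥ : Subfield k) ≤ N) h1
  have hup : (u ^ p) ^ p = u := by rw [← pow_mul, ← sq]; exact hu
  have ht : (u + u ^ p) ^ p = u + u ^ p := by
    rw [add_pow_char, hup, add_comm]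
  have hn : (u * u ^ p) ^ p = u * u ^ p := by
    rw [mul_pow, hup, mul_comm]
  have h1 : L (u * (u * a)) = y * (y * L a) := by rw [hL, hL]
  have h2 : u * (u * a) = (u + u ^ p) * (u * a) + -((u * u ^ p) * a) := by ring
  rw [h2, hadd, hneg, hN _ ht, hN _ hn, hL] at h1
  have h3 : (y - ι u) * (y - ι u ^ p) * L a = 0 := by
    rw [map_add, map_mul, map_pow] at h1
    linear_combination -h1
  rcases mul_eq_zero.mp ((mul_eq_zero.mp h3).resolve_right ha) with h | h
  · left; exact sub_eq_zero.mp h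
  · right; exact sub_eq_zero.mp h

/-- roots of unity of order prime to `p` congruent to `1` are equal to `1`. -/
lemma eq_one_of_sub_one_mem {p : ℕ} (hp : p.Prime) {A : ValuationSubring Om}
    (hA : A.LiesOverPrime p) {n : ℕ} (hn : ¬ p ∣ n) {z : Om} (hz : z ^ n = 1) (hzA : z ∈ A)
    (h1 : IsLocalRing.residue A ⟨z, hzA⟩ = 1) : z = 1 := by
  have hch := charP_residueField_count hp hA
  by_contra hne
  have h2 : ∑ i ∈ Finset.range n, z ^ i = 0 := by
    have h3 := mul_geom_sum z n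
    rw [hz, sub_self] at h3
    exact (mul_eq_zero.mp h3).resolve_left (sub_ne_zero.mpr hne)
  have h3 : ∑ i ∈ Finset.range n, (⟨z, hzA⟩ : A) ^ i = 0 := by
    apply Subtype.ext
    push_cast
    exact h2
  have h4 := congrArg (IsLocalRing.residue A) h3
  simp only [map_sum, map_pow, h1, one_pow, Finset.sum_const, Finset.card_range, nsmul_eq_mul,
    mul_one, map_zero] at h4
  rw [CharP.cast_eq_zero_iff (IsLocalRing.ResidueField A) p] at h4
  exact hn h4

section tame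

variable {p : ℕ} (hp : p.Prime) {A : ValuationSubring Om} (hA : A.LiesOverPrime p) {π : Om}

lemma two_le_sq_sub_one (hp : p.Prime) : 3 ≤ p ^ 2 - 1 := by
  have h1 := hp.two_le
  have h2 : 2 ^ 2 ≤ p ^ 2 := Nat.pow_le_pow_left h1 2
  omega

lemma cast_sq_sub_one (hp : p.Prime) : ((p ^ 2 - 1 : ℕ) : ℚ) = (p : ℚ) ^ 2 - 1 := by
  have h1 : 1 ≤ p ^ 2 := Nat.one_le_pow _ _ hp.pos
  push_cast [Nat.cast_sub h1]
  ring

lemma not_dvd_sq_sub_one (hp : p.Prime) : ¬ p ∣ p ^ 2 - 1 := by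
  intro h
  have h1 : 1 ≤ p ^ 2 := Nat.one_le_pow _ _ hp.pos
  have h2 : p ∣ p ^ 2 := dvd_pow_self p two_ne_zero
  have h3 := (Nat.dvd_sub_iff_right h1 h2).mp h
  exact hp.one_lt.ne' (Nat.dvd_one.mp h3)

include hp hA in
lemma val_pi (hπ : π ^ (p ^ 2 - 1) = (p : Om)) :
    (valOf hp hA).Is (1 / (p ^ 2 - 1 : ℕ)) π := by
  have h3 := two_le_sq_sub_one hp
  have hne : (p ^ 2 - 1 : ℕ) ≠ 0 := by omega
  have h0 : π ≠ 0 := by
    rintro rfl
    rw [zero_pow hne] at hπ
    exact (valOf_prime hp hA).1 hπ.symm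
  refine ⟨h0, ?_⟩
  have h1 := (QVal.Is.of_ne (w := valOf hp hA) h0).pow (p ^ 2 - 1)
  rw [hπ] at h1
  have h2 := h1.unique (valOf_prime hp hA)
  have h4 : ((p ^ 2 - 1 : ℕ) : ℚ) ≠ 0 := by exact_mod_cast hne
  rw [eq_div_iff h4, mul_comm]
  exact h2

include hp hA in
lemma pi_mem (hπ : π ^ (p ^ 2 - 1) = (p : Om)) : π ∈ A := by
  rw [← valOf_ge_zero_iff hp hA]
  exact (val_pi hp hA hπ).ge.mono (by positivity)

include hp hA in
/-- the orbit of `π` under inertia has `p ^ 2 - 1` elements. -/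
lemma index_pi (hπ : π ^ (p ^ 2 - 1) = (p : Om)) :
    (MulAction.stabilizer (A.inertiaSubgroupIn ℚ) π).index = p ^ 2 - 1 ∧
    MulAction.orbit (A.inertiaSubgroupIn ℚ) π =
      ((Polynomial.nthRoots (p ^ 2 - 1) (p : Om)).toFinset : Set Om) := by
  classical
  have h3 := two_le_sq_sub_one hp
  have hpos : 0 < p ^ 2 - 1 := by omega
  have hfi := finiteIndex_stabilizer (A.inertiaSubgroupIn ℚ) π
  have h1 : MulAction.orbit (A.inertiaSubgroupIn ℚ) π ⊆
      ((Polynomial.nthRoots (p ^ 2 - 1) (p : Om)).toFinset : Set Om) := by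
    rintro _ ⟨g, rfl⟩
    rw [Finset.mem_coe, Multiset.mem_toFinset, Polynomial.mem_nthRoots hpos]
    change (g.1 π) ^ (p ^ 2 - 1) = _
    rw [← map_pow, hπ, map_natCast]
  have hle : (Polynomial.nthRoots (p ^ 2 - 1) (p : Om)).toFinset.card ≤ p ^ 2 - 1 :=
    (Multiset.toFinset_card_le _).trans (Polynomial.card_nthRoots _ _)
  have h2 := Set.ncard_le_ncard h1 (Finset.finite_toSet _)
  rw [Set.ncard_coe_finset] at h2
  have hidx : (MulAction.stabilizer (A.inertiaSubgroupIn ℚ) π).index =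
      (MulAction.orbit (A.inertiaSubgroupIn ℚ) π).ncard := MulAction.index_stabilizer _ _
  have hval := val_pi hp hA hπ
  obtain ⟨m, hm⟩ := (localData hp hA).exists_val_eq hfi (y := π) (fun g hg => hg) hval.1
  rw [hval.2] at hm
  have hd0 : 0 < (MulAction.stabilizer (A.inertiaSubgroupIn ℚ) π).index :=
    Nat.pos_of_ne_zero hfi.index_ne_zero
  have hd0' : ((MulAction.stabilizer (A.inertiaSubgroupIn ℚ) π).index : ℚ) ≠ 0 := by
    exact_mod_cast hd0.ne'
  have hne' : ((p ^ 2 - 1 : ℕ) : ℚ) ≠ 0 := by exact_mod_cast hpos.ne'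
  rw [div_eq_div_iff hne' hd0', one_mul] at hm
  have hm' : ((MulAction.stabilizer (A.inertiaSubgroupIn ℚ) π).index : ℤ) =
      m * (p ^ 2 - 1 : ℕ) := by exact_mod_cast hm
  have hge : p ^ 2 - 1 ≤ (MulAction.stabilizer (A.inertiaSubgroupIn ℚ) π).index := by
    refine Nat.le_of_dvd hd0 ?_
    rw [← Int.natCast_dvd_natCast, hm']
    exact dvd_mul_left _ _
  have heq : (MulAction.stabilizer (A.inertiaSubgroupIn ℚ) π).index = p ^ 2 - 1 := by
    rw [hidx] at hge ⊢
    omega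
  refine ⟨heq, ?_⟩
  apply Set.eq_of_subset_of_ncard_le h1
  rw [Set.ncard_coe_finset, ← hidx, heq]
  exact hle

include hp hA in
/-- inertia acts transitively on the conjugates of `π`. -/
lemma exists_inertia_smul (hπ : π ^ (p ^ 2 - 1) = (p : Om)) {ξ : Om}
    (hξ : ξ ^ (p ^ 2 - 1) = 1) : ∃ g ∈ A.inertiaSubgroupIn ℚ, g π = ξ * π := by
  classical
  have h3 := two_le_sq_sub_one hp
  have hpos : 0 < p ^ 2 - 1 := by omega
  obtain ⟨-, h⟩ := index_pi hp hA hπ
  have h1 : ξ * π ∈ ((Polynomial.nthRoots (p ^ 2 - 1) (p : Om)).toFinset : Set Om) := by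
    rw [Finset.mem_coe, Multiset.mem_toFinset, Polynomial.mem_nthRoots hpos, mul_pow, hξ, hπ,
      one_mul]
  rw [← h] at h1
  obtain ⟨g, hg⟩ := h1
  exact ⟨g.1, g.2, hg⟩

include hp hA in
lemma div_pi (hπ : π ^ (p ^ 2 - 1) = (p : Om)) (h : GQ) :
    h π = h π / π * π ∧ (h π / π) ^ (p ^ 2 - 1) = 1 := by
  have h0 := (val_pi hp hA hπ).1
  refine ⟨(div_mul_cancel₀ _ h0).symm, ?_⟩
  rw [div_pow, ← map_pow, hπ, map_natCast, div_self (valOf_prime hp hA).1]

lemma div_pi_mem (hp : p.Prime) (hπ : π ^ (p ^ 2 - 1) = (p : Om)) (hA : A.LiesOverPrime p)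
    (h : GQ) : h π / π ∈ A :=
  pow_mem_of_pow_eq_one (by have := two_le_sq_sub_one hp; omega) (div_pi hp hA hπ h).2

/-- the values of the field fixed by the stabiliser of `π`. -/
lemma exists_val_of_fixed (hπ : π ^ (p ^ 2 - 1) = (p : Om)) {y : Om} (hy0 : y ≠ 0)
    (hy : ∀ g ∈ A.inertiaSubgroupIn ℚ ⊓ MulAction.stabilizer GQ π, g y = y) :
    ∃ m : ℤ, (valOf hp hA).val y = m / (p ^ 2 - 1 : ℕ) := by
  have h1 := (localData hp hA).exists_val_eq
    (J := MulAction.stabilizer (A.inertiaSubgroupIn ℚ) π) (finiteIndex_stabilizer _ π)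
    (y := y) (fun g hg => hy g.1 ⟨g.2, hg⟩) hy0
  rwa [(index_pi hp hA hπ).1] at h1

include hp hA in
/-- conjugation by the decomposition group preserves the stabiliser. -/
lemma conj_mem_stab (hπ : π ^ (p ^ 2 - 1) = (p : Om)) {h : GQ}
    (hh : h ∈ A.decompositionSubgroup ℚ) {g : GQ}
    (hg : g ∈ A.inertiaSubgroupIn ℚ ⊓ MulAction.stabilizer GQ π) :
    h⁻¹ * g * h ∈ A.inertiaSubgroupIn ℚ ⊓ MulAction.stabilizer GQ π := by
  refine ⟨TW.conj_mem_inertia_of_decomp hh hg.1, ?_⟩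
  change h⁻¹ (g (h π)) = π
  obtain ⟨h1, h2⟩ := div_pi hp hA hπ h
  have h3 := two_le_sq_sub_one hp
  have h4 : g (h π / π) = h π / π :=
    LocE.isFixed_of_pow_eq_one hp hA (by omega) (not_dvd_sq_sub_one hp) h2 g hg.1
  have h5 : g π = π := hg.2
  rw [h1, map_mul, h4, h5, ← h1]
  exact AlgEquiv.symm_apply_apply h π

include hp hA in
/-- all residues occur at level `1` with trivial character. -/
lemma rel_one_of_residue (hπ : π ^ (p ^ 2 - 1) = (p : Om)) {M J : Subgroup GQ}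
    (hM : ∀ g ∈ M, g ∈ A.inertiaSubgroupIn ℚ ∧ g π = π) (hJM : J ≤ M)
    (b : IsLocalRing.ResidueField A) : Rel p A M J π 1 (fun _ => 1) b := by
  have hch := charP_residueField_count hp hA
  have : Fact p.Prime := ⟨hp⟩
  have h3 := two_le_sq_sub_one hp
  obtain ⟨⟨β, hβ⟩, rfl⟩ := IsLocalRing.residue_surjective b
  obtain ⟨β₀, hβ₀⟩ := IsAlgClosed.exists_pow_nat_eq β hp.pos
  have hβ₀A : β₀ ∈ A := by
    rw [← valOf_ge_zero_iff hp hA]
    by_contra hcon
    rw [QVal.not_ge_iff] at hcon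
    have h4 := ((QVal.Is.of_ne (w := valOf hp hA) hcon.1).pow p).le_of_ge
      (hβ₀ ▸ (valOf_ge_zero_iff hp hA).mpr hβ)
    have h5 : (0 : ℚ) < p := by exact_mod_cast hp.pos
    nlinarith [hcon.2]
  obtain ⟨γ, hγA, hγ, hβγ⟩ := LocE.exists_fixed_sub_mem_nonunits hp hA hβ₀A
  have hπA := pi_mem hp hA hπ
  set u : Om := γ * π ^ p with hu
  have hu0 : (valOf hp hA).Ge 0 u := by
    rw [valOf_ge_zero_iff]
    exact A.mul_mem _ _ hγA (A.toSubring.pow_mem hπA p)
  obtain ⟨s, hs, hs2⟩ := one_add_pow_prime hp hu0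
  have hsA : s ∈ A := (valOf_ge_zero_iff hp hA).mp hs
  have hπ0 := (val_pi hp hA hπ).1
  have hp0 : (p : Om) ≠ 0 := (valOf_prime hp hA).1
  have hπp2 : (π ^ p) ^ p = p * π := by
    rw [← pow_mul, ← sq, show p ^ 2 = (p ^ 2 - 1) + 1 from by omega, pow_succ, hπ]
  have hπp : π ^ p = π * π ^ (p - 1) := by
    rw [← pow_succ', Nat.sub_add_cancel hp.one_lt.le]
  have hz : (1 + u) ^ p = 1 + p * π ^ 1 * (γ ^ p + γ * π ^ (p - 1) * s) := by
    rw [hs2, hu, mul_pow, hπp2, hπp]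
    ring
  have hb' : γ ^ p + γ * π ^ (p - 1) * s ∈ A :=
    A.add_mem _ _ (A.toSubring.pow_mem hγA p)
      (A.mul_mem _ _ (A.mul_mem _ _ hγA (A.toSubring.pow_mem hπA (p - 1))) hsA)
  refine ⟨1 + u, γ ^ p + γ * π ^ (p - 1) * s, hb', ?_, ?_, hz, ?_⟩
  · intro g hg
    obtain ⟨hgI, hgπ⟩ := hM g hg
    have h4 : g ((1 + u) ^ p) = (1 + u) ^ p := by
      rw [map_pow, map_add, map_one, hu, map_mul, map_pow, hγ g hgI, hgπ]
    rw [hz, map_add, map_one, map_mul, map_mul, map_natCast, map_pow, hgπ] at h4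
    exact mul_left_cancel₀ (mul_ne_zero hp0 (pow_ne_zero 1 hπ0)) (add_left_cancel h4)
  · have h4 : IsLocalRing.residue A ⟨γ ^ p + γ * π ^ (p - 1) * s, hb'⟩ =
        IsLocalRing.residue A ⟨γ ^ p, A.toSubring.pow_mem hγA p⟩ := by
      rw [residue_eq_iff, add_sub_cancel_left, ← valOf_gt_zero_iff hp hA]
      have h5 : (valOf hp hA).Gt 0 (π ^ (p - 1)) := by
        refine ((val_pi hp hA hπ).pow (p - 1)).gt ?_
        have h6 : (0 : ℚ) < ((p - 1 : ℕ) : ℚ) := by
          have := hp.one_lt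
          exact_mod_cast (by omega : 0 < p - 1)
        have h7 : (0 : ℚ) < ((p ^ 2 - 1 : ℕ) : ℚ) := by
          exact_mod_cast (by omega : 0 < p ^ 2 - 1)
        positivity
      have h6 := (((valOf_ge_zero_iff hp hA).mpr hγA).mul_gt h5).mul_ge hs
      rwa [add_zero, add_zero] at h6
    rw [h4]
    have h5 : IsLocalRing.residue A ⟨β₀, hβ₀A⟩ = IsLocalRing.residue A ⟨γ, hγA⟩ :=
      (residue_eq_iff _ _).mpr hβγ
    have h6 : IsLocalRing.residue A ⟨γ ^ p, A.toSubring.pow_mem hγA p⟩ =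
        (IsLocalRing.residue A ⟨γ, hγA⟩) ^ p := by rw [← map_pow]; rfl
    rw [h6, ← h5, ← map_pow]
    congr 1
    exact Subtype.ext hβ₀
  · intro g hg
    obtain ⟨hgI, hgπ⟩ := hM g (hJM hg)
    rw [one_mul, map_add, map_one, hu, map_mul, map_pow, hγ g hgI, hgπ]

end tame

end Fermat.Agent.FlatP
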