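import Fermat.Agent.FlatP.Local

/-!
# The universal derivation of a totally ramified extension

`O = K^J ∩ (w ≥ 0)` is `A₀[β]`, and `β ↦ β + ε` defines a ring homomorphism
`O → (𝒪_K / P'(β))[ε]`, where `P` is the minimal polynomial of `β` over `K^G`.
-/

set_option autoImplicit false

namespace Fermat.Agent.FlatP

open FermatAgent.ECVal Polynomial

section rings

variable {K : Type*} [Field K]

/-- the valuation ring -/
def intRing (w : QVal K) : Subring K where
  carrier := {x | w.Ge 0 x}
  mul_mem' := fun {a b} ha hb => (QVal.Ge.mul ha hb).mono (by norm_num)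
  one_mem' := QVal.is_one.ge
  add_mem' := fun ha hb => QVal.Ge.add ha hb
  zero_mem' := QVal.ge_zero _
  neg_mem' := fun ha => QVal.Ge.neg ha

@[simp] lemma mem_intRing {w : QVal K} {x : K} : x ∈ intRing w ↔ w.Ge 0 x := Iff.rfl

variable {G : Type*} [Group G] [MulSemiringAction G K]

/-- the integers fixed by `J` -/
def fixRing (w : QVal K) (J : Subgroup G) : Subring K where
  carrier := {x | w.Ge 0 x ∧ ∀ g ∈ J, g • x = x}
  mul_mem' := fun {a b} ha hb => ⟨(QVal.Ge.mul ha.1 hb.1).mono (by norm_num), fun g hg => by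
    rw [smul_mul', ha.2 g hg, hb.2 g hg]⟩
  one_mem' := ⟨QVal.is_one.ge, fun g _ => smul_one g⟩
  add_mem' := fun ha hb => ⟨QVal.Ge.add ha.1 hb.1, fun g hg => by
    rw [smul_add, ha.2 g hg, hb.2 g hg]⟩
  zero_mem' := ⟨QVal.ge_zero _, fun g _ => smul_zero g⟩
  neg_mem' := fun ha => ⟨QVal.Ge.neg ha.1, fun g hg => by rw [smul_neg, ha.2 g hg]⟩

@[simp] lemma mem_fixRing {w : QVal K} {J : Subgroup G} {x : K} :
    x ∈ fixRing w J ↔ w.Ge 0 x ∧ ∀ g ∈ J, g • x = x := Iff.rfl

lemma fixRing_mono {w : QVal K} {J J' : Subgroup G} (h : J ≤ J') :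
    fixRing w J' ≤ fixRing w J := fun _ hx => ⟨hx.1, fun g hg => hx.2 g (h hg)⟩

lemma fixRing_le_intRing (w : QVal K) (J : Subgroup G) : fixRing w J ≤ intRing w :=
  fun _ hx => hx.1

/-- elements of value `≥ M` form an ideal of the valuation ring (for any `M`, intersected
with the ring). -/
def valIdeal (w : QVal K) (M : ℚ) : Ideal (intRing w) where
  carrier := {x | w.Ge M (x : K)}
  add_mem' := fun ha hb => QVal.Ge.add ha hb
  zero_mem' := QVal.ge_zero _
  smul_mem' := fun c x hx => by
    have : w.Ge (0 + M) ((c : K) * (x : K)) := QVal.Ge.mul c.2 hx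
    rw [zero_add] at this
    exact this

@[simp] lemma mem_valIdeal {w : QVal K} {M : ℚ} {x : intRing w} :
    x ∈ valIdeal w M ↔ w.Ge M (x : K) := Iff.rfl

end rings

namespace LocalData

variable {K G : Type*} [Field K] [Group G] [MulSemiringAction G K] {w : QVal K} {p : ℕ}

lemma val_mul_pow_dist (h : LocalData K G w p) {n : ℕ} (hn : 0 < n) {β : K} (hv : w.Is (1 / n) β)
    {c : ℕ → K} (hc : ∀ (g : G) (i : ℕ), g • c i = c i) :
    ∀ i ∈ Finset.range n, ∀ j ∈ Finset.range n, c i * β ^ i ≠ 0 → c j * β ^ j ≠ 0 →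
      w.val (c i * β ^ i) = w.val (c j * β ^ j) → i = j := by
  intro i hi j hj hi0 hj0 hij
  have hn' : (n : ℚ) ≠ 0 := by exact_mod_cast hn.ne'
  have hci : c i ≠ 0 := left_ne_zero_of_mul hi0
  have hcj : c j ≠ 0 := left_ne_zero_of_mul hj0
  obtain ⟨a, ha⟩ := h.int (c i) hci (fun g => hc g i)
  obtain ⟨b, hb⟩ := h.int (c j) hcj (fun g => hc g j)
  rw [((QVal.Is.of_ne hci).mul (hv.pow i)).2, ((QVal.Is.of_ne hcj).mul (hv.pow j)).2, ha, hb] at hij
  have h1 : (n : ℚ) * a + i = n * b + j := by
    field_simp at hij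
    linarith
  have h2 : (n : ℤ) * a + i = n * b + j := by exact_mod_cast h1
  have hi' : (i : ℤ) < n := by exact_mod_cast Finset.mem_range.mp hi
  have hj' : (j : ℤ) < n := by exact_mod_cast Finset.mem_range.mp hj
  have h3 : (n : ℤ) * (a - b) = j - i := by linarith
  have h4 : a - b = 0 := by
    by_contra hne
    have : (1 : ℤ) ≤ |a - b| := Int.one_le_abs hne
    have h5 : |(n : ℤ) * (a - b)| = n * |a - b| := by
      rw [abs_mul, abs_of_nonneg (by positivity)]
    have h6 : |(j : ℤ) - i| < n := by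
      rw [abs_lt]; constructor <;> omega
    rw [h3] at h5
    nlinarith
  rw [h4, mul_zero] at h3
  omega

/-- integral power basis -/
theorem exists_coeffs (h : LocalData K G w p) {J : Subgroup G} (hJ : J.FiniteIndex) {β : K}
    (hβ : ∀ g ∈ J, g • β = β) (hv : w.Is (1 / J.index) β) {y : K} (hy : y ∈ fixRing w J) :
    ∃ c : ℕ → K, (∀ i, c i ∈ fixRing w (⊤ : Subgroup G)) ∧
      y = ∑ i ∈ Finset.range J.index, c i * β ^ i := by
  obtain ⟨f, hdeg, hfix, heval⟩ := h.exists_poly hJ hβ hv hy.2
  have hn0 : 0 < J.index := Nat.pos_of_ne_zero hJ.index_ne_zero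
  have hn' : (0 : ℚ) < J.index := by exact_mod_cast hn0
  have hsum : y = ∑ i ∈ Finset.range J.index, f.coeff i * β ^ i := by
    rw [← heval, eval_eq_sum_range' (n := J.index)]
    by_cases hf : f = 0
    · rw [hf, natDegree_zero]; exact hn0
    · rw [← natDegree_lt_iff_degree_lt hf] at hdeg
      exact hdeg
  have hge := ge_of_ge_sum (w := w) (r := 0) (h.val_mul_pow_dist hn0 hv hfix) (hsum ▸ hy.1)
  refine ⟨fun i => f.coeff i, fun i => ⟨?_, fun g _ => hfix g i⟩, hsum⟩
  by_cases hi : i < J.index
  swap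
  · have : f.coeff i = 0 := coeff_eq_zero_of_degree_lt (lt_of_lt_of_le hdeg
      (by exact_mod_cast not_lt.mp hi))
    simp only [this]
    exact QVal.ge_zero _
  have h1 := hge i (Finset.mem_range.mpr hi)
  by_cases h0 : f.coeff i = 0
  · left; exact h0
  right
  obtain ⟨a, ha⟩ := h.int _ h0 (fun g => hfix g i)
  have h2 := ((QVal.Is.of_ne h0).mul (hv.pow i)).le_of_ge h1
  rw [ha] at h2 ⊢
  have h3 : (i : ℚ) < J.index := by exact_mod_cast hi
  have h4 : (i : ℚ) * (1 / J.index) < 1 := by
    rw [mul_one_div, div_lt_one hn']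
    exact h3
  have h5 : (-1 : ℚ) < a := by linarith
  have h6 : (-1 : ℤ) < a := by exact_mod_cast h5
  have h7 : (0 : ℤ) ≤ a := by omega
  exact_mod_cast h7

/-- The value of the derivative of the minimal polynomial: `∏_{q ≠ 1} (β - q β)`. -/
noncomputable def dif (J : Subgroup G) [Fintype (G ⧸ J)] (β : K) (hβ : ∀ g ∈ J, g • β = β) : K :=
  open scoped Classical in
  ∏ q ∈ Finset.univ.erase ((1 : G) : G ⧸ J), (β - conj J β hβ q)

lemma conj_injective (h : LocalData K G w p) {J : Subgroup G} (hJ : J.FiniteIndex) {β : K}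
    (hβ : ∀ g ∈ J, g • β = β) (hv : w.Is (1 / J.index) β) : Function.Injective (conj J β hβ) := by
  intro a b hab
  induction a using QuotientGroup.induction_on with
  | H a =>
    induction b using QuotientGroup.induction_on with
    | H b =>
      simp only [conj_mk] at hab
      rw [QuotientGroup.eq]
      apply h.mem_of_smul_eq hJ hβ hv
      rw [mul_smul, inv_smul_eq_iff]
      exact hab.symm

lemma conj_ge (h : LocalData K G w p) {J : Subgroup G} {y : K} (hy : ∀ g ∈ J, g • y = y) {r : ℚ}
    (hr : w.Ge r y) (q : G ⧸ J) : w.Ge r (conj J y hy q) := by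
  induction q using QuotientGroup.induction_on with
  | H a => exact h.ge_smul a hr

lemma conj_is (h : LocalData K G w p) {J : Subgroup G} {y : K} (hy : ∀ g ∈ J, g • y = y) {r : ℚ}
    (hr : w.Is r y) (q : G ⧸ J) : w.Is r (conj J y hy q) := by
  induction q using QuotientGroup.induction_on with
  | H a => exact h.is_smul a hr

/-- a polynomial over `A₀` vanishing at `β` has `f'(β)` divisible by `P'(β)`. -/
theorem ge_derivative (h : LocalData K G w p) {J : Subgroup G} (hJ : J.FiniteIndex)
    [Fintype (G ⧸ J)] {β : K} (hβ : ∀ g ∈ J, g • β = β) (hv : w.Is (1 / J.index) β)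
    (f : (fixRing w (⊤ : Subgroup G))[X])
    (hf : (f.map (fixRing w (⊤ : Subgroup G)).subtype).eval β = 0) :
    w.Ge (w.val (dif J β hβ))
      (((derivative f).map (fixRing w (⊤ : Subgroup G)).subtype).eval β) := by
  classical
  by_cases hf0 : f = 0
  · rw [hf0, derivative_zero, Polynomial.map_zero, eval_zero]
    exact QVal.ge_zero _
  have hn0 : 0 < J.index := Nat.pos_of_ne_zero hJ.index_ne_zero
  have hn' : (0 : ℚ) < J.index := by exact_mod_cast hn0
  have hβ0 : w.Ge 0 β := hv.ge.mono (by positivity)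
  let j : fixRing w (⊤ : Subgroup G) →+* intRing w :=
    Subring.inclusion (fixRing_le_intRing w ⊤)
  have hjinj : Function.Injective j := Subring.inclusion_injective _
  let F : (intRing w)[X] := f.map j
  have hF0 : F ≠ 0 := by
    rw [Ne, Polynomial.map_eq_zero_iff hjinj]
    exact hf0
  let b : G ⧸ J → intRing w := fun q => ⟨conj J β hβ q, h.conj_ge hβ hβ0 q⟩
  have hb : Function.Injective b := fun x y hxy =>
    h.conj_injective hJ hβ hv (congrArg Subtype.val hxy)
  have hcomp : (intRing w).subtype.comp j = (fixRing w (⊤ : Subgroup G)).subtype := rfl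
  have hevK : ∀ (g : (fixRing w (⊤ : Subgroup G))[X]) (z : intRing w),
      (((g.map j).eval z : intRing w) : K) =
        (g.map (fixRing w (⊤ : Subgroup G)).subtype).eval (z : K) := by
    intro g z
    rw [← hcomp, ← Polynomial.map_map]
    have := (Polynomial.eval_map_apply (p := g.map j) (intRing w).subtype z)
    exact this.symm
  have hroot : ∀ q, F.eval (b q) = 0 := by
    intro q
    apply Subtype.ext
    rw [hevK]
    induction q using QuotientGroup.induction_on with
    | H a =>
      change (f.map (fixRing w (⊤ : Subgroup G)).subtype).eval (a • β) = 0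
      have h1 : (f.map (fixRing w (⊤ : Subgroup G)).subtype).map
          (MulSemiringAction.toRingHom G K a) = f.map (fixRing w (⊤ : Subgroup G)).subtype := by
        rw [Polynomial.map_map]
        congr 1
        apply RingHom.ext
        intro x
        exact x.2.2 a (Subgroup.mem_top a)
      rw [← h1]
      have h2 := Polynomial.eval_map_apply (p := f.map (fixRing w (⊤ : Subgroup G)).subtype)
        (MulSemiringAction.toRingHom G K a) β
      rw [hf, map_zero] at h2
      exact h2
  have hdvd : (∏ q : G ⧸ J, (X - C (b q))) ∣ F := by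
    have h1 := (Multiset.prod_X_sub_C_dvd_iff_le_roots hF0
      ((Finset.univ : Finset (G ⧸ J)).val.map b)).mpr (by
        rw [Multiset.le_iff_subset ((Multiset.nodup_map_iff_of_injective hb).mpr
          Finset.univ.nodup)]
        intro x hx
        obtain ⟨q, -, rfl⟩ := Multiset.mem_map.mp hx
        rw [mem_roots hF0]
        exact hroot q)
    rw [Multiset.map_map] at h1
    exact h1
  obtain ⟨Q, hQ⟩ := hdvd
  have hb1 : b ((1 : G) : G ⧸ J) = ⟨β, hβ0⟩ := Subtype.ext (one_smul G β)
  rw [← Finset.mul_prod_erase _ _ (Finset.mem_univ ((1 : G) : G ⧸ J))] at hQ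
  have h3 : (derivative F).eval ⟨β, hβ0⟩ =
      (∏ q ∈ Finset.univ.erase ((1 : G) : G ⧸ J), (⟨β, hβ0⟩ - b q)) * Q.eval ⟨β, hβ0⟩ := by
    rw [hQ, hb1]
    simp only [derivative_mul, derivative_sub, derivative_X, derivative_C, eval_add, eval_mul,
      eval_sub, eval_X, eval_C, sub_self, zero_mul, sub_zero, eval_one, one_mul, add_zero,
      eval_prod, mul_zero]
  have h4 : (derivative f).map j = derivative F := (derivative_map f j).symm
  have h5 := hevK (derivative f) ⟨β, hβ0⟩
  rw [h4, h3] at h5
  rw [← h5]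
  have h6 : ((∏ q ∈ Finset.univ.erase ((1 : G) : G ⧸ J), (⟨β, hβ0⟩ - b q) : intRing w) : K) =
      dif J β hβ := by
    rw [dif]
    exact map_prod (intRing w).subtype _ _
  rw [Subring.coe_mul, h6]
  have h7 : dif J β hβ ≠ 0 := by
    rw [dif, Finset.prod_ne_zero_iff]
    intro q hq
    rw [sub_ne_zero]
    intro h8
    have h9 : conj J β hβ q = conj J β hβ ((1 : G) : G ⧸ J) := by
      rw [← h8]; exact (one_smul G β).symm
    exact (Finset.mem_erase.mp hq).1 (h.conj_injective hJ hβ hv h9)
  exact ((QVal.Is.of_ne h7).ge.mul (Q.eval ⟨β, hβ0⟩).2).mono (by linarith)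

/-- **The infinitesimal deformation** `β ↦ β + ε` of the inclusion `O → 𝒪_K`. -/
theorem exists_theta (h : LocalData K G w p) {J : Subgroup G} (hJ : J.FiniteIndex)
    [Fintype (G ⧸ J)] {β : K} (hβ : ∀ g ∈ J, g • β = β) (hv : w.Is (1 / J.index) β) :
    ∃ Θ : fixRing w J →+*
        DualNumber (intRing w ⧸ valIdeal w (w.val (dif J β hβ))),
      (∀ y : fixRing w J, TrivSqZeroExt.fst (Θ y) =
        Ideal.Quotient.mk _ ⟨(y : K), y.2.1⟩) ∧
      (∀ y : fixRing w J, (y : K) = β → TrivSqZeroExt.snd (Θ y) = 1) ∧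
      (∀ y : fixRing w J, (∀ g : G, g • (y : K) = y) → TrivSqZeroExt.snd (Θ y) = 0) := by
  have hn0 : 0 < J.index := Nat.pos_of_ne_zero hJ.index_ne_zero
  have hβ0 : w.Ge 0 β := hv.ge.mono (by positivity)
  let A0 := fixRing w (⊤ : Subgroup G)
  let I := valIdeal w (w.val (dif J β hβ))
  let j : A0 →+* fixRing w J := Subring.inclusion (fixRing_mono le_top)
  let j' : fixRing w J →+* intRing w := Subring.inclusion (fixRing_le_intRing w J)
  let b : fixRing w J := ⟨β, hβ0, hβ⟩
  let ev : A0[X] →+* fixRing w J := eval₂RingHom j b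
  let inlh : (intRing w ⧸ I) →+* DualNumber (intRing w ⧸ I) := TrivSqZeroExt.inlHom _ _
  let th : A0[X] →+* DualNumber (intRing w ⧸ I) :=
    eval₂RingHom (inlh.comp ((Ideal.Quotient.mk I).comp (j'.comp j)))
      (inlh (Ideal.Quotient.mk I (j' b)) + DualNumber.eps)
  have hevK : ∀ f : A0[X], ((ev f : fixRing w J) : K) = (f.map A0.subtype).eval β := by
    intro f
    change (fixRing w J).subtype (eval₂ j b f) = _
    rw [hom_eval₂, eval_map]
    rfl
  have hth : ∀ f : A0[X], TrivSqZeroExt.fst (th f) = Ideal.Quotient.mk I (j' (ev f)) ∧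
      TrivSqZeroExt.snd (th f) = Ideal.Quotient.mk I (j' (ev (derivative f))) := by
    intro f
    induction f using Polynomial.induction_on' with
    | add f g hf hg =>
      constructor
      · rw [map_add, TrivSqZeroExt.fst_add, hf.1, hg.1, map_add, map_add, map_add]
      · rw [map_add, TrivSqZeroExt.snd_add, hf.2, hg.2, derivative_add, map_add, map_add, map_add]
    | monomial n a =>
      have h1 : th (monomial n a) = inlh (Ideal.Quotient.mk I (j' (j a))) *
          (inlh (Ideal.Quotient.mk I (j' b)) + DualNumber.eps) ^ n := by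
        change eval₂ _ _ (monomial n a) = _
        rw [eval₂_monomial]
        rfl
      have h2 : ev (monomial n a) = j a * b ^ n := by
        change eval₂ _ _ (monomial n a) = _
        rw [eval₂_monomial]
      have h3 : ev (derivative (monomial n a)) = j a * n * b ^ (n - 1) := by
        rw [derivative_monomial]
        change eval₂ _ _ _ = _
        rw [eval₂_monomial, map_mul, map_natCast]
      have hfst : TrivSqZeroExt.fst (inlh (Ideal.Quotient.mk I (j' b)) + DualNumber.eps) =
          Ideal.Quotient.mk I (j' b) := by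
        rw [TrivSqZeroExt.fst_add]
        change Ideal.Quotient.mk I (j' b) + 0 = _
        rw [add_zero]
      have hsnd : TrivSqZeroExt.snd (inlh (Ideal.Quotient.mk I (j' b)) + DualNumber.eps) = 1 := by
        rw [TrivSqZeroExt.snd_add]
        change 0 + 1 = (1 : intRing w ⧸ I)
        rw [zero_add]
      constructor
      · rw [h1, h2, TrivSqZeroExt.fst_mul, TrivSqZeroExt.fst_pow, hfst, map_mul, map_mul, map_pow,
          map_pow]
        rfl
      · rw [h1, h3, TrivSqZeroExt.snd_mul, TrivSqZeroExt.snd_pow, hfst, hsnd, map_mul, map_mul,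
          map_mul, map_mul, map_pow, map_pow]
        have e1 : TrivSqZeroExt.snd (inlh (Ideal.Quotient.mk I (j' (j a)))) = 0 := rfl
        have e2 : TrivSqZeroExt.fst (inlh (Ideal.Quotient.mk I (j' (j a)))) =
          Ideal.Quotient.mk I (j' (j a)) := rfl
        rw [e1, e2, smul_zero, add_zero, map_natCast, map_natCast, Nat.pred_eq_sub_one]
        simp only [smul_eq_mul, nsmul_eq_mul, mul_one]
        ring
  have hsurj : Function.Surjective ev := by
    intro y
    obtain ⟨c, hc, hy⟩ := h.exists_coeffs hJ hβ hv y.2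
    refine ⟨∑ i ∈ Finset.range J.index, monomial i ⟨c i, hc i⟩, ?_⟩
    apply Subtype.ext
    rw [hy, map_sum]
    have : ∀ i, ev (monomial i ⟨c i, hc i⟩) = j ⟨c i, hc i⟩ * b ^ i := by
      intro i
      change eval₂ _ _ (monomial i _) = _
      rw [eval₂_monomial]
    simp only [this]
    rw [AddSubmonoidClass.coe_finset_sum]
    rfl
  have hker : RingHom.ker ev ≤ RingHom.ker th := by
    intro f hf
    rw [RingHom.mem_ker] at hf ⊢
    have hf2 := h.ge_derivative hJ hβ hv f (by rw [← hevK, hf]; rfl)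
    rw [← hevK] at hf2
    apply TrivSqZeroExt.ext
    · rw [(hth f).1, hf, map_zero, map_zero, TrivSqZeroExt.fst_zero]
    · rw [(hth f).2, TrivSqZeroExt.snd_zero, Ideal.Quotient.eq_zero_iff_mem]
      exact hf2
  let Θ := (ev.liftOfSurjective hsurj) ⟨th, hker⟩
  have hΘ : ∀ f, Θ (ev f) = th f := fun f =>
    ev.liftOfRightInverse_comp_apply _ (Function.rightInverse_surjInv hsurj) ⟨th, hker⟩ f
  refine ⟨Θ, ?_, ?_, ?_⟩
  · intro y
    obtain ⟨f, rfl⟩ := hsurj y
    rw [hΘ, (hth f).1]
    rfl
  · intro y hy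
    have h1 : y = ev X := by
      apply Subtype.ext
      rw [hy]
      change β = (eval₂ j b X : fixRing w J)
      rw [eval₂_X]
    rw [h1, hΘ, (hth X).2, derivative_X, map_one, map_one, map_one]
  · intro y hy
    have h1 : y = ev (C ⟨(y : K), y.2.1, fun g _ => hy g⟩) := by
      apply Subtype.ext
      change (y : K) = (eval₂ j b (C _) : fixRing w J)
      rw [eval₂_C]
      rfl
    rw [h1, hΘ, (hth _).2, derivative_C, map_zero, map_zero, map_zero]

end LocalData

end Fermat.Agent.FlatP
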