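import Fermat.Agent.FlatP.KummerGen
import Fermat.Agent.FlatP.CountOrd
import Fermat.Agent.FlatGS.BaseChange
import Fermat.Agent.TW.LocalForms

/-!
# The local bound at `p` for lifts which are both flat and strictly ordinary
-/

set_option autoImplicit false

namespace Fermat.Agent.FlatP

open IsLocalRing Matrix
open Fermat.Agent.FlatGS FermatAgent.ECVal
open Fermat.Agent.S53norm (M2 HasMat)
open Fermat.Agent.TW (Z1 act cob cj dm fm sm dualMat dunit OrdBasis nilE ChiCocyc upB)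

section Kum

variable {p : ℕ} (hp : p.Prime) {A : ValuationSubring Om} (hA : A.LiesOverPrime p)

/-- `y` is, on inertia, given by Kummer generators `z ^ p = 1 + p α`, `α` fixed by inertia. -/
def KumOrd {R : Type} [AddCommGroup R] (y : GQ → R) : Prop :=
  ∀ lam : AddChar R Om, ∃ z α : Om, (∀ g ∈ A.inertiaSubgroupIn ℚ, g α = α) ∧
    (valOf hp hA).Ge 0 α ∧ z ^ p = 1 + p * α ∧
    ∀ g ∈ A.inertiaSubgroupIn ℚ, g z = lam (y g) * z

variable {hp hA}

lemma KumOrd.congr {R : Type} [AddCommGroup R] {y y' : GQ → R} (h : KumOrd hp hA y)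
    (he : ∀ g ∈ A.inertiaSubgroupIn ℚ, y g = y' g) : KumOrd hp hA y' := by
  intro lam
  obtain ⟨z, α, h1, h2, h3, h4⟩ := h lam
  exact ⟨z, α, h1, h2, h3, fun g hg => by rw [h4 g hg, he g hg]⟩

lemma KumOrd.map {R R' : Type} [AddCommGroup R] [AddCommGroup R'] {y : GQ → R}
    (h : KumOrd hp hA y) (f : R →+ R') : KumOrd hp hA (fun g => f (y g)) := by
  intro lam
  exact h (lam.compAddMonoidHom f)

lemma kumOrd_zero {R : Type} [AddCommGroup R] : KumOrd hp hA (fun _ => (0 : R)) := by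
  intro lam
  refine ⟨1, 0, fun g _ => map_zero g, QVal.ge_zero 0, by simp, fun g _ => ?_⟩
  rw [AddChar.map_zero_eq_one, mul_one, map_one]

lemma KumOrd.add {R : Type} [AddCommGroup R] {y y' : GQ → R} (h : KumOrd hp hA y)
    (h' : KumOrd hp hA y') : KumOrd hp hA (fun g => y g + y' g) := by
  intro lam
  obtain ⟨z, α, h1, h2, h3, h4⟩ := h lam
  obtain ⟨z', α', h1', h2', h3', h4'⟩ := h' lam
  refine ⟨z * z', α + α' + p * α * α', fun g hg => ?_, ?_, ?_, fun g hg => ?_⟩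
  · rw [map_add, map_add, map_mul, map_mul, map_natCast, h1 g hg, h1' g hg]
  · have h5 := ((QVal.ge_natCast (w := valOf hp hA) p).mul h2).mul h2'
    exact (h2.add h2').add (h5.mono (by norm_num))
  · rw [mul_pow, h3, h3']; ring
  · rw [map_mul, h4 g hg, h4' g hg, AddChar.map_add_eq_mul]; ring

/-- A finite flat module which is, on inertia, an extension of the trivial module by the
cyclotomic one, has Kummer generators. -/
theorem kumOrd_of_flat {R : Type} [CommRing R] [Finite R] (hpR : (p : R) = 0) {r' : GQ → M2 R}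
    (hflat : IsFlatModule p (fun σ (v : Fin 2 → R) => r' σ *ᵥ v))
    (h10 : ∀ σ ∈ A.inertiaSubgroupIn ℚ, r' σ 1 0 = 0)
    (h11 : ∀ σ ∈ A.inertiaSubgroupIn ℚ, r' σ 1 1 = 1)
    (h00 : ∀ σ ∈ A.inertiaSubgroupIn ℚ, ∀ a : ℕ, (∀ μ : Om, μ ^ p = 1 → σ μ = μ ^ a) →
      r' σ 0 0 = a) : KumOrd hp hA (fun σ => r' σ 0 1) := by
  intro lam
  have : Fact p.Prime := ⟨hp⟩
  obtain ⟨-, B, hB⟩ := hflat.exists_model
  let V : AddSubgroup (Fin 2 → R) :=
    { carrier := {v | v 1 = 0}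
      zero_mem' := rfl
      add_mem' := fun {a b} ha hb => by
        show a 1 + b 1 = 0
        rw [show a 1 = 0 from ha, show b 1 = 0 from hb, add_zero]
      neg_mem' := fun {a} ha => by
        show -a 1 = 0
        rw [show a 1 = 0 from ha, neg_zero] }
  let ev : V →+ R :=
    { toFun := fun v => v.1 0
      map_zero' := rfl
      map_add' := fun _ _ => rfl }
  have hpM : ∀ x : Fin 2 → R, p • x = 0 := by
    intro x
    funext i
    rw [Pi.smul_apply, nsmul_eq_mul, hpR, zero_mul]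
    rfl
  have hV : ∀ σ ∈ A.inertiaSubgroupIn ℚ, ∀ y ∈ V, (r' σ *ᵥ y) ∈ V := by
    intro σ hσ y hy
    show (r' σ *ᵥ y) 1 = 0
    rw [Matrix.mulVec, dotProduct, Fin.sum_univ_two, h10 σ hσ, show y 1 = 0 from hy, zero_mul,
      mul_zero, add_zero]
  have hlam : ∀ σ (hσ : σ ∈ A.inertiaSubgroupIn ℚ) (y : Fin 2 → R) (hy : y ∈ V),
      (lam.compAddMonoidHom ev) ⟨r' σ *ᵥ y, hV σ hσ y hy⟩ =
        σ ((lam.compAddMonoidHom ev) ⟨y, hy⟩) := by
    intro σ hσ y hy
    change lam ((r' σ *ᵥ y) 0) = σ (lam (y 0))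
    obtain ⟨a, ha⟩ := TW.exists_root_exponent p σ
    rw [Matrix.mulVec, dotProduct, Fin.sum_univ_two, show y 1 = 0 from hy, mul_zero, add_zero,
      h00 σ hσ a ha]
    have h1 : (lam (y 0)) ^ p = 1 := by
      rw [← AddChar.map_nsmul_eq_pow, nsmul_eq_mul, hpR, zero_mul, AddChar.map_zero_eq_one]
    rw [ha _ h1, ← AddChar.map_nsmul_eq_pow, nsmul_eq_mul]
  have hx : ∀ σ ∈ A.inertiaSubgroupIn ℚ, (r' σ *ᵥ ![0, 1]) - ![0, 1] ∈ V := by
    intro σ hσ
    show ((r' σ *ᵥ ![0, 1]) - ![0, 1] : Fin 2 → R) 1 = 0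
    rw [Pi.sub_apply, Matrix.mulVec, dotProduct, Fin.sum_univ_two, h11 σ hσ]
    simp
  obtain ⟨z, α, h1, h2, h3, h4⟩ := kummer_ord hp hA hB hpM hV hlam hx
  refine ⟨z, α, h1, h2, h3, fun g hg => ?_⟩
  rw [h4 g hg]
  congr 1
  change lam (((r' g *ᵥ ![0, 1]) - ![0, 1] : Fin 2 → R) 0) = lam (r' g 0 1)
  congr 1
  rw [Pi.sub_apply, Matrix.mulVec, dotProduct, Fin.sum_univ_two]
  simp

theorem isFlatModule_of_hasMat {R : Type} [CommRing R] [IsLocalRing R] [Finite R]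
    {ρ : GaloisRepAdic R} (h : ρ.IsFlatAt p) {r' : GQ → M2 R} (hr : HasMat (ρ.ρ : GQ → _) r') :
    IsFlatModule p (fun σ (v : Fin 2 → R) => r' σ *ᵥ v) := by
  obtain ⟨e, he⟩ := hr
  refine (isFlatModule_of_isFlatAt ρ h).of_equiv e.symm.toAddEquiv fun σ v => ?_
  change e.symm (r' σ *ᵥ v) = ρ.ρ σ (e.symm v)
  apply e.injective
  rw [he, e.apply_symm_apply, e.apply_symm_apply]

end Kum

section Chi

variable {k : Type} [Field k] {p : ℕ} {A : ValuationSubring Om} {r : GQ →* M2 k}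

/-- extension by zero -/
noncomputable def extZero (D : Subgroup GQ) (y : D → k) : GQ → k :=
  open scoped Classical in fun g => if h : g ∈ D then y ⟨g, h⟩ else 0

lemma extZero_coe {D : Subgroup GQ} (y : D → k) (g : D) : extZero D y g = y g := by
  rw [extZero, dif_pos g.2]

lemma extZero_mk {D : Subgroup GQ} (y : D → k) {g : GQ} (hg : g ∈ D) :
    extZero D y g = y ⟨g, hg⟩ := extZero_coe y ⟨g, hg⟩

variable (hp : p.Prime) (hA : A.LiesOverPrime p) (r)

/-- Cocycles with values in `k(det r)` which have Kummer generators on inertia. -/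
noncomputable def FlatChi : AddSubgroup (A.decompositionSubgroup ℚ → k) where
  carrier := {y | y ∈ ChiCocyc r A ∧ KumOrd hp hA (extZero _ y)}
  zero_mem' := ⟨zero_mem _, kumOrd_zero.congr fun g hg => by
    rw [extZero_mk _ (TW.inertia_le_decomp hg)]; rfl⟩
  add_mem' := by
    rintro a b ⟨ha, ha2⟩ ⟨hb, hb2⟩
    refine ⟨add_mem ha hb, (ha2.add hb2).congr fun g hg => ?_⟩
    rw [extZero_mk _ (TW.inertia_le_decomp hg), extZero_mk _ (TW.inertia_le_decomp hg),
      extZero_mk _ (TW.inertia_le_decomp hg)]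
    rfl
  neg_mem' := by
    rintro a ⟨ha, ha2⟩
    refine ⟨neg_mem ha, (ha2.map (-AddMonoidHom.id k)).congr fun g hg => ?_⟩
    rw [extZero_mk _ (TW.inertia_le_decomp hg), extZero_mk _ (TW.inertia_le_decomp hg)]
    rfl

variable {r}

include hp hA in
/-- a cocycle with values in `k(χ)` vanishing on the elements of inertia fixing `ζ_p` is a
coboundary. -/
lemma exists_chi_cobound [CharP k p] (hp2 : p ≠ 2) (hcyc : TW.CycDet p r) {ζ : Om}
    (hζ : IsPrimitiveRoot ζ p) :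
    ∃ τ : A.decompositionSubgroup ℚ, (τ : GQ) ∈ A.inertiaSubgroupIn ℚ ∧ (r τ).det ≠ 1 ∧
      ∀ y ∈ ChiCocyc r A, (∀ g : A.decompositionSubgroup ℚ, (g : GQ) ∈ A.inertiaSubgroupIn ℚ →
        (g : GQ) ζ = ζ → y g = 0) → ∀ g, y g = ((r g).det - 1) * (y τ * ((r τ).det - 1)⁻¹) := by
  have : Fact p.Prime := ⟨hp⟩
  have : NeZero p := ⟨hp.ne_zero⟩
  obtain ⟨τ, hτ, hτζ⟩ := TW.exists_inertia_ne hp hp2 hA hζ.pow_eq_one (hζ.ne_one hp.one_lt)
  obtain ⟨a, ha⟩ := TW.exists_root_exponent p τ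
  have hdet : (r τ).det = (a : k) := hcyc τ a ha
  have ha1 : (a : k) ≠ 1 := by
    intro h1
    apply hτζ
    have h2 : ((a : ℕ) : k) = ((1 : ℕ) : k) := by rw [h1, Nat.cast_one]
    rw [CharP.natCast_eq_natCast k p] at h2
    rw [ha ζ hζ.pow_eq_one]
    have h3 := pow_eq_pow_mod a hζ.pow_eq_one
    rw [h3, h2, Nat.mod_eq_of_lt hp.one_lt, pow_one]
  have hχ1 : (r τ).det - 1 ≠ 0 := by rw [hdet]; exact sub_ne_zero.mpr ha1
  refine ⟨⟨τ, TW.inertia_le_decomp hτ⟩, hτ, sub_ne_zero.mp hχ1, ?_⟩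
  rintro y ⟨hy, -⟩ hy0 g
  set τ' : A.decompositionSubgroup ℚ := ⟨τ, TW.inertia_le_decomp hτ⟩ with hτ'
  have hgτ : (g : GQ) * τ * (g : GQ)⁻¹ ∈ A.inertiaSubgroupIn ℚ := by
    have := TW.conj_mem_inertia_of_decomp (inv_mem g.2) hτ
    rwa [inv_inv] at this
  let j : A.decompositionSubgroup ℚ := g * τ' * g⁻¹ * τ'⁻¹
  have hjI : (j : GQ) ∈ A.inertiaSubgroupIn ℚ := mul_mem hgτ (inv_mem hτ)
  obtain ⟨n, -, hn⟩ := hζ.eq_pow_of_pow_eq_one (show ((g : GQ) ζ) ^ p = 1 by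
    rw [← map_pow, hζ.pow_eq_one, map_one])
  have hcomm : (g : GQ) (τ ζ) = τ ((g : GQ) ζ) := by
    rw [ha ζ hζ.pow_eq_one, map_pow, ← hn, map_pow, ha ζ hζ.pow_eq_one, ← pow_mul, ← pow_mul,
      mul_comm]
  have hjζ : (j : GQ) ζ = ζ := by
    have h1 : (j : GQ) * (τ * (g : GQ)) = (g : GQ) * τ := by
      change ((g : GQ) * τ * (g : GQ)⁻¹ * τ⁻¹) * (τ * (g : GQ)) = _
      group
    have h2 : (j : GQ) ((τ * (g : GQ)) ζ) = ((g : GQ) * τ) ζ := by
      rw [← AlgEquiv.mul_apply, h1]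
    rw [AlgEquiv.mul_apply, AlgEquiv.mul_apply, hcomm] at h2
    -- `τ (g ζ)` is a primitive root fixed by `j`
    have h3 : IsPrimitiveRoot (τ ((g : GQ) ζ)) p :=
      (hζ.map_of_injective (g : GQ).injective).map_of_injective τ.injective
    obtain ⟨m, -, hm⟩ := h3.eq_pow_of_pow_eq_one hζ.pow_eq_one
    rw [← hm, map_pow, h2]
  have hj0 := hy0 j hjI hjζ
  have hjdet : (r (j : GQ)).det = 1 := by
    have h1 : ∀ μ : Om, μ ^ p = 1 → (j : GQ) μ = μ ^ 1 := by
      intro μ hμ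
      obtain ⟨m, -, rfl⟩ := hζ.eq_pow_of_pow_eq_one hμ
      rw [map_pow, hjζ, pow_one]
    rw [hcyc _ 1 h1, Nat.cast_one]
  have h1 : g * τ' = j * (τ' * g) := by simp only [j]; group
  have h2 := hy g τ'
  rw [h1, hy j, hy τ', hj0, hjdet, one_mul, zero_add] at h2
  have h3 : ((r (τ' : GQ)).det - 1) * y g = ((r (g : GQ)).det - 1) * y τ' := by
    linear_combination h2
  rw [eq_comm, ← mul_assoc, mul_inv_eq_iff_eq_mul₀ hχ1, ← h3, mul_comm]

/-- The number of flat cocycles with values in `k(1)`. -/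
theorem card_flatChi_le [Finite k] [CharP k p] (hp2 : p ≠ 2) (hcyc : TW.CycDet p r) :
    Finite (FlatChi r hp hA) ∧ Nat.card (FlatChi r hp hA) ≤ Nat.card k ^ 2 := by
  classical
  have hpf : Fact p.Prime := ⟨hp⟩
  have : NeZero p := ⟨hp.ne_zero⟩
  obtain ⟨ζ, hζ⟩ := HasEnoughRootsOfUnity.exists_primitiveRoot Om p
  let F : FlatChi r hp hA →+ (GQ → k) :=
    { toFun := fun y g => if g ∈ A.inertiaSubgroupIn ℚ ∧ g ζ = ζ then extZero _ y.1 g else 0
      map_zero' := by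
        funext g
        by_cases h : g ∈ A.inertiaSubgroupIn ℚ ∧ g ζ = ζ
        · rw [if_pos h, extZero_mk _ (TW.inertia_le_decomp h.1)]; rfl
        · rw [if_neg h]; rfl
      map_add' := by
        intro y y'
        funext g
        rw [Pi.add_apply]
        by_cases h : g ∈ A.inertiaSubgroupIn ℚ ∧ g ζ = ζ
        · rw [if_pos h, if_pos h, if_pos h, extZero_mk _ (TW.inertia_le_decomp h.1),
            extZero_mk _ (TW.inertia_le_decomp h.1), extZero_mk _ (TW.inertia_le_decomp h.1)]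
          rfl
        · rw [if_neg h, if_neg h, if_neg h, add_zero] }
  have hF : ∀ (y : FlatChi r hp hA) (g : GQ) (h : g ∈ A.inertiaSubgroupIn ℚ ∧ g ζ = ζ),
      F y g = y.1 ⟨g, TW.inertia_le_decomp h.1⟩ := by
    intro y g h
    change (if _ then _ else _) = _
    rw [if_pos h, extZero_mk]
  obtain ⟨hfin, hcard⟩ := card_ord_le (k := k) hp2 hA hζ (χ := fun φ => (r φ).det)
    (fun φ _ => TW.det_ne_zero r φ) F.range
    (by
      rintro _ ⟨y, rfl⟩ g hg
      change (if _ then _ else _) = _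
      rw [if_neg hg])
    (by
      rintro _ ⟨y, rfl⟩ φ hφ g hg hgζ
      have hI : φ * g * φ⁻¹ ∈ A.inertiaSubgroupIn ℚ := by
        have := TW.conj_mem_inertia_of_decomp (inv_mem hφ) hg
        rwa [inv_inv] at this
      have hfix : ∀ μ : Om, μ ^ p = 1 → g μ = μ := by
        intro μ hμ
        obtain ⟨m, -, rfl⟩ := hζ.eq_pow_of_pow_eq_one hμ
        rw [map_pow, hgζ]
      have hζ' : (φ * g * φ⁻¹) ζ = ζ := by
        rw [AlgEquiv.mul_apply, AlgEquiv.mul_apply, hfix]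
        · exact AlgEquiv.apply_symm_apply φ ζ
        · rw [← map_pow, hζ.pow_eq_one, map_one]
      rw [hF y _ ⟨hI, hζ'⟩, hF y _ ⟨hg, hgζ⟩]
      have hcoc := y.2.1.1
      set φ' : A.decompositionSubgroup ℚ := ⟨φ, hφ⟩
      set g' : A.decompositionSubgroup ℚ := ⟨g, TW.inertia_le_decomp hg⟩
      have hdet : (r (g' : GQ)).det = 1 := by
        rw [hcyc g 1 (fun μ hμ => by rw [hfix μ hμ, pow_one]), Nat.cast_one]
      have h1 : y.1 1 = 0 := by
        have h2 := hcoc 1 1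
        rw [mul_one, Subgroup.coe_one, map_one, Matrix.det_one, one_mul] at h2
        exact left_eq_add.mp h2
      have h2 : y.1 (φ' * g' * φ'⁻¹) = (r φ).det * y.1 g' := by
        have h3 := hcoc φ' φ'⁻¹
        rw [mul_inv_cancel, h1] at h3
        rw [hcoc, hcoc, Subgroup.coe_mul, map_mul, Matrix.det_mul, hdet, mul_one]
        linear_combination -h3
      exact h2)
    (by
      rintro _ ⟨y, rfl⟩ lam
      obtain ⟨z, α, h1, h2, h3, h4⟩ := y.2.2 lam
      refine ⟨z, α, h1, h2, h3, fun g hg hgζ => ?_⟩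
      rw [h4 g hg, hF y g ⟨hg, hgζ⟩, extZero_mk _ (TW.inertia_le_decomp hg)])
  obtain ⟨τ, -, -, hτ⟩ := exists_chi_cobound (A := A) hp hA hp2 hcyc hζ
  let G : FlatChi r hp hA → F.range × k := fun y => (⟨F y, y, rfl⟩, y.1 τ)
  have hG : Function.Injective G := by
    intro y y' h
    have h1 : F y = F y' := congrArg (fun w => (w.1 : GQ → k)) h
    have h2 : y.1 τ = y'.1 τ := congrArg Prod.snd h
    have h3 := hτ (y.1 - y'.1) (sub_mem y.2.1 y'.2.1) (by
      intro g hg hgζ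
      have h4 := congrFun h1 g
      rw [hF y g ⟨hg, hgζ⟩, hF y' g ⟨hg, hgζ⟩] at h4
      exact sub_eq_zero.mpr h4)
    apply Subtype.ext
    funext g
    have h4 := h3 g
    rw [Pi.sub_apply, Pi.sub_apply, h2, sub_self, zero_mul, mul_zero] at h4
    exact sub_eq_zero.mp h4
  have hfin2 : Finite (FlatChi r hp hA) := Finite.of_injective G hG
  refine ⟨hfin2, (Nat.card_le_card_of_injective G hG).trans ?_⟩
  rw [Nat.card_prod, sq]
  exact Nat.mul_le_mul_right _ hcard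

end Chi

section Cob

variable {k : Type} [Field k] {p : ℕ} {A : ValuationSubring Om} {r : GQ →* M2 k}

/-- explicit form of `cob_upB`. -/
lemma cob_upB' [hp : Fact p.Prime] {Q : (M2 k)ˣ} (h : OrdBasis p A r Q) (s t : k)
    {σ : GQ} (hσ : σ ∈ A.decompositionSubgroup ℚ) :
    act r 0 σ (upB Q s t) - upB Q s t =
      (((cj Q (r σ) 0 0 - cj Q (r σ) 1 1) * t - 2 * s * cj Q (r σ) 0 1) *
        (cj Q (r σ) 1 1)⁻¹) • nilE Q := by
  obtain ⟨a, ha⟩ := TW.exists_root_exponent p σ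
  obtain ⟨g1, g2, g3⟩ := h σ hσ
  have hdet0 : cj Q (r σ) 0 0 * cj Q (r σ) 1 1 ≠ 0 := by
    have := TW.det_ne_zero r σ
    rwa [← TW.cj_det Q, Matrix.det_fin_two, g1, mul_zero, sub_zero] at this
  have hm11 := right_ne_zero_of_mul hdet0
  set m := cj Q (r σ) with hm
  set x : k := (m 0 0 - m 1 1) * t - 2 * s * m 0 1 with hx
  have h1 : m * !![s, t; 0, -s] - !![s, t; 0, -s] * m =
      (x * (m 1 1)⁻¹) • (!![0, 1; 0, 0] * m) := by
    ext i j
    rw [Matrix.smul_apply, Matrix.sub_apply, TW.mul_apply_fin_two, TW.mul_apply_fin_two,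
      TW.mul_apply_fin_two]
    fin_cases i <;> fin_cases j
    · simp [g1]; ring
    · simp [hx]; field_simp; ring
    · simp [g1]
    · simp [g1]; ring
  have h2 : r σ * upB Q s t - upB Q s t * r σ = (x * (m 1 1)⁻¹) • (nilE Q * r σ) := by
    have h5 := congrArg (cj Q⁻¹) h1
    rwa [TW.cj_sub, TW.cj_mul, TW.cj_mul, TW.cj_smul, TW.cj_mul, hm, TW.cj_inv_cj] at h5
  calc act r 0 σ (upB Q s t) - upB Q s t
      = (r σ * upB Q s t - upB Q s t * r σ) * r σ⁻¹ := by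
        rw [TW.act_zero_apply, sub_mul, mul_assoc (upB Q s t), TW.r_mul_inv, mul_one]
    _ = _ := by rw [h2, smul_mul_assoc, mul_assoc, TW.r_mul_inv, mul_one]

variable (hp : p.Prime) (hA : A.LiesOverPrime p)

/-- Cocycles which, up to a coboundary, take values in the nilpotent line and are flat. -/
noncomputable def flatCob (r : GQ →* M2 k) (Q : (M2 k)ˣ) :
    AddSubgroup (A.decompositionSubgroup ℚ → M2 k) where
  carrier := {c | c ∈ Z1 r (A.decompositionSubgroup ℚ).subtype 0 ∧ ∃ X : M2 k, X.trace = 0 ∧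
    ∃ y ∈ FlatChi r hp hA, ∀ g,
      c g - cob r (A.decompositionSubgroup ℚ).subtype 0 X g = y g • nilE Q}
  zero_mem' := ⟨zero_mem _, 0, Matrix.trace_zero _ _, 0, zero_mem _, fun g => by
    rw [cob, map_zero, sub_zero, Pi.zero_apply, Pi.zero_apply, zero_smul, sub_zero]⟩
  add_mem' := by
    rintro a b ⟨ha, X, hX, y, hy, ha2⟩ ⟨hb, Y, hY, z, hz, hb2⟩
    refine ⟨add_mem ha hb, X + Y, by rw [Matrix.trace_add, hX, hY, add_zero], y + z,
      add_mem hy hz, fun g => ?_⟩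
    rw [Pi.add_apply, Pi.add_apply, add_smul, ← ha2 g, ← hb2 g, cob, cob, cob, map_add]
    abel
  neg_mem' := by
    rintro a ⟨ha, X, hX, y, hy, ha2⟩
    refine ⟨neg_mem ha, -X, by rw [Matrix.trace_neg, hX, neg_zero], -y, neg_mem hy,
      fun g => ?_⟩
    rw [Pi.neg_apply, Pi.neg_apply, neg_smul, ← ha2 g, cob, cob, map_neg]
    abel

variable {hp hA}

/-- the coboundaries of upper triangular matrices are flat. -/
lemma upB_mem_flatChi [CharP k p] (hr : TW.IsFiniteLevel r) (hcyc : TW.CycDet p r)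
    {Q : (M2 k)ˣ} (h : OrdBasis p A r Q)
    (hK : KumOrd hp hA (fun σ => cj Q (r σ) 0 1)) (s t : k) :
    ∃ y ∈ FlatChi r hp hA, ∀ g : A.decompositionSubgroup ℚ,
      cob r (A.decompositionSubgroup ℚ).subtype 0 (upB Q s t) g = y g • nilE Q := by
  have hpf : Fact p.Prime := ⟨hp⟩
  obtain ⟨y, hy⟩ := TW.exists_chiCocyc hcyc h
    (TW.cob_mem_Z1 (A.decompositionSubgroup ℚ).subtype hr 0 (TW.upB_trace Q s t))
    (fun g => ⟨_, cob_upB' h s t g.2⟩)
  refine ⟨y.1, ⟨y.2, ?_⟩, hy⟩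
  have hval : ∀ σ ∈ A.inertiaSubgroupIn ℚ, extZero _ y.1 σ =
      ((r σ).det - 1) * t + (-2 * s) * cj Q (r σ) 0 1 := by
    intro σ hσ
    have hσD := TW.inertia_le_decomp hσ
    rw [extZero_mk _ hσD]
    have h1 := (cob_upB' h s t hσD).symm.trans (hy ⟨σ, hσD⟩)
    obtain ⟨g1, g2, g3⟩ := h σ hσD
    obtain ⟨a, ha⟩ := TW.exists_root_exponent p σ
    have h3 : (r σ).det = cj Q (r σ) 0 0 := by
      rw [← TW.cj_det Q, Matrix.det_fin_two, g1, g2 hσ, mul_zero, sub_zero, mul_one]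
    have h4 := sub_eq_zero.mpr h1
    rw [← sub_smul] at h4
    have h5 := (smul_eq_zero.mp h4).resolve_right (TW.nilE_ne_zero Q)
    rw [g2 hσ, inv_one, mul_one, ← h3] at h5
    linear_combination -h5
  have hdet : KumOrd hp hA (fun σ => ((r σ).det - 1) * t) := by
    intro lam
    have hpow : ∀ x : k, (lam x) ^ p = 1 := by
      intro x
      rw [← AddChar.map_nsmul_eq_pow, nsmul_eq_mul, CharP.cast_eq_zero, zero_mul,
        AddChar.map_zero_eq_one]
    refine ⟨lam t, 0, fun g _ => map_zero g, QVal.ge_zero 0, by rw [hpow]; simp, fun g _ => ?_⟩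
    obtain ⟨a, ha⟩ := TW.exists_root_exponent p g
    change g (lam t) = lam (((r g).det - 1) * t) * lam t
    rw [ha _ (hpow t), ← AddChar.map_add_eq_mul, hcyc g a ha, ← AddChar.map_nsmul_eq_pow,
      nsmul_eq_mul]
    congr 1
    ring
  exact (hdet.add (hK.map (AddMonoidHom.mulLeft (-2 * s)))).congr fun σ hσ =>
    (hval σ hσ).symm

theorem card_flatCob_le [Finite k] [CharP k p] (hp2 : p ≠ 2)
    (hr : TW.IsFiniteLevel r) (hcyc : TW.CycDet p r) {Q : (M2 k)ˣ}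
    (h : OrdBasis p A r Q) (hK : KumOrd hp hA (fun σ => cj Q (r σ) 0 1)) :
    Finite (flatCob hp hA r Q) ∧ Nat.card (flatCob hp hA r Q) ≤ Nat.card k ^ 3 := by
  have hpf : Fact p.Prime := ⟨hp⟩
  have hfM : Finite (M2 k) := TW.finite_M2' k
  obtain ⟨hfin, hle⟩ := card_flatChi_le (A := A) hp hA hp2 hcyc
  have hex : ∀ c : flatCob hp hA r Q, ∃ X : M2 k, X.trace = 0 ∧
    ∃ y ∈ FlatChi r hp hA, ∀ g,
      c.1 g - cob r (A.decompositionSubgroup ℚ).subtype 0 X g = y g • nilE Q :=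
    fun c => c.2.2
  choose X hX0 y hy hX using hex
  have htr : ∀ (c : flatCob hp hA r Q) (s t : k), (X c + upB Q s t).trace = 0 := fun c s t => by
    rw [Matrix.trace_add, hX0, TW.upB_trace, add_zero]
  choose u hu hu2 using fun s t => upB_mem_flatChi hr hcyc h hK s t
  let f : flatCob hp hA r Q × (k × k) → {X : M2 k // X.trace = 0} × FlatChi r hp hA := fun z =>
    (⟨X z.1 + upB Q z.2.1 z.2.2, htr _ _ _⟩, ⟨y z.1 - u z.2.1 z.2.2,
      sub_mem (hy z.1) (hu z.2.1 z.2.2)⟩)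
  have hY : ∀ (z : flatCob hp hA r Q × (k × k)) (g : A.decompositionSubgroup ℚ),
      (z.1.1 - cob r (A.decompositionSubgroup ℚ).subtype 0 (X z.1 + upB Q z.2.1 z.2.2)) g =
        (f z).2.1 g • nilE Q := by
    intro z g
    have h1 : (f z).2.1 g = y z.1 g - u z.2.1 z.2.2 g := rfl
    have h2 := hu2 z.2.1 z.2.2 g
    rw [h1, sub_smul, ← hX, ← h2, Pi.sub_apply, cob, cob, cob, map_add]
    abel
  have hf : Function.Injective f := by
    intro z z' hzz
    have h1 : X z.1 + upB Q z.2.1 z.2.2 = X z'.1 + upB Q z'.2.1 z'.2.2 :=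
      congrArg (fun w => (w.1 : M2 k)) hzz
    have h3 : z.1 = z'.1 := by
      apply Subtype.ext
      funext g
      have h4 := hY z g
      have h5 := hY z' g
      rw [hzz, ← h5, h1, Pi.sub_apply, Pi.sub_apply] at h4
      exact sub_left_inj.mp h4
    rw [h3] at h1
    have h6 := TW.upB_inj Q (add_left_cancel h1)
    exact Prod.ext h3 (Prod.ext h6.1 h6.2)
  have hfin1 : Finite (flatCob hp hA r Q × (k × k)) := Finite.of_injective f hf
  have hfin2 : Finite (flatCob hp hA r Q) := Finite.of_injective (fun c => (c, ((0, 0) : k × k)))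
    (fun a b h => congrArg Prod.fst h)
  refine ⟨hfin2, ?_⟩
  have h1 := Nat.card_le_card_of_injective f hf
  rw [Nat.card_prod, Nat.card_prod, Nat.card_prod, TW.card_ad0] at h1
  have hpos : 0 < Nat.card k := Nat.card_pos
  have h2 : Nat.card (flatCob hp hA r Q) * (Nat.card k * Nat.card k) ≤
      Nat.card k ^ 3 * (Nat.card k * Nat.card k) := by
    calc _ ≤ _ := h1
      _ ≤ Nat.card k ^ 3 * Nat.card k ^ 2 := Nat.mul_le_mul_left _ hle
      _ = _ := by ring
  exact Nat.le_of_mul_le_mul_right h2 (Nat.mul_pos hpos hpos)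

end Cob

section Main

variable {k : Type} [Field k] {p : ℕ} {A : ValuationSubring Om} {r : GQ →* M2 k}

/-- The constant unit of `M2 (DualNumber k)`. -/
def liftU (q : (M2 k)ˣ) : (M2 (DualNumber k))ˣ where
  val := dm q.val 0
  inv := dm q⁻¹.val 0
  val_inv := TW.dm_ext (by simp) (by simp)
  inv_val := TW.dm_ext (by simp) (by simp)

lemma cj_liftU (q : (M2 k)ˣ) (X Y : M2 k) : cj (liftU q) (dm X Y) = dm (cj q X) (cj q Y) := by
  refine TW.dm_ext ?_ ?_
  · rw [cj, TW.fm_mul, TW.fm_mul, TW.fm_dm, TW.fm_dm]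
    change fm (dm q.val 0) * X * fm (dm q⁻¹.val 0) = _
    rw [TW.fm_dm, TW.fm_dm]; rfl
  · rw [cj, TW.sm_mul, TW.sm_mul, TW.fm_mul, TW.fm_dm, TW.sm_dm, TW.sm_dm]
    change fm (dm q.val 0) * X * sm (dm q⁻¹.val 0) + (fm (dm q.val 0) * Y +
      sm (dm q.val 0) * X) * fm (dm q⁻¹.val 0) = _
    rw [TW.fm_dm, TW.fm_dm, TW.sm_dm, TW.sm_dm, mul_zero, zero_mul, zero_add, add_zero]; rfl

lemma cj_dunit_dualMat (Y : M2 k) (c : GQ → M2 k) (σ : GQ) :
    cj (dunit Y) (dualMat r c σ) = dm (r σ) ((c σ - (act r 0 σ Y - Y)) * r σ) := by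
  have h6 : r σ * Y * r σ⁻¹ * r σ = r σ * Y := by rw [mul_assoc, TW.r_inv_mul, mul_one]
  have h5 : (c σ - (act r 0 σ Y - Y)) * r σ = c σ * r σ + Y * r σ - r σ * Y := by
    rw [TW.act_zero_apply]
    calc _ = c σ * r σ - r σ * Y * r σ⁻¹ * r σ + Y * r σ := by noncomm_ring
      _ = _ := by rw [h6]; abel
  rw [h5]
  refine TW.dm_ext ?_ ?_
  · rw [cj, TW.fm_mul, TW.fm_mul, dualMat, TW.fm_dm, TW.fm_dm]
    change fm (dm 1 Y) * r σ * fm (dm 1 (-Y)) = _
    rw [TW.fm_dm, TW.fm_dm, one_mul, mul_one]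
  · rw [cj, TW.sm_mul, TW.sm_mul, TW.fm_mul, dualMat, TW.fm_dm, TW.sm_dm, TW.sm_dm]
    change fm (dm 1 Y) * r σ * sm (dm 1 (-Y)) + (fm (dm 1 Y) * (c σ * r σ) +
      sm (dm 1 Y) * r σ) * fm (dm 1 (-Y)) = _
    rw [TW.fm_dm, TW.fm_dm, TW.sm_dm, TW.sm_dm]
    noncomm_ring

/-- The data extracted from a lift which is flat and strictly ordinary. -/
lemma exists_flat_ord [Finite k] [hp : Fact p.Prime] (hp2 : p ≠ 2) [CharP k p]
    (hA : A.LiesOverPrime p) (hr : TW.IsFiniteLevel r) {c : Z1 r (MonoidHom.id GQ) 0}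
    (hflat : (TW.defAdic hr c).IsFlatAt p) (hord : (TW.defAdic hr c).IsStrictOrdinaryAt p) :
    ∃ q : (M2 k)ˣ, OrdBasis p A r q ∧ KumOrd hp.out hA (fun σ => cj q (r σ) 0 1) ∧
      ∃ X : M2 k, X.trace = 0 ∧ ∃ y : GQ → k, KumOrd hp.out hA y ∧
      ∀ σ ∈ A.decompositionSubgroup ℚ, c.1 σ - (act r 0 σ X - X) = y σ • nilE q := by
  have hfD : Finite (DualNumber k) := inferInstanceAs (Finite (k × k))
  have hK0 : (p : DualNumber k) = 0 := by
    have h6 := map_natCast (TrivSqZeroExt.inlHom k k) p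
    rw [CharP.cast_eq_zero, map_zero] at h6
    exact h6.symm
  obtain ⟨q, hq, Y, hY⟩ := TW.exists_cob_of_strictOrd hp2 c.2.1
    (TW.strictOrdLift_of_isStrictOrdinaryAt (CharP.cast_eq_zero k p) (TW.defAdic_hasMat hr c)
      hord hA)
  choose! y hy using hY
  -- the matrices in the good basis
  have hmat : ∀ σ ∈ A.decompositionSubgroup ℚ, cj (liftU q * dunit Y) (dualMat r c.1 σ) =
      dm (cj q (r σ)) ((y σ • !![0, 1; 0, 0]) * cj q (r σ)) := by
    intro σ hσ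
    rw [← TW.cj_cj, cj_dunit_dualMat, cj_liftU, TW.cj_mul, hy σ hσ]
  have hHas := (TW.defAdic_hasMat hr c).conj (liftU q * dunit Y)
  have hfl := isFlatModule_of_hasMat hflat hHas
  have hentry : ∀ (M : M2 k) (a : k) (i j : Fin 2),
      dm M ((a • !![0, 1; 0, 0]) * M) i j =
        (if i = 0 then TrivSqZeroExt.inl (M 0 j) + TrivSqZeroExt.inr (a * M 1 j) else
          TrivSqZeroExt.inl (M 1 j)) := by
    intro M a i j
    rw [dm, Matrix.of_apply, TW.mul_apply_fin_two]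
    fin_cases i <;> simp
  have hK : KumOrd hp.out hA (fun σ => cj (liftU q * dunit Y) (dualMat r c.1 σ) 0 1) := by
    refine kumOrd_of_flat (hp := hp.out) (hA := hA) hK0 hfl (fun σ hσ => ?_) (fun σ hσ => ?_)
      (fun σ hσ a ha => ?_)
    · change cj (liftU q * dunit Y) (dualMat r c.1 σ) 1 0 = 0
      have hσD := TW.inertia_le_decomp hσ
      rw [hmat σ hσD, hentry, if_neg (by decide), (hq σ hσD).1, TrivSqZeroExt.inl_zero]
    · change cj (liftU q * dunit Y) (dualMat r c.1 σ) 1 1 = 1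
      have hσD := TW.inertia_le_decomp hσ
      rw [hmat σ hσD, hentry, if_neg (by decide), (hq σ hσD).2.1 hσ, TrivSqZeroExt.inl_one]
    · change cj (liftU q * dunit Y) (dualMat r c.1 σ) 0 0 = a
      have hσD := TW.inertia_le_decomp hσ
      rw [hmat σ hσD, hentry, if_pos rfl, (hq σ hσD).1, mul_zero, TrivSqZeroExt.inr_zero,
        add_zero, (hq σ hσD).2.2 a ha, (hq σ hσD).2.1 hσ, mul_one]
      simp
  have hKval : ∀ σ ∈ A.inertiaSubgroupIn ℚ,
      cj (liftU q * dunit Y) (dualMat r c.1 σ) 0 1 =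
        TrivSqZeroExt.inl (cj q (r σ) 0 1) + TrivSqZeroExt.inr (y σ) := by
    intro σ hσ
    have hσD := TW.inertia_le_decomp hσ
    rw [hmat σ hσD, hentry, if_pos rfl, (hq σ hσD).2.1 hσ, mul_one]
  obtain ⟨a, ha⟩ := TW.exists_trace_zero (k := k) hp2 Y
  refine ⟨q, hq, ?_, Y + a • (1 : M2 k), ha, y, ?_, ?_⟩
  · refine (hK.map (⟨⟨fun x : DualNumber k => TrivSqZeroExt.fst x, rfl⟩, fun _ _ => rfl⟩ :
      DualNumber k →+ k)).congr fun σ hσ => ?_
    change TrivSqZeroExt.fst _ = _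
    rw [hKval σ hσ]
    simp
  · refine (hK.map (⟨⟨fun x : DualNumber k => TrivSqZeroExt.snd x, rfl⟩, fun _ _ => rfl⟩ :
      DualNumber k →+ k)).congr fun σ hσ => ?_
    change TrivSqZeroExt.snd _ = _
    rw [hKval σ hσ]
    simp
  · intro σ hσ
    have h1 : act r 0 σ (Y + a • (1 : M2 k)) - (Y + a • (1 : M2 k)) = act r 0 σ Y - Y := by
      rw [map_add, TW.act_scalar]
      abel
    rw [h1, ← TW.cj_inv_cj q (c.1 σ - (act r 0 σ Y - Y)), hy σ hσ, TW.cj_smul]
    rfl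

/-- **The local bound for lifts which are flat and strictly ordinary** (FS). -/
theorem localBound_flat_strictOrdinary [Finite k] [hp : Fact p.Prime] (hp2 : p ≠ 2) [CharP k p]
    (hr : TW.IsFiniteLevel r) (hcyc : TW.CycDet p r) (A : ValuationSubring Om)
    (hA : A.LiesOverPrime p) :
    TW.LocalBound r (A.decompositionSubgroup ℚ)
      (fun c => (TW.defAdic hr c).IsFlatAt p ∧ (TW.defAdic hr c).IsStrictOrdinaryAt p) 3 := by
  have hfM : Finite (M2 k) := TW.finite_M2' k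
  by_cases hex : ∃ c : Z1 r (MonoidHom.id GQ) 0, (TW.defAdic hr c).IsFlatAt p ∧
      (TW.defAdic hr c).IsStrictOrdinaryAt p
  · obtain ⟨c0, hc0, hc0'⟩ := hex
    obtain ⟨Q, hQ, hKQ, -⟩ := exists_flat_ord hp2 hA hr hc0 hc0'
    obtain ⟨hfin, hle⟩ := card_flatCob_le (hA := hA) hp2 hr hcyc hQ hKQ
    refine ⟨flatCob hp.out hA r Q, hfin, hle, fun c hc => hc.1, fun X hX => ?_, fun c hc => ?_⟩
    · exact ⟨TW.cob_mem_Z1 _ hr 0 hX, X, hX, 0, zero_mem _, fun g => by
        rw [sub_self, Pi.zero_apply, zero_smul]⟩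
    · obtain ⟨Q', hQ', -, X, hX, y, hKy, hy⟩ := exists_flat_ord hp2 hA hr hc.1 hc.2
      obtain ⟨z, hz⟩ := TW.cj_upper (T := Q' * Q⁻¹) (TW.ordBasis_unique hp2 hA hQ hQ')
      have hnil : nilE Q' = z • nilE Q := by
        have h2 : nilE Q' = cj Q⁻¹ (cj (Q' * Q⁻¹)⁻¹ !![0, 1; 0, 0]) := by
          rw [TW.cj_cj, show Q⁻¹ * (Q' * Q⁻¹)⁻¹ = Q'⁻¹ by group]
          rfl
        rw [h2, hz, TW.cj_smul]
        rfl
      have hcD : (fun σ : A.decompositionSubgroup ℚ => c.1 σ) ∈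
          Z1 r (A.decompositionSubgroup ℚ).subtype 0 := by
        refine ⟨fun g => c.2.1 _, fun g h => c.2.2.1 _ _, ?_⟩
        obtain ⟨L, hL, h⟩ := c.2.2.2
        exact ⟨L, hL, fun g hg => h _ hg⟩
      have hval : ∀ g : A.decompositionSubgroup ℚ,
          ((fun σ : A.decompositionSubgroup ℚ => c.1 σ) -
            cob r (A.decompositionSubgroup ℚ).subtype 0 X) g = (y g * z) • nilE Q := by
        intro g
        rw [Pi.sub_apply, cob, Subgroup.coe_subtype, hy g g.2, hnil, smul_smul]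
      obtain ⟨y', hy'⟩ := TW.exists_chiCocyc hcyc hQ
        (sub_mem hcD (TW.cob_mem_Z1 _ hr 0 hX)) (fun g => ⟨_, hval g⟩)
      refine ⟨hcD, X, hX, y'.1, ⟨y'.2, ?_⟩, hy'⟩
      refine (hKy.map (AddMonoidHom.mulRight z)).congr fun g hg => ?_
      have hgD := TW.inertia_le_decomp hg
      rw [extZero_mk _ hgD]
      have h1 := hval ⟨g, hgD⟩
      rw [hy' ⟨g, hgD⟩] at h1
      have h4 := sub_eq_zero.mpr h1
      rw [← sub_smul] at h4
      exact (sub_eq_zero.mp ((smul_eq_zero.mp h4).resolve_right (TW.nilE_ne_zero Q))).symm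
  · refine ⟨(AddMonoidHom.mk' (fun X : {X : M2 k // X ∈ TW.Ad0 k} =>
      cob r (A.decompositionSubgroup ℚ).subtype 0 X.1) (fun X Y => ?_)).range, ?_, ?_, ?_, ?_, ?_⟩
    · funext g
      change cob r _ 0 (X.1 + Y.1) g = cob r _ 0 X.1 g + cob r _ 0 Y.1 g
      rw [cob, cob, cob, map_add]
      abel
    · exact Finite.of_surjective _ (AddMonoidHom.rangeRestrict_surjective _)
    · refine (Nat.card_le_card_of_surjective _ (AddMonoidHom.rangeRestrict_surjective _)).trans ?_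
      have h1 : Nat.card {X : M2 k // X ∈ TW.Ad0 k} = Nat.card k ^ 3 := TW.card_ad0
      rw [h1]
    · rintro _ ⟨X, rfl⟩
      exact TW.cob_mem_Z1 _ hr 0 X.2
    · intro X hX
      exact ⟨⟨X, hX⟩, rfl⟩
    · intro c hc
      exact absurd ⟨c, hc⟩ hex

end Main

end Fermat.Agent.FlatP
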