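import Fermat.Agent.FlatP.ShapeMat
import Fermat.Agent.FlatP.KummerGen
import Fermat.Agent.FlatP.CountTame
import Fermat.Agent.FlatGS.Pi

/-!
# The local structure at `p` of a two-dimensional flat module over `F_p`

For a flat two-dimensional Galois module `V` over `F_p` with cyclotomic determinant, `p` odd:
either there is a line on which inertia acts by the cyclotomic character, with trivial quotient,
and the extension classes are Kummer classes of units; or inertia acts through the fundamental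
characters of level two.
-/

set_option autoImplicit false

namespace Fermat.Agent.FlatP

open Fermat.Agent.FlatGS Fermat.Agent.MazurMult FermatAgent.ECVal IsLocalRing Matrix
open Fermat.Agent.S53norm (M2)

section Level

variable {p : ℕ} {M : Type} [AddCommGroup M] {act : GQ → M → M}
  {B : Subalgebra (Rp p) (M → Om)}

/-- a Galois module with a model is trivial on an open subgroup. -/
lemma _root_.Fermat.Agent.FlatGS.IsModel.exists_level [Finite M] (h : IsModel p act B) :
    ∃ L : IntermediateField ℚ Om, FiniteDimensional ℚ L ∧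
      ∀ σ : GQ, (∀ x ∈ L, σ x = x) → ∀ x, act σ x = x := by
  classical
  cases nonempty_fintype M
  have := h.fin
  let e := Module.Free.chooseBasis (Rp p) B
  let S : Set Om := Set.range fun ix : Module.Free.ChooseBasisIndex (Rp p) B × M =>
    (e ix.1 : M → Om) ix.2
  have hS : S.Finite := Set.finite_range _
  refine ⟨IntermediateField.adjoin ℚ S, ?_, ?_⟩
  · have := hS.to_subtype
    exact IntermediateField.finiteDimensional_adjoin fun x _ =>
      ((AlgebraicClosure.isAlgebraic ℚ).isAlgebraic x).isIntegral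
  · intro σ hσ x
    apply h.sep
    intro b hb
    rw [h.equivariant b hb]
    have h1 : b x = ∑ i, algebraMap (Rp p) Om (e.repr ⟨b, hb⟩ i) * (e i : M → Om) x := by
      have h2 := congrArg (ev B x) (e.sum_repr ⟨b, hb⟩)
      rw [map_sum] at h2
      change _ = b x at h2
      rw [← h2]
      refine Finset.sum_congr rfl fun i _ => ?_
      rw [map_smul, ev_apply, Algebra.smul_def]
    rw [h1, map_sum]
    refine Finset.sum_congr rfl fun i _ => ?_
    rw [map_mul, hσ _ (IntermediateField.subset_adjoin ℚ S ⟨(i, x), rfl⟩), Rp_algebraMap_Om]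
    congr 1
    exact σ.commutes _

end Level

section Ext

variable {p : ℕ} {F k : Type} [Field F] [Field k] [Algebra F k] [FiniteDimensional F k]

/-- extension of scalars. -/
noncomputable def extRep (k : Type) [Field k] [Algebra F k] (r : GQ →* M2 F) : GQ →* M2 k :=
  ((algebraMap F k).mapMatrix : M2 F →+* M2 k).toMonoidHom.comp r

omit [FiniteDimensional F k] in
lemma extRep_apply (r : GQ →* M2 F) (σ : GQ) (i j : Fin 2) :
    extRep k r σ i j = algebraMap F k (r σ i j) := rfl

lemma isFlatModule_extRep {r : GQ →* M2 F}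
    (h : IsFlatModule p (fun σ (v : Fin 2 → F) => r σ *ᵥ v)) :
    IsFlatModule p (fun σ (v : Fin 2 → k) => extRep k r σ *ᵥ v) := by
  let e := Module.finBasis F k
  have h1 := h.pi (Fin (Module.finrank F k))
  let i : (Fin 2 → k) ≃+ (Fin (Module.finrank F k) → Fin 2 → F) :=
    { toFun := fun x j i => e.equivFun (x i) j
      invFun := fun f i => e.equivFun.symm fun j => f j i
      left_inv := fun x => by
        funext i
        exact e.equivFun.symm_apply_apply (x i)
      right_inv := fun f => by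
        funext j i
        exact congrFun (e.equivFun.apply_symm_apply fun j => f j i) j
      map_add' := fun x y => by
        funext j i
        simp }
  refine h1.of_equiv i fun σ x => ?_
  funext j i
  change e.equivFun ((extRep k r σ *ᵥ x) i) j = (r σ *ᵥ fun l => e.equivFun (x l) j) i
  rw [mulVec, mulVec, dotProduct, dotProduct, Fin.sum_univ_two, Fin.sum_univ_two, map_add,
    extRep_apply, extRep_apply, ← Algebra.smul_def, ← Algebra.smul_def, map_smul, map_smul]
  rfl

end Ext

section Dichotomy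

/-- there is a finite field over which all characteristic polynomials of `2 × 2` matrices over
`F_p` split. -/
lemma exists_split_field (p : ℕ) [hpF : Fact p.Prime] :
    ∃ (k : Type) (_ : Field k) (_ : Algebra (ZMod p) k), FiniteDimensional (ZMod p) k ∧
      ∀ X : M2 (ZMod p), (X.charpoly.map (algebraMap (ZMod p) k)).Splits := by
  classical
  let P : Polynomial (ZMod p) := ∏ X : M2 (ZMod p), X.charpoly
  have hP0 : P ≠ 0 := Finset.prod_ne_zero_iff.mpr fun X _ => X.charpoly_monic.ne_zero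
  refine ⟨P.SplittingField, inferInstance, inferInstance, inferInstance, fun X => ?_⟩
  refine Polynomial.Splits.of_dvd (Polynomial.SplittingField.splits P)
    ((Polynomial.map_ne_zero_iff (algebraMap (ZMod p) _).injective).mpr hP0) ?_
  exact Polynomial.map_dvd _ (Finset.dvd_prod_of_mem _ (Finset.mem_univ X))

lemma exists_eq_of_splits {k : Type} [Field k] (X : M2 k) (h2 : X.charpoly.Splits) :
    ∃ α β : k, X.charpoly =
      (Polynomial.X - Polynomial.C α) * (Polynomial.X - Polynomial.C β) := by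
  have h3 : X.charpoly.Monic := Matrix.charpoly_monic _
  have h4 : X.charpoly.natDegree = 2 := by
    rw [Matrix.charpoly_natDegree_eq_dim, Fintype.card_fin]
  have h5 := h2.eq_prod_roots_of_monic h3
  have h6 : Multiset.card X.charpoly.roots = 2 := h2.natDegree_eq_card_roots.symm.trans h4
  obtain ⟨α, β, hαβ⟩ := Multiset.card_eq_two.mp h6
  refine ⟨α, β, ?_⟩
  rw [h5, hαβ]
  simp

variable {p : ℕ} [hpF : Fact p.Prime] {A : ValuationSubring Om} {r : GQ →* M2 (ZMod p)}
  {k : Type} [Field k] [Algebra (ZMod p) k]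

lemma incl_mem_V0 {w : Fin 2 → ZMod p} (hw : w ∈ V0 r A) :
    (fun i => algebraMap (ZMod p) k (w i)) ∈ V0 (extRep k r) A := by
  let f : (Fin 2 → ZMod p) →+ (Fin 2 → k) :=
    { toFun := fun w i => algebraMap (ZMod p) k (w i)
      map_zero' := by funext i; simp
      map_add' := fun x y => by funext i; simp }
  have h1 : AddSubgroup.closure {y | ∃ σ ∈ A.inertiaSubgroupIn ℚ, ∃ x, r σ *ᵥ x - x = y} ≤
      (V0 (extRep k r) A).toAddSubgroup.comap f := by
    rw [AddSubgroup.closure_le]
    rintro _ ⟨σ, hσ, x, rfl⟩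
    rw [SetLike.mem_coe, AddSubgroup.mem_comap]
    have h2 := sub_mem_V0 (r := extRep k r) hσ (f x)
    have h3 : f (r σ *ᵥ x - x) = extRep k r σ *ᵥ f x - f x := by
      rw [map_sub]
      congr 1
      funext i
      change algebraMap (ZMod p) k ((r σ *ᵥ x) i) = (extRep k r σ *ᵥ f x) i
      rw [mulVec, mulVec, dotProduct, dotProduct, Fin.sum_univ_two, Fin.sum_univ_two,
        map_add, map_mul, map_mul]
      rfl
    rw [h3]
    exact h2
  exact h1 hw

/-- the supersingular case over `F_p`. -/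
theorem ss_iff [Finite k] [FiniteDimensional (ZMod p) k] (hp2 : p ≠ 2) (hA : A.LiesOverPrime p)
    (hflat : IsFlatModule p (fun σ (v : Fin 2 → ZMod p) => r σ *ᵥ v)) (hdet : TW.CycDet p r)
    (hsp : ∀ X : M2 (ZMod p), (X.charpoly.map (algebraMap (ZMod p) k)).Splits)
    (htop : V0 r A = ⊤) {π : Om} (hπ : π ^ (p ^ 2 - 1) = (p : Om)) {σ : GQ}
    (hσ : σ ∈ A.inertiaSubgroupIn ℚ) : σ π = π ↔ r σ = 1 := by
  classical
  have hp := hpF.out
  have hchar : CharP k p := charP_of_injective_algebraMap (algebraMap (ZMod p) k).injective p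
  obtain ⟨-, B, hB⟩ := (isFlatModule_extRep (k := k) hflat).exists_model
  have hdetk : TW.CycDet p (extRep k r) := by
    intro σ a ha
    have h1 := hdet σ a ha
    have h2 : (extRep k r σ).det = algebraMap (ZMod p) k (r σ).det :=
      ((algebraMap (ZMod p) k).map_det (r σ)).symm
    rw [h2, h1, map_natCast]
  have hlev : TW.IsFiniteLevel (extRep k r) := by
    obtain ⟨L, hL, hLσ⟩ := hB.exists_level
    refine ⟨L, hL, fun σ hσ => ?_⟩
    apply Matrix.ext_of_mulVec_single
    intro i
    rw [one_mulVec]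
    exact hLσ σ hσ _
  have hsplit : ∀ σ, ∃ α β : k, (extRep k r σ).charpoly =
      (Polynomial.X - Polynomial.C α) * (Polynomial.X - Polynomial.C β) := by
    intro σ
    have h1 : (extRep k r σ).charpoly = (r σ).charpoly.map (algebraMap (ZMod p) k) :=
      Matrix.charpoly_map _ _
    refine exists_eq_of_splits _ ?_
    rw [h1]
    exact hsp _
  -- the connected part of the extension is everything
  have htopk : ∀ x, x ∈ V0 (extRep k r) A := by
    intro x
    have h0 := incl_mem_V0 (k := k) (w := ![1, 0]) (A := A) (r := r)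
      (by rw [htop]; exact Submodule.mem_top)
    have h1 := incl_mem_V0 (k := k) (w := ![0, 1]) (A := A) (r := r)
      (by rw [htop]; exact Submodule.mem_top)
    have h2 : x = x 0 • (fun i => algebraMap (ZMod p) k ((![1, 0] : Fin 2 → ZMod p) i)) +
        x 1 • (fun i => algebraMap (ZMod p) k ((![0, 1] : Fin 2 → ZMod p) i)) := by
      funext i
      fin_cases i <;> simp
    rw [h2]
    exact Submodule.add_mem _ (Submodule.smul_mem _ _ h0) (Submodule.smul_mem _ _ h1)
  obtain ⟨ι, ψ, v₁, v₂, hli, hg⟩ := connected_case hB hp hp2 hA hdetk hlev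
    (fun x => (mem_conn_iff_mem_V0 hB hp hp2 hA nsmul_eq_zero_of_char x).mpr (htopk x)) hπ hsplit
  have hcs : Nat.Coprime (p ^ 2 - 1) p := by
    rw [Nat.coprime_comm, hp.coprime_iff_not_dvd]
    intro hdvd
    have h3 : p ∣ p ^ 2 := dvd_pow_self p two_ne_zero
    have h4 : 1 ≤ p ^ 2 := Nat.one_le_pow _ _ hp.pos
    have h5 := Nat.dvd_sub h3 hdvd
    rw [Nat.sub_sub_self h4] at h5
    exact hp.one_lt.ne' (Nat.dvd_one.mp h5)
  have hpos : 0 < p ^ 2 - 1 := by
    have h5 : 1 < p ^ 2 := Nat.one_lt_pow two_ne_zero hp.one_lt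
    omega
  have hπ0 : π ≠ 0 := (is_root hp hA hpos hπ).1
  obtain ⟨h1, h2, h3⟩ := hg σ hσ
  have hinj : extRep k r σ = 1 → r σ = 1 := by
    intro h
    ext i j
    apply (algebraMap (ZMod p) k).injective
    have h4 := congrFun (congrFun h i) j
    rw [extRep_apply] at h4
    rw [h4, Matrix.one_apply, Matrix.one_apply]
    split_ifs <;> simp
  constructor
  · intro hσπ
    apply hinj
    have h4 : ψ σ = 1 := by
      apply ι.injective
      rw [← h1, map_one, ts, hσπ, div_self hπ0, rs_one]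
    rw [h4, one_smul] at h2
    rw [h4, one_pow, one_smul] at h3
    apply Matrix.ext_of_mulVec_single
    intro i
    obtain ⟨x, y, hxy⟩ := exists_coord hli (Pi.single i 1)
    rw [hxy, mulVec_add, mulVec_smul, mulVec_smul, h2, h3, one_mulVec]
  · intro hrσ
    have hr1 : extRep k r σ = 1 := by
      rw [extRep, MonoidHom.comp_apply, hrσ]
      exact map_one _
    rw [hr1, one_mulVec] at h2
    have hv₁0 : v₁ ≠ 0 := by
      intro h0
      have := (eq_zero_of_coord hli (a := 1) (b := 0) (by rw [h0]; simp)).1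
      exact one_ne_zero this
    have h4 : ψ σ = 1 := by
      apply smul_left_injective k hv₁0
      simp only
      rw [← h2, one_smul]
    rw [h4, map_one, ts] at h1
    have hu : (σ π / π) ^ (p ^ 2 - 1) = 1 := by
      have hp0 : (p : Om) ≠ 0 := Nat.cast_ne_zero.mpr hp.ne_zero
      rw [div_pow, ← map_pow, hπ, map_natCast, div_self hp0]
    have h5 := eq_one_of_rs hp hA hcs hu h1
    exact (div_eq_one_iff_eq hπ0).mp h5

/-- the dichotomy: the connected part is a line, or everything and inertia acts through the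
fundamental characters of level two. -/
theorem dichotomy (hp2 : p ≠ 2) (hA : A.LiesOverPrime p)
    (hflat : IsFlatModule p (fun σ (v : Fin 2 → ZMod p) => r σ *ᵥ v)) (hdet : TW.CycDet p r) :
    (∃ v : Fin 2 → ZMod p, v ≠ 0 ∧ V0 r A = Submodule.span (ZMod p) {v}) ∨
    (V0 r A = ⊤ ∧ ∀ π : Om, π ^ (p ^ 2 - 1) = (p : Om) → ∀ σ ∈ A.inertiaSubgroupIn ℚ,
      (σ π = π ↔ r σ = 1)) := by
  classical
  have hp := hpF.out
  -- `V0 ≠ 0`
  have hbot : V0 r A ≠ ⊥ := by
    intro hbot
    obtain ⟨σ, hσ, hσd⟩ := exists_det_neg_one hp hA hdet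
    have h1 : r σ = 1 := by
      apply Matrix.ext_of_mulVec_single
      intro i
      have h2 := sub_mem_V0 (r := r) hσ (Pi.single i 1)
      rw [hbot, Submodule.mem_bot, sub_eq_zero] at h2
      rw [h2, one_mulVec]
    rw [h1, det_one] at hσd
    exact neg_one_ne_one hp2 hσd.symm
  obtain ⟨v, hv, hv0⟩ := (Submodule.ne_bot_iff _).mp hbot
  by_cases htop : V0 r A = ⊤
  · right
    refine ⟨htop, fun π hπ σ hσ => ?_⟩
    obtain ⟨k, i1, i2, hfd, hsp⟩ := exists_split_field p
    have hfin : Finite k := Module.finite_of_finite (ZMod p)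
    exact ss_iff (k := k) hp2 hA hflat hdet hsp htop hπ hσ
  · left
    refine ⟨v, hv0, le_antisymm ?_ ?_⟩
    · intro w hw
      by_contra hcon
      apply htop
      have hli : LinearIndependent (ZMod p) ![v, w] := by
        rw [LinearIndependent.pair_iff' hv0]
        intro a ha
        exact hcon (Submodule.mem_span_singleton.mpr ⟨a, ha⟩)
      rw [eq_top_iff]
      intro u _
      obtain ⟨x, y, hxy⟩ := exists_coord hli u
      rw [hxy]
      exact Submodule.add_mem _ (Submodule.smul_mem _ _ hv) (Submodule.smul_mem _ _ hw)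
    · rw [Submodule.span_singleton_le_iff_mem]
      exact hv

end Dichotomy

section OrdLocal

variable {p : ℕ} [hpF : Fact p.Prime] {A : ValuationSubring Om} {r : GQ →* M2 (ZMod p)}

omit hpF in
lemma valuation_eq_one (hp : p.Prime) (hA : A.LiesOverPrime p) {x : Om}
    (hx : (valOf hp hA).Is 0 x) : A.valuation x = 1 := by
  have h1 : x ∈ A := (valOf_ge_zero_iff hp hA).mp hx.ge
  have h2 : x⁻¹ ∈ A := (valOf_ge_zero_iff hp hA).mp ((hx.inv.congr (by ring)).ge)
  apply le_antisymm
  · exact (A.valuation_le_one_iff x).mpr h1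
  · have h3 := (A.valuation_le_one_iff x⁻¹).mpr h2
    rw [map_inv₀] at h3
    have h4 : A.valuation x ≠ 0 := (map_ne_zero A.valuation).mpr hx.1
    exact (inv_le_one₀ (zero_lt_iff.mpr h4)).mp h3

/-- inertia acts on the line by the cyclotomic character. -/
lemma mulVec_line {v : Fin 2 → ZMod p} (hv0 : v ≠ 0)
    (hv : V0 r A = Submodule.span (ZMod p) {v}) {σ : GQ} (hσ : σ ∈ A.inertiaSubgroupIn ℚ)
    {z : Fin 2 → ZMod p} (hz : z ∈ V0 r A) : r σ *ᵥ z = (r σ).det • z := by
  have hσD := TW.inertia_le_decomp hσ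
  have hvV : v ∈ V0 r A := by
    rw [hv]
    exact Submodule.mem_span_singleton_self v
  obtain ⟨w, hli⟩ := exists_li hv0
  have h1 := mulVec_mem_V0 hσD hvV
  rw [hv] at h1
  obtain ⟨χ, hχ⟩ := Submodule.mem_span_singleton.mp h1
  have h2 := sub_mem_V0 (r := r) hσ w
  rw [hv] at h2
  obtain ⟨a, ha⟩ := Submodule.mem_span_singleton.mp h2
  have h3 : r σ *ᵥ w = a • v + (1 : ZMod p) • w := by
    rw [ha, one_smul, sub_add_cancel]
  have h4 := det_of_triangular hli hχ.symm h3
  rw [mul_one] at h4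
  rw [hv] at hz
  obtain ⟨c, rfl⟩ := Submodule.mem_span_singleton.mp hz
  rw [mulVec_smul, ← hχ, h4, smul_comm]

/-- **Ordinary case**: the extension classes are Kummer classes of units. -/
theorem ord_kummer (hA : A.LiesOverPrime p)
    (hflat : IsFlatModule p (fun σ (v : Fin 2 → ZMod p) => r σ *ᵥ v)) (hdet : TW.CycDet p r)
    {v : Fin 2 → ZMod p} (hv0 : v ≠ 0) (hv : V0 r A = Submodule.span (ZMod p) {v}) {ζ : Om}
    (hζ : IsPrimitiveRoot ζ p) {z : Fin 2 → ZMod p} (hz : z ∈ V0 r A) (hz0 : z ≠ 0)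
    (x : Fin 2 → ZMod p) :
    ∃ ρ : Om, A.valuation ρ = 1 ∧ ρ ≠ 0 ∧
      (∃ α : Om, (valOf hpF.out hA).Ge 0 α ∧ ρ ^ p = 1 + p * α) ∧
      (∀ σ ∈ A.inertiaSubgroupIn ℚ, σ (ρ ^ p) = ρ ^ p) ∧
      ∀ σ ∈ A.inertiaSubgroupIn ℚ, ∃ c : ZMod p, r σ *ᵥ x = x + c • z ∧ σ ρ = ζ ^ c.val * ρ := by
  classical
  have hp := hpF.out
  obtain ⟨-, B, hB⟩ := hflat.exists_model
  -- a functional with `g z = 1`
  obtain ⟨g, hg⟩ : ∃ g : (Fin 2 → ZMod p) →ₗ[ZMod p] ZMod p, g z = 1 := by
    obtain ⟨i, hi⟩ : ∃ i, z i ≠ 0 := by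
      by_contra hcon
      push Not at hcon
      exact hz0 (funext hcon)
    exact ⟨(z i)⁻¹ • LinearMap.proj i, by simp [hi]⟩
  have hline : ∀ y ∈ V0 r A, y = g y • z := by
    intro y hy
    rw [hv] at hy hz
    obtain ⟨a, rfl⟩ := Submodule.mem_span_singleton.mp hy
    obtain ⟨b, hb⟩ := Submodule.mem_span_singleton.mp hz
    have hb0 : b ≠ 0 := by
      rintro rfl
      rw [zero_smul] at hb
      exact hz0 hb.symm
    have h1 : a • v = (a * b⁻¹) • z := by
      rw [← hb, smul_smul, mul_assoc, inv_mul_cancel₀ hb0, mul_one]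
    rw [h1, map_smul, hg, smul_eq_mul, mul_one]
  let N : AddSubgroup (Fin 2 → ZMod p) := (V0 r A).toAddSubgroup
  let ch : AddChar (ZMod p) Om := AddChar.zmodChar p hζ.pow_eq_one
  let lam : AddChar N Om := ch.compAddMonoidHom (g.toAddMonoidHom.comp N.subtype)
  have hlam_apply : ∀ (y : Fin 2 → ZMod p) (hy : y ∈ N), lam ⟨y, hy⟩ = ζ ^ (g y).val := by
    intro y hy
    change ch (g y) = _
    exact AddChar.zmodChar_apply hζ.pow_eq_one _
  have hN : ∀ σ ∈ A.inertiaSubgroupIn ℚ, ∀ y ∈ N, r σ *ᵥ y ∈ N := fun σ hσ y hy =>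
    mulVec_mem_V0 (TW.inertia_le_decomp hσ) hy
  have hlam : ∀ σ (hσ : σ ∈ A.inertiaSubgroupIn ℚ) (y : Fin 2 → ZMod p) (hy : y ∈ N),
      lam ⟨r σ *ᵥ y, hN σ hσ y hy⟩ = σ (lam ⟨y, hy⟩) := by
    intro σ hσ y hy
    obtain ⟨a, ha, ha'⟩ := exists_cyc hp hζ σ
    rw [hlam_apply, hlam_apply, map_pow, ha, mulVec_line hv0 hv hσ hy, map_smul, hdet σ a ha',
      smul_eq_mul, ← pow_mul]
    have h1 : ((a : ZMod p) * g y) = ((a * (g y).val : ℕ) : ZMod p) := by
      rw [Nat.cast_mul, ZMod.natCast_zmod_val]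
    rw [h1, ZMod.val_natCast]
    conv_rhs => rw [← Nat.mod_add_div (a * (g y).val) p, pow_add, pow_mul, hζ.pow_eq_one, one_pow,
      mul_one]
  obtain ⟨ρ, α, hα, hα0, hρ, hρσ⟩ := kummer_ord hp hA hB nsmul_eq_zero_of_char hN hlam (x := x)
    (fun σ hσ => sub_mem_V0 hσ x)
  have hfix : ∀ σ ∈ A.inertiaSubgroupIn ℚ, σ (ρ ^ p) = ρ ^ p := by
    intro σ hσ
    rw [hρ, map_add, map_mul, map_one, map_natCast, hα σ hσ]
  have h1p : (valOf hp hA).Is 0 (1 + p * α) := by
    have h2 : (valOf hp hA).Gt 0 ((p : Om) * α) := by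
      have h3 := ((valOf_prime hp hA).ge.mul hα0)
      exact h3.gt (by norm_num)
    exact QVal.is_one.add_gt h2
  have hρ0 : ρ ≠ 0 := by
    rintro rfl
    rw [zero_pow hp.ne_zero] at hρ
    exact h1p.1 hρ.symm
  have hρIs : (valOf hp hA).Is 0 ρ := by
    refine ⟨hρ0, ?_⟩
    have h2 := (QVal.Is.of_ne (w := valOf hp hA) hρ0).pow p
    rw [hρ] at h2
    have h3 := h2.unique h1p
    rcases mul_eq_zero.mp h3 with h4 | h4
    · exact absurd h4 (by exact_mod_cast hp.ne_zero)
    · exact h4
  refine ⟨ρ, valuation_eq_one hp hA hρIs, hρ0, ⟨α, hα0, hρ⟩, hfix, fun σ hσ => ?_⟩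
  have h1 := sub_mem_V0 (r := r) hσ x
  refine ⟨g (r σ *ᵥ x - x), ?_, ?_⟩
  · rw [← hline _ h1, add_sub_cancel]
  · exact (hρσ σ hσ).trans (congrArg (· * ρ) (hlam_apply _ h1))

/-- the value group of the field of `E[p]` in the supersingular case. -/
theorem ss_val (hA : A.LiesOverPrime p) {π : Om} (hπ : π ^ (p ^ 2 - 1) = (p : Om)) {y : Om}
    (hy0 : y ≠ 0) (hy : ∀ σ ∈ A.inertiaSubgroupIn ℚ, σ π = π → σ y = y) :
    ∃ m : ℤ, (valOf hpF.out hA).Is (m / ((p ^ 2 - 1 : ℕ) : ℚ)) y := by
  have h1 := (index_pi hpF.out hA hπ).1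
  have hfin := finiteIndex_stabilizer (A.inertiaSubgroupIn ℚ) π
  obtain ⟨m, hm⟩ := (localData hpF.out hA).exists_val_eq hfin (y := y)
    (fun g hg => hy g g.2 hg) hy0
  rw [h1] at hm
  exact ⟨m, hy0, hm⟩

end OrdLocal

end Fermat.Agent.FlatP
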