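import Fermat.Agent.FlatP.CocMod
import Fermat.Agent.FlatP.Conn

/-!
# Ordinary flat deformations: the line over the dual numbers
-/

set_option autoImplicit false

namespace Fermat.Agent.FlatP

open Matrix Fermat.Agent.FlatGS Fermat.Agent.MazurMult Fermat.Agent.TW FermatAgent.ECVal
open Fermat.Agent.S53norm (M2 HasMat)
open Fermat.Agent.Minkowski

section restrict

variable {p : ℕ} {M M' : Type} [AddCommGroup M] [AddCommGroup M'] {act : GQ → M → M}
  {act' : GQ → M' → M'} {B : Subalgebra (Rp p) (M → Om)}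

/-- The model of a Galois stable subgroup. -/
theorem isModel_restrict (hB : IsModel p act B) (i : M' →+ M)
    (hi : Function.Injective i) (hact : ∀ σ m, i (act' σ m) = act σ (i m)) :
    IsModel p act' (B.map (pull p i)) := by
  refine ⟨?_, ?_, ?_, ?_⟩
  · have := hB.fin
    exact Module.Finite.map B.toSubmodule (pull p i).toLinearMap
  · rintro _ ⟨b, hb, rfl⟩ σ m
    change b (i (act' σ m)) = σ (b (i m))
    rw [hact, hB.equivariant b hb]
  · intro m m' hmm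
    apply hi
    apply hB.sep
    intro b hb
    exact hmm _ ⟨b, hb, rfl⟩
  · rintro _ ⟨_, ⟨b, hb, rfl⟩, rfl⟩
    rw [Subalgebra.map_map, Subalgebra.map_map]
    have h1 := hB.comul_pull (fun x : M' × M' => i x.1) (fun x : M' × M' => i x.2) hb
    have h2 : (fun x : M' × M' => b (i x.1 + i x.2)) =
        pull p (fun x : M' × M' => x.1 + x.2) (pull p i b) := by
      funext x
      change b (i x.1 + i x.2) = b (i (x.1 + x.2))
      rw [map_add]
    rw [h2] at h1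
    exact h1

/-- Exactness of the connected part on the left. -/
theorem mem_closure_of_injective [Finite M] {A : ValuationSubring Om} (hB : IsModel p act B)
    (hp : p.Prime) (hp2 : p ≠ 2) (hA : A.LiesOverPrime p) (hpM : ∀ x : M, p • x = 0)
    (i : M' →+ M) (hi : Function.Injective i) (hact : ∀ σ m, i (act' σ m) = act σ (i m)) {y : M'}
    (hy : i y ∈ AddSubgroup.closure {z | ∃ σ ∈ A.inertiaSubgroupIn ℚ, ∃ x, act σ x - x = z}) :
    y ∈ AddSubgroup.closure {z | ∃ σ ∈ A.inertiaSubgroupIn ℚ, ∃ x, act' σ x - x = z} := by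
  have : Finite M' := Finite.of_injective i hi
  have hM := isModel_restrict (act' := act') hB i hi hact
  rw [← conn_eq_closure hM hp hp2 hA (fun x => hi (by rw [map_nsmul, hpM, map_zero]))]
  rw [← conn_eq_closure hB hp hp2 hA hpM] at hy
  rw [mem_conn] at hy ⊢
  rintro _ ⟨b, hb, rfl⟩
  have h1 := hy b hb
  change b (i y) - b (i 0) ∈ A.nonunits
  rw [map_zero]
  exact h1

end restrict

section line

variable {k : Type} [Field k] [Finite k] {p : ℕ} [hp : Fact p.Prime] [CharP k p]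
  {A : ValuationSubring Om} {r : GQ →* M2 k}

omit [Finite k] hp in
lemma p_smul_pair (v : (Fin 2 → k) × (Fin 2 → k)) : p • v = 0 := by
  apply Prod.ext
  · funext i
    change p • v.1 i = 0
    rw [nsmul_eq_mul, CharP.cast_eq_zero, zero_mul]
  · funext i
    change p • v.2 i = 0
    rw [nsmul_eq_mul, CharP.cast_eq_zero, zero_mul]

lemma mulVec_zero_apply' (X : M2 k) (v : Fin 2 → k) : (X *ᵥ v) 0 = X 0 0 * v 0 + X 0 1 * v 1 := by
  simp [mulVec, dotProduct, Fin.sum_univ_two]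

lemma mulVec_one_apply' (X : M2 k) (v : Fin 2 → k) : (X *ᵥ v) 1 = X 1 0 * v 0 + X 1 1 * v 1 := by
  simp [mulVec, dotProduct, Fin.sum_univ_two]

/-- The subgroup generated by the `σ x - x`. -/
def conn' (A : ValuationSubring Om) {M : Type} [AddCommGroup M] (act : GQ → M → M) :
    AddSubgroup M :=
  AddSubgroup.closure {z | ∃ σ ∈ A.inertiaSubgroupIn ℚ, ∃ x, act σ x - x = z}

omit [Finite k] in
lemma pact_add (r c : GQ → M2 k) (σ : GQ) (v w : (Fin 2 → k) × (Fin 2 → k)) :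
    pact r c σ (v + w) = pact r c σ v + pact r c σ w := by
  apply Prod.ext
  · change r σ *ᵥ (v.1 + w.1) = r σ *ᵥ v.1 + r σ *ᵥ w.1
    rw [mulVec_add]
  · change r σ *ᵥ (v.2 + w.2) + c σ *ᵥ (r σ *ᵥ (v.1 + w.1)) =
      r σ *ᵥ v.2 + c σ *ᵥ (r σ *ᵥ v.1) + (r σ *ᵥ w.2 + c σ *ᵥ (r σ *ᵥ w.1))
    rw [mulVec_add, mulVec_add, mulVec_add]
    abel

omit [Finite k] in
lemma pact_smul (r c : GQ → M2 k) (σ : GQ) (a : k) (v : (Fin 2 → k) × (Fin 2 → k)) :
    pact r c σ (a • v) = a • pact r c σ v := by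
  apply Prod.ext
  · change r σ *ᵥ (a • v.1) = a • (r σ *ᵥ v.1)
    rw [mulVec_smul]
  · change r σ *ᵥ (a • v.2) + c σ *ᵥ (r σ *ᵥ (a • v.1)) =
      a • (r σ *ᵥ v.2 + c σ *ᵥ (r σ *ᵥ v.1))
    rw [mulVec_smul, mulVec_smul, mulVec_smul, smul_add]

/-- Multiplication by `ε`. -/
def epsHom (k : Type) [Field k] : (Fin 2 → k) × (Fin 2 → k) →+ (Fin 2 → k) × (Fin 2 → k) where
  toFun v := (0, v.1)
  map_zero' := rfl
  map_add' v w := Prod.ext (add_zero _).symm rfl

omit [Finite k] in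
lemma pact_eps (r c : GQ → M2 k) (σ : GQ) (v : (Fin 2 → k) × (Fin 2 → k)) :
    pact r c σ (epsHom k v) = epsHom k (pact r c σ v) := by
  apply Prod.ext
  · change r σ *ᵥ 0 = 0
    rw [mulVec_zero]
  · change r σ *ᵥ v.1 + c σ *ᵥ (r σ *ᵥ 0) = r σ *ᵥ v.1
    rw [mulVec_zero, mulVec_zero, add_zero]

/-- stability of `conn'` under commuting endomorphisms -/
lemma conn'_map {M : Type} [AddCommGroup M] {act : GQ → M → M} (f : M →+ M)
    (hf : ∀ σ ∈ A.inertiaSubgroupIn ℚ, ∃ τ ∈ A.inertiaSubgroupIn ℚ,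
      ∀ x, f (act σ x) = act τ (f x)) {v : M} (hv : v ∈ conn' A act) : f v ∈ conn' A act := by
  have h1 : conn' A act ≤ (conn' A act).comap f := by
    rw [conn', AddSubgroup.closure_le]
    rintro _ ⟨σ, hσ, x, rfl⟩
    obtain ⟨τ, hτ, h⟩ := hf σ hσ
    refine AddSubgroup.subset_closure ⟨τ, hτ, f x, ?_⟩
    rw [map_sub, h]
  exact h1 hv

omit [Finite k] [CharP k p] in
lemma pact_mul {c : GQ → M2 k} (hc : c ∈ Z1 r (MonoidHom.id GQ) 0) (σ τ : GQ)
    (v : (Fin 2 → k) × (Fin 2 → k)) : pact r c (σ * τ) v = pact r c σ (pact r c τ v) := by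
  have h1 : c (σ * τ) = c σ + r σ * c τ * r σ⁻¹ := by
    have := hc.2.1 σ τ
    rwa [MonoidHom.id_apply, act_zero_apply] at this
  apply Prod.ext
  · change r (σ * τ) *ᵥ v.1 = r σ *ᵥ (r τ *ᵥ v.1)
    rw [map_mul, mulVec_mulVec]
  · change r (σ * τ) *ᵥ v.2 + c (σ * τ) *ᵥ (r (σ * τ) *ᵥ v.1) =
      r σ *ᵥ (r τ *ᵥ v.2 + c τ *ᵥ (r τ *ᵥ v.1)) + c σ *ᵥ (r σ *ᵥ (r τ *ᵥ v.1))
    rw [h1, map_mul, add_mulVec, mulVec_add]
    have h2 : (r σ * c τ * r σ⁻¹) *ᵥ ((r σ * r τ) *ᵥ v.1) = r σ *ᵥ (c τ *ᵥ (r τ *ᵥ v.1)) := by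
      rw [mulVec_mulVec, mulVec_mulVec, mulVec_mulVec]
      congr 1
      calc r σ * c τ * r σ⁻¹ * (r σ * r τ) = r σ * c τ * (r σ⁻¹ * r σ) * r τ := by noncomm_ring
        _ = _ := by rw [r_inv_mul, mul_one, mul_assoc]
    rw [h2, mulVec_mulVec v.2, mulVec_mulVec v.1 (r σ) (r τ)]
    abel

/-- **The line over the dual numbers.** -/
theorem exists_line (hp2 : p ≠ 2) (hA : A.LiesOverPrime p) (hcyc : CycDet p r)
    (hup : ∀ σ ∈ A.decompositionSubgroup ℚ, r σ 1 0 = 0)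
    (hI : ∀ σ ∈ A.inertiaSubgroupIn ℚ, r σ 1 1 = 1) {c : GQ → M2 k}
    (hc : c ∈ Z1 r (MonoidHom.id GQ) 0) (hflat : IsFlatModule p (pact r c)) :
    ∃ x : k, ∀ σ ∈ A.decompositionSubgroup ℚ,
      (c σ + cob r (MonoidHom.id GQ) 0 !![0, 0; x, 0] σ) 1 0 = 0 ∧
      (σ ∈ A.inertiaSubgroupIn ℚ →
        (c σ + cob r (MonoidHom.id GQ) 0 !![0, 0; x, 0] σ) 1 1 = 0) := by
  have hpp : p.Prime := hp.out
  have hNZ : NeZero p := ⟨hpp.ne_zero⟩
  obtain ⟨hfin, B, hB⟩ := hflat.exists_model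
  have hpM : ∀ v : (Fin 2 → k) × (Fin 2 → k), p • v = 0 := p_smul_pair
  -- stability properties
  have hsmul : ∀ (a : k) {v : (Fin 2 → k) × (Fin 2 → k)}, v ∈ conn' A (pact r c) →
      a • v ∈ conn' A (pact r c) := by
    intro a v hv
    exact conn'_map (A := A) (act := pact r c)
      (DistribSMul.toAddMonoidHom ((Fin 2 → k) × (Fin 2 → k)) a)
      (fun σ hσ => ⟨σ, hσ, fun x => (pact_smul r c σ a x).symm⟩) hv
  have hDst : ∀ σ ∈ A.decompositionSubgroup ℚ, ∀ {v : (Fin 2 → k) × (Fin 2 → k)},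
      v ∈ conn' A (pact r c) → pact r c σ v ∈ conn' A (pact r c) := by
    intro σ hσ v hv
    let f : (Fin 2 → k) × (Fin 2 → k) →+ (Fin 2 → k) × (Fin 2 → k) :=
      AddMonoidHom.mk' (pact r c σ) (pact_add r c σ)
    refine conn'_map (A := A) (act := pact r c) f (fun τ hτ => ⟨σ * τ * σ⁻¹, ?_, fun x => ?_⟩) hv
    · have := conj_mem_inertia_of_decomp (A := A) (inv_mem hσ) hτ
      rwa [inv_inv] at this
    · change pact r c σ (pact r c τ x) = pact r c (σ * τ * σ⁻¹) (pact r c σ x)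
      rw [← pact_mul hc, ← pact_mul hc]
      congr 1
      group
  -- the intersection with `ε V`
  have heps : ∀ y : Fin 2 → k, ((0, y) : (Fin 2 → k) × (Fin 2 → k)) ∈ conn' A (pact r c) →
      y 1 = 0 := by
    intro y hy
    let i : (Fin 2 → k) →+ (Fin 2 → k) × (Fin 2 → k) := AddMonoidHom.inr _ _
    have h1 := mem_closure_of_injective (act' := fun σ v => r σ *ᵥ v) hB hpp hp2 hA hpM i
      (fun a b hab => congrArg Prod.snd hab) (by
        intro σ m
        apply Prod.ext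
        · change 0 = r σ *ᵥ 0
          rw [mulVec_zero]
        · change r σ *ᵥ m = r σ *ᵥ m + c σ *ᵥ (r σ *ᵥ 0)
          rw [mulVec_zero, mulVec_zero, add_zero]) (y := y) hy
    let N : AddSubgroup (Fin 2 → k) :=
      { carrier := {v | v 1 = 0}
        zero_mem' := rfl
        add_mem' := fun {a b} ha hb => by
          change a 1 + b 1 = 0
          rw [show a 1 = 0 from ha, show b 1 = 0 from hb, add_zero]
        neg_mem' := fun {a} ha => by
          change -a 1 = 0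
          rw [show a 1 = 0 from ha, neg_zero] }
    have h2 : AddSubgroup.closure {z | ∃ σ ∈ A.inertiaSubgroupIn ℚ, ∃ x, r σ *ᵥ x - x = z} ≤ N := by
      rw [AddSubgroup.closure_le]
      rintro _ ⟨σ, hσ, v, rfl⟩
      change (r σ *ᵥ v - v) 1 = 0
      rw [Pi.sub_apply, mulVec_one_apply', hup σ (inertia_le_decomp hσ), hI σ hσ]
      ring
    exact h2 h1
  -- the first component
  have hfst : ∀ {v : (Fin 2 → k) × (Fin 2 → k)}, v ∈ conn' A (pact r c) → v.1 1 = 0 := by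
    intro v hv
    let N : AddSubgroup ((Fin 2 → k) × (Fin 2 → k)) :=
      { carrier := {v | v.1 1 = 0}
        zero_mem' := rfl
        add_mem' := fun {a b} ha hb => by
          change a.1 1 + b.1 1 = 0
          rw [show a.1 1 = 0 from ha, show b.1 1 = 0 from hb, add_zero]
        neg_mem' := fun {a} ha => by
          change -a.1 1 = 0
          rw [show a.1 1 = 0 from ha, neg_zero] }
    have h2 : conn' A (pact r c) ≤ N := by
      rw [conn', AddSubgroup.closure_le]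
      rintro _ ⟨σ, hσ, v, rfl⟩
      change (r σ *ᵥ v.1 - v.1) 1 = 0
      rw [Pi.sub_apply, mulVec_one_apply', hup σ (inertia_le_decomp hσ), hI σ hσ]
      ring
    exact h2 hv
  -- an element of inertia acting non trivially
  obtain ⟨ζ, hζ⟩ := HasEnoughRootsOfUnity.exists_primitiveRoot Om p
  obtain ⟨σ₀, hσ₀, hσ₀ζ⟩ := exists_inertia_ne hpp hp2 hA hζ.pow_eq_one (hζ.ne_one hpp.one_lt)
  set u := r σ₀ 0 0 with hu
  have hu1 : u ≠ 1 := by
    intro h1
    obtain ⟨a, ha⟩ := exists_root_exponent p σ₀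
    have h2 := hcyc σ₀ a ha
    rw [Matrix.det_fin_two, hup σ₀ (inertia_le_decomp hσ₀), hI σ₀ hσ₀, mul_zero, sub_zero,
      mul_one, ← hu, h1] at h2
    have h3 : ((a : ℕ) : k) = ((1 : ℕ) : k) := by rw [← h2, Nat.cast_one]
    rw [CharP.natCast_eq_natCast k p] at h3
    apply hσ₀ζ
    rw [ha ζ hζ.pow_eq_one]
    conv_rhs => rw [← pow_one ζ]
    exact pow_eq_pow_of_modEq h3 hζ.pow_eq_one
  let e1 : Fin 2 → k := ![1, 0]
  let e2 : Fin 2 → k := ![0, 1]
  have hr1 : ∀ σ ∈ A.decompositionSubgroup ℚ, r σ *ᵥ e1 = r σ 0 0 • e1 := by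
    intro σ hσ
    funext i
    fin_cases i
    · change (r σ *ᵥ e1) 0 = _
      rw [mulVec_zero_apply']
      simp [e1]
    · change (r σ *ᵥ e1) 1 = _
      rw [mulVec_one_apply', hup σ hσ]
      simp [e1]
  -- the generator
  have hgen : ∃ x : k, ((e1, x • e2) : (Fin 2 → k) × (Fin 2 → k)) ∈ conn' A (pact r c) := by
    have h1 : pact r c σ₀ (e1, 0) - (e1, 0) ∈ conn' A (pact r c) :=
      AddSubgroup.subset_closure ⟨σ₀, hσ₀, _, rfl⟩
    have h2 : pact r c σ₀ (e1, 0) - (e1, 0) =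
        (u - 1) • ((e1, (u - 1)⁻¹ • (u • (c σ₀ *ᵥ e1))) : (Fin 2 → k) × (Fin 2 → k)) := by
      have hne : u - 1 ≠ 0 := sub_ne_zero.mpr hu1
      apply Prod.ext
      · change r σ₀ *ᵥ e1 - e1 = (u - 1) • e1
        rw [hr1 σ₀ (inertia_le_decomp hσ₀), sub_smul, one_smul]
      · change r σ₀ *ᵥ 0 + c σ₀ *ᵥ (r σ₀ *ᵥ e1) - 0 = (u - 1) • ((u - 1)⁻¹ • (u • (c σ₀ *ᵥ e1)))
        rw [hr1 σ₀ (inertia_le_decomp hσ₀), mulVec_zero, zero_add, sub_zero, smul_smul,
          mul_inv_cancel₀ hne, one_smul, mulVec_smul]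
    have hne : u - 1 ≠ 0 := sub_ne_zero.mpr hu1
    have h3 := hsmul (u - 1)⁻¹ h1
    rw [h2, smul_smul, inv_mul_cancel₀ hne, one_smul] at h3
    have h4 : ((0, e1) : (Fin 2 → k) × (Fin 2 → k)) ∈ conn' A (pact r c) :=
      conn'_map (A := A) (act := pact r c) (epsHom k)
        (fun σ hσ => ⟨σ, hσ, fun x => (pact_eps r c σ x).symm⟩) h3
    set y := (u - 1)⁻¹ • (u • (c σ₀ *ᵥ e1)) with hy
    refine ⟨y 1, ?_⟩
    have h5 := (conn' A (pact r c)).sub_mem h3 (hsmul (y 0) h4)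
    have h6 : ((e1, y) : (Fin 2 → k) × (Fin 2 → k)) - y 0 • (0, e1) = (e1, y 1 • e2) := by
      apply Prod.ext
      · change e1 - y 0 • (0 : Fin 2 → k) = e1
        rw [smul_zero, sub_zero]
      · change y - y 0 • e1 = y 1 • e2
        funext i
        fin_cases i
        · simp [e1, e2]
        · simp [e1, e2]
    rw [h6] at h5
    exact h5
  obtain ⟨x, hx⟩ := hgen
  -- the shape of the elements
  have hshape : ∀ {v : (Fin 2 → k) × (Fin 2 → k)}, v ∈ conn' A (pact r c) →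
      v.2 1 = x * v.1 0 := by
    intro v hv
    have h1 := (conn' A (pact r c)).sub_mem hv (hsmul (v.1 0) hx)
    have h2 : v - v.1 0 • ((e1, x • e2) : (Fin 2 → k) × (Fin 2 → k)) =
        (0, v.2 - v.1 0 • x • e2) := by
      apply Prod.ext
      · change v.1 - v.1 0 • e1 = 0
        have h3 := hfst hv
        funext i
        fin_cases i
        · simp [e1]
        · simp [e1, h3]
      · rfl
    rw [h2] at h1
    have h3 := heps _ h1
    rw [Pi.sub_apply, sub_eq_zero] at h3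
    rw [h3]
    simp [e2]
    ring
  refine ⟨x, fun σ hσ => ?_⟩
  -- multiply by `r σ`
  set C := c σ + cob r (MonoidHom.id GQ) 0 !![0, 0; x, 0] σ with hC
  have hCr : C * r σ = c σ * r σ + r σ * !![0, 0; x, 0] - !![0, 0; x, 0] * r σ := by
    rw [hC]
    change (c σ + (TW.act r 0 σ !![0, 0; x, 0] - !![0, 0; x, 0])) * r σ = _
    rw [act_zero_apply, add_mul, sub_mul, mul_assoc (r σ * !![0, 0; x, 0]), r_inv_mul, mul_one]
    abel
  have hdet := det_ne_zero r σ
  rw [Matrix.det_fin_two, hup σ hσ, mul_zero, sub_zero] at hdet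
  have h00 : r σ 0 0 ≠ 0 := left_ne_zero_of_mul hdet
  have h11 : r σ 1 1 ≠ 0 := right_ne_zero_of_mul hdet
  have e10 := congrFun (congrFun hCr 1) 0
  rw [Matrix.sub_apply, Matrix.add_apply, TW.mul_apply_fin_two, TW.mul_apply_fin_two,
    TW.mul_apply_fin_two, TW.mul_apply_fin_two, hup σ hσ] at e10
  simp at e10
  have h1 := hshape (hDst σ hσ hx)
  have h2 : (pact r c σ (e1, x • e2)).2 1 = x * r σ 1 1 + c σ 1 0 * r σ 0 0 := by
    change (r σ *ᵥ (x • e2) + c σ *ᵥ (r σ *ᵥ e1)) 1 = _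
    rw [hr1 σ hσ, Pi.add_apply, mulVec_one_apply', mulVec_one_apply', hup σ hσ]
    simp [e1, e2]
    ring
  have h3 : (pact r c σ (e1, x • e2)).1 0 = r σ 0 0 := by
    change (r σ *ᵥ e1) 0 = _
    rw [hr1 σ hσ]
    simp [e1]
  rw [h2, h3] at h1
  have hC10 : C 1 0 = 0 := by
    have h4 : C 1 0 * r σ 0 0 = 0 := by
      rw [e10]
      linear_combination h1
    exact (mul_eq_zero.mp h4).resolve_right h00
  refine ⟨hC10, fun hσI => ?_⟩
  have e11 := congrFun (congrFun hCr 1) 1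
  rw [Matrix.sub_apply, Matrix.add_apply, TW.mul_apply_fin_two, TW.mul_apply_fin_two,
    TW.mul_apply_fin_two, TW.mul_apply_fin_two, hup σ hσ, hC10, hI σ hσI] at e11
  simp at e11
  have h5 : pact r c σ (e2, 0) - (e2, 0) ∈ conn' A (pact r c) :=
    AddSubgroup.subset_closure ⟨σ, hσI, _, rfl⟩
  have h6 := hshape h5
  have h7 : (pact r c σ (e2, 0) - (e2, 0)).2 1 = c σ 1 0 * r σ 0 1 + c σ 1 1 := by
    change (r σ *ᵥ 0 + c σ *ᵥ (r σ *ᵥ e2) - 0) 1 = _
    rw [mulVec_zero, zero_add, sub_zero, mulVec_one_apply', mulVec_zero_apply', mulVec_one_apply',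
      hup σ hσ, hI σ hσI]
    simp [e2]
  have h8 : (pact r c σ (e2, 0) - (e2, 0)).1 0 = r σ 0 1 := by
    change (r σ *ᵥ e2 - e2) 0 = _
    rw [Pi.sub_apply, mulVec_zero_apply']
    simp [e2]
  rw [h7, h8] at h6
  rw [e11]
  linear_combination h6

end line

end Fermat.Agent.FlatP
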