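import Fermat.Agent.ECVal.QVal

/-!
# Strictly henselian local fields, abstractly

`LocalData K G w p` : `K` is a field with a `ℚ`-valued valuation `w`, `w p = 1`, and a group `G`
of isometries acting trivially on the residue field (think `K = ℚ̄`, `G` = inertia group), such that
the fixed field `K^G` has value group `ℤ` and the same residue field as `K`.
-/

set_option autoImplicit false

namespace Fermat.Agent.FlatP

open FermatAgent.ECVal

/-- the abstract local situation. -/
structure LocalData (K G : Type*) [Field K] [Group G] [MulSemiringAction G K] (w : QVal K)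
    (p : ℕ) : Prop where
  prime : p.Prime
  val_p : w.Is 1 (p : K)
  val_smul : ∀ (g : G) (x : K), w.val (g • x) = w.val x
  inertia : ∀ (g : G) (x : K), w.Ge 0 x → w.Gt 0 (g • x - x)
  int : ∀ x : K, x ≠ 0 → (∀ g : G, g • x = x) → ∃ n : ℤ, w.val x = n
  lift : ∀ y : K, w.Ge 0 y → ∃ c, (∀ g : G, g • c = c) ∧ w.Ge 0 c ∧ w.Gt 0 (y - c)
  finiteIndex : ∀ x : K, (MulAction.stabilizer G x).FiniteIndex

section general

variable {K : Type*} [Field K] {w : QVal K}

lemma ge_sum {ι : Type*} {s : Finset ι} {f : ι → K} {r : ℚ} (h : ∀ i ∈ s, w.Ge r (f i)) :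
    w.Ge r (∑ i ∈ s, f i) := by
  classical
  induction s using Finset.induction_on with
  | empty => rw [Finset.sum_empty]; exact QVal.ge_zero _
  | insert a s ha ih =>
    rw [Finset.sum_insert ha]
    exact (h a (Finset.mem_insert_self a s)).add
      (ih fun i hi => h i (Finset.mem_insert_of_mem hi))

lemma gt_sum {ι : Type*} {s : Finset ι} {f : ι → K} {r : ℚ} (h : ∀ i ∈ s, w.Gt r (f i)) :
    w.Gt r (∑ i ∈ s, f i) := by
  classical
  induction s using Finset.induction_on with
  | empty => rw [Finset.sum_empty]; exact QVal.gt_zero _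
  | insert a s ha ih =>
    rw [Finset.sum_insert ha]
    exact (h a (Finset.mem_insert_self a s)).add
      (ih fun i hi => h i (Finset.mem_insert_of_mem hi))

lemma is_prod {ι : Type*} {s : Finset ι} {f : ι → K} {r : ι → ℚ} (h : ∀ i ∈ s, w.Is (r i) (f i)) :
    w.Is (∑ i ∈ s, r i) (∏ i ∈ s, f i) := by
  classical
  induction s using Finset.induction_on with
  | empty => rw [Finset.sum_empty, Finset.prod_empty]; exact QVal.is_one
  | insert a s ha ih =>
    rw [Finset.sum_insert ha, Finset.prod_insert ha]
    exact (h a (Finset.mem_insert_self a s)).mul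
      (ih fun i hi => h i (Finset.mem_insert_of_mem hi))

/-- A finite sum of elements with pairwise distinct values: some term attains the value of
the sum, and this is the minimum. -/
lemma exists_is_sum {ι : Type*} {s : Finset ι} {f : ι → K}
    (hdist : ∀ i ∈ s, ∀ j ∈ s, f i ≠ 0 → f j ≠ 0 → w.val (f i) = w.val (f j) → i = j)
    (hne : ∃ i ∈ s, f i ≠ 0) :
    ∃ i ∈ s, f i ≠ 0 ∧ w.Is (w.val (f i)) (∑ i ∈ s, f i) ∧ ∀ j ∈ s, w.Ge (w.val (f i)) (f j) := by
  classical
  induction s using Finset.induction_on with
  | empty => obtain ⟨i, hi, -⟩ := hne; exact absurd hi (Finset.notMem_empty i)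
  | insert a s ha ih =>
    rw [Finset.sum_insert ha]
    have hdist' : ∀ i ∈ s, ∀ j ∈ s, f i ≠ 0 → f j ≠ 0 → w.val (f i) = w.val (f j) → i = j :=
      fun i hi j hj => hdist i (Finset.mem_insert_of_mem hi) j (Finset.mem_insert_of_mem hj)
    by_cases hs : ∃ i ∈ s, f i ≠ 0
    · obtain ⟨i, hi, hi0, hiI, hiG⟩ := ih hdist' hs
      by_cases ha0 : f a = 0
      · refine ⟨i, Finset.mem_insert_of_mem hi, hi0, ?_, ?_⟩
        · rw [ha0, zero_add]; exact hiI
        · intro j hj
          rcases Finset.mem_insert.mp hj with rfl | hj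
          · rw [ha0]; exact QVal.ge_zero _
          · exact hiG j hj
      · rcases lt_trichotomy (w.val (f a)) (w.val (f i)) with h | h | h
        · refine ⟨a, Finset.mem_insert_self a s, ha0, ?_, ?_⟩
          · exact (QVal.Is.of_ne ha0).add_gt (hiI.gt h)
          · intro j hj
            rcases Finset.mem_insert.mp hj with rfl | hj
            · exact (QVal.Is.of_ne ha0).ge
            · exact (hiG j hj).mono h.le
        · exfalso
          have := hdist a (Finset.mem_insert_self a s) i (Finset.mem_insert_of_mem hi) ha0 hi0 h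
          exact ha (this ▸ hi)
        · refine ⟨i, Finset.mem_insert_of_mem hi, hi0, ?_, ?_⟩
          · exact ((QVal.Is.of_ne ha0).gt h).add_is hiI
          · intro j hj
            rcases Finset.mem_insert.mp hj with rfl | hj
            · exact (QVal.Is.of_ne ha0).ge.mono h.le
            · exact hiG j hj
    · push Not at hs
      obtain ⟨i, hi, hi0⟩ := hne
      rcases Finset.mem_insert.mp hi with rfl | hi'
      · refine ⟨i, Finset.mem_insert_self i s, hi0, ?_, ?_⟩
        · rw [Finset.sum_eq_zero hs, add_zero]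
          exact QVal.Is.of_ne hi0
        · intro j hj
          rcases Finset.mem_insert.mp hj with rfl | hj
          · exact (QVal.Is.of_ne hi0).ge
          · rw [hs j hj]; exact QVal.ge_zero _
      · exact absurd (hs i hi') hi0

lemma ge_of_ge_sum {ι : Type*} {s : Finset ι} {f : ι → K} {r : ℚ}
    (hdist : ∀ i ∈ s, ∀ j ∈ s, f i ≠ 0 → f j ≠ 0 → w.val (f i) = w.val (f j) → i = j)
    (h : w.Ge r (∑ i ∈ s, f i)) : ∀ i ∈ s, w.Ge r (f i) := by
  intro j hj
  by_cases hne : ∃ i ∈ s, f i ≠ 0
  · obtain ⟨i, -, -, hI, hG⟩ := exists_is_sum hdist hne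
    exact (hG j hj).mono (hI.le_of_ge h)
  · push Not at hne
    rw [hne j hj]
    exact QVal.ge_zero _

end general

namespace LocalData

variable {K G : Type*} [Field K] [Group G] [MulSemiringAction G K] {w : QVal K} {p : ℕ}

lemma is_smul (h : LocalData K G w p) (g : G) {x : K} {r : ℚ} (hx : w.Is r x) :
    w.Is r (g • x) :=
  ⟨(smul_ne_zero_iff_ne g).mpr hx.1, by rw [h.val_smul]; exact hx.2⟩

lemma ge_smul (h : LocalData K G w p) (g : G) {x : K} {r : ℚ} (hx : w.Ge r x) :
    w.Ge r (g • x) := by
  by_cases h0 : x = 0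
  · rw [h0, smul_zero]; exact QVal.ge_zero _
  · right; rw [h.val_smul]; exact hx.resolve_left h0

lemma gt_smul (h : LocalData K G w p) (g : G) {x : K} {r : ℚ} (hx : w.Gt r x) :
    w.Gt r (g • x) := by
  by_cases h0 : x = 0
  · rw [h0, smul_zero]; exact QVal.gt_zero _
  · right; rw [h.val_smul]; exact hx.resolve_left h0

/-- inertia moves elements by elements of larger valuation: on units `g x / x ≡ 1`. More
precisely `g x - x` has value `> v x` as soon as `x = c * u` with `c` fixed. -/
lemma inertia_mul (h : LocalData K G w p) (g : G) {c x : K} {r : ℚ} (hc : g • c = c)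
    (hcr : w.Is r c) (hx : w.Ge r x) : w.Gt r (g • x - x) := by
  have h1 : w.Ge 0 (c⁻¹ * x) := (hcr.inv.ge.mul hx).mono (by linarith)
  have h2 := h.inertia g _ h1
  rw [smul_mul', smul_inv'', hc] at h2
  have h3 := hcr.ge.mul_gt h2
  have h4 : c * (c⁻¹ * g • x - c⁻¹ * x) = g • x - x := by
    have := hcr.1
    field_simp
  rwa [h4, add_zero] at h3

/-- the conjugates of `y` indexed by the cosets of a subgroup fixing `y` -/
noncomputable def conj (J : Subgroup G) (y : K) (hy : ∀ g ∈ J, g • y = y) : G ⧸ J → K :=
  Quotient.lift (fun g : G => g • y) (by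
    intro a b hab
    have h1 : a⁻¹ * b ∈ J := QuotientGroup.leftRel_apply.mp hab
    have h2 := hy _ h1
    rw [mul_smul, inv_smul_eq_iff] at h2
    exact h2.symm)

@[simp] lemma conj_mk (J : Subgroup G) (y : K) (hy : ∀ g ∈ J, g • y = y) (g : G) :
    conj J y hy (g : G ⧸ J) = g • y := rfl

lemma smul_conj (J : Subgroup G) (y : K) (hy : ∀ g ∈ J, g • y = y) (g : G) (q : G ⧸ J) :
    g • conj J y hy q = conj J y hy (g • q) := by
  induction q using QuotientGroup.induction_on with
  | H a =>
    rw [conj_mk]
    change g • a • y = conj J y hy ((g * a : G) : G ⧸ J)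
    rw [conj_mk, mul_smul]

/-- (M1) the value group of the fixed field of a subgroup of index `n` is in `(1/n)ℤ`. -/
theorem exists_val_eq (h : LocalData K G w p) {J : Subgroup G} (hJ : J.FiniteIndex) {y : K}
    (hy : ∀ g ∈ J, g • y = y) (hy0 : y ≠ 0) : ∃ m : ℤ, w.val y = (m : ℚ) / J.index := by
  classical
  have : Fintype (G ⧸ J) := Subgroup.fintypeQuotientOfFiniteIndex
  let N : K := ∏ q : G ⧸ J, conj J y hy q
  have hN : w.Is (∑ q : G ⧸ J, w.val y) N := by
    apply is_prod
    intro q _
    induction q using QuotientGroup.induction_on with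
    | H a => exact h.is_smul a (QVal.Is.of_ne hy0)
  have hfix : ∀ g : G, g • N = N := by
    intro g
    simp only [N]
    rw [Finset.smul_prod']
    simp only [smul_conj]
    exact Fintype.prod_bijective (fun q => g • q) (MulAction.bijective g) _ _ (fun _ => rfl)
  obtain ⟨m, hm⟩ := h.int N hN.1 hfix
  refine ⟨m, ?_⟩
  rw [hN.2, Finset.sum_const, Finset.card_univ, ← Nat.card_eq_fintype_card,
    ← Subgroup.index_eq_card, nsmul_eq_mul] at hm
  have hn : (J.index : ℚ) ≠ 0 := by exact_mod_cast hJ.index_ne_zero
  rw [eq_div_iff hn, mul_comm]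
  exact hm

/-- an element of the fixed field with the minimal value has stabiliser `J` exactly. -/
theorem mem_of_smul_eq (h : LocalData K G w p) {J : Subgroup G} (hJ : J.FiniteIndex) {β : K}
    (hβ : ∀ g ∈ J, g • β = β) (hv : w.Is (1 / J.index) β) {g : G} (hg : g • β = β) : g ∈ J := by
  have hle : J ≤ MulAction.stabilizer G β := hβ
  have hS := h.finiteIndex β
  obtain ⟨m, hm⟩ := h.exists_val_eq hS (y := β) (fun g hg => hg) hv.1
  rw [hv.2] at hm
  have hn : (J.index : ℚ) ≠ 0 := by exact_mod_cast hJ.index_ne_zero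
  have hn' : ((MulAction.stabilizer G β).index : ℚ) ≠ 0 := by exact_mod_cast hS.index_ne_zero
  rw [div_eq_div_iff hn hn', one_mul] at hm
  have hm' : ((MulAction.stabilizer G β).index : ℤ) = m * J.index := by exact_mod_cast hm
  have hdvd := Subgroup.index_dvd_of_le hle
  have hdvd' : J.index ∣ (MulAction.stabilizer G β).index := by
    rw [← Int.natCast_dvd_natCast, hm']
    exact dvd_mul_left _ _
  have heq : J.index = (MulAction.stabilizer G β).index := Nat.dvd_antisymm hdvd' hdvd
  have h1 : J.relIndex (MulAction.stabilizer G β) * (MulAction.stabilizer G β).index = J.index :=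
    Subgroup.relIndex_mul_index hle
  have h2 : J.relIndex (MulAction.stabilizer G β) = 1 := by
    have h3 : 0 < (MulAction.stabilizer G β).index := Nat.pos_of_ne_zero hS.index_ne_zero
    rw [heq] at h1
    exact Nat.eq_of_mul_eq_mul_right h3 (by rw [h1, one_mul])
  rw [Subgroup.relIndex_eq_one] at h2
  exact h2 hg

/-- (M2) If `β` is fixed by `J` and has value `1 / (G : J)`, every element of the fixed field of
`J` is a polynomial in `β` of degree `< (G : J)` with coefficients in `K^G`. -/
theorem exists_poly (h : LocalData K G w p) {J : Subgroup G} (hJ : J.FiniteIndex) {β : K}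
    (hβ : ∀ g ∈ J, g • β = β) (hv : w.Is (1 / J.index) β) {y : K} (hy : ∀ g ∈ J, g • y = y) :
    ∃ f : Polynomial K, f.degree < J.index ∧ (∀ (g : G) (i : ℕ), g • f.coeff i = f.coeff i) ∧
      f.eval β = y := by
  classical
  have : Fintype (G ⧸ J) := Subgroup.fintypeQuotientOfFiniteIndex
  let v : G ⧸ J → K := conj J β hβ
  let r : G ⧸ J → K := conj J y hy
  have hvinj : Function.Injective v := by
    intro a b hab
    induction a using QuotientGroup.induction_on with
    | H a =>
      induction b using QuotientGroup.induction_on with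
      | H b =>
        simp only [v, conj_mk] at hab
        rw [QuotientGroup.eq]
        apply h.mem_of_smul_eq hJ hβ hv
        rw [mul_smul, inv_smul_eq_iff]
        exact hab.symm
  have hcard : (Finset.univ : Finset (G ⧸ J)).card = J.index := by
    rw [Finset.card_univ, ← Nat.card_eq_fintype_card, Subgroup.index_eq_card]
  have hinj : Set.InjOn v (Finset.univ : Finset (G ⧸ J)) := hvinj.injOn
  let f : Polynomial K := Lagrange.interpolate Finset.univ v r
  have hdeg : f.degree < J.index := by
    have := Lagrange.degree_interpolate_lt r hinj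
    rwa [hcard] at this
  have heval : ∀ q : G ⧸ J, f.eval (v q) = r q := fun q =>
    Lagrange.eval_interpolate_at_node r hinj (Finset.mem_univ q)
  have hmap : ∀ g : G, f.map (MulSemiringAction.toRingHom G K g) = f := by
    intro g
    apply Lagrange.eq_interpolate_of_eval_eq r hinj
    · rw [hcard]
      exact lt_of_le_of_lt Polynomial.degree_map_le hdeg
    · intro q _
      have h1 : v q = g • v (g⁻¹ • q) := by
        simp only [v]
        rw [smul_conj, smul_inv_smul]
      have h2 : r q = g • r (g⁻¹ • q) := by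
        simp only [r]
        rw [smul_conj, smul_inv_smul]
      rw [h1, h2, ← heval]
      exact Polynomial.eval_map_apply (MulSemiringAction.toRingHom G K g) (v (g⁻¹ • q))
  refine ⟨f, hdeg, fun g i => ?_, ?_⟩
  · have h1 := congrArg (fun F => Polynomial.coeff F i) (hmap g)
    simp only [Polynomial.coeff_map] at h1
    exact h1
  · have h1 := heval ((1 : G) : G ⧸ J)
    simp only [v, r, conj_mk, one_smul] at h1
    exact h1

lemma smul_natCast (g : G) (n : ℕ) : g • (n : K) = n :=
  map_natCast (MulSemiringAction.toRingHom G K g) n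

lemma smul_sum_mul_pow {n : ℕ} {c : ℕ → K} (hc : ∀ (g : G) (i : ℕ), g • c i = c i) (β : K)
    (g : G) : g • ∑ i ∈ Finset.range n, c i * β ^ i = ∑ i ∈ Finset.range n, c i * (g • β) ^ i := by
  rw [Finset.smul_sum]
  refine Finset.sum_congr rfl fun i _ => ?_
  rw [smul_mul', smul_pow', hc]

/-- one step of the approximation. -/
lemma approx_step (h : LocalData K G w p) {n : ℕ} (hn : 0 < n) {β : K} (hβ : w.Is (1 / n) β)
    {N : ℕ} {y : K} (hy : w.Ge (N / n) y) :
    ∃ c : ℕ → K, (∀ (g : G) (i : ℕ), g • c i = c i) ∧
      w.Gt (N / n) (y - ∑ i ∈ Finset.range n, c i * β ^ i) := by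
  classical
  have hn' : (n : ℚ) ≠ 0 := by exact_mod_cast hn.ne'
  let a := N / n
  let b := N % n
  have hb : b < n := Nat.mod_lt _ hn
  have hab : (N : ℚ) / n = a + b * (1 / n) := by
    have : n * a + b = N := Nat.div_add_mod N n
    have h2 : (n : ℚ) * a + b = N := by exact_mod_cast this
    rw [← h2]
    field_simp
  have hu : w.Is (N / n) ((p : K) ^ a * β ^ b) := by
    rw [hab]
    exact ((h.val_p.pow a).mul (hβ.pow b)).congr (by ring)
  have h1 : w.Ge 0 (((p : K) ^ a * β ^ b)⁻¹ * y) := (hu.inv.ge.mul hy).mono (by linarith)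
  obtain ⟨c, hc, -, hc2⟩ := h.lift _ h1
  refine ⟨fun i => if i = b then c * (p : K) ^ a else 0, ?_, ?_⟩
  · intro g i
    by_cases hi : i = b
    · simp only [hi, if_true]
      rw [smul_mul', hc, smul_pow', smul_natCast]
    · simp only [hi, if_false]
      exact smul_zero _
  · have h2 : ∑ i ∈ Finset.range n, (if i = b then c * (p : K) ^ a else 0) * β ^ i =
        c * (p : K) ^ a * β ^ b := by
      rw [Finset.sum_eq_single b]
      · rw [if_pos rfl]
      · intro i _ hi
        rw [if_neg hi, zero_mul]
      · intro hb'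
        exact absurd (Finset.mem_range.mpr hb) hb'
    rw [h2]
    have h3 := hu.ge.mul_gt hc2
    rw [add_zero] at h3
    have h4 : (p : K) ^ a * β ^ b * (((p : K) ^ a * β ^ b)⁻¹ * y - c) =
        y - c * (p : K) ^ a * β ^ b := by
      rw [mul_sub, mul_inv_cancel_left₀ hu.1]
      ring
    rwa [h4] at h3

/-- (M3) existence of uniformisers: the fixed field of `J` (a subgroup of finite index `n` which is
determined by its fixed field) contains an element of value `1 / n`. -/
theorem exists_uniformizer (h : LocalData K G w p) {J : Subgroup G} (hJ : J.FiniteIndex)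
    (hcl : ∀ g : G, (∀ y : K, (∀ j ∈ J, j • y = y) → g • y = y) → g ∈ J) :
    ∃ β : K, (∀ g ∈ J, g • β = β) ∧ w.Is (1 / J.index) β := by
  classical
  have : Fintype (G ⧸ J) := Subgroup.fintypeQuotientOfFiniteIndex
  set n := J.index with hn
  have hn0 : 0 < n := Nat.pos_of_ne_zero hJ.index_ne_zero
  have hnQ : (0 : ℚ) < n := by exact_mod_cast hn0
  have hex : ∃ m : ℕ, 0 < m ∧ ∃ y : K, (∀ g ∈ J, g • y = y) ∧ w.Is (m / n) y :=
    ⟨n, hn0, p, fun g _ => smul_natCast g p, h.val_p.congr (div_self hnQ.ne').symm⟩
  let m₀ := Nat.find hex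
  obtain ⟨hm₀, β, hβ, hβv⟩ := Nat.find_spec hex
  -- all values are multiples of `m₀ / n`
  have hmul : ∀ y : K, (∀ g ∈ J, g • y = y) → y ≠ 0 → ∃ t : ℤ, w.val y = t * (m₀ / n) := by
    intro y hy hy0
    obtain ⟨m, hm⟩ := h.exists_val_eq hJ hy hy0
    rw [← hn] at hm
    have hm0Z : (0 : ℤ) < m₀ := by exact_mod_cast hm₀
    have hmod := Int.emod_add_mul_ediv m m₀
    have hr0 : 0 ≤ m % m₀ := Int.emod_nonneg _ hm0Z.ne'
    have hr1 : m % m₀ < m₀ := Int.emod_lt_of_pos _ hm0Z
    have hz : m % m₀ = 0 := by
      by_contra hne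
      have hrpos : 0 < (m % m₀).toNat := by omega
      refine Nat.find_min hex (m := (m % m₀).toNat) (by omega) ⟨hrpos, y * β ^ (-(m / m₀)), ?_, ?_⟩
      · intro g hg
        rw [smul_mul', hy g hg]
        congr 1
        have h1 := map_zpow₀ (MulSemiringAction.toRingHom G K g) β (-(m / m₀))
        have h2 : MulSemiringAction.toRingHom G K g β = β := hβ g hg
        rw [h2] at h1
        exact h1
      · have hpow : ∀ t : ℤ, w.Is (t * (m₀ / n)) (β ^ t) := by
          intro t
          obtain ⟨s, rfl | rfl⟩ := t.eq_nat_or_neg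
          · rw [zpow_natCast]
            exact (hβv.pow s).congr (by push_cast; rfl)
          · rw [zpow_neg, zpow_natCast]
            exact ((hβv.pow s).inv).congr (by push_cast; ring)
        have h3 : w.Is (w.val y) y := QVal.Is.of_ne hy0
        refine (h3.mul (hpow _)).congr ?_
        rw [hm]
        have h4 : (((m % m₀).toNat : ℕ) : ℚ) = ((m % m₀ : ℤ) : ℚ) := by
          rw [← Int.cast_natCast, Int.toNat_of_nonneg hr0]
        rw [h4]
        have h5 : (m : ℚ) = ((m % m₀ : ℤ) : ℚ) + m₀ * ((m / m₀ : ℤ) : ℚ) := by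
          exact_mod_cast hmod.symm
        rw [h5]
        push_cast
        ring
    refine ⟨m / m₀, ?_⟩
    rw [hm]
    have h5 : (m : ℚ) = m₀ * ((m / m₀ : ℤ) : ℚ) := by
      have : m = m₀ * (m / m₀) := by omega
      exact_mod_cast this
    rw [h5]
    push_cast
    ring
  -- `n = m₀ * n'`
  obtain ⟨t, ht⟩ := hmul p (fun g _ => smul_natCast g p) h.val_p.1
  rw [h.val_p.2] at ht
  have htn : (n : ℤ) = t * m₀ := by
    have h1 : (n : ℚ) = t * m₀ := by
      field_simp at ht
      linarith
    exact_mod_cast h1
  have htpos : 0 < t := by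
    by_contra hcon
    push Not at hcon
    have : (0 : ℤ) < n := by exact_mod_cast hn0
    have hm0Z : (0 : ℤ) < m₀ := by exact_mod_cast hm₀
    nlinarith
  obtain ⟨n', rfl⟩ : ∃ n' : ℕ, t = n' := ⟨t.toNat, by omega⟩
  have hn'0 : 0 < n' := by exact_mod_cast htpos
  have hn'Q : (0 : ℚ) < n' := by exact_mod_cast hn'0
  have hnn : n = n' * m₀ := by exact_mod_cast htn
  have hval : (m₀ : ℚ) / n = 1 / n' := by
    rw [hnn]
    push_cast
    have : (m₀ : ℚ) ≠ 0 := by exact_mod_cast hm₀.ne'
    field_simp
  rw [show Nat.find hex = m₀ from rfl, hval] at hβv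
  rw [hval] at hmul
  by_cases hlt : n' < n
  swap
  · have hm1 : m₀ = 1 := by
      by_contra hne
      apply hlt
      rw [hnn]
      have : 2 ≤ m₀ := by omega
      nlinarith
    refine ⟨β, hβ, hβv.congr ?_⟩
    rw [← hval, hm1]
    simp
  exfalso
  -- a linear combination of the embeddings killing `β ^ i`, `i < n'`
  let T : (G ⧸ J → K) →ₗ[K] (Fin n' → K) :=
    { toFun := fun u i => ∑ q, u q * (conj J β hβ q) ^ (i : ℕ)
      map_add' := by
        intro u u'
        funext i
        simp only [Pi.add_apply, add_mul, Finset.sum_add_distrib]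
      map_smul' := by
        intro a u
        funext i
        simp only [Pi.smul_apply, smul_eq_mul, RingHom.id_apply, Finset.mul_sum, mul_assoc] }
  have hker : LinearMap.ker T ≠ ⊥ := by
    apply LinearMap.ker_ne_bot_of_finrank_lt
    rw [Module.finrank_fintype_fun_eq_card, Module.finrank_fintype_fun_eq_card, Fintype.card_fin,
      ← Nat.card_eq_fintype_card, ← Subgroup.index_eq_card]
    exact hlt
  obtain ⟨u, hu, hu0⟩ := Submodule.exists_mem_ne_zero_of_ne_bot hker
  have hu' : ∀ i : ℕ, i < n' → ∑ q, u q * (conj J β hβ q) ^ i = 0 := fun i hi =>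
    congrFun (LinearMap.mem_ker.mp hu) ⟨i, hi⟩
  obtain ⟨μ, hμ⟩ : ∃ μ : ℚ, ∀ q, w.Ge μ (u q) := by
    obtain ⟨M, hM⟩ := (Finset.univ.image fun q : G ⧸ J => w.val (u q)).bddBelow
    exact ⟨M, fun q => Or.inr (hM (by simp))⟩
  -- approximation
  have happrox : ∀ (y : K), (∀ g ∈ J, g • y = y) → w.Ge 0 y → ∀ N : ℕ,
      ∃ c : ℕ → K, (∀ (g : G) (i : ℕ), g • c i = c i) ∧
        w.Ge (N / n') (y - ∑ i ∈ Finset.range n', c i * β ^ i) := by
    intro y hy hy0 N
    induction N with
    | zero =>
      refine ⟨fun _ => 0, fun g i => smul_zero g, ?_⟩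
      simpa using hy0
    | succ N ih =>
      obtain ⟨c, hc, hc2⟩ := ih
      obtain ⟨c', hc', hc2'⟩ := h.approx_step hn'0 hβv hc2
      refine ⟨fun i => c i + c' i, fun g i => by rw [smul_add, hc, hc'], ?_⟩
      have h1 : y - ∑ i ∈ Finset.range n', (c i + c' i) * β ^ i =
          y - ∑ i ∈ Finset.range n', c i * β ^ i - ∑ i ∈ Finset.range n', c' i * β ^ i := by
        simp only [add_mul, Finset.sum_add_distrib]
        ring
      rw [h1]
      set z := y - ∑ i ∈ Finset.range n', c i * β ^ i - ∑ i ∈ Finset.range n', c' i * β ^ i with hz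
      rcases hc2' with h0 | h0
      · left; exact h0
      · by_cases hz0 : z = 0
        · left; exact hz0
        right
        have hzfix : ∀ g ∈ J, g • z = z := by
          intro g hg
          rw [hz, smul_sub, smul_sub, hy g hg, smul_sum_mul_pow hc, smul_sum_mul_pow hc', hβ g hg]
        obtain ⟨t, ht⟩ := hmul z hzfix hz0
        rw [ht] at h0 ⊢
        have h2 : (N : ℚ) < t := by
          have := (div_lt_iff₀ hn'Q).mp h0
          field_simp at this
          linarith
        have h3 : (N : ℤ) + 1 ≤ t := by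
          have : (N : ℤ) < t := by exact_mod_cast h2
          omega
        have h4 : ((N + 1 : ℕ) : ℚ) ≤ t := by exact_mod_cast h3
        rw [div_le_iff₀ hn'Q]
        field_simp
        exact h4
  -- the combination kills everything
  have hΦ : ∀ (y : K) (hy : ∀ g ∈ J, g • y = y), w.Ge 0 y → ∑ q, u q * conj J y hy q = 0 := by
    intro y hy hy0
    by_contra hne
    obtain ⟨N, hN⟩ := exists_nat_gt (((w.val (∑ q, u q * conj J y hy q)) - μ) * n')
    obtain ⟨c, hc, hc2⟩ := happrox y hy hy0 N
    set s := ∑ i ∈ Finset.range n', c i * β ^ i with hs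
    have hsfix : ∀ g ∈ J, g • s = s := fun g hg => by
      rw [hs, smul_sum_mul_pow hc, hβ g hg]
    have hsub : ∀ q, conj J (y - s) (fun g hg => by rw [smul_sub, hy g hg, hsfix g hg]) q =
        conj J y hy q - conj J s hsfix q := by
      intro q
      induction q using QuotientGroup.induction_on with
      | H a => simp only [conj_mk, smul_sub]
    have hs0 : ∑ q, u q * conj J s hsfix q = 0 := by
      have h1 : ∀ q, conj J s hsfix q = ∑ i ∈ Finset.range n', c i * (conj J β hβ q) ^ i := by
        intro q
        induction q using QuotientGroup.induction_on with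
        | H a => rw [conj_mk, conj_mk, hs, smul_sum_mul_pow hc]
      simp only [h1, Finset.mul_sum]
      rw [Finset.sum_comm]
      refine Finset.sum_eq_zero fun i hi => ?_
      have h2 := hu' i (Finset.mem_range.mp hi)
      calc ∑ q, u q * (c i * conj J β hβ q ^ i) = c i * ∑ q, u q * conj J β hβ q ^ i := by
            rw [Finset.mul_sum]
            exact Finset.sum_congr rfl fun q _ => by ring
        _ = 0 := by rw [h2, mul_zero]
    have h3 : ∑ q, u q * conj J y hy q =
        ∑ q, u q * conj J (y - s) (fun g hg => by rw [smul_sub, hy g hg, hsfix g hg]) q := by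
      simp only [hsub, mul_sub, Finset.sum_sub_distrib, hs0, sub_zero]
    have h4 : w.Ge (μ + N / n') (∑ q, u q * conj J y hy q) := by
      rw [h3]
      apply ge_sum
      intro q _
      apply (hμ q).mul
      induction q using QuotientGroup.induction_on with
      | H a => exact h.ge_smul a hc2
    have h5 := h4.resolve_left hne
    have h6 : ((w.val (∑ q, u q * conj J y hy q)) - μ) * n' < N := hN
    have h7 : (w.val (∑ q, u q * conj J y hy q)) - μ < N / n' := by
      rw [lt_div_iff₀ hn'Q]
      exact h6
    linarith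
  -- remove integrality
  have hΦ' : ∀ (y : K) (hy : ∀ g ∈ J, g • y = y), ∑ q, u q * conj J y hy q = 0 := by
    intro y hy
    by_cases hy0 : y = 0
    · subst hy0
      refine Finset.sum_eq_zero fun q _ => ?_
      induction q using QuotientGroup.induction_on with
      | H a => rw [conj_mk, smul_zero, mul_zero]
    obtain ⟨N, hN⟩ := exists_nat_gt (-(w.val y))
    have h1 : w.Ge 0 ((p : K) ^ N * y) :=
      ((h.val_p.pow N).mul (QVal.Is.of_ne hy0)).ge.mono (by linarith)
    have h2 : ∀ g ∈ J, g • ((p : K) ^ N * y) = (p : K) ^ N * y := fun g hg => by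
      rw [smul_mul', smul_pow', smul_natCast, hy g hg]
    have h3 := hΦ _ h2 h1
    have h4 : ∀ q, conj J ((p : K) ^ N * y) h2 q = (p : K) ^ N * conj J y hy q := by
      intro q
      induction q using QuotientGroup.induction_on with
      | H a => rw [conj_mk, conj_mk, smul_mul', smul_pow', smul_natCast]
    have h5 : (p : K) ^ N * ∑ q, u q * conj J y hy q = 0 := by
      rw [← h3, Finset.mul_sum]
      exact Finset.sum_congr rfl fun q _ => by rw [h4]; ring
    exact (mul_eq_zero.mp h5).resolve_left (pow_ne_zero _ h.val_p.1)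
  -- contradiction with independence of characters
  let L : Submonoid K :=
    { carrier := {y | ∀ g ∈ J, g • y = y}
      one_mem' := fun g _ => smul_one g
      mul_mem' := fun {a b} ha hb g hg => by rw [smul_mul', ha g hg, hb g hg] }
  let χ : G ⧸ J → (L →* K) := fun q =>
    { toFun := fun y => conj J y.1 y.2 q
      map_one' := by
        induction q using QuotientGroup.induction_on with
        | H a => exact smul_one a
      map_mul' := by
        intro a b
        induction q using QuotientGroup.induction_on with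
        | H c => exact smul_mul' c _ _ }
  have hχ : Function.Injective χ := by
    intro a b hab
    induction a using QuotientGroup.induction_on with
    | H a =>
      induction b using QuotientGroup.induction_on with
      | H b =>
        rw [QuotientGroup.eq]
        apply hcl
        intro y hy
        have h1 := DFunLike.congr_fun hab (⟨y, hy⟩ : L)
        have h2 : a • y = b • y := h1
        rw [mul_smul, inv_smul_eq_iff]
        exact h2.symm
  have hli := (linearIndependent_monoidHom L K).comp χ hχ
  rw [Fintype.linearIndependent_iff] at hli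
  apply hu0
  funext q
  refine hli u ?_ q
  funext y
  simp only [Finset.sum_apply, Pi.smul_apply, smul_eq_mul, Function.comp_apply, Pi.zero_apply]
  exact hΦ' y.1 y.2

end LocalData

end Fermat.Agent.FlatP
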