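import Fermat.Agent.FlatP.Char
import Fermat.Agent.FlatP.Concrete

/-!
# The tame symbol

`A` is a place of `ℚ̄` above `p`. For `σ` in the decomposition group and `y ≠ 0` the tame symbol
`ts A σ y` is the residue class of `σ y / y`. It is used to construct the wild inertia group of
a finite Galois extension.
-/

set_option autoImplicit false

namespace Fermat.Agent.FlatP

open Fermat.Agent.FlatGS FermatAgent.ECVal IsLocalRing
open scoped Pointwise

variable {p : ℕ} {A : ValuationSubring Om}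

section Residue

open Classical in
/-- The residue class of an element of `ℚ̄` (zero if the element is not integral). -/
noncomputable def rs (A : ValuationSubring Om) (z : Om) : ResidueField A :=
  if h : z ∈ A then residue A ⟨z, h⟩ else 0

lemma rs_of_mem {z : Om} (h : z ∈ A) : rs A z = residue A ⟨z, h⟩ := dif_pos h

lemma rs_mul {z w : Om} (hz : z ∈ A) (hw : w ∈ A) : rs A (z * w) = rs A z * rs A w := by
  rw [rs_of_mem hz, rs_of_mem hw, rs_of_mem (A.mul_mem _ _ hz hw), ← map_mul]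
  rfl

lemma rs_add {z w : Om} (hz : z ∈ A) (hw : w ∈ A) : rs A (z + w) = rs A z + rs A w := by
  rw [rs_of_mem hz, rs_of_mem hw, rs_of_mem (A.add_mem _ _ hz hw), ← map_add]
  rfl

lemma rs_sub {z w : Om} (hz : z ∈ A) (hw : w ∈ A) : rs A (z - w) = rs A z - rs A w := by
  rw [rs_of_mem hz, rs_of_mem hw, rs_of_mem (sub_mem hz hw), ← map_sub]
  rfl

@[simp] lemma rs_one : rs A 1 = 1 := by
  rw [rs_of_mem A.one_mem]
  exact map_one _

@[simp] lemma rs_zero : rs A 0 = 0 := by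
  rw [rs_of_mem A.zero_mem]
  exact map_zero _

lemma rs_pow {z : Om} (hz : z ∈ A) (n : ℕ) : rs A (z ^ n) = rs A z ^ n := by
  rw [rs_of_mem hz, rs_of_mem (A.toSubring.pow_mem hz n), ← map_pow]
  rfl

lemma rs_natCast (n : ℕ) : rs A (n : Om) = n := by
  rw [rs_of_mem (natCast_mem A n)]
  exact map_natCast (residue A) n

lemma rs_sum {ι : Type*} (s : Finset ι) {f : ι → Om} (h : ∀ i ∈ s, f i ∈ A) :
    rs A (∑ i ∈ s, f i) = ∑ i ∈ s, rs A (f i) := by
  classical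
  induction s using Finset.induction_on with
  | empty => rw [Finset.sum_empty, Finset.sum_empty, rs_zero]
  | insert a s ha ih =>
    rw [Finset.sum_insert ha, Finset.sum_insert ha, rs_add (h a (Finset.mem_insert_self _ _)),
      ih fun i hi => h i (Finset.mem_insert_of_mem hi)]
    exact A.toSubring.sum_mem fun i hi => h i (Finset.mem_insert_of_mem hi)

lemma rs_eq_zero_iff {z : Om} (hz : z ∈ A) : rs A z = 0 ↔ z ∈ A.nonunits := by
  rw [rs_of_mem hz, residue_eq_zero_iff, ValuationSubring.mem_nonunits_iff_exists_mem_maximalIdeal]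
  exact ⟨fun h => ⟨hz, h⟩, fun ⟨_, h⟩ => h⟩

lemma rs_eq_iff {z w : Om} (hz : z ∈ A) (hw : w ∈ A) :
    rs A z = rs A w ↔ z - w ∈ A.nonunits := by
  rw [← rs_eq_zero_iff (sub_mem hz hw), rs_sub hz hw, sub_eq_zero]

lemma rs_inertia {σ : GQ} (hσ : σ ∈ A.inertiaSubgroupIn ℚ) {z : Om} (hz : z ∈ A) :
    rs A (σ z) = rs A z := by
  have h1 := Fermat.Agent.Minkowski.sub_mem_nonunits_of_mem_inertia hσ hz
  exact (rs_eq_iff h1.1 hz).mpr h1.2

lemma decomp_mem {d : GQ} (hd : d ∈ A.decompositionSubgroup ℚ) {z : Om} (hz : z ∈ A) :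
    d z ∈ A := by
  have h1 : d • z ∈ d • A := ValuationSubring.smul_mem_pointwise_smul _ _ _ hz
  have h2 : d • A = A := hd
  rw [h2] at h1
  exact h1

lemma rs_decomp {d : GQ} (hd : d ∈ A.decompositionSubgroup ℚ) {z : Om} (hz : z ∈ A) :
    rs A (d z) = (⟨d, hd⟩ : A.decompositionSubgroup ℚ) • rs A z := by
  rw [rs_of_mem hz, rs_of_mem (decomp_mem hd hz), ← ResidueField.residue_smul]
  rfl

lemma rs_frob {φ : GQ} (hφ : A.IsFrobeniusAt φ p) {z : Om} (hz : z ∈ A) :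
    rs A (φ z) = rs A z ^ p := by
  rw [rs_decomp hφ.mem_decompositionSubgroup hz, hφ.smul_residue_eq]

end Residue

section Symbol

variable (hp : p.Prime) (hA : A.LiesOverPrime p)

/-- The tame symbol. -/
noncomputable def ts (A : ValuationSubring Om) (σ : GQ) (y : Om) : ResidueField A :=
  rs A (σ y / y)

include hp hA in
lemma mem_of_is_zero {u : Om} (hu : (valOf hp hA).Is 0 u) : u ∈ A :=
  (valOf_ge_zero_iff hp hA).mp hu.ge

include hp hA in
lemma rs_ne_zero_of_is_zero {u : Om} (hu : (valOf hp hA).Is 0 u) : rs A u ≠ 0 := by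
  intro h
  rw [rs_eq_zero_iff (mem_of_is_zero hp hA hu), ← valOf_gt_zero_iff hp hA] at h
  exact hu.not_gt le_rfl h

lemma is_decomp {d : GQ} (hd : d ∈ A.decompositionSubgroup ℚ) {y : Om} {r : ℚ}
    (hy : (valOf hp hA).Is r y) : (valOf hp hA).Is r (d y) :=
  ⟨(map_ne_zero d).mpr hy.1, by rw [valOf_decomp hp hA hd]; exact hy.2⟩

lemma is_div {y z : Om} {r : ℚ} (hy : (valOf hp hA).Is r y) (hz : (valOf hp hA).Is r z) :
    (valOf hp hA).Is 0 (y / z) := by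
  rw [div_eq_mul_inv]
  exact (hy.mul hz.inv).congr (by ring)

lemma is_div_decomp {d : GQ} (hd : d ∈ A.decompositionSubgroup ℚ) {y : Om} (hy : y ≠ 0) :
    (valOf hp hA).Is 0 (d y / y) :=
  is_div hp hA (is_decomp hp hA hd (QVal.Is.of_ne hy)) (QVal.Is.of_ne hy)

include hp hA

lemma ts_ne_zero {d : GQ} (hd : d ∈ A.decompositionSubgroup ℚ) {y : Om} (hy : y ≠ 0) :
    ts A d y ≠ 0 :=
  rs_ne_zero_of_is_zero hp hA (is_div_decomp hp hA hd hy)

lemma ts_mul {σ τ : GQ} (hσ : σ ∈ A.inertiaSubgroupIn ℚ) (hτ : τ ∈ A.inertiaSubgroupIn ℚ)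
    {y : Om} (hy : y ≠ 0) : ts A (σ * τ) y = ts A σ y * ts A τ y := by
  have hσD := TW.inertia_le_decomp hσ
  have hτD := TW.inertia_le_decomp hτ
  have h1 : (σ * τ) y / y = σ y / y * σ (τ y / y) := by
    rw [AlgEquiv.mul_apply, map_div₀]
    have : σ y ≠ 0 := (map_ne_zero σ).mpr hy
    field_simp
  have h2 := mem_of_is_zero hp hA (is_div_decomp hp hA hτD hy)
  rw [ts, h1, rs_mul (mem_of_is_zero hp hA (is_div_decomp hp hA hσD hy)) (decomp_mem hσD h2),
    rs_inertia hσ h2]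
  rfl

omit hp hA in
lemma ts_one {y : Om} (hy : y ≠ 0) : ts A 1 y = 1 := by
  rw [ts, AlgEquiv.one_apply, div_self hy, rs_one]

lemma ts_pow {σ : GQ} (hσ : σ ∈ A.inertiaSubgroupIn ℚ) {y : Om} (hy : y ≠ 0) (n : ℕ) :
    ts A (σ ^ n) y = ts A σ y ^ n := by
  induction n with
  | zero => rw [pow_zero, pow_zero]; exact ts_one hy
  | succ n ih =>
    rw [pow_succ, pow_succ, ts_mul hp hA (Subgroup.pow_mem _ hσ n) hσ hy, ih]

lemma ts_inv {σ : GQ} (hσ : σ ∈ A.inertiaSubgroupIn ℚ) {y : Om} (hy : y ≠ 0) :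
    ts A σ⁻¹ y = (ts A σ y)⁻¹ := by
  apply eq_inv_of_mul_eq_one_left
  rw [← ts_mul hp hA (inv_mem hσ) hσ hy, inv_mul_cancel, ts_one hy]

lemma ts_mul_right {σ : GQ} (hσ : σ ∈ A.inertiaSubgroupIn ℚ) {y z : Om} (hy : y ≠ 0)
    (hz : z ≠ 0) : ts A σ (y * z) = ts A σ y * ts A σ z := by
  have hσD := TW.inertia_le_decomp hσ
  have h1 : σ (y * z) / (y * z) = σ y / y * (σ z / z) := by
    rw [map_mul]
    field_simp
  rw [ts, h1, rs_mul (mem_of_is_zero hp hA (is_div_decomp hp hA hσD hy))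
    (mem_of_is_zero hp hA (is_div_decomp hp hA hσD hz))]
  rfl

lemma ts_pow_right {σ : GQ} (hσ : σ ∈ A.inertiaSubgroupIn ℚ) {y : Om} (hy : y ≠ 0) (n : ℕ) :
    ts A σ (y ^ n) = ts A σ y ^ n := by
  induction n with
  | zero => rw [pow_zero, pow_zero, ts, map_one, div_one, rs_one]
  | succ n ih => rw [pow_succ, pow_succ, ts_mul_right hp hA hσ (pow_ne_zero n hy) hy, ih]

lemma ts_of_is_zero {σ : GQ} (hσ : σ ∈ A.inertiaSubgroupIn ℚ) {u : Om}
    (hu : (valOf hp hA).Is 0 u) : ts A σ u = 1 := by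
  have hσD := TW.inertia_le_decomp hσ
  have h1 := mem_of_is_zero hp hA (is_div_decomp hp hA hσD hu.1)
  have h2 : rs A (σ u / u) * rs A u = rs A u := by
    rw [← rs_mul h1 (mem_of_is_zero hp hA hu), div_mul_cancel₀ _ hu.1,
      rs_inertia hσ (mem_of_is_zero hp hA hu)]
  exact mul_right_cancel₀ (rs_ne_zero_of_is_zero hp hA hu) (by rw [one_mul]; exact h2)

/-- the tame symbol only depends on the valuation. -/
lemma ts_congr {σ : GQ} (hσ : σ ∈ A.inertiaSubgroupIn ℚ) {y z : Om} {r : ℚ}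
    (hy : (valOf hp hA).Is r y) (hz : (valOf hp hA).Is r z) : ts A σ y = ts A σ z := by
  have h1 : y = z * (y / z) := by
    have := hz.1
    field_simp
  rw [h1, ts_mul_right hp hA hσ hz.1 (is_div hp hA hy hz).1,
    ts_of_is_zero hp hA hσ (is_div hp hA hy hz), mul_one]

lemma ts_conj_frob {φ : GQ} (hφ : A.IsFrobeniusAt φ p) {σ : GQ}
    (hσ : σ ∈ A.inertiaSubgroupIn ℚ) {y : Om} (hy : y ≠ 0) :
    ts A (φ * σ * φ⁻¹) y = ts A σ y ^ p := by
  have hφD := hφ.mem_decompositionSubgroup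
  have hσD := TW.inertia_le_decomp hσ
  have hz : φ⁻¹ y ≠ 0 := (map_ne_zero _).mpr hy
  have h1 : (φ * σ * φ⁻¹) y / y = φ (σ (φ⁻¹ y) / φ⁻¹ y) := by
    rw [AlgEquiv.mul_apply, AlgEquiv.mul_apply, map_div₀]
    congr 1
    exact (AlgEquiv.apply_symm_apply φ y).symm
  rw [ts, h1, rs_frob hφ (mem_of_is_zero hp hA (is_div_decomp hp hA hσD hz))]
  congr 1
  exact ts_congr hp hA hσ (is_decomp hp hA (inv_mem hφD) (QVal.Is.of_ne hy)) (QVal.Is.of_ne hy)

lemma ts_conj_eq_one {d : GQ} (hd : d ∈ A.decompositionSubgroup ℚ) {σ : GQ}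
    (hσ : σ ∈ A.inertiaSubgroupIn ℚ) {y : Om} (hy : y ≠ 0) (h : ts A σ y = 1) :
    ts A (d * σ * d⁻¹) y = 1 := by
  have hσD := TW.inertia_le_decomp hσ
  have hz : d⁻¹ y ≠ 0 := (map_ne_zero _).mpr hy
  have h1 : (d * σ * d⁻¹) y / y = d (σ (d⁻¹ y) / d⁻¹ y) := by
    rw [AlgEquiv.mul_apply, AlgEquiv.mul_apply, map_div₀]
    congr 1
    exact (AlgEquiv.apply_symm_apply d y).symm
  have h2 : ts A σ (d⁻¹ y) = 1 := by
    rw [← h]
    exact ts_congr hp hA hσ (is_decomp hp hA (inv_mem hd) (QVal.Is.of_ne hy)) (QVal.Is.of_ne hy)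
  rw [ts, h1, rs_decomp hd (mem_of_is_zero hp hA (is_div_decomp hp hA hσD hz))]
  change _ • ts A σ (d⁻¹ y) = 1
  rw [h2, smul_one]

end Symbol

section Wild

variable (hp : p.Prime) (hA : A.LiesOverPrime p)

/-- The wild inertia group of `L`: the elements of the inertia group with trivial tame symbol
on `L`. -/
noncomputable def wild (L : IntermediateField ℚ Om) : Subgroup GQ where
  carrier := {σ | σ ∈ A.inertiaSubgroupIn ℚ ∧ ∀ y ∈ L, y ≠ 0 → ts A σ y = 1}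
  one_mem' := ⟨one_mem _, fun y _ hy => ts_one hy⟩
  mul_mem' := by
    rintro σ τ ⟨h1, h2⟩ ⟨h3, h4⟩
    refine ⟨mul_mem h1 h3, fun y hyL hy => ?_⟩
    rw [ts_mul hp hA h1 h3 hy, h2 y hyL hy, h4 y hyL hy, one_mul]
  inv_mem' := by
    rintro σ ⟨h1, h2⟩
    refine ⟨inv_mem h1, fun y hyL hy => ?_⟩
    rw [ts_inv hp hA h1 hy, h2 y hyL hy, inv_one]

variable (L : IntermediateField ℚ Om)

lemma mem_wild {σ : GQ} : σ ∈ wild hp hA L ↔
    σ ∈ A.inertiaSubgroupIn ℚ ∧ ∀ y ∈ L, y ≠ 0 → ts A σ y = 1 := Iff.rfl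

lemma conj_mem_inertia {d : GQ} (hd : d ∈ A.decompositionSubgroup ℚ) {σ : GQ}
    (hσ : σ ∈ A.inertiaSubgroupIn ℚ) : d * σ * d⁻¹ ∈ A.inertiaSubgroupIn ℚ := by
  have := TW.conj_mem_inertia_of_decomp (inv_mem hd) hσ
  rwa [inv_inv] at this

lemma wild_conj {d : GQ} (hd : d ∈ A.decompositionSubgroup ℚ) {σ : GQ}
    (hσ : σ ∈ wild hp hA L) : d * σ * d⁻¹ ∈ wild hp hA L :=
  ⟨conj_mem_inertia hd hσ.1, fun y hyL hy => ts_conj_eq_one hp hA hd hσ.1 hy (hσ.2 y hyL hy)⟩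

lemma wild_comm {σ τ : GQ} (hσ : σ ∈ A.inertiaSubgroupIn ℚ) (hτ : τ ∈ A.inertiaSubgroupIn ℚ) :
    σ * τ * σ⁻¹ * τ⁻¹ ∈ wild hp hA L := by
  refine ⟨mul_mem (mul_mem (mul_mem hσ hτ) (inv_mem hσ)) (inv_mem hτ), fun y _ hy => ?_⟩
  rw [ts_mul hp hA (mul_mem (mul_mem hσ hτ) (inv_mem hσ)) (inv_mem hτ) hy,
    ts_mul hp hA (mul_mem hσ hτ) (inv_mem hσ) hy, ts_mul hp hA hσ hτ hy, ts_inv hp hA hσ hy,
    ts_inv hp hA hτ hy]
  have h1 := ts_ne_zero hp hA (TW.inertia_le_decomp hσ) hy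
  have h2 := ts_ne_zero hp hA (TW.inertia_le_decomp hτ) hy
  field_simp

lemma wild_frob {φ : GQ} (hφ : A.IsFrobeniusAt φ p) {σ : GQ}
    (hσ : σ ∈ A.inertiaSubgroupIn ℚ) : φ * σ * φ⁻¹ * (σ ^ p)⁻¹ ∈ wild hp hA L := by
  have h0 := conj_mem_inertia hφ.mem_decompositionSubgroup hσ
  have h1 : σ ^ p ∈ A.inertiaSubgroupIn ℚ := Subgroup.pow_mem _ hσ p
  refine ⟨mul_mem h0 (inv_mem h1), fun y _ hy => ?_⟩
  rw [ts_mul hp hA h0 (inv_mem h1) hy, ts_inv hp hA h1 hy, ts_pow hp hA hσ hy,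
    ts_conj_frob hp hA hφ hσ hy]
  exact mul_inv_cancel₀ (pow_ne_zero _ (ts_ne_zero hp hA (TW.inertia_le_decomp hσ) hy))

include hp hA in
lemma charP_residueField : CharP (ResidueField A) p := FrobDensity.charP_residue hp hA

include hp hA in
lemma natCast_ne_zero_of_coprime {n : ℕ} (hn : Nat.Coprime n p) : (n : ResidueField A) ≠ 0 := by
  have := charP_residueField hp hA
  rw [Ne, CharP.cast_eq_zero_iff (ResidueField A) p]
  intro h
  exact hp.one_lt.ne' (Nat.Coprime.eq_one_of_dvd hn.symm h)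

/-- The wild inertia group acts on `L` through elements of `p`-power order. -/
lemma wild_pow {N : ℕ} (hN : Nat.Coprime N p) {σ : GQ} (hσ : σ ∈ wild hp hA L)
    (hL : ∀ y ∈ L, σ y ∈ L) (hσN : ∀ y ∈ L, (σ ^ N) y = y) : ∀ y ∈ L, σ y = y := by
  intro y hy
  by_contra hne
  have hw0 : σ y - y ≠ 0 := sub_ne_zero.mpr hne
  have hwL : σ y - y ∈ L := sub_mem (hL y hy) hy
  have hpow : ∀ i : ℕ, σ ^ i ∈ wild hp hA L := fun i => Subgroup.pow_mem _ hσ i
  -- the trace of `σ y - y` is zero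
  have htel : ∀ n : ℕ, ∑ i ∈ Finset.range n, (σ ^ i) (σ y - y) = (σ ^ n) y - y := by
    intro n
    induction n with
    | zero => simp
    | succ n ih =>
      rw [Finset.sum_range_succ, ih, map_sub, pow_succ, AlgEquiv.mul_apply]
      ring
  have h1 := htel N
  rw [hσN y hy, sub_self] at h1
  have h2 : ∑ i ∈ Finset.range N, (σ ^ i) (σ y - y) / (σ y - y) = 0 := by
    rw [← Finset.sum_div, h1, zero_div]
  have h3 : ∀ i ∈ Finset.range N, (σ ^ i) (σ y - y) / (σ y - y) ∈ A := fun i _ =>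
    mem_of_is_zero hp hA (is_div_decomp hp hA (TW.inertia_le_decomp (hpow i).1) hw0)
  have h4 := congrArg (rs A) h2
  rw [rs_sum _ h3, rs_zero] at h4
  have h5 : ∑ i ∈ Finset.range N, rs A ((σ ^ i) (σ y - y) / (σ y - y)) = N := by
    have h6 : ∀ i ∈ Finset.range N, rs A ((σ ^ i) (σ y - y) / (σ y - y)) = 1 :=
      fun i _ => (hpow i).2 _ hwL hw0
    rw [Finset.sum_congr rfl h6]
    simp
  rw [h5] at h4
  exact natCast_ne_zero_of_coprime hp hA hN h4

include hp hA in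
/-- elements of the tame quotient have order prime to `p`. -/
lemma pow_mem_wild {a N : ℕ} {σ : GQ} (hσ : σ ∈ A.inertiaSubgroupIn ℚ)
    (hσN : ∀ y ∈ L, (σ ^ (p ^ a * N)) y = y) : σ ^ N ∈ wild hp hA L := by
  refine ⟨Subgroup.pow_mem _ hσ N, fun y hyL hy => ?_⟩
  have := charP_residueField hp hA
  have hpF : Fact p.Prime := ⟨hp⟩
  have h1 : ts A (σ ^ (p ^ a * N)) y = 1 := by
    rw [ts, hσN y hyL, div_self hy, rs_one]
  rw [ts_pow hp hA hσ hy, mul_comm, pow_mul, ← ts_pow hp hA hσ hy] at h1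
  have h2 : (ts A (σ ^ N) y) ^ p ^ a = 1 ^ p ^ a := by rw [h1, one_pow]
  exact (frobenius_inj (ResidueField A) p).iterate a (by
    rw [iterate_frobenius, iterate_frobenius]
    exact h2)

end Wild

end Fermat.Agent.FlatP
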