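import Fermat.Agent.FlatP.Conn
import Fermat.Agent.FlatP.Tame

/-!
# The leading term of the connected part

If `N` is a nonzero subgroup of the connected part of `M`, stable under the inertia group, then
the leading terms of the functions of a model give a nonzero additive map from `N` to the residue
field, on which inertia acts through a tame character of small exponent.
-/

set_option autoImplicit false

namespace Fermat.Agent.FlatP

open Fermat.Agent.FlatGS Fermat.Agent.MazurMult FermatAgent.ECVal IsLocalRing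

variable {p : ℕ} {M : Type} [AddCommGroup M] {act : GQ → M → M}
  {B : Subalgebra (Rp p) (M → Om)} {A : ValuationSubring Om}

omit [AddCommGroup M] in
lemma ge_of_basis (hp : p.Prime) (hA : A.LiesOverPrime p) {ι : Type} [Fintype ι]
    (e : Module.Basis ι (Rp p) B) {x y : M} {m : ℚ}
    (he : ∀ i, (valOf hp hA).Ge m ((e i : M → Om) x - (e i : M → Om) y)) {b : M → Om}
    (hb : b ∈ B) : (valOf hp hA).Ge m (b x - b y) := by
  have h1 : ∀ z, b z = ∑ i, algebraMap (Rp p) Om (e.repr ⟨b, hb⟩ i) * (e i : M → Om) z := by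
    intro z
    have h2 := congrArg (ev B z) (e.sum_repr ⟨b, hb⟩)
    rw [map_sum] at h2
    change _ = b z at h2
    rw [← h2]
    refine Finset.sum_congr rfl fun i _ => ?_
    rw [map_smul, ev_apply, Algebra.smul_def]
  rw [h1, h1, ← Finset.sum_sub_distrib]
  refine ge_sum fun i _ => ?_
  rw [← mul_sub]
  have h2 : (valOf hp hA).Ge 0 (algebraMap (Rp p) Om (e.repr ⟨b, hb⟩ i)) :=
    (valOf_ge_zero_iff hp hA).mpr (Rp_mem hA _)
  exact (h2.mul (he i)).mono (by linarith)

/-- failure of additivity is of second order. -/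
lemma ge_add_sub (h : IsModel p act B) (hp : p.Prime) (hA : A.LiesOverPrime p) {x y : M} {m n : ℚ}
    (hx : ∀ b ∈ B, (valOf hp hA).Ge m (b x - b 0)) (hy : ∀ b ∈ B, (valOf hp hA).Ge n (b y - b 0))
    {b : M → Om} (hb : b ∈ B) :
    (valOf hp hA).Ge (m + n) (b (x + y) - b x - b y + b 0) := by
  have := h.fin
  let e := Module.Free.chooseBasis (Rp p) B
  obtain ⟨c, hc, hc'⟩ := exists_coaction h e hb
  have h1 : b (x + y) - b x - b y + b 0 =
      ∑ i, ((e i : M → Om) x - (e i : M → Om) 0) * (c i y - c i 0) := by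
    have e1 := hc' x y
    have e2 := hc' x 0
    have e3 := hc' 0 y
    have e4 := hc' 0 0
    rw [add_zero] at e2 e4
    rw [zero_add] at e3
    rw [e1, e2, e3, e4]
    rw [← Finset.sum_sub_distrib, ← Finset.sum_sub_distrib, ← Finset.sum_add_distrib]
    exact Finset.sum_congr rfl fun i _ => by ring
  rw [h1]
  exact ge_sum fun i _ => (hx _ (e i).2).mul (hy _ (hc i))

/-- **The leading term.** -/
theorem exists_leading [Finite M] (h : IsModel p act B) (hp : p.Prime) (hA : A.LiesOverPrime p)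
    (hpM : ∀ x : M, p • x = 0) (N : AddSubgroup M) (hN : N ≤ conn h hA) (hN0 : N ≠ ⊥)
    (hstab : ∀ σ ∈ A.inertiaSubgroupIn ℚ, ∀ x ∈ N, act σ x ∈ N) :
    ∃ (b₀ : M → Om) (x₀ : N) (m : ℚ) (θ : N →+ ResidueField A), b₀ ∈ B ∧
      (valOf hp hA).Is m (b₀ x₀ - b₀ 0) ∧ 0 < m ∧ m ≤ 1 / ((p : ℚ) - 1) ∧ θ x₀ = 1 ∧
      ∀ (σ : GQ) (hσ : σ ∈ A.inertiaSubgroupIn ℚ) (x : N),
        θ ⟨act σ x, hstab σ hσ x x.2⟩ = ts A σ (b₀ x₀ - b₀ 0) * θ x := by
  classical
  have := h.fin
  cases nonempty_fintype M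
  have : Fintype N := Fintype.ofFinite N
  let e := Module.Free.chooseBasis (Rp p) B
  let S : Finset (Module.Free.ChooseBasisIndex (Rp p) B × N) :=
    Finset.univ.filter fun ix => (e ix.1 : M → Om) ix.2 - (e ix.1 : M → Om) 0 ≠ 0
  have hS : S.Nonempty := by
    rw [Finset.nonempty_iff_ne_empty]
    intro hS
    apply hN0
    rw [eq_bot_iff]
    intro x hx
    rw [AddSubgroup.mem_bot]
    apply h.sep
    intro b hb
    have h1 : ∀ i, (valOf hp hA).Ge ((valOf hp hA).val (b x - b 0) + 1)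
        ((e i : M → Om) x - (e i : M → Om) 0) := by
      intro i
      left
      by_contra hne
      have : (i, (⟨x, hx⟩ : N)) ∈ S := Finset.mem_filter.mpr ⟨Finset.mem_univ _, hne⟩
      rw [hS] at this
      exact Finset.notMem_empty _ this
    have h2 := ge_of_basis hp hA e h1 hb
    rcases h2 with h2 | h2
    · exact sub_eq_zero.mp h2
    · linarith
  obtain ⟨⟨i₀, x₀⟩, hi₀, hmin⟩ := S.exists_min_image
    (fun ix => (valOf hp hA).val ((e ix.1 : M → Om) ix.2 - (e ix.1 : M → Om) 0)) hS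
  rw [Finset.mem_filter] at hi₀
  set b₀ : M → Om := (e i₀ : M → Om) with hb₀
  set c : Om := b₀ x₀ - b₀ 0 with hc
  have hc0 : c ≠ 0 := hi₀.2
  let m := (valOf hp hA).val c
  have hcm : (valOf hp hA).Is m c := QVal.Is.of_ne hc0
  have hge : ∀ x : N, ∀ b ∈ B, (valOf hp hA).Ge m (b x - b 0) := by
    intro x b hb
    refine ge_of_basis hp hA e (fun i => ?_) hb
    by_cases h0 : (e i : M → Om) x - (e i : M → Om) 0 = 0
    · exact Or.inl h0
    · exact Or.inr (hmin (i, x) (Finset.mem_filter.mpr ⟨Finset.mem_univ _, h0⟩))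
  have hb₀B : b₀ ∈ B := (e i₀).2
  have hm0 : 0 < m := by
    have h1 := (mem_conn h hA).mp (hN x₀.2) b₀ hb₀B
    rw [← valOf_gt_zero_iff hp hA] at h1
    exact hcm.lt_of_gt h1
  have hx₀ : (x₀ : M) ≠ 0 := by
    intro h0
    apply hc0
    rw [hc, h0, sub_self]
  have hmA : ∀ x : N, (b₀ x - b₀ 0) / c ∈ A := by
    intro x
    rw [← valOf_ge_zero_iff hp hA, div_eq_mul_inv]
    exact ((hge x b₀ hb₀B).mul hcm.inv.ge).mono (by linarith)
  let θ : N →+ ResidueField A :=
    { toFun := fun x => rs A ((b₀ x - b₀ 0) / c)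
      map_zero' := by
        change rs A ((b₀ 0 - b₀ 0) / c) = 0
        rw [sub_self, zero_div, rs_zero]
      map_add' := by
        intro x y
        rw [← rs_add (hmA x) (hmA y), rs_eq_iff (hmA _) (A.add_mem _ _ (hmA x) (hmA y)),
          ← valOf_gt_zero_iff hp hA]
        have h1 := ge_add_sub h hp hA (hge x) (hge y) hb₀B
        have h2 : (b₀ ((x + y : N) : M) - b₀ 0) / c - ((b₀ x - b₀ 0) / c + (b₀ y - b₀ 0) / c) =
            (b₀ ((x : M) + (y : M)) - b₀ x - b₀ y + b₀ 0) * c⁻¹ := by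
          rw [AddSubgroup.coe_add]
          field_simp
          ring
        rw [h2]
        exact (h1.mul hcm.inv.ge).gt (by linarith) }
  refine ⟨b₀, x₀, m, θ, hb₀B, hcm, hm0, ?_, ?_, ?_⟩
  · exact separation h hp hA hpM hx₀ (fun b hb => hge x₀ b hb)
  · change rs A (c / c) = 1
    rw [div_self hc0, rs_one]
  · intro σ hσ x
    change rs A ((b₀ (act σ x) - b₀ 0) / c) = rs A (σ c / c) * rs A ((b₀ x - b₀ 0) / c)
    have h1 : b₀ (act σ x) - b₀ 0 = σ (b₀ x - b₀ 0) := by
      rw [map_sub, ← h.equivariant b₀ hb₀B, ← h.equivariant b₀ hb₀B, h.act_zero]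
    have h2 : σ (b₀ x - b₀ 0) / c = σ c / c * σ ((b₀ x - b₀ 0) / c) := by
      rw [map_div₀]
      have : σ c ≠ 0 := (map_ne_zero σ).mpr hc0
      field_simp
    have hσD := TW.inertia_le_decomp hσ
    rw [h1, h2, rs_mul (mem_of_is_zero hp hA (is_div_decomp hp hA hσD hc0))
      (decomp_mem hσD (hmA x)), rs_inertia hσ (hmA x)]

/-- the valuation of the leading term has denominator dividing the index of a subgroup of inertia
fixing `x₀`. -/
lemma val_leading (h : IsModel p act B) (hp : p.Prime) (hA : A.LiesOverPrime p)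
    {J : Subgroup (A.inertiaSubgroupIn ℚ)} (hJ : J.FiniteIndex) {b₀ : M → Om} (hb₀ : b₀ ∈ B)
    {x₀ : M} (hx₀ : ∀ g ∈ J, act g x₀ = x₀) {m : ℚ} (hm : (valOf hp hA).Is m (b₀ x₀ - b₀ 0)) :
    ∃ n : ℤ, m = n / J.index := by
  obtain ⟨n, hn⟩ := (localData hp hA).exists_val_eq hJ (y := b₀ x₀ - b₀ 0) (by
    intro g hg
    change (g : GQ) (b₀ x₀ - b₀ 0) = _
    rw [map_sub, ← h.equivariant b₀ hb₀, ← h.equivariant b₀ hb₀, h.act_zero, hx₀ g hg]) hm.1
  exact ⟨n, by rw [← hn, hm.2]⟩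

end Fermat.Agent.FlatP
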