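import Fermat.Agent.FlatP.Char
import Fermat.Agent.FlatP.Concrete

/-!
# Lagrange resolvents of the coordinate functions of a finite flat group scheme

`M` finite flat with model `B`, `V ≤ M` a subgroup, `lam : V → ℚ̄ˣ` a character.
`zres V lam b x = ∑_{y ∈ V} lam(-y) b(x + y)`. The minimal value of `zres V lam b x`, `b ∈ B`, does
not depend on `x`, so that suitable quotients of resolvents are units: Kummer generators.
-/

set_option autoImplicit false

namespace Fermat.Agent.FlatP

open Fermat.Agent.FlatGS Fermat.Agent.MazurMult FermatAgent.ECVal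

variable {p : ℕ} {M : Type} [AddCommGroup M] [Finite M] {act : GQ → M → M}
  {B : Subalgebra (Rp p) (M → Om)} {A : ValuationSubring Om}

section resolvent

variable (V : AddSubgroup M) (lam : AddChar V Om)

/-- the resolvent -/
noncomputable def zres (b : M → Om) (x : M) : Om :=
  haveI := Fintype.ofFinite V
  ∑ y : V, lam (-y) * b (x + y)

lemma zres_def [Fintype V] (b : M → Om) (x : M) :
    zres V lam b x = ∑ y : V, lam (-y) * b (x + y) := by
  rw [zres]
  congr!

variable {V lam}

lemma lam_ne_zero (y : V) : lam y ≠ 0 := by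
  intro h0
  have h1 : lam y * lam (-y) = 1 := by
    rw [← AddChar.map_add_eq_mul, add_neg_cancel, AddChar.map_zero_eq_one]
  rw [h0, zero_mul] at h1
  exact zero_ne_one h1

lemma zres_add (b : M → Om) (x : M) (y₀ : V) :
    zres V lam b (x + y₀) = lam y₀ * zres V lam b x := by
  have := Fintype.ofFinite V
  rw [zres_def, zres_def, Finset.mul_sum, ← Equiv.sum_comp (Equiv.addRight y₀)
    (fun y : V => lam y₀ * (lam (-y) * b (x + y)))]
  refine Finset.sum_congr rfl fun y _ => ?_
  simp only [Equiv.coe_addRight, AddSubgroup.coe_add]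
  have h1 : lam y₀ * lam (-(y + y₀)) = lam (-y) := by
    rw [← AddChar.map_add_eq_mul]
    congr 1
    abel
  rw [← mul_assoc, h1]
  congr 2
  abel

/-- Galois equivariance of resolvents. -/
lemma map_zres (h : IsModel p act B) {σ : GQ} (hV : ∀ y ∈ V, act σ y ∈ V)
    (hlam : ∀ (y : M) (hy : y ∈ V), lam ⟨act σ y, hV y hy⟩ = σ (lam ⟨y, hy⟩)) {b : M → Om}
    (hb : b ∈ B) (x : M) : σ (zres V lam b x) = zres V lam b (act σ x) := by
  have := Fintype.ofFinite V
  rw [zres_def, zres_def, map_sum]
  let f : V → V := fun y => ⟨act σ y, hV y y.2⟩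
  have hf : Function.Bijective f := by
    apply Function.Injective.bijective_of_finite
    intro a c hac
    apply Subtype.ext
    have h1 : act σ a = act σ c := congrArg Subtype.val hac
    have h2 := congrArg (act σ⁻¹) h1
    rwa [h.act_inv_act, h.act_inv_act] at h2
  refine Fintype.sum_bijective f hf _ _ fun y => ?_
  rw [map_mul, ← h.equivariant b hb, h.act_add]
  congr 1
  have h3 : σ (lam (-y)) = lam (f (-y)) := (hlam _ (-y).2).symm
  rw [h3]
  congr 1
  apply Subtype.ext
  change act σ (-(y : M)) = -(act σ (y : M))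
  rw [eq_neg_iff_add_eq_zero, ← h.act_add, neg_add_cancel, h.act_zero]

/-- Resolvents and comultiplication. -/
lemma exists_zres (h : IsModel p act B) {b : M → Om} (hb : b ∈ B) :
    ∃ (n : ℕ) (u c : Fin n → M → Om), (∀ i, u i ∈ B) ∧ (∀ i, c i ∈ B) ∧
      ∀ x t, zres V lam b (x + t) = ∑ i, u i x * zres V lam (c i) t := by
  classical
  have := Fintype.ofFinite V
  have := h.fin
  let e := Module.Free.chooseBasis (Rp p) B
  obtain ⟨c, hc, hc'⟩ := exists_coaction h e hb
  let ε := (Fintype.equivFin (Module.Free.ChooseBasisIndex (Rp p) B)).symm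
  refine ⟨_, fun i => (e (ε i) : M → Om), fun i => c (ε i), fun i => Subtype.property _,
    fun i => hc _, fun x t => ?_⟩
  rw [Equiv.sum_comp ε (fun i => (e i : M → Om) x * zres V lam (c i) t), zres_def]
  simp only [zres_def, Finset.mul_sum]
  rw [Finset.sum_comm]
  refine Finset.sum_congr rfl fun y _ => ?_
  rw [add_assoc, hc', Finset.mul_sum]
  refine Finset.sum_congr rfl fun i _ => ?_
  ring

/-- some resolvent at `0` does not vanish. -/
lemma exists_zres_ne_zero (h : IsModel p act B) : ∃ b ∈ B, zres V lam b 0 ≠ 0 := by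
  classical
  have := Fintype.ofFinite V
  have := h.fin
  by_contra hcon
  push Not at hcon
  -- extend to all functions
  have hall : ∀ f : M → Om, zres V lam f 0 = 0 := by
    intro f
    have hf : f ∈ Submodule.span Om (B : Set (M → Om)) := by
      rw [h.isSepAlg.span_eq_top]
      exact Submodule.mem_top
    induction hf using Submodule.span_induction with
    | mem b hb => exact hcon b hb
    | zero => rw [zres_def]; simp
    | add f g _ _ hf hg =>
      rw [zres_def] at hf hg ⊢
      simp only [Pi.add_apply, mul_add, Finset.sum_add_distrib]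
      rw [hf, hg, add_zero]
    | smul a f _ hf =>
      rw [zres_def] at hf ⊢
      simp only [Pi.smul_apply, smul_eq_mul]
      have : ∀ y : V, lam (-y) * (a * f (0 + y)) = a * (lam (-y) * f (0 + y)) := fun y => by ring
      simp only [this, ← Finset.mul_sum, hf, mul_zero]
  have h1 := hall (fun m => if m = 0 then 1 else 0)
  rw [zres_def] at h1
  have h2 : ∑ y : V, lam (-y) * (if (0 : M) + (y : M) = 0 then (1 : Om) else 0) = 1 := by
    rw [Finset.sum_eq_single 0]
    · simp
    · intro y _ hy
      rw [if_neg, mul_zero]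
      rw [zero_add]
      exact fun h0 => hy (Subtype.ext h0)
    · intro hcon
      exact absurd (Finset.mem_univ _) hcon
  rw [h2] at h1
  exact one_ne_zero h1

variable (hp : p.Prime) (hA : A.LiesOverPrime p)

omit [Finite M] [AddCommGroup M] in
lemma ge_zero_of_mem {x : Om} (hx : x ∈ A) : (valOf hp hA).Ge 0 x :=
  (valOf_ge_zero_iff hp hA).mpr hx

/-- A resolvent at `0` of minimal value. -/
lemma exists_min_zres (h : IsModel p act B) (t : M) (hne : ∃ b ∈ B, zres V lam b t ≠ 0) :
    ∃ b ∈ B, zres V lam b t ≠ 0 ∧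
      ∀ c ∈ B, (valOf hp hA).Ge ((valOf hp hA).val (zres V lam b t)) (zres V lam c t) := by
  classical
  have := Fintype.ofFinite V
  have := h.fin
  let e := Module.Free.chooseBasis (Rp p) B
  have hlin : ∀ b (hb : b ∈ B), zres V lam b t =
      ∑ i, algebraMap (Rp p) Om (e.repr ⟨b, hb⟩ i) * zres V lam (e i : M → Om) t := by
    intro b hb
    have h1 : ∀ x, b x = ∑ i, algebraMap (Rp p) Om (e.repr ⟨b, hb⟩ i) * (e i : M → Om) x := by
      intro x
      have h2 := congrArg (ev B x) (e.sum_repr ⟨b, hb⟩)
      rw [map_sum] at h2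
      change _ = b x at h2
      rw [← h2]
      refine Finset.sum_congr rfl fun i _ => ?_
      rw [map_smul, Algebra.smul_def]
      rfl
    simp only [zres_def, h1, Finset.mul_sum]
    rw [Finset.sum_comm]
    refine Finset.sum_congr rfl fun i _ => Finset.sum_congr rfl fun y _ => ?_
    ring
  let s := Finset.univ.filter (fun i => zres V lam (e i : M → Om) t ≠ 0)
  have hs : s.Nonempty := by
    obtain ⟨b, hb, hb0⟩ := hne
    by_contra hcon
    rw [Finset.not_nonempty_iff_eq_empty] at hcon
    apply hb0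
    rw [hlin b hb]
    refine Finset.sum_eq_zero fun i _ => ?_
    have h3 : i ∉ s := by rw [hcon]; exact Finset.notMem_empty i
    have h4 : zres V lam (e i : M → Om) t = 0 := by
      by_contra h5
      exact h3 (Finset.mem_filter.mpr ⟨Finset.mem_univ _, h5⟩)
    rw [h4, mul_zero]
  obtain ⟨i, hi, hmin⟩ := s.exists_min_image
    (fun i => (valOf hp hA).val (zres V lam (e i : M → Om) t)) hs
  refine ⟨e i, (e i).2, (Finset.mem_filter.mp hi).2, fun c hc => ?_⟩
  rw [hlin c hc]
  apply ge_sum
  intro j _
  by_cases hj : zres V lam (e j : M → Om) t = 0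
  · left; rw [hj, mul_zero]
  · have h3 := hmin j (Finset.mem_filter.mpr ⟨Finset.mem_univ _, hj⟩)
    have h4 : (valOf hp hA).Ge 0 (algebraMap (Rp p) Om (e.repr ⟨c, hc⟩ j)) :=
      ge_zero_of_mem hp hA (Rp_mem hA _)
    exact (h4.mul ((QVal.Is.of_ne hj).ge.mono h3)).mono (by linarith)

/-- **The Kummer generator.** For every `x` there are `a, a₀ ∈ B` such that
`z_a(x)` and `z_{a₀}(0)` have the same value, and all `z_c(0)`, `c ∈ B`, are divisible by
`z_{a₀}(0)`. -/
theorem exists_unit_zres (h : IsModel p act B) (x : M) :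
    ∃ a ∈ B, ∃ a₀ ∈ B, (valOf hp hA).Is ((valOf hp hA).val (zres V lam a₀ 0)) (zres V lam a x) ∧
      zres V lam a₀ 0 ≠ 0 ∧
      ∀ c ∈ B, (valOf hp hA).Ge ((valOf hp hA).val (zres V lam a₀ 0)) (zres V lam c 0) := by
  obtain ⟨a₀, ha₀, hne, hmin⟩ := exists_min_zres (V := V) (lam := lam) hp hA h 0
    (exists_zres_ne_zero h)
  -- resolvents at `x` are not all zero
  have hx : ∃ b ∈ B, zres V lam b x ≠ 0 := by
    by_contra hcon
    push Not at hcon
    obtain ⟨n, u, c, hu, hc, hsum⟩ := exists_zres (V := V) (lam := lam) h ha₀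
    apply hne
    have h1 := hsum (-x) x
    rw [neg_add_cancel] at h1
    rw [h1]
    exact Finset.sum_eq_zero fun i _ => by rw [hcon _ (hc i), mul_zero]
  obtain ⟨a, ha, hne', hmin'⟩ := exists_min_zres (V := V) (lam := lam) hp hA h x hx
  refine ⟨a, ha, a₀, ha₀, ⟨hne', le_antisymm ?_ ?_⟩, hne, hmin⟩
  · -- `v(z_a(x)) ≤ v(z_{a₀}(0))`
    obtain ⟨n, u, c, hu, hc, hsum⟩ := exists_zres (V := V) (lam := lam) h ha₀
    have h1 := hsum (-x) x
    rw [neg_add_cancel] at h1
    have h2 : (valOf hp hA).Ge ((valOf hp hA).val (zres V lam a x)) (zres V lam a₀ 0) := by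
      rw [h1]
      apply ge_sum
      intro i _
      exact ((ge_zero_of_mem hp hA (apply_mem h hA (hu i) _)).mul (hmin' _ (hc i))).mono
        (by linarith)
    exact h2.resolve_left hne
  · obtain ⟨n, u, c, hu, hc, hsum⟩ := exists_zres (V := V) (lam := lam) h ha
    have h1 := hsum x 0
    rw [add_zero] at h1
    have h2 : (valOf hp hA).Ge ((valOf hp hA).val (zres V lam a₀ 0)) (zres V lam a x) := by
      rw [h1]
      apply ge_sum
      intro i _
      exact ((ge_zero_of_mem hp hA (apply_mem h hA (hu i) _)).mul (hmin _ (hc i))).mono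
        (by linarith)
    exact h2.resolve_left hne'

end resolvent

end Fermat.Agent.FlatP
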