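import Fermat.Agent.FlatP.ShapeLem

/-!
# The shape of flat representations at `p`
-/

set_option autoImplicit false

namespace Fermat.Agent.FlatP

open Fermat.Agent.FlatGS Fermat.Agent.MazurMult FermatAgent.ECVal IsLocalRing Matrix
open Fermat.Agent.S53norm (M2)

section V0

variable {R : Type} [CommRing R]

/-- the span of the `g v - v`, `g` in the inertia group. -/
def V0 (r : GQ →* M2 R) (A : ValuationSubring Om) : Submodule R (Fin 2 → R) where
  carrier := AddSubgroup.closure {y | ∃ σ ∈ A.inertiaSubgroupIn ℚ, ∃ x, r σ *ᵥ x - x = y}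
  add_mem' := AddSubgroup.add_mem _
  zero_mem' := AddSubgroup.zero_mem _
  smul_mem' c x hx := by
    change x ∈ AddSubgroup.closure _ at hx
    change c • x ∈ AddSubgroup.closure _
    induction hx using AddSubgroup.closure_induction with
    | mem x hx =>
      obtain ⟨σ, hσ, v, rfl⟩ := hx
      refine AddSubgroup.subset_closure ⟨σ, hσ, c • v, ?_⟩
      rw [mulVec_smul, smul_sub]
    | zero => rw [smul_zero]; exact AddSubgroup.zero_mem _
    | add x y _ _ hx hy => rw [smul_add]; exact AddSubgroup.add_mem _ hx hy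
    | neg x _ hx => rw [smul_neg]; exact AddSubgroup.neg_mem _ hx

lemma mem_V0_iff {r : GQ →* M2 R} {A : ValuationSubring Om} {x : Fin 2 → R} :
    x ∈ V0 r A ↔
      x ∈ AddSubgroup.closure {y | ∃ σ ∈ A.inertiaSubgroupIn ℚ, ∃ x, r σ *ᵥ x - x = y} :=
  Iff.rfl

lemma sub_mem_V0 {r : GQ →* M2 R} {A : ValuationSubring Om} {σ : GQ}
    (hσ : σ ∈ A.inertiaSubgroupIn ℚ) (x : Fin 2 → R) : r σ *ᵥ x - x ∈ V0 r A :=
  AddSubgroup.subset_closure ⟨σ, hσ, x, rfl⟩

lemma V0_le {r : GQ →* M2 R} {A : ValuationSubring Om} (N : Submodule R (Fin 2 → R))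
    (h : ∀ σ ∈ A.inertiaSubgroupIn ℚ, ∀ x, r σ *ᵥ x - x ∈ N) : V0 r A ≤ N := by
  intro x hx
  have h1 : AddSubgroup.closure {y | ∃ σ ∈ A.inertiaSubgroupIn ℚ, ∃ x, r σ *ᵥ x - x = y} ≤
      N.toAddSubgroup := by
    rw [AddSubgroup.closure_le]
    rintro _ ⟨σ, hσ, x, rfl⟩
    exact h σ hσ x
  exact h1 hx

/-- `V0` is stable under the decomposition group. -/
lemma mulVec_mem_V0 {r : GQ →* M2 R} {A : ValuationSubring Om} {d : GQ}
    (hd : d ∈ A.decompositionSubgroup ℚ) {x : Fin 2 → R} (hx : x ∈ V0 r A) :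
    r d *ᵥ x ∈ V0 r A := by
  have h1 : V0 r A ≤ (V0 r A).comap (Matrix.mulVecLin (r d)) := by
    refine V0_le _ fun σ hσ x => ?_
    rw [Submodule.mem_comap, mulVecLin_apply, mulVec_sub, mulVec_mulVec]
    have h2 : r d * r σ = r (d * σ * d⁻¹) * r d := by
      rw [← map_mul, ← map_mul]
      congr 1
      group
    rw [h2, ← mulVec_mulVec]
    exact sub_mem_V0 (conj_mem_inertia hd hσ) _
  exact h1 hx

/-- `V0` is the connected part of any model. -/
theorem mem_conn_iff_mem_V0 [Finite R] {p : ℕ} {r : GQ →* M2 R} {A : ValuationSubring Om}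
    {B : Subalgebra (Rp p) ((Fin 2 → R) → Om)}
    (h : IsModel p (fun σ (v : Fin 2 → R) => r σ *ᵥ v) B) (hp : p.Prime) (hp2 : p ≠ 2)
    (hA : A.LiesOverPrime p) (hpM : ∀ x : Fin 2 → R, p • x = 0) (x : Fin 2 → R) :
    x ∈ conn h hA ↔ x ∈ V0 r A := by
  rw [conn_eq_closure h hp hp2 hA hpM, mem_V0_iff]

end V0

section Index

variable {p : ℕ} {M : Type} [AddCommGroup M] {act : GQ → M → M}
  {B : Subalgebra (Rp p) (M → Om)} {A : ValuationSubring Om}

lemma val_leading' (h : IsModel p act B) (hp : p.Prime) (hA : A.LiesOverPrime p)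
    {G : Type*} [Group G] [Finite G] (hG : (Nat.card G).Coprime p)
    (f : A.inertiaSubgroupIn ℚ →* G) {b₀ : M → Om} (hb₀ : b₀ ∈ B)
    {x₀ : M} (hx₀ : ∀ g, f g = 1 → act g x₀ = x₀) {m : ℚ} (hm0 : 0 < m)
    (hm : (valOf hp hA).Is m (b₀ x₀ - b₀ 0)) :
    ∃ a n : ℕ, n.Coprime p ∧ 0 < n ∧ m = a / n := by
  have hfin : f.ker.FiniteIndex := by
    refine ⟨?_⟩
    rw [Subgroup.index_ker]
    exact Nat.card_pos.ne'
  obtain ⟨n, hn⟩ := val_leading h hp hA (J := f.ker) hfin hb₀ (x₀ := x₀)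
    (fun g hg => hx₀ g (MonoidHom.mem_ker.mp hg)) hm
  have hpos : 0 < f.ker.index := Nat.pos_of_ne_zero hfin.index_ne_zero
  have hnpos : 0 < n := by
    have h1 : (0 : ℚ) < n / f.ker.index := hn ▸ hm0
    have h2 : (0 : ℚ) < f.ker.index := by exact_mod_cast hpos
    have h3 := (div_pos_iff_of_pos_right h2).mp h1
    exact_mod_cast h3
  refine ⟨n.toNat, f.ker.index, ?_, hpos, ?_⟩
  · rw [Subgroup.index_ker]
    exact Nat.Coprime.coprime_dvd_left (Subgroup.card_subgroup_dvd_card _) hG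
  · rw [hn]
    congr 1
    have : ((n.toNat : ℤ) : ℚ) = n := by rw [Int.toNat_of_nonneg hnpos.le]
    exact_mod_cast this.symm

lemma val_eq (hp : p.Prime) (hA : A.LiesOverPrime p) {n : ℕ}
    (hn : Nat.Coprime n p) {a : ℕ} {c : Om} (hc : (valOf hp hA).Is (a / n) c)
    (h0 : (0 : ℚ) < a / n) (h1 : (a / n : ℚ) ≤ 1 / ((p : ℚ) - 1))
    (hK : ∀ σ ∈ A.inertiaSubgroupIn ℚ, ts A σ c ^ (p - 1) = 1) :
    (a / n : ℚ) = 1 / ((p : ℚ) - 1) := by
  obtain ⟨z, hz⟩ := exists_int_of_ts_pow hp hA hn hc hK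
  have hp1 : (0 : ℚ) < (p : ℚ) - 1 := by
    have : (1 : ℚ) < p := by exact_mod_cast hp.one_lt
    linarith
  rw [Nat.cast_sub hp.one_le, Nat.cast_one, mul_div_assoc] at hz
  have h2 : (0 : ℚ) < z := by rw [← hz]; positivity
  have h3 : (z : ℚ) ≤ 1 := by
    rw [← hz, mul_comm]
    rwa [le_div_iff₀ hp1] at h1
  have h4 : z = 1 := by
    have h5 : 0 < z := by exact_mod_cast h2
    have h6 : z ≤ 1 := by exact_mod_cast h3
    omega
  rw [h4, Int.cast_one] at hz
  rw [eq_div_iff hp1.ne', mul_comm, hz]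

lemma coprime_units (hp : p.Prime) {k : Type} [Field k] [Finite k] [CharP k p] :
    (Nat.card (kˣ × kˣ)).Coprime p := by
  have := Fintype.ofFinite k
  have hpF : Fact p.Prime := ⟨hp⟩
  obtain ⟨n, -, hn⟩ := FiniteField.card k p
  have h1 : Nat.card kˣ = p ^ (n : ℕ) - 1 := by
    rw [Nat.card_units, Nat.card_eq_fintype_card, hn]
  have h2 : (p ^ (n : ℕ) - 1).Coprime p := by
    rw [Nat.coprime_comm, hp.coprime_iff_not_dvd]
    intro hdvd
    have h3 : p ∣ p ^ (n : ℕ) := dvd_pow_self p n.ne_zero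
    have h4 : 1 ≤ p ^ (n : ℕ) := Nat.one_le_pow _ _ hp.pos
    have h5 := (Nat.dvd_sub h3 hdvd)
    rw [Nat.sub_sub_self h4] at h5
    exact hp.one_lt.ne' (Nat.dvd_one.mp h5)
  rw [Nat.card_prod, h1]
  exact Nat.Coprime.mul_left h2 h2

/-- the eigencharacter. -/
lemma exists_eigenchar {k : Type} [Field k] {G : Type*} [Group G] (f : G →* M2 k) {v : Fin 2 → k}
    (hv : v ≠ 0) (h : ∀ g, ∃ a : k, f g *ᵥ v = a • v) :
    ∃ χ : G →* kˣ, ∀ g, f g *ᵥ v = (χ g : k) • v := by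
  choose a ha using h
  have hinj : ∀ {x y : k}, x • v = y • v → x = y := fun {x y} h => smul_left_injective k hv h
  have h1 : a 1 = 1 := by
    apply hinj
    rw [← ha, map_one, one_mulVec, one_smul]
  have hmul : ∀ g h, a (g * h) = a g * a h := by
    intro g h
    apply hinj
    rw [← ha, map_mul, ← mulVec_mulVec, ha h, mulVec_smul, ha g, smul_smul, mul_comm]
  let χ₀ : G →* k := { toFun := a, map_one' := h1, map_mul' := hmul }
  exact ⟨χ₀.toHomUnits, fun g => ha g⟩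

end Index

section Wild

variable {p : ℕ} {k : Type} [Field k] {r : GQ →* M2 k}
  {B : Subalgebra (Rp p) ((Fin 2 → k) → Om)} {A : ValuationSubring Om}

lemma exists_li {v : Fin 2 → k} (hv : v ≠ 0) : ∃ w : Fin 2 → k, LinearIndependent k ![v, w] := by
  by_cases h0 : v 0 = 0
  · have h1 : v 1 ≠ 0 := by
      intro h1
      apply hv
      funext i
      fin_cases i
      · exact h0
      · exact h1
    refine ⟨![1, 0], ?_⟩
    rw [LinearIndependent.pair_iff]
    intro s t hst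
    have e0 := congrFun hst 0
    have e1 := congrFun hst 1
    simp only [Pi.add_apply, Pi.smul_apply, smul_eq_mul, h0, mul_zero, zero_add,
      Matrix.cons_val_zero, mul_one, Pi.zero_apply] at e0
    simp only [Pi.add_apply, Pi.smul_apply, smul_eq_mul, Matrix.cons_val_one,
      Matrix.cons_val_fin_one, mul_zero, add_zero, Pi.zero_apply] at e1
    exact ⟨(mul_eq_zero.mp e1).resolve_right h1, e0⟩
  · refine ⟨![0, 1], ?_⟩
    rw [LinearIndependent.pair_iff]
    intro s t hst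
    have e0 := congrFun hst 0
    have e1 := congrFun hst 1
    simp only [Pi.add_apply, Pi.smul_apply, smul_eq_mul,
      Matrix.cons_val_zero, mul_zero, add_zero, Pi.zero_apply] at e0
    have hs := (mul_eq_zero.mp e0).resolve_right h0
    simp only [Pi.add_apply, Pi.smul_apply, smul_eq_mul, hs, zero_mul, zero_add,
      Matrix.cons_val_one, Matrix.cons_val_fin_one, mul_one, Pi.zero_apply] at e1
    exact ⟨hs, e1⟩

lemma not_mem_span_of_li {v w : Fin 2 → k} (h : LinearIndependent k ![v, w]) :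
    w ∉ Submodule.span k {v} := by
  intro hw
  obtain ⟨a, ha⟩ := Submodule.mem_span_singleton.mp hw
  have h1 : a • v + (-1 : k) • w = 0 := by rw [ha, neg_smul, one_smul, add_neg_cancel]
  have h2 := (eq_zero_of_coord h h1).2
  exact one_ne_zero (neg_eq_zero.mp h2)

lemma nsmul_eq_zero_of_char [CharP k p] (x : Fin 2 → k) : p • x = 0 := by
  funext i
  rw [Pi.smul_apply, nsmul_eq_mul, CharP.cast_eq_zero, zero_mul, Pi.zero_apply]

/-- the cyclotomic character from its tame symbol. -/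
lemma det_eq_of_ts [CharP k p] (hp : p.Prime) (hA : A.LiesOverPrime p) (hdet : TW.CycDet p r)
    {c : Om} (hc : (valOf hp hA).Is (1 / ((p : ℚ) - 1)) c) {σ : GQ}
    (hσ : σ ∈ A.inertiaSubgroupIn ℚ) {j : ℕ} (hj : ts A σ c = j) : (r σ).det = j := by
  obtain ⟨ζ, hζ⟩ := exists_zeta hp
  obtain ⟨a, ha, ha'⟩ := exists_cyc hp hζ σ
  have hcR := charP_residueField hp hA
  rw [ts_congr hp hA hσ hc (val_one_sub_zeta hp hA hζ), ts_one_sub_zeta hp hA hζ ha] at hj
  rw [hdet σ a ha']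
  have h1 := (CharP.natCast_eq_natCast (ResidueField A) p).mp hj
  exact (CharP.natCast_eq_natCast k p).mpr h1

/-- If `V` is connected, the fixed vectors of wild inertia do not form a line. -/
theorem wild_case [Finite k] [CharP k p] (h : IsModel p (fun σ (v : Fin 2 → k) => r σ *ᵥ v) B)
    (hp : p.Prime) (hp2 : p ≠ 2) (hA : A.LiesOverPrime p) (hdet : TW.CycDet p r)
    (hall : ∀ x, x ∈ conn h hA) (L : IntermediateField ℚ Om) {v₀ : Fin 2 → k} (hv₀ : v₀ ≠ 0)
    (hfix : ∀ σ ∈ wild hp hA L, r σ *ᵥ v₀ = v₀)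
    (hline : ∀ d ∈ A.decompositionSubgroup ℚ, ∃ a : k, r d *ᵥ v₀ = a • v₀) : False := by
  classical
  have hpF : Fact p.Prime := ⟨hp⟩
  have hcR := charP_residueField hp hA
  obtain ⟨χ, hχ⟩ := exists_eigenchar (r.comp (A.decompositionSubgroup ℚ).subtype) hv₀
    (fun g => hline g g.2)
  have hχ' : ∀ (d : GQ) (hd : d ∈ A.decompositionSubgroup ℚ),
      r d *ᵥ v₀ = (χ ⟨d, hd⟩ : k) • v₀ := fun d hd => hχ ⟨d, hd⟩
  obtain ⟨φ, hφ⟩ := Frob.exists_isFrobeniusAt hp hA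
  have hφD := hφ.mem_decompositionSubgroup
  have hID : ∀ {σ : GQ}, σ ∈ A.inertiaSubgroupIn ℚ → σ ∈ A.decompositionSubgroup ℚ :=
    fun h => TW.inertia_le_decomp h
  -- `χ` has values in the prime field on inertia
  have hχp : ∀ (σ : GQ) (hσ : σ ∈ A.inertiaSubgroupIn ℚ), (χ ⟨σ, hID hσ⟩ : k) ^ p =
      (χ ⟨σ, hID hσ⟩ : k) := by
    intro σ hσ
    have h1 := wild_frob hp hA L hφ hσ
    have h2 := hfix _ h1
    rw [hχ' _ (hID h1.1)] at h2
    have h3 : (⟨φ * σ * φ⁻¹ * (σ ^ p)⁻¹, hID h1.1⟩ : A.decompositionSubgroup ℚ) =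
        ⟨φ, hφD⟩ * ⟨σ, hID hσ⟩ * ⟨φ, hφD⟩⁻¹ * (⟨σ, hID hσ⟩ ^ p)⁻¹ := rfl
    rw [h3, map_mul, map_inv, map_mul, map_mul, map_inv, map_pow] at h2
    have h4 : ((χ ⟨φ, hφD⟩ * χ ⟨σ, hID hσ⟩ * (χ ⟨φ, hφD⟩)⁻¹ * (χ ⟨σ, hID hσ⟩ ^ p)⁻¹ : kˣ) : k) =
        1 := by
      apply smul_left_injective k hv₀
      simp only
      rw [h2, one_smul]
    rw [Units.val_eq_one, mul_inv_eq_one, mul_comm (χ ⟨φ, hφD⟩), mul_inv_cancel_right] at h4
    rw [← Units.val_pow_eq_pow_val, ← h4]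
  -- the line
  let N : AddSubgroup (Fin 2 → k) := (Submodule.span k {v₀}).toAddSubgroup
  have hmemN : ∀ x, x ∈ N ↔ ∃ a : k, a • v₀ = x := fun x => Submodule.mem_span_singleton
  have hact : ∀ (σ : GQ) (hσ : σ ∈ A.inertiaSubgroupIn ℚ), ∀ x ∈ N,
      r σ *ᵥ x = (χ ⟨σ, hID hσ⟩ : k) • x := by
    intro σ hσ x hx
    obtain ⟨a, rfl⟩ := (hmemN x).mp hx
    rw [mulVec_smul, hχ' σ (hID hσ), smul_comm]
  have hstab : ∀ σ ∈ A.inertiaSubgroupIn ℚ, ∀ x ∈ N, r σ *ᵥ x ∈ N := by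
    intro σ hσ x hx
    rw [hact σ hσ x hx]
    exact Submodule.smul_mem _ _ hx
  have hN0 : N ≠ ⊥ := by
    intro hN
    have h1 : v₀ ∈ N := (hmemN v₀).mpr ⟨1, one_smul _ _⟩
    rw [hN, AddSubgroup.mem_bot] at h1
    exact hv₀ h1
  obtain ⟨b₀, x₀, m, θ, hb₀, hm, hm0, hm1, hθ, hθI⟩ := exists_leading h hp hA
    nsmul_eq_zero_of_char N (fun x _ => hall x) hN0 hstab
  let f : A.inertiaSubgroupIn ℚ →* kˣ × kˣ :=
    (χ.comp (Subgroup.inclusion (fun σ hσ => hID hσ))).prod 1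
  obtain ⟨a, n, hn, hn0, hmn⟩ := val_leading' h hp hA (coprime_units hp (k := k)) f hb₀
    (x₀ := (x₀ : Fin 2 → k)) (by
      intro g hg
      have h1 : χ ⟨g, hID g.2⟩ = 1 := congrArg Prod.fst hg
      change r g *ᵥ _ = _
      rw [hact g g.2 x₀ x₀.2, h1, Units.val_one, one_smul]) hm0 hm
  set c : Om := b₀ x₀ - b₀ 0 with hc
  have hc0 : c ≠ 0 := hm.1
  -- tame symbol of `c`
  have hts : ∀ (σ : GQ) (hσ : σ ∈ A.inertiaSubgroupIn ℚ) (j : ℕ),
      (χ ⟨σ, hID hσ⟩ : k) = j → ts A σ c = j := by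
    intro σ hσ j hj
    have h1 := hθI σ hσ x₀
    rw [hθ, mul_one] at h1
    rw [← h1]
    have h2 : (⟨r σ *ᵥ (x₀ : Fin 2 → k), hstab σ hσ x₀ x₀.2⟩ : N) = j • x₀ := by
      apply Subtype.ext
      change r σ *ᵥ (x₀ : Fin 2 → k) = j • (x₀ : Fin 2 → k)
      rw [hact σ hσ x₀ x₀.2, hj, Nat.cast_smul_eq_nsmul]
    rw [h2, map_nsmul, hθ, nsmul_eq_mul, mul_one]
  subst hmn
  have hmp := val_eq hp hA hn hm hm0 hm1 (by
    intro σ hσ
    obtain ⟨j, hj⟩ := exists_natCast_eq (hχp σ hσ)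
    have h1 := hts σ hσ j hj
    have h2 : ts A σ c ≠ 0 := ts_ne_zero hp hA (hID hσ) hc0
    have h3 : ts A σ c ^ p = ts A σ c := by
      rw [h1]
      exact map_natCast (frobenius (ResidueField A) p) j
    have h4 : ts A σ c * ts A σ c ^ (p - 1) = ts A σ c * 1 := by
      rw [← pow_succ', Nat.sub_add_cancel hp.one_le, h3, mul_one]
    exact mul_left_cancel₀ h2 h4)
  rw [hmp] at hm
  have hχdet : ∀ (σ : GQ) (hσ : σ ∈ A.inertiaSubgroupIn ℚ),
      (χ ⟨σ, hID hσ⟩ : k) = (r σ).det := by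
    intro σ hσ
    obtain ⟨j, hj⟩ := exists_natCast_eq (hχp σ hσ)
    rw [det_eq_of_ts hp hA hdet hm hσ (hts σ hσ j hj), hj]
  obtain ⟨w, hw⟩ := exists_li hv₀
  have hle : conn h hA ≤ N := by
    refine conn_le h hp hp2 hA nsmul_eq_zero_of_char N fun σ hσ x => ?_
    obtain ⟨α, δ, hαδ⟩ := exists_coord hw (r σ *ᵥ w)
    have h1 := det_of_triangular hw (hχ' σ (hID hσ)) hαδ
    have h2 : (r σ).det ≠ 0 := TW.det_ne_zero r σ
    have h3 : δ = 1 := by
      rw [hχdet σ hσ] at h1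
      exact mul_left_cancel₀ h2 (by rw [mul_one]; exact h1.symm)
    obtain ⟨s, t, rfl⟩ := exists_coord hw x
    change r σ *ᵥ (s • v₀ + t • w) - (s • v₀ + t • w) ∈ N
    rw [mulVec_add, mulVec_smul, mulVec_smul, hαδ, h3, hχ' σ (hID hσ)]
    refine (hmemN _).mpr ⟨s * (χ ⟨σ, hID hσ⟩ : k) + t * α - s, ?_⟩
    module
  exact not_mem_span_of_li hw (hle (hall w))

end Wild

section TameCase

variable {p : ℕ} {k : Type} [Field k] {r : GQ →* M2 k}
  {B : Subalgebra (Rp p) ((Fin 2 → k) → Om)} {A : ValuationSubring Om}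

lemma pow_mulVec_eigen {X : M2 k} {v : Fin 2 → k} {a : k} (h : X *ᵥ v = a • v) (n : ℕ) :
    X ^ n *ᵥ v = a ^ n • v := by
  induction n with
  | zero => rw [pow_zero, pow_zero, one_mulVec, one_smul]
  | succ n ih => rw [pow_succ, ← mulVec_mulVec, h, mulVec_smul, ih, smul_smul, pow_succ, mul_comm]

lemma is_root (hp : p.Prime) (hA : A.LiesOverPrime p) {n : ℕ} (hn : 0 < n) {π : Om}
    (hπ : π ^ n = (p : Om)) : (valOf hp hA).Is (1 / n) π := by
  have hnQ : (n : ℚ) ≠ 0 := by exact_mod_cast hn.ne'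
  have hπ0 : π ≠ 0 := by
    rintro rfl
    rw [zero_pow hn.ne'] at hπ
    exact Nat.cast_ne_zero.mpr hp.ne_zero hπ.symm
  refine ⟨hπ0, ?_⟩
  have h2 := (QVal.Is.of_ne (w := valOf hp hA) hπ0).pow n
  rw [hπ] at h2
  have h3 := h2.unique (valOf_prime hp hA)
  field_simp
  linarith

/-- Core of the tame case. -/
theorem tame_core [Finite k] [CharP k p] (h : IsModel p (fun σ (v : Fin 2 → k) => r σ *ᵥ v) B)
    (hp : p.Prime) (hp2 : p ≠ 2) (hA : A.LiesOverPrime p) (hdet : TW.CycDet p r)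
    (hall : ∀ x, x ∈ conn h hA) {π : Om} (hπ : π ^ (p ^ 2 - 1) = (p : Om))
    {φ : GQ} (hfrob : ∀ σ ∈ A.inertiaSubgroupIn ℚ, r (φ * σ * φ⁻¹) = r σ ^ p)
    {v₁ v₂ : Fin 2 → k} (hli : LinearIndependent k ![v₁, v₂]) (a b : GQ → k)
    (ha : ∀ g ∈ A.inertiaSubgroupIn ℚ, r g *ᵥ v₁ = a g • v₁)
    (hb : ∀ g ∈ A.inertiaSubgroupIn ℚ, r g *ᵥ v₂ = b g • v₂)
    {c : Om} {s n : ℕ} (hn : Nat.Coprime n p) (hc : (valOf hp hA).Is (s / n) c)
    (h0 : (0 : ℚ) < s / n) (h1 : (s / n : ℚ) ≤ 1 / ((p : ℚ) - 1))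
    (θ : k →+ ResidueField A) (hθ : θ ≠ 0)
    (hθI : ∀ g ∈ A.inertiaSubgroupIn ℚ, ∀ x, θ (a g * x) = ts A g c * θ x) :
    ∃ (ι : k →+* ResidueField A) (ψ : GQ → k) (w₁ w₂ : Fin 2 → k),
      LinearIndependent k ![w₁, w₂] ∧ ∀ g ∈ A.inertiaSubgroupIn ℚ, ts A g π = ι (ψ g) ∧
        r g *ᵥ w₁ = ψ g • w₁ ∧ r g *ᵥ w₂ = ψ g ^ p • w₂ := by
  classical
  have hpF : Fact p.Prime := ⟨hp⟩
  have hcR := charP_residueField hp hA
  have hID : ∀ {σ : GQ}, σ ∈ A.inertiaSubgroupIn ℚ → σ ∈ A.decompositionSubgroup ℚ :=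
    fun h => TW.inertia_le_decomp h
  have hc0 : c ≠ 0 := hc.1
  obtain ⟨τ, hτ⟩ := exists_embedding θ hθ (ι := A.inertiaSubgroupIn ℚ) (fun g => a g)
    (fun g => ts A g c) (fun g x => hθI g g.2 x)
  have hτ' : ∀ g ∈ A.inertiaSubgroupIn ℚ, τ (a g) = ts A g c := fun g hg => hτ ⟨g, hg⟩
  obtain ⟨ζ, hζ⟩ := exists_zeta hp
  have hζv := val_one_sub_zeta hp hA hζ
  have hdetab : ∀ g ∈ A.inertiaSubgroupIn ℚ, (r g).det = a g * b g := fun g hg =>
    det_of_triangular hli (ha g hg) (a := 0) (by rw [zero_smul, zero_add]; exact hb g hg)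
  have hdet0 : ∀ g, (r g).det ≠ 0 := fun g => TW.det_ne_zero r g
  have hτdet : ∀ g, τ (r g).det = ts A g (1 - ζ) := fun g => tau_det hp hA hdet τ hζ g
  -- the Frobenius twist of `v₁`
  set u : Fin 2 → k := r φ⁻¹ *ᵥ v₁ with hu
  have hv₁0 : v₁ ≠ 0 := by
    intro h0
    have := (eq_zero_of_coord hli (a := 1) (b := 0) (by rw [h0]; simp)).1
    exact one_ne_zero this
  have hv₂0 : v₂ ≠ 0 := by
    intro h0
    have := (eq_zero_of_coord hli (a := 0) (b := 1) (by rw [h0]; simp)).2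
    exact one_ne_zero this
  have hu0 : u ≠ 0 := by
    intro h0
    apply hv₁0
    have h1 : r φ *ᵥ u = v₁ := by
      rw [hu, mulVec_mulVec, ← map_mul, mul_inv_cancel, map_one, one_mulVec]
    rw [← h1, h0, mulVec_zero]
  have hueig : ∀ g ∈ A.inertiaSubgroupIn ℚ, r g *ᵥ u = (a g) ^ p • u := by
    intro g hg
    have h1 : r g * r φ⁻¹ = r φ⁻¹ * r g ^ p := by
      rw [← hfrob g hg, ← map_mul, ← map_mul]
      congr 1
      group
    rw [hu, mulVec_mulVec, h1, ← mulVec_mulVec, pow_mulVec_eigen (ha g hg), mulVec_smul]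
  obtain ⟨α, β, hαβ⟩ := exists_coord hli u
  have hrel : ∀ g ∈ A.inertiaSubgroupIn ℚ, α * (a g - a g ^ p) = 0 ∧ β * (b g - a g ^ p) = 0 := by
    intro g hg
    have h1 := hueig g hg
    rw [hαβ, mulVec_add, mulVec_smul, mulVec_smul, ha g hg, hb g hg, ← sub_eq_zero] at h1
    refine eq_zero_of_coord hli ?_
    rw [← h1]
    module
  by_cases hα : α = 0
  · -- the genuine supersingular case
    have hβ : β ≠ 0 := by
      intro hβ
      apply hu0
      rw [hαβ, hα, hβ, zero_smul, zero_smul, add_zero]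
    have hbp : ∀ g ∈ A.inertiaSubgroupIn ℚ, b g = a g ^ p := fun g hg =>
      sub_eq_zero.mp ((mul_eq_zero.mp (hrel g hg).2).resolve_left hβ)
    have hp1 : 1 < p := hp.one_lt
    have hsq : (p + 1) * (p - 1) = p ^ 2 - 1 := by
      rw [← Nat.sq_sub_sq, one_pow]
    have hsqpos : 0 < p ^ 2 - 1 := by
      rw [← hsq]
      exact Nat.mul_pos (by omega) (by omega)
    have hp1Q : (0 : ℚ) < (p : ℚ) - 1 := by
      have : (1 : ℚ) < p := by exact_mod_cast hp.one_lt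
      linarith
    have hsqQ : ((p ^ 2 - 1 : ℕ) : ℚ) = ((p : ℚ) + 1) * ((p : ℚ) - 1) := by
      rw [← hsq, Nat.cast_mul, Nat.cast_sub hp.one_le]
      push_cast
      ring
    have hsqQ0 : ((p ^ 2 - 1 : ℕ) : ℚ) ≠ 0 := by exact_mod_cast hsqpos.ne'
    have hcs : Nat.Coprime (p ^ 2 - 1) p := by
      rw [Nat.coprime_comm, hp.coprime_iff_not_dvd]
      intro hdvd
      have h3 : p ∣ p ^ 2 := dvd_pow_self p two_ne_zero
      have h4 : 1 ≤ p ^ 2 := Nat.one_le_pow _ _ hp.pos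
      have h5 := Nat.dvd_sub h3 hdvd
      rw [Nat.sub_sub_self h4] at h5
      exact hp.one_lt.ne' (Nat.dvd_one.mp h5)
    -- `ts (1 - ζ) = ts c ^ (p + 1)`
    have hz : ∀ g ∈ A.inertiaSubgroupIn ℚ, ts A g (1 - ζ) = ts A g c ^ (p + 1) := by
      intro g hg
      rw [← hτdet g, hdetab g hg, hbp g hg, ← pow_succ', map_pow, hτ' g hg]
    have hz1 : ∀ g ∈ A.inertiaSubgroupIn ℚ, ts A g (1 - ζ) ^ (p - 1) = 1 := by
      intro g hg
      rw [← hτdet g, ← map_pow]
      have h1 := det_pow hp hdet g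
      have h2 : (r g).det * (r g).det ^ (p - 1) = (r g).det * 1 := by
        rw [← pow_succ', Nat.sub_add_cancel hp.one_le, h1, mul_one]
      rw [mul_left_cancel₀ (hdet0 g) h2, map_one]
    obtain ⟨z, hzs⟩ := exists_int_of_ts_pow hp hA hn hc (K := p ^ 2 - 1) (by
      intro g hg
      rw [← hsq, pow_mul, ← hz g hg, hz1 g hg])
    have hm : (s / n : ℚ) = z / ((p ^ 2 - 1 : ℕ) : ℚ) := by
      rw [eq_div_iff hsqQ0, ← hzs]
      ring
    have hz0 : 0 < z := by
      rw [hm] at h0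
      have h2 : (0 : ℚ) < ((p ^ 2 - 1 : ℕ) : ℚ) := by exact_mod_cast hsqpos
      have h3 := (div_pos_iff_of_pos_right h2).mp h0
      exact_mod_cast h3
    have hzle : z ≤ p + 1 := by
      rw [hm, hsqQ, div_le_div_iff₀ (by positivity) hp1Q, one_mul] at h1
      have h2 : (z : ℚ) ≤ (p : ℚ) + 1 := le_of_mul_le_mul_right h1 hp1Q
      exact_mod_cast h2
    obtain ⟨t, rfl⟩ : ∃ t : ℕ, z = (t : ℤ) := ⟨z.toNat, (Int.toNat_of_nonneg hz0.le).symm⟩
    have ht0 : 0 < t := by exact_mod_cast hz0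
    have htle : t ≤ p + 1 := by exact_mod_cast hzle
    have hπv := is_root hp hA hsqpos hπ
    have hπ0 : π ≠ 0 := hπv.1
    have hcπ : ∀ g ∈ A.inertiaSubgroupIn ℚ, ts A g c = ts A g π ^ t := by
      intro g hg
      rw [← ts_pow_right hp hA hg hπ0]
      refine ts_congr hp hA hg hc ((hπv.pow t).congr ?_)
      rw [hm, Int.cast_natCast]
      ring
    have hζπ : ∀ g ∈ A.inertiaSubgroupIn ℚ, ts A g (1 - ζ) = ts A g π ^ (p + 1) := by
      intro g hg
      rw [← ts_pow_right hp hA hg hπ0]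
      refine ts_congr hp hA hg hζv ((hπv.pow (p + 1)).congr ?_)
      rw [hsqQ]
      push_cast
      field_simp
    have hψ0 : ∀ g ∈ A.inertiaSubgroupIn ℚ, ts A g π ≠ 0 := fun g hg =>
      ts_ne_zero hp hA (hID hg) hπ0
    obtain ⟨t', rfl⟩ : ∃ t' : ℕ, t = t' + 1 := ⟨t - 1, by omega⟩
    obtain ⟨y, hy⟩ := exists_int_of_ts_pow hp hA hcs (a := 1) (c := π)
      (hπv.congr (by rw [Nat.cast_one])) (K := t' * (p + 1)) (by
        intro g hg
        have h2 := hz g hg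
        rw [hζπ g hg, hcπ g hg, ← pow_mul, add_mul, one_mul, pow_add _ (t' * (p + 1))] at h2
        have h3 : ts A g π ^ (p + 1) ≠ 0 := pow_ne_zero _ (hψ0 g hg)
        exact (mul_right_cancel₀ h3 (by rw [one_mul]; exact h2)).symm)
    have hy' : (t' : ℤ) = y * (p - 1) := by
      have h2 : (t' : ℚ) = y * ((p : ℚ) - 1) := by
        rw [← hy, hsqQ]
        push_cast
        have : (p : ℚ) + 1 ≠ 0 := by positivity
        field_simp
      exact_mod_cast h2
    have hp3 : 2 < p := lt_of_le_of_ne hp.two_le (Ne.symm hp2)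
    have hycase : y = 0 ∨ y = 1 := by
      have h2 : (2 : ℤ) < p := by exact_mod_cast hp3
      have h3 : (t' : ℤ) ≤ p := by
        have : t' ≤ p := by omega
        exact_mod_cast this
      have h4 : 0 ≤ y := by
        by_contra hcon
        push Not at hcon
        nlinarith
      have h5 : y < 2 := by
        by_contra hcon
        push Not at hcon
        nlinarith
      omega
    rcases hycase with rfl | rfl
    · have ht' : t' = 0 := by
        rw [zero_mul] at hy'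
        exact_mod_cast hy'
      subst ht'
      refine ⟨τ, a, v₁, v₂, hli, fun g hg => ⟨?_, ha g hg, ?_⟩⟩
      · rw [hτ' g hg, hcπ g hg, zero_add, pow_one]
      · rw [← hbp g hg]
        exact hb g hg
    · have ht' : t' + 1 = p := by
        rw [one_mul] at hy'
        omega
      have hψp : ∀ g ∈ A.inertiaSubgroupIn ℚ, ts A g π ^ (p ^ 2) = ts A g π := by
        intro g hg
        have h2 : p ^ 2 = (p + 1) * (p - 1) + 1 := by
          rw [hsq]
          omega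
        rw [h2, pow_succ, pow_mul, ← hζπ g hg, hz1 g hg, one_mul]
      have hτb : ∀ g ∈ A.inertiaSubgroupIn ℚ, τ (b g) = ts A g π := by
        intro g hg
        rw [hbp g hg, map_pow, hτ' g hg, hcπ g hg, ht', ← pow_mul, ← sq, hψp g hg]
      have hli' : LinearIndependent k ![v₂, v₁] := by
        rw [LinearIndependent.pair_iff]
        intro x y hxy
        have h2 := eq_zero_of_coord hli (a := y) (b := x) (by rw [← hxy, add_comm])
        exact ⟨h2.2, h2.1⟩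
      refine ⟨τ, b, v₂, v₁, hli', fun g hg => ⟨(hτb g hg).symm, hb g hg, ?_⟩⟩
      have h2 : b g ^ p = a g := by
        apply τ.injective
        rw [map_pow, hτb g hg, hτ' g hg, hcπ g hg, ht']
      rw [h2]
      exact ha g hg
  · -- `a` has values in the prime field: impossible
    exfalso
    have hap : ∀ g ∈ A.inertiaSubgroupIn ℚ, a g ^ p = a g := fun g hg =>
      (sub_eq_zero.mp ((mul_eq_zero.mp (hrel g hg).1).resolve_left hα)).symm
    have hmp := val_eq hp hA hn hc h0 h1 (by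
      intro g hg
      have h2 : ts A g c ≠ 0 := ts_ne_zero hp hA (hID hg) hc0
      have h3 : ts A g c ^ p = ts A g c := by rw [← hτ' g hg, ← map_pow, hap g hg]
      have h4 : ts A g c * ts A g c ^ (p - 1) = ts A g c * 1 := by
        rw [← pow_succ', Nat.sub_add_cancel hp.one_le, h3, mul_one]
      exact mul_left_cancel₀ h2 h4)
    rw [hmp] at hc
    apply hv₂0
    refine eq_zero_of_mem_conn h hp hp2 hA nsmul_eq_zero_of_char (hall v₂) fun g hg => ?_
    have h2 : (r g).det = a g := by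
      apply τ.injective
      rw [hτdet g, hτ' g hg]
      exact ts_congr hp hA hg hζv hc
    have h3 : b g = 1 := by
      have h4 := hdetab g hg
      have h5 : a g ≠ 0 := h2 ▸ hdet0 g
      rw [h2] at h4
      exact mul_left_cancel₀ h5 (by rw [mul_one]; exact h4.symm)
    change r g *ᵥ v₂ = v₂
    rw [hb g hg, h3, one_smul]

end TameCase

section Shape

variable {p : ℕ} {k : Type} [Field k] {r : GQ →* M2 k}
  {B : Subalgebra (Rp p) ((Fin 2 → k) → Om)} {A : ValuationSubring Om}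

/-- The tame case. -/
theorem tame_case [Finite k] [CharP k p] (h : IsModel p (fun σ (v : Fin 2 → k) => r σ *ᵥ v) B)
    (hp : p.Prime) (hp2 : p ≠ 2) (hA : A.LiesOverPrime p) (hdet : TW.CycDet p r)
    (hall : ∀ x, x ∈ conn h hA) {π : Om} (hπ : π ^ (p ^ 2 - 1) = (p : Om))
    (L : IntermediateField ℚ Om) (hwild : ∀ σ ∈ wild hp hA L, r σ = 1)
    {N : ℕ} (hN : Nat.Coprime N p) (hpow : ∀ σ ∈ A.inertiaSubgroupIn ℚ, r σ ^ N = 1)
    (hsplit : ∀ σ, ∃ α β : k, (r σ).charpoly =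
      (Polynomial.X - Polynomial.C α) * (Polynomial.X - Polynomial.C β)) :
    ∃ (ι : k →+* ResidueField A) (ψ : GQ → k) (w₁ w₂ : Fin 2 → k),
      LinearIndependent k ![w₁, w₂] ∧ ∀ g ∈ A.inertiaSubgroupIn ℚ, ts A g π = ι (ψ g) ∧
        r g *ᵥ w₁ = ψ g • w₁ ∧ r g *ᵥ w₂ = ψ g ^ p • w₂ := by
  classical
  have hpF : Fact p.Prime := ⟨hp⟩
  have hNk : (N : k) ≠ 0 := by
    rw [Ne, CharP.cast_eq_zero_iff k p]
    intro hdvd
    exact hp.one_lt.ne' (Nat.Coprime.eq_one_of_dvd hN.symm hdvd)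
  have hcomm : ∀ σ ∈ A.inertiaSubgroupIn ℚ, ∀ τ ∈ A.inertiaSubgroupIn ℚ,
      r σ * r τ = r τ * r σ := by
    intro σ hσ τ hτ
    have h1 := hwild _ (wild_comm hp hA L hσ hτ)
    have h2 : r (σ * τ) = r (σ * τ * σ⁻¹ * τ⁻¹) * r (τ * σ) := by
      rw [← map_mul]
      congr 1
      group
    rw [h1, one_mul] at h2
    rw [← map_mul, ← map_mul, h2]
  obtain ⟨φ, hφ⟩ := Frob.exists_isFrobeniusAt hp hA
  have hfrob : ∀ σ ∈ A.inertiaSubgroupIn ℚ, r (φ * σ * φ⁻¹) = r σ ^ p := by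
    intro σ hσ
    have h1 := hwild _ (wild_frob hp hA L hφ hσ)
    have h2 : r (φ * σ * φ⁻¹) = r (φ * σ * φ⁻¹ * (σ ^ p)⁻¹) * r (σ ^ p) := by
      rw [← map_mul]
      congr 1
      group
    rw [h2, h1, one_mul, map_pow]
  obtain ⟨v, w, hli, hvw⟩ := exists_simul (ι := A.inertiaSubgroupIn ℚ) (fun g => r g)
    (fun i j => hcomm i i.2 j j.2) (fun i => by
      obtain ⟨α, β, hαβ⟩ := hsplit i
      rcases scalar_or_eigen hαβ hNk (hpow i i.2) with h1 | ⟨h1, v, w, hv, hw, h2, h3⟩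
      · exact Or.inl ⟨α, h1⟩
      · exact Or.inr ⟨α, β, h1, v, w, hv, hw, h2, h3⟩)
  have hv0 : v ≠ 0 := by
    intro h0
    have := (eq_zero_of_coord hli (a := 1) (b := 0) (by rw [h0]; simp)).1
    exact one_ne_zero this
  have hw0 : w ≠ 0 := by
    intro h0
    have := (eq_zero_of_coord hli (a := 0) (b := 1) (by rw [h0]; simp)).2
    exact one_ne_zero this
  obtain ⟨χ₁, hχ₁⟩ := exists_eigenchar (r.comp (A.inertiaSubgroupIn ℚ).subtype) hv0
    (fun g => (hvw g).imp fun a ⟨b, hab⟩ => hab.1)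
  obtain ⟨χ₂, hχ₂⟩ := exists_eigenchar (r.comp (A.inertiaSubgroupIn ℚ).subtype) hw0
    (fun g => by obtain ⟨a, b, hab⟩ := hvw g; exact ⟨b, hab.2⟩)
  have hvw' : ∀ g ∈ A.inertiaSubgroupIn ℚ, ∃ a b : k, r g *ᵥ v = a • v ∧ r g *ᵥ w = b • w :=
    fun g hg => hvw ⟨g, hg⟩
  choose! a b hab using hvw'
  -- the leading term
  have hNtop : (⊤ : AddSubgroup (Fin 2 → k)) ≠ ⊥ := by
    intro hN
    have h1 : v ∈ (⊤ : AddSubgroup (Fin 2 → k)) := AddSubgroup.mem_top _
    rw [hN, AddSubgroup.mem_bot] at h1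
    exact hv0 h1
  obtain ⟨b₀, x₀, m, θ, hb₀, hm, hm0, hm1, hθ, hθI⟩ := exists_leading h hp hA
    nsmul_eq_zero_of_char ⊤ (fun x _ => hall x) hNtop (fun σ _ x _ => AddSubgroup.mem_top _)
  obtain ⟨s, n, hn, hn0, hmn⟩ := val_leading' h hp hA (coprime_units hp (k := k))
    (χ₁.prod χ₂) hb₀ (x₀ := (x₀ : Fin 2 → k)) (by
      intro g hg
      have h1 : χ₁ g = 1 := congrArg Prod.fst hg
      have h2 : χ₂ g = 1 := congrArg Prod.snd hg
      have h3 : r g *ᵥ v = v := by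
        have := hχ₁ g
        rw [h1, Units.val_one, one_smul] at this
        exact this
      have h4 : r g *ᵥ w = w := by
        have := hχ₂ g
        rw [h2, Units.val_one, one_smul] at this
        exact this
      obtain ⟨x, y, hxy⟩ := exists_coord hli (x₀ : Fin 2 → k)
      change r g *ᵥ (x₀ : Fin 2 → k) = x₀
      rw [hxy, mulVec_add, mulVec_smul, mulVec_smul, h3, h4]) hm0 hm
  subst hmn
  set c : Om := b₀ x₀ - b₀ 0 with hc
  let θ' : (Fin 2 → k) →+ ResidueField A :=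
    θ.comp { toFun := fun x => ⟨x, AddSubgroup.mem_top x⟩, map_zero' := rfl,
             map_add' := fun _ _ => rfl }
  have hθ'I : ∀ g ∈ A.inertiaSubgroupIn ℚ, ∀ x, θ' (r g *ᵥ x) = ts A g c * θ' x :=
    fun g hg x => hθI g hg ⟨x, AddSubgroup.mem_top x⟩
  have hθ'x : θ' x₀ = 1 := hθ
  let smulHom : (Fin 2 → k) → k →+ (Fin 2 → k) := fun v =>
    { toFun := fun x => x • v, map_zero' := zero_smul _ _, map_add' := fun x y => add_smul _ _ _ }
  have key : ∀ (v₁ : Fin 2 → k) (a : GQ → k),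
      (∀ g ∈ A.inertiaSubgroupIn ℚ, r g *ᵥ v₁ = a g • v₁) →
      ∀ g ∈ A.inertiaSubgroupIn ℚ, ∀ x, (θ'.comp (smulHom v₁)) (a g * x) =
        ts A g c * (θ'.comp (smulHom v₁)) x := by
    intro v₁ a ha g hg x
    change θ' ((a g * x) • v₁) = ts A g c * θ' (x • v₁)
    rw [← hθ'I g hg, mulVec_smul, ha g hg, smul_smul, mul_comm]
  obtain ⟨x, y, hxy⟩ := exists_coord hli (x₀ : Fin 2 → k)
  by_cases hx : θ' (x • v) = 0
  · have hy : θ' (y • w) ≠ 0 := by
      intro hy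
      rw [hxy, map_add, hx, hy, add_zero] at hθ'x
      exact zero_ne_one hθ'x
    have hli' : LinearIndependent k ![w, v] := by
      rw [LinearIndependent.pair_iff]
      intro x y hxy
      have h2 := eq_zero_of_coord hli (a := y) (b := x) (by rw [← hxy, add_comm])
      exact ⟨h2.2, h2.1⟩
    refine tame_core h hp hp2 hA hdet hall hπ hfrob hli' b a (fun g hg => (hab g hg).2)
      (fun g hg => (hab g hg).1) hn hm hm0 hm1 (θ'.comp (smulHom w)) ?_
      (key w b (fun g hg => (hab g hg).2))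
    intro h0
    exact hy (DFunLike.congr_fun h0 y)
  · refine tame_core h hp hp2 hA hdet hall hπ hfrob hli a b (fun g hg => (hab g hg).1)
      (fun g hg => (hab g hg).2) hn hm hm0 hm1 (θ'.comp (smulHom v)) ?_
      (key v a (fun g hg => (hab g hg).1))
    intro h0
    exact hx (DFunLike.congr_fun h0 x)

/-- If `V` is connected then it is supersingular. -/
theorem connected_case [Finite k] [CharP k p]
    (h : IsModel p (fun σ (v : Fin 2 → k) => r σ *ᵥ v) B)
    (hp : p.Prime) (hp2 : p ≠ 2) (hA : A.LiesOverPrime p) (hdet : TW.CycDet p r)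
    (hlev : TW.IsFiniteLevel r)
    (hall : ∀ x, x ∈ conn h hA) {π : Om} (hπ : π ^ (p ^ 2 - 1) = (p : Om))
    (hsplit : ∀ σ, ∃ α β : k, (r σ).charpoly =
      (Polynomial.X - Polynomial.C α) * (Polynomial.X - Polynomial.C β)) :
    ∃ (ι : k →+* ResidueField A) (ψ : GQ → k) (w₁ w₂ : Fin 2 → k),
      LinearIndependent k ![w₁, w₂] ∧ ∀ g ∈ A.inertiaSubgroupIn ℚ, ts A g π = ι (ψ g) ∧
        r g *ᵥ w₁ = ψ g • w₁ ∧ r g *ᵥ w₂ = ψ g ^ p • w₂ := by
  classical
  have hpF : Fact p.Prime := ⟨hp⟩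
  obtain ⟨L, N, hN0, hLs, hLN, hLr⟩ := exists_level (fun σ => r σ) 1 hlev
  obtain ⟨e, N', hN', hNe⟩ := Nat.exists_eq_pow_mul_and_not_dvd hN0.ne' p hp.one_lt.ne'
  have hcop : Nat.Coprime N' p := by
    rw [Nat.coprime_comm, hp.coprime_iff_not_dvd]
    exact hN'
  have hker : ∀ σ : GQ, (∀ y ∈ L, σ y = y) → r σ = 1 := hLr
  -- wild inertia acts through a `p`-group
  have hP : ∀ σ ∈ wild hp hA L, ∃ a : ℕ, r σ ^ p ^ a = 1 := by
    intro σ hσ
    refine ⟨e, ?_⟩
    rw [← map_pow]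
    refine hker _ (wild_pow hp hA L hcop (Subgroup.pow_mem _ hσ _) (fun y hy => hLs _ y hy) ?_)
    intro y hy
    rw [← pow_mul, ← hNe]
    exact hLN σ y hy
  obtain ⟨v₀, hv₀, hfix⟩ := exists_fixed_vector (p := p) r (wild hp hA L) hP
  by_cases htriv : ∀ σ ∈ wild hp hA L, r σ = 1
  · refine tame_case h hp hp2 hA hdet hall hπ L htriv hcop (fun σ hσ => ?_) hsplit
    rw [← map_pow]
    refine htriv _ (pow_mem_wild hp hA L (a := e) hσ fun y hy => ?_)
    rw [← hNe]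
    exact hLN σ y hy
  · exfalso
    refine wild_case h hp hp2 hA hdet hall L hv₀ hfix fun d hd => ?_
    -- fixed vectors are multiples of `v₀`
    have hmul : ∀ w : Fin 2 → k, (∀ σ ∈ wild hp hA L, r σ *ᵥ w = w) → ∃ a : k, w = a • v₀ := by
      intro w hw
      by_contra hcon
      push Not at hcon
      apply htriv
      have hli : LinearIndependent k ![v₀, w] := by
        rw [LinearIndependent.pair_iff' hv₀]
        intro a ha
        exact hcon a ha.symm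
      intro σ hσ
      apply Matrix.ext_of_mulVec_single
      intro i
      obtain ⟨x, y, hxy⟩ := exists_coord hli (Pi.single i 1)
      rw [hxy, mulVec_add, mulVec_smul, mulVec_smul, hfix σ hσ, hw σ hσ, one_mulVec]
    refine hmul _ fun σ hσ => ?_
    have h1 := wild_conj hp hA L (inv_mem hd) hσ
    have h2 : r σ * r d = r d * r (d⁻¹ * σ * d⁻¹⁻¹) := by
      rw [← map_mul, ← map_mul]
      congr 1
      group
    rw [mulVec_mulVec, h2, ← mulVec_mulVec, hfix _ h1]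

/-- **The shape of flat representations at `p`.** -/
theorem shape [Finite k] [CharP k p] (hp : p.Prime) (hp2 : p ≠ 2) (hA : A.LiesOverPrime p)
    (hlev : TW.IsFiniteLevel r) (hdet : TW.CycDet p r)
    (hsplit : ∀ σ, ∃ α β : k, (r σ).charpoly =
      (Polynomial.X - Polynomial.C α) * (Polynomial.X - Polynomial.C β))
    (h : IsModel p (fun σ (v : Fin 2 → k) => r σ *ᵥ v) B) :
    (∃ v : Fin 2 → k, v ≠ 0 ∧ V0 r A = Submodule.span k {v}) ∨
    (V0 r A = ⊤ ∧ ∀ π : Om, π ^ (p ^ 2 - 1) = (p : Om) →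
      ∃ (ι : k →+* ResidueField A) (ψ : GQ → k) (v₁ v₂ : Fin 2 → k),
        LinearIndependent k ![v₁, v₂] ∧ ∀ g ∈ A.inertiaSubgroupIn ℚ,
          ts A g π = ι (ψ g) ∧ r g *ᵥ v₁ = ψ g • v₁ ∧ r g *ᵥ v₂ = ψ g ^ p • v₂ ∧
          (g π = π → r g = 1)) := by
  classical
  have hconn := mem_conn_iff_mem_V0 h hp hp2 hA nsmul_eq_zero_of_char
  -- `V0 ≠ 0`
  have hbot : V0 r A ≠ ⊥ := by
    intro hbot
    obtain ⟨σ, hσ, hσd⟩ := exists_det_neg_one hp hA hdet
    have h1 : r σ = 1 := by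
      apply Matrix.ext_of_mulVec_single
      intro i
      have h2 := sub_mem_V0 (r := r) hσ (Pi.single i 1)
      rw [hbot, Submodule.mem_bot, sub_eq_zero] at h2
      rw [h2, one_mulVec]
    rw [h1, det_one] at hσd
    exact neg_one_ne_one hp2 hσd.symm
  obtain ⟨v, hv, hv0⟩ := (Submodule.ne_bot_iff _).mp hbot
  by_cases htop : V0 r A = ⊤
  · right
    refine ⟨htop, fun π hπ => ?_⟩
    obtain ⟨ι, ψ, v₁, v₂, hli, hg⟩ := connected_case h hp hp2 hA hdet hlev
      (fun x => by rw [hconn, htop]; exact Submodule.mem_top) hπ hsplit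
    refine ⟨ι, ψ, v₁, v₂, hli, fun g hgI => ?_⟩
    obtain ⟨h1, h2, h3⟩ := hg g hgI
    refine ⟨h1, h2, h3, fun hgπ => ?_⟩
    have hπ0 : π ≠ 0 := by
      rintro rfl
      have h4 : 0 < p ^ 2 - 1 := by
        have h5 : 1 < p ^ 2 := Nat.one_lt_pow two_ne_zero hp.one_lt
        omega
      rw [zero_pow h4.ne'] at hπ
      exact Nat.cast_ne_zero.mpr hp.ne_zero hπ.symm
    have h4 : ψ g = 1 := by
      apply ι.injective
      rw [← h1, map_one, ts, hgπ, div_self hπ0, rs_one]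
    rw [h4, one_smul] at h2
    rw [h4, one_pow, one_smul] at h3
    apply Matrix.ext_of_mulVec_single
    intro i
    obtain ⟨x, y, hxy⟩ := exists_coord hli (Pi.single i 1)
    rw [hxy, mulVec_add, mulVec_smul, mulVec_smul, h2, h3, one_mulVec]
  · left
    refine ⟨v, hv0, le_antisymm ?_ ?_⟩
    · intro w hw
      by_contra hcon
      apply htop
      have hli : LinearIndependent k ![v, w] := by
        rw [LinearIndependent.pair_iff' hv0]
        intro a ha
        exact hcon (Submodule.mem_span_singleton.mpr ⟨a, ha⟩)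
      rw [eq_top_iff]
      intro u _
      obtain ⟨x, y, hxy⟩ := exists_coord hli u
      rw [hxy]
      exact Submodule.add_mem _ (Submodule.smul_mem _ _ hv) (Submodule.smul_mem _ _ hw)
    · rw [Submodule.span_singleton_le_iff_mem]
      exact hv

end Shape

end Fermat.Agent.FlatP
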