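import Fermat.Agent.FlatP.Raynaud
import Fermat.Agent.TW.Defs
import Fermat.Agent.S33.InertiaMu

/-!
# Auxiliary results for the shape of flat representations at `p`
-/

set_option autoImplicit false

namespace Fermat.Agent.FlatP

open Fermat.Agent.FlatGS Fermat.Agent.MazurMult FermatAgent.ECVal IsLocalRing

variable {p : ℕ} {A : ValuationSubring Om}

section Zeta

variable (hp : p.Prime) (hA : A.LiesOverPrime p)
include hp hA

/-- roots of unity of order prime to `p` are distinct modulo the maximal ideal. -/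
lemma eq_one_of_rs {n : ℕ} (hn : Nat.Coprime n p) {u : Om} (hu : u ^ n = 1) (h1 : rs A u = 1) :
    u = 1 := by
  have hn0 : 0 < n := by
    rcases Nat.eq_zero_or_pos n with h | h
    · subst h
      rw [Nat.coprime_zero_left] at hn
      exact absurd hn hp.one_lt.ne'
    · exact h
  have huA : u ∈ A := pow_mem_of_pow_eq_one hn0 hu
  by_contra hne
  have h2 : ∑ i ∈ Finset.range n, u ^ i = 0 := by
    have h3 := geom_sum_mul u n
    rw [hu, sub_self] at h3
    exact (mul_eq_zero.mp h3).resolve_right (sub_ne_zero.mpr hne)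
  have h3 := congrArg (rs A) h2
  rw [rs_sum _ fun i _ => A.toSubring.pow_mem huA i, rs_zero] at h3
  have h4 : ∀ i ∈ Finset.range n, rs A (u ^ i) = 1 := fun i _ => by rw [rs_pow huA, h1, one_pow]
  rw [Finset.sum_congr rfl h4] at h3
  simp only [Finset.sum_const, Finset.card_range, nsmul_eq_mul, mul_one] at h3
  exact natCast_ne_zero_of_coprime hp hA hn h3

/-- `K m` is an integer as soon as the `K`-th power of the tame symbol of an element of valuation
`m` is trivial. -/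
lemma exists_int_of_ts_pow {n : ℕ} (hn : Nat.Coprime n p) {a K : ℕ} {c : Om}
    (hc : (valOf hp hA).Is (a / n) c)
    (h1 : ∀ σ ∈ A.inertiaSubgroupIn ℚ, ts A σ c ^ K = 1) : ∃ z : ℤ, (K * a / n : ℚ) = z := by
  have hn0 : 0 < n := by
    rcases Nat.eq_zero_or_pos n with h | h
    · subst h
      rw [Nat.coprime_zero_left] at hn
      exact absurd hn hp.one_lt.ne'
    · exact h
  have hnQ : (n : ℚ) ≠ 0 := by exact_mod_cast hn0.ne'
  obtain ⟨π, hπ⟩ := exists_is hp hA (1 / n)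
  -- choose `π` with `π ^ n = p`
  obtain ⟨ϖ, hϖ⟩ := IsAlgClosed.exists_pow_nat_eq (p : Om) hn0
  have hp0 : (p : Om) ≠ 0 := Nat.cast_ne_zero.mpr hp.ne_zero
  have hϖ0 : ϖ ≠ 0 := by
    rintro rfl
    rw [zero_pow hn0.ne'] at hϖ
    exact hp0 hϖ.symm
  have hϖv : (valOf hp hA).Is (1 / n) ϖ := by
    refine ⟨hϖ0, ?_⟩
    have h2 := (QVal.Is.of_ne (w := valOf hp hA) hϖ0).pow n
    rw [hϖ] at h2
    have h3 := h2.unique (valOf_prime hp hA)
    field_simp
    linarith
  have hϖa : (valOf hp hA).Is (a / n) (ϖ ^ a) := (hϖv.pow a).congr (by ring)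
  have hfix : ∀ σ ∈ A.inertiaSubgroupIn ℚ, σ (ϖ ^ (a * K)) = ϖ ^ (a * K) := by
    intro σ hσ
    have hσD := TW.inertia_le_decomp hσ
    have hu : (σ ϖ / ϖ) ^ n = 1 := by
      rw [div_pow, ← map_pow, hϖ, map_natCast, div_self hp0]
    have huA : σ ϖ / ϖ ∈ A := mem_of_is_zero hp hA (is_div_decomp hp hA hσD hϖ0)
    have h2 : rs A ((σ ϖ / ϖ) ^ (a * K)) = 1 := by
      rw [rs_pow huA]
      change (ts A σ ϖ) ^ (a * K) = 1
      rw [pow_mul, ← ts_pow_right hp hA hσ hϖ0, ts_congr hp hA hσ hϖa hc]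
      exact h1 σ hσ
    have h3 := eq_one_of_rs hp hA hn (u := (σ ϖ / ϖ) ^ (a * K))
      (by rw [← pow_mul, mul_comm, pow_mul, hu, one_pow]) h2
    rw [div_pow, div_eq_one_iff_eq (pow_ne_zero _ hϖ0), ← map_pow] at h3
    exact h3
  obtain ⟨z, hz⟩ := (localData hp hA).int _ (pow_ne_zero (a * K) hϖ0) (fun g => hfix g g.2)
  refine ⟨z, ?_⟩
  rw [← hz, (hϖv.pow (a * K)).2]
  push_cast
  ring

lemma rs_zeta {ζ : Om} (hζ : ζ ^ p = 1) : rs A ζ = 1 := by
  have := charP_residueField hp hA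
  have hpF : Fact p.Prime := ⟨hp⟩
  have hζA : ζ ∈ A := pow_mem_of_pow_eq_one hp.pos hζ
  have h1 : rs A ζ ^ p = 1 := by rw [← rs_pow hζA, hζ, rs_one]
  have h2 : frobenius (ResidueField A) p (rs A ζ) = frobenius (ResidueField A) p 1 := by
    rw [frobenius_def, frobenius_def, h1, one_pow]
  exact frobenius_inj _ _ h2

/-- the tame symbol of `1 - ζ` is the cyclotomic character modulo `p`. -/
lemma ts_one_sub_zeta {ζ : Om} (hζ : IsPrimitiveRoot ζ p) {σ : GQ} {a : ℕ} (ha : σ ζ = ζ ^ a) :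
    ts A σ (1 - ζ) = a := by
  have h10 := (val_one_sub_zeta hp hA hζ).1
  have hζA : ζ ∈ A := pow_mem_of_pow_eq_one hp.pos hζ.pow_eq_one
  have h1 : σ (1 - ζ) / (1 - ζ) = ∑ i ∈ Finset.range a, ζ ^ i := by
    rw [map_sub, map_one, ha, div_eq_iff h10, geom_sum_mul_neg]
  rw [ts, h1, rs_sum _ fun i _ => A.toSubring.pow_mem hζA i]
  have h4 : ∀ i ∈ Finset.range a, rs A (ζ ^ i) = 1 := fun i _ => by
    rw [rs_pow hζA, rs_zeta hp hA hζ.pow_eq_one, one_pow]
  rw [Finset.sum_congr rfl h4]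
  simp

end Zeta

lemma exists_zeta (hp : p.Prime) : ∃ ζ : Om, IsPrimitiveRoot ζ p := by
  have : NeZero ((p : ℕ) : Om) := ⟨Nat.cast_ne_zero.mpr hp.ne_zero⟩
  have : NeZero p := ⟨hp.ne_zero⟩
  exact HasEnoughRootsOfUnity.exists_primitiveRoot Om p

lemma exists_cyc (hp : p.Prime) {ζ : Om} (hζ : IsPrimitiveRoot ζ p) (σ : GQ) :
    ∃ a : ℕ, σ ζ = ζ ^ a ∧ ∀ μ : Om, μ ^ p = 1 → σ μ = μ ^ a := by
  have hp0 : NeZero p := ⟨hp.ne_zero⟩
  have h1 : (σ ζ) ^ p = 1 := by rw [← map_pow, hζ.pow_eq_one, map_one]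
  obtain ⟨a, -, ha⟩ := hζ.eq_pow_of_pow_eq_one h1
  refine ⟨a, ha.symm, fun μ hμ => ?_⟩
  obtain ⟨i, -, rfl⟩ := hζ.eq_pow_of_pow_eq_one hμ
  rw [map_pow, ← ha, ← pow_mul, ← pow_mul, mul_comm]

section Det

open Fermat.Agent.S53norm (M2)

variable {k : Type} [Field k] {r : GQ →* M2 k}

lemma tau_det (hp : p.Prime) (hA : A.LiesOverPrime p) (hdet : TW.CycDet p r)
    (τ : k →+* ResidueField A) {ζ : Om} (hζ : IsPrimitiveRoot ζ p) (σ : GQ) :
    τ (r σ).det = ts A σ (1 - ζ) := by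
  obtain ⟨a, ha, ha'⟩ := exists_cyc hp hζ σ
  rw [hdet σ a ha', map_natCast, ts_one_sub_zeta hp hA hζ ha]

lemma det_pow (hp : p.Prime) [CharP k p] (hdet : TW.CycDet p r) (σ : GQ) :
    (r σ).det ^ p = (r σ).det := by
  obtain ⟨ζ, hζ⟩ := exists_zeta hp
  obtain ⟨a, -, ha'⟩ := exists_cyc hp hζ σ
  have : Fact p.Prime := ⟨hp⟩
  rw [hdet σ a ha']
  exact map_natCast (frobenius k p) a

lemma exists_det_neg_one (hp : p.Prime) (hA : A.LiesOverPrime p) [CharP k p]
    (hdet : TW.CycDet p r) : ∃ σ ∈ A.inertiaSubgroupIn ℚ, (r σ).det = -1 := by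
  obtain ⟨ζ, hζ⟩ := exists_zeta hp
  obtain ⟨σ, hσ, h1⟩ := S33aux.exists_inertia_inv hp hA hζ
  refine ⟨σ, hσ, ?_⟩
  have hp0 : NeZero p := ⟨hp.ne_zero⟩
  have h2 : ∀ μ : Om, μ ^ p = 1 → σ μ = μ ^ (p - 1) := by
    intro μ hμ
    obtain ⟨i, -, rfl⟩ := hζ.eq_pow_of_pow_eq_one hμ
    have h3 : (ζ ^ i) * (ζ ^ i) ^ (p - 1) = 1 := by
      rw [← pow_succ', Nat.sub_add_cancel hp.one_le, ← pow_mul, mul_comm, pow_mul,
        hζ.pow_eq_one, one_pow]
    rw [map_pow, h1, inv_pow]
    exact inv_eq_of_mul_eq_one_right h3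
  rw [hdet σ (p - 1) h2, Nat.cast_sub hp.one_le, CharP.cast_eq_zero k p]
  simp

lemma neg_one_ne_one (hp2 : p ≠ 2) [CharP k p] : (-1 : k) ≠ 1 := by
  intro h
  have h1 : ((2 : ℕ) : k) = 0 := by
    push_cast
    linear_combination -h
  rw [CharP.cast_eq_zero_iff k p] at h1
  rcases (Nat.dvd_prime Nat.prime_two).mp h1 with h2 | h2
  · exact CharP.ringChar_ne_one (R := k) ((ringChar.eq k p).trans h2)
  · exact hp2 h2

end Det

section Linear

open Matrix
open Fermat.Agent.S53norm (M2)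

variable {k : Type} [Field k]

/-- two eigenvectors with different eigenvalues are linearly independent. -/
lemma li_eigen {X : M2 k} {v w : Fin 2 → k} {α β : k} (hαβ : α ≠ β) (hv0 : v ≠ 0) (hw0 : w ≠ 0)
    (hv : X *ᵥ v = α • v) (hw : X *ᵥ w = β • w) : LinearIndependent k ![v, w] := by
  rw [LinearIndependent.pair_iff' hv0]
  intro a ha
  rw [← ha, mulVec_smul, hv, smul_smul, smul_smul] at hw
  have h1 : (a * (α - β)) • v = 0 := by
    rw [mul_sub, sub_smul, hw, sub_eq_zero, mul_comm]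
  rcases smul_eq_zero.mp h1 with h2 | h2
  · rcases mul_eq_zero.mp h2 with h3 | h3
    · apply hw0
      rw [← ha, h3, zero_smul]
    · exact hαβ (sub_eq_zero.mp h3)
  · exact hv0 h2

lemma exists_coord {v w : Fin 2 → k} (h : LinearIndependent k ![v, w]) (u : Fin 2 → k) :
    ∃ a b : k, u = a • v + b • w := by
  have hcard : Fintype.card (Fin 2) = Module.finrank k (Fin 2 → k) := by
    rw [Module.finrank_fintype_fun_eq_card]
  let b := basisOfLinearIndependentOfCardEqFinrank h hcard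
  have h1 := b.sum_repr u
  rw [Fin.sum_univ_two] at h1
  have hb0 : b 0 = v := by
    simp only [b, coe_basisOfLinearIndependentOfCardEqFinrank]
    rfl
  have hb1 : b 1 = w := by
    simp only [b, coe_basisOfLinearIndependentOfCardEqFinrank]
    rfl
  rw [hb0, hb1] at h1
  exact ⟨b.repr u 0, b.repr u 1, h1.symm⟩

lemma eq_zero_of_coord {v w : Fin 2 → k} (h : LinearIndependent k ![v, w]) {a b : k}
    (hab : a • v + b • w = 0) : a = 0 ∧ b = 0 :=
  LinearIndependent.pair_iff.mp h a b hab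

/-- an operator commuting with `X` preserves the eigenlines of `X`. -/
lemma commute_eigen {X Y : M2 k} (hXY : X * Y = Y * X) {v w : Fin 2 → k} {α β : k} (hαβ : α ≠ β)
    (hv0 : v ≠ 0) (hw0 : w ≠ 0) (hv : X *ᵥ v = α • v) (hw : X *ᵥ w = β • w) :
    ∃ a : k, Y *ᵥ v = a • v := by
  have hli := li_eigen hαβ hv0 hw0 hv hw
  obtain ⟨a, b, hab⟩ := exists_coord hli (Y *ᵥ v)
  have h1 : X *ᵥ (Y *ᵥ v) = α • (Y *ᵥ v) := by
    rw [mulVec_mulVec, hXY, ← mulVec_mulVec, hv, mulVec_smul]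
  rw [hab, mulVec_add, mulVec_smul, mulVec_smul, hv, hw, smul_add, ← sub_eq_zero] at h1
  have h2 : (0 : k) • v + (b * (β - α)) • w = 0 := by
    rw [← h1, zero_smul, mul_sub, sub_smul]
    simp only [smul_smul]
    rw [mul_comm α a, mul_comm α b]
    abel
  have h3 := (eq_zero_of_coord hli h2).2
  rcases mul_eq_zero.mp h3 with h4 | h4
  · exact ⟨a, by rw [hab, h4, zero_smul, add_zero]⟩
  · exact absurd (sub_eq_zero.mp h4).symm hαβ

/-- a matrix with split characteristic polynomial and of finite order prime to the characteristic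
is diagonalisable. -/
lemma scalar_or_eigen {X : M2 k} {α β : k}
    (hX : X.charpoly = (Polynomial.X - Polynomial.C α) * (Polynomial.X - Polynomial.C β))
    {N : ℕ} (hN : (N : k) ≠ 0) (hXN : X ^ N = 1) :
    X = α • (1 : M2 k) ∨ (α ≠ β ∧ ∃ v w : Fin 2 → k, v ≠ 0 ∧ w ≠ 0 ∧ X *ᵥ v = α • v ∧
      X *ᵥ w = β • w) := by
  have hCH := Matrix.aeval_self_charpoly X
  rw [hX, map_mul, map_sub, map_sub, Polynomial.aeval_X, Polynomial.aeval_C, Polynomial.aeval_C,
    Algebra.algebraMap_eq_smul_one, Algebra.algebraMap_eq_smul_one] at hCH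
  by_cases hαβ : α = β
  · left
    subst hαβ
    -- `X = α + n` with `n ^ 2 = 0`
    set n := X - α • (1 : M2 k) with hn
    have hXn : X = α • (1 : M2 k) + n := by rw [hn]; abel
    have hn2 : n * n = 0 := hCH
    have hpow : ∀ m : ℕ, X ^ m = (α ^ m) • (1 : M2 k) + ((m : k) * α ^ (m - 1)) • n := by
      intro m
      induction m with
      | zero => simp
      | succ m ih =>
        rw [pow_succ, ih]
        conv_lhs => rw [hXn]
        rw [add_mul, mul_add, mul_add, smul_mul_smul_comm, mul_one, smul_mul_assoc, one_mul,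
          smul_mul_smul_comm, mul_one, smul_mul_assoc, hn2, smul_zero, add_zero,
          ← pow_succ, add_assoc, ← add_smul]
        congr 2
        rcases Nat.eq_zero_or_pos m with h | h
        · subst h; simp
        · obtain ⟨j, rfl⟩ : ∃ j, m = j + 1 := ⟨m - 1, by omega⟩
          simp only [Nat.add_sub_cancel]
          push_cast
          ring
    have hα : α ≠ 0 := by
      intro h0
      have hdet : X.det = 0 := by
        have h1 := Matrix.det_eq_sign_charpoly_coeff X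
        rw [hX, h0] at h1
        simpa using h1
      have h2 := congrArg Matrix.det hXN
      rw [Matrix.det_pow, hdet, det_one] at h2
      rcases Nat.eq_zero_or_pos N with h | h
      · exact hN (by rw [h, Nat.cast_zero])
      · rw [zero_pow h.ne'] at h2
        exact zero_ne_one h2
    have h1 := hpow N
    rw [hXN] at h1
    set c := (N : k) * α ^ (N - 1) with hc
    have hc0 : c ≠ 0 := mul_ne_zero hN (pow_ne_zero _ hα)
    have h2 : c • n = (1 - α ^ N) • (1 : M2 k) := by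
      rw [sub_smul, one_smul, eq_sub_iff_add_eq, add_comm]
      exact h1.symm
    have h3 : (c • n) * (c • n) = 0 := by
      rw [smul_mul_smul_comm, hn2, smul_zero]
    rw [h2, smul_mul_smul_comm, mul_one] at h3
    have h4 : (1 - α ^ N) * (1 - α ^ N) = 0 := by
      rcases smul_eq_zero.mp h3 with h | h
      · exact h
      · exact absurd h one_ne_zero
    have h5 : 1 - α ^ N = 0 := mul_self_eq_zero.mp h4
    rw [h5, zero_smul] at h2
    have h6 : n = 0 := (smul_eq_zero.mp h2).resolve_left hc0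
    rw [hXn, h6, add_zero]
  · right
    refine ⟨hαβ, ?_⟩
    have key : ∀ γ δ : k, (X - γ • (1 : M2 k)) * (X - δ • (1 : M2 k)) = 0 → X ≠ δ • (1 : M2 k) →
        ∃ v : Fin 2 → k, v ≠ 0 ∧ X *ᵥ v = γ • v := by
      intro γ δ h1 h2
      have h3 : ∃ u, (X - δ • (1 : M2 k)) *ᵥ u ≠ 0 := by
        by_contra hcon
        push Not at hcon
        apply h2
        rw [← sub_eq_zero]
        ext i j
        have := congrFun (hcon (Pi.single j 1)) i
        simpa using this
      obtain ⟨u, hu⟩ := h3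
      refine ⟨_, hu, ?_⟩
      have h4 : (X - γ • (1 : M2 k)) *ᵥ ((X - δ • (1 : M2 k)) *ᵥ u) = 0 := by
        rw [mulVec_mulVec, h1, zero_mulVec]
      rw [sub_mulVec, smul_mulVec, one_mulVec, sub_eq_zero] at h4
      exact h4
    have hnots : ∀ γ : k, X = γ • (1 : M2 k) → γ = α ∧ γ = β := by
      intro γ hγ
      have h1 : X.charpoly = (Polynomial.X - Polynomial.C γ) * (Polynomial.X - Polynomial.C γ) := by
        rw [hγ]
        have : (γ • (1 : M2 k)) = Matrix.diagonal fun _ => γ := by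
          ext i j
          simp [Matrix.diagonal_apply, Matrix.one_apply]
        rw [this, Matrix.charpoly_diagonal, Fin.prod_univ_two]
      rw [hX] at h1
      have h2 := congrArg (Polynomial.eval α) h1
      have h3 := congrArg (Polynomial.eval β) h1
      simp only [Polynomial.eval_mul, Polynomial.eval_sub, Polynomial.eval_X, Polynomial.eval_C,
        sub_self, zero_mul, mul_zero] at h2 h3
      constructor
      · exact (sub_eq_zero.mp (mul_self_eq_zero.mp h2.symm)).symm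
      · exact (sub_eq_zero.mp (mul_self_eq_zero.mp h3.symm)).symm
    have hcomm : (X - α • (1 : M2 k)) * (X - β • (1 : M2 k)) =
        (X - β • (1 : M2 k)) * (X - α • (1 : M2 k)) := by
      simp only [sub_mul, mul_sub, smul_mul_assoc, mul_smul_comm, one_mul, mul_one]
      rw [smul_sub, smul_sub, smul_smul, smul_smul, mul_comm α β]
      abel
    obtain ⟨v, hv0, hv⟩ := key α β hCH (fun h => hαβ ((hnots β h).1).symm)
    obtain ⟨w, hw0, hw⟩ := key β α (by rw [← hcomm]; exact hCH) (fun h => hαβ (hnots α h).2)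
    exact ⟨v, w, hv0, hw0, hv, hw⟩

/-- commuting diagonalisable matrices are simultaneously diagonalisable. -/
lemma exists_simul {ι : Type*} (X : ι → M2 k) (hcomm : ∀ i j, X i * X j = X j * X i)
    (hdiag : ∀ i, (∃ α : k, X i = α • (1 : M2 k)) ∨ ∃ α β : k, α ≠ β ∧
      ∃ v w : Fin 2 → k, v ≠ 0 ∧ w ≠ 0 ∧ X i *ᵥ v = α • v ∧ X i *ᵥ w = β • w) :
    ∃ v w : Fin 2 → k, LinearIndependent k ![v, w] ∧
      ∀ i, ∃ a b : k, X i *ᵥ v = a • v ∧ X i *ᵥ w = b • w := by
  by_cases hsc : ∀ i, ∃ α : k, X i = α • (1 : M2 k)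
  · refine ⟨![1, 0], ![0, 1], ?_, fun i => ?_⟩
    · rw [LinearIndependent.pair_iff]
      intro s t hst
      have h0 := congrFun hst 0
      have h1 := congrFun hst 1
      simp at h0 h1
      exact ⟨h0, h1⟩
    · obtain ⟨α, hα⟩ := hsc i
      exact ⟨α, α, by rw [hα, smul_mulVec, one_mulVec], by rw [hα, smul_mulVec, one_mulVec]⟩
  · push Not at hsc
    obtain ⟨i, hi⟩ := hsc
    obtain ⟨α, β, hαβ, v, w, hv0, hw0, hv, hw⟩ := (hdiag i).resolve_left (by
      rintro ⟨α, hα⟩; exact hi α hα)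
    refine ⟨v, w, li_eigen hαβ hv0 hw0 hv hw, fun j => ?_⟩
    obtain ⟨a, ha⟩ := commute_eigen (hcomm i j) hαβ hv0 hw0 hv hw
    obtain ⟨b, hb⟩ := commute_eigen (hcomm i j) (Ne.symm hαβ) hw0 hv0 hw hv
    exact ⟨a, b, ha, hb⟩

end Linear

end Fermat.Agent.FlatP
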