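import Fermat.Agent.FlatP.ShapeAux
import Fermat.Agent.EC.RedFrob
import Mathlib.GroupTheory.PGroup

/-!
# Lemmas for the shape theorem
-/

set_option autoImplicit false

namespace Fermat.Agent.FlatP

open Fermat.Agent.FlatGS Fermat.Agent.MazurMult FermatAgent.ECVal IsLocalRing Matrix
open Fermat.Agent.S53norm (M2)

section Level

/-- a finite Galois level. -/
lemma exists_level {X : Type*} (f : GQ → X) (x₀ : X)
    (hf : ∃ L : IntermediateField ℚ Om, FiniteDimensional ℚ L ∧
      ∀ σ : GQ, (∀ x ∈ L, σ x = x) → f σ = x₀) :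
    ∃ (L : IntermediateField ℚ Om) (N : ℕ), 0 < N ∧ (∀ (σ : GQ), ∀ y ∈ L, σ y ∈ L) ∧
      (∀ (σ : GQ), ∀ y ∈ L, (σ ^ N) y = y) ∧ ∀ σ : GQ, (∀ y ∈ L, σ y = y) → f σ = x₀ := by
  obtain ⟨L₁, hL₁, hf⟩ := hf
  let L : IntermediateField ℚ Om := IntermediateField.normalClosure ℚ L₁ _
  have hfd : FiniteDimensional ℚ L := normalClosure.is_finiteDimensional ℚ L₁ _
  have hnor : Normal ℚ L := normalClosure.normal ℚ L₁ _
  have hle : L₁ ≤ L := IntermediateField.le_normalClosure L₁
  have hstab : ∀ (σ : GQ) (y : Om) (hy : y ∈ L),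
      σ y = (AlgEquiv.restrictNormalHom L σ ⟨y, hy⟩ : L) :=
    fun σ y hy => (AlgEquiv.restrictNormal_commutes σ L ⟨y, hy⟩).symm
  refine ⟨L, Nat.card (L ≃ₐ[ℚ] L), Nat.card_pos, ?_, ?_, ?_⟩
  · intro σ y hy
    rw [hstab σ y hy]
    exact Subtype.property _
  · intro σ y hy
    rw [hstab _ y hy, map_pow, pow_card_eq_one']
    rfl
  · intro σ hσ
    exact hf σ fun x hx => hσ x (hle hx)

end Level

section Fixed

variable {p : ℕ} {k : Type} [Field k] [Finite k] [CharP k p]

/-- a `p`-group has nonzero fixed vectors. -/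
lemma exists_fixed_vector [hp : Fact p.Prime] (r : GQ →* M2 k) (P : Subgroup GQ)
    (hP : ∀ σ ∈ P, ∃ a : ℕ, r σ ^ p ^ a = 1) :
    ∃ v : Fin 2 → k, v ≠ 0 ∧ ∀ σ ∈ P, r σ *ᵥ v = v := by
  classical
  let f : P →* (M2 k)ˣ := r.toHomUnits.comp P.subtype
  let act : MulAction (M2 k)ˣ (Fin 2 → k) :=
    { smul := fun u v => (u : M2 k) *ᵥ v
      one_smul := fun v => by
        change ((1 : (M2 k)ˣ) : M2 k) *ᵥ v = v
        rw [Units.val_one, one_mulVec]
      mul_smul := fun u w v => by
        change ((u * w : (M2 k)ˣ) : M2 k) *ᵥ v = (u : M2 k) *ᵥ ((w : M2 k) *ᵥ v)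
        rw [Units.val_mul, mulVec_mulVec] }
  let act' : MulAction f.range (Fin 2 → k) := MulAction.compHom _ f.range.subtype
  have hG : IsPGroup p f.range := by
    rintro ⟨_, σ, rfl⟩
    obtain ⟨a, ha⟩ := hP σ σ.2
    refine ⟨a, Subtype.ext (Units.ext ?_)⟩
    change ((f σ : M2 k)) ^ p ^ a = 1
    exact ha
  have hmod := hG.card_modEq_card_fixedPoints (Fin 2 → k)
  have hdvd : p ∣ Nat.card (Fin 2 → k) := by
    have := Fintype.ofFinite k
    obtain ⟨n, -, hn⟩ := FiniteField.card k p
    have h1 : Nat.card (Fin 2 → k) = Nat.card k ^ 2 := by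
      rw [Nat.card_fun, Nat.card_fin]
    rw [h1, Nat.card_eq_fintype_card, hn, ← pow_mul]
    exact dvd_pow_self p (by positivity)
  have hdvd' : p ∣ Nat.card (MulAction.fixedPoints f.range (Fin 2 → k)) :=
    (Nat.ModEq.dvd_iff hmod dvd_rfl).mp hdvd
  have h0 : (0 : Fin 2 → k) ∈ MulAction.fixedPoints f.range (Fin 2 → k) := by
    rintro ⟨u, hu⟩
    change (u : M2 k) *ᵥ (0 : Fin 2 → k) = 0
    exact mulVec_zero _
  have hfin : Finite (MulAction.fixedPoints f.range (Fin 2 → k)) := inferInstance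
  have hnt : Nontrivial (MulAction.fixedPoints f.range (Fin 2 → k)) := by
    rw [← Finite.one_lt_card_iff_nontrivial]
    have hpos : 0 < Nat.card (MulAction.fixedPoints f.range (Fin 2 → k)) :=
      Nat.card_pos_iff.mpr ⟨⟨⟨0, h0⟩⟩, hfin⟩
    exact lt_of_lt_of_le hp.out.one_lt (Nat.le_of_dvd hpos hdvd')
  obtain ⟨⟨v, hv⟩, hne⟩ := exists_ne (⟨0, h0⟩ : MulAction.fixedPoints f.range (Fin 2 → k))
  refine ⟨v, fun h => hne (Subtype.ext h), fun σ hσ => ?_⟩
  exact hv ⟨f ⟨σ, hσ⟩, ⟨σ, hσ⟩, rfl⟩

omit [Finite k] in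
/-- elements of a field of characteristic `p` fixed by Frobenius are in the prime field. -/
lemma exists_natCast_eq [hp : Fact p.Prime] {x : k} (hx : x ^ p = x) : ∃ n : ℕ, x = n := by
  classical
  by_contra hcon
  push Not at hcon
  let P : Polynomial k := Polynomial.X ^ p - Polynomial.X
  have hP0 : P ≠ 0 := FiniteField.X_pow_card_sub_X_ne_zero k hp.out.one_lt
  have hdeg : P.natDegree = p := FiniteField.X_pow_card_sub_X_natDegree_eq k hp.out.one_lt
  let S : Finset k := insert x ((Finset.range p).image fun n : ℕ => (n : k))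
  have hS : S ⊆ P.roots.toFinset := by
    intro y hy
    rw [Multiset.mem_toFinset, Polynomial.mem_roots hP0, Polynomial.IsRoot.def]
    simp only [P, Polynomial.eval_sub, Polynomial.eval_pow, Polynomial.eval_X]
    rw [sub_eq_zero]
    rcases Finset.mem_insert.mp hy with rfl | hy
    · exact hx
    · obtain ⟨n, -, rfl⟩ := Finset.mem_image.mp hy
      exact map_natCast (frobenius k p) n
  have hcard : S.card = p + 1 := by
    rw [Finset.card_insert_of_notMem, Finset.card_image_of_injOn, Finset.card_range]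
    · intro a ha b hb hab
      rw [Finset.coe_range, Set.mem_Iio] at ha hb
      have h1 := (CharP.natCast_eq_natCast k p).mp hab
      exact Nat.ModEq.eq_of_lt_of_lt h1 ha hb
    · intro h
      obtain ⟨n, -, hn⟩ := Finset.mem_image.mp h
      exact hcon n hn.symm
  have h1 := Finset.card_le_card hS
  have h2 := (Multiset.toFinset_card_le P.roots).trans (Polynomial.card_roots' P)
  omega

end Fixed

section Embed

variable {k κ : Type} [Field k] [Finite k] [Field κ] [IsAlgClosed κ]

/-- A nonzero additive map from `k` to `κ` which is an eigenvector for many multiplications gives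
an embedding of fields. -/
lemma exists_embedding (θ : k →+ κ) (hθ : θ ≠ 0) {ι : Type*} (a : ι → k) (η : ι → κ)
    (h : ∀ i x, θ (a i * x) = η i * θ x) : ∃ τ : k →+* κ, ∀ i, τ (a i) = η i := by
  classical
  obtain ⟨x₁, hx₁⟩ : ∃ x, θ x ≠ 0 := by
    by_contra hcon
    push Not at hcon
    exact hθ (AddMonoidHom.ext hcon)
  let S : Subring (k × κ) :=
    { carrier := {st | ∀ x, θ (st.1 * x) = st.2 * θ x}
      one_mem' := fun x => by simp
      zero_mem' := fun x => by simp
      mul_mem' := by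
        intro s t hs ht x
        simp only [Set.mem_ofPred_eq] at hs ht
        rw [Prod.fst_mul, Prod.snd_mul, mul_assoc, hs, ht, mul_assoc]
      add_mem' := by
        intro s t hs ht x
        simp only [Set.mem_ofPred_eq] at hs ht
        rw [Prod.fst_add, Prod.snd_add, add_mul, map_add, hs, ht, add_mul]
      neg_mem' := by
        intro s hs x
        simp only [Set.mem_ofPred_eq] at hs
        rw [Prod.fst_neg, Prod.snd_neg, neg_mul, map_neg, hs, neg_mul] }
  have hSmem : ∀ s t, (s, t) ∈ S ↔ ∀ x, θ (s * x) = t * θ x := fun s t => Iff.rfl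
  let f1 : S →+* k := (RingHom.fst k κ).comp S.subtype
  let f2 : S →+* κ := (RingHom.snd k κ).comp S.subtype
  have hf1 : Function.Injective f1 := by
    rw [injective_iff_map_eq_zero]
    rintro ⟨⟨s, t⟩, hst⟩ h0
    have hs : s = 0 := h0
    have h1 := hst x₁
    simp only [hs, zero_mul, map_zero] at h1
    have ht : t = 0 := by
      rcases mul_eq_zero.mp h1.symm with h2 | h2
      · exact h2
      · exact absurd h2 hx₁
    apply Subtype.ext
    exact Prod.ext hs ht
  have hf2 : Function.Injective f2 := by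
    rw [injective_iff_map_eq_zero]
    rintro ⟨⟨s, t⟩, hst⟩ h0
    have ht : t = 0 := h0
    have hs : s = 0 := by
      by_contra hs0
      have h1 := hst (s⁻¹ * x₁)
      simp only [ht, zero_mul] at h1
      rw [mul_inv_cancel_left₀ hs0] at h1
      exact hx₁ h1
    apply Subtype.ext
    exact Prod.ext hs ht
  have : IsDomain S := hf1.isDomain f1
  let : Algebra S k := f1.toAlgebra
  let : Algebra S κ := f2.toAlgebra
  have h1 : FaithfulSMul S k := (faithfulSMul_iff_algebraMap_injective S k).mpr hf1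
  have h2 : FaithfulSMul S κ := (faithfulSMul_iff_algebraMap_injective S κ).mpr hf2
  have h3 : Algebra.IsAlgebraic S k := by
    have : Finite k := inferInstance
    have : Module.Finite S k := Module.Finite.of_finite
    infer_instance
  let τ : k →ₐ[S] κ := IsAlgClosed.lift
  refine ⟨τ, fun i => ?_⟩
  have h4 : (a i, η i) ∈ S := (hSmem _ _).mpr (h i)
  exact τ.commutes ⟨_, h4⟩

end Embed

section Tri

variable {k : Type} [Field k]

lemma det_of_triangular {X : M2 k} {v w : Fin 2 → k} (hli : LinearIndependent k ![v, w])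
    {χ a δ : k} (hv : X *ᵥ v = χ • v) (hw : X *ᵥ w = a • v + δ • w) : X.det = χ * δ := by
  let Q : M2 k := (Matrix.of ![v, w])ᵀ
  have hQ : Q.det ≠ 0 := by
    rw [det_transpose]
    intro h0
    have h1 : IsUnit (Matrix.of ![v, w]) := by
      rw [← Matrix.linearIndependent_rows_iff_isUnit]
      exact hli
    have h2 := (Matrix.isUnit_iff_isUnit_det _).mp h1
    rw [h0] at h2
    exact not_isUnit_zero h2
  have h1 : X * Q = Q * !![χ, a; 0, δ] := by
    have hv' : ∀ i, (X *ᵥ v) i = χ * v i := fun i => by rw [hv]; rfl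
    have hw' : ∀ i, (X *ᵥ w) i = a * v i + δ * w i := fun i => by rw [hw]; rfl
    ext i j
    fin_cases j
    · have h2 := hv' i
      rw [mulVec, dotProduct, Fin.sum_univ_two] at h2
      rw [Matrix.mul_apply, Matrix.mul_apply, Fin.sum_univ_two, Fin.sum_univ_two]
      simp only [Q, Matrix.transpose_apply, Matrix.of_apply]
      simp
      rw [h2]
      ring
    · have h2 := hw' i
      rw [mulVec, dotProduct, Fin.sum_univ_two] at h2
      rw [Matrix.mul_apply, Matrix.mul_apply, Fin.sum_univ_two, Fin.sum_univ_two]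
      simp only [Q, Matrix.transpose_apply, Matrix.of_apply]
      simp
      rw [h2]
      ring
  have h2 := congrArg Matrix.det h1
  rw [det_mul, det_mul, mul_comm] at h2
  have h3 := mul_left_cancel₀ hQ h2
  rw [h3, det_fin_two]
  simp

end Tri

end Fermat.Agent.FlatP
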